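import Mathlib

/-!
# Units of power series rings over subrings of a field
-/

set_option autoImplicit false

open PowerSeries

namespace Fermat.Agent.H20

section

variable {F L : Type*} [Field F] [Field L]

/-- `u` is a unit of the power series ring over the subring `E`. -/
def PSU (E : Subring F) (u : F⟦X⟧) : Prop :=
  ∃ w : (E⟦X⟧)ˣ, PowerSeries.map E.subtype (w : E⟦X⟧) = u

/-- `u` is a unit of `S⟦X⟧` and is mapped to `v` by `ρ`. -/
def PSRel (S : Subring F) (ρ : S →+* L) (u : F⟦X⟧) (v : L⟦X⟧) : Prop :=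
  ∃ w : (S⟦X⟧)ˣ, PowerSeries.map S.subtype (w : S⟦X⟧) = u ∧
    PowerSeries.map ρ (w : S⟦X⟧) = v

lemma ps_eq_inv_of_mul_eq_one {a b : F⟦X⟧} (h : a * b = 1) : b = a⁻¹ := by
  have h0 : constantCoeff a ≠ 0 := by
    intro h0
    have := congrArg constantCoeff h
    simp [h0] at this
  have h1 : a * a⁻¹ = 1 := PowerSeries.mul_inv_cancel a h0
  have ha : a ≠ 0 := by rintro rfl; simp at h
  exact mul_left_cancel₀ ha (h.trans h1.symm)

lemma map_unit_inv (S : Subring F) (w : (S⟦X⟧)ˣ) :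
    PowerSeries.map S.subtype ((w⁻¹ : (S⟦X⟧)ˣ) : S⟦X⟧) =
      (PowerSeries.map S.subtype (w : S⟦X⟧))⁻¹ := by
  apply ps_eq_inv_of_mul_eq_one
  rw [← map_mul, Units.mul_inv, map_one]

lemma map_unit_inv' {S : Type*} [CommRing S] (ρ : S →+* L) (w : (S⟦X⟧)ˣ) :
    PowerSeries.map ρ ((w⁻¹ : (S⟦X⟧)ˣ) : S⟦X⟧) =
      (PowerSeries.map ρ (w : S⟦X⟧))⁻¹ := by
  apply ps_eq_inv_of_mul_eq_one
  rw [← map_mul, Units.mul_inv, map_one]

namespace PSU

variable {E E' : Subring F} {u v : F⟦X⟧}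

lemma mul (hu : PSU E u) (hv : PSU E v) : PSU E (u * v) := by
  obtain ⟨a, rfl⟩ := hu
  obtain ⟨b, rfl⟩ := hv
  exact ⟨a * b, by simp⟩

lemma inv (hu : PSU E u) : PSU E u⁻¹ := by
  obtain ⟨a, rfl⟩ := hu
  exact ⟨a⁻¹, map_unit_inv _ _⟩

lemma one : PSU E (1 : F⟦X⟧) := ⟨1, by simp⟩

lemma coeff_mem (hu : PSU E u) (n : ℕ) : coeff n u ∈ E := by
  obtain ⟨a, rfl⟩ := hu
  simp

lemma constantCoeff_ne_zero (hu : PSU E u) : constantCoeff u ≠ 0 := by
  obtain ⟨a, rfl⟩ := hu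
  intro h
  have h1 : (PowerSeries.map E.subtype (a : E⟦X⟧)) *
      (PowerSeries.map E.subtype ((a⁻¹ : (E⟦X⟧)ˣ) : E⟦X⟧)) = 1 := by
    rw [← map_mul, Units.mul_inv, map_one]
  have := congrArg constantCoeff h1
  rw [map_mul, h, zero_mul] at this
  simp at this

lemma constantCoeff_inv_mem (hu : PSU E u) : (constantCoeff u)⁻¹ ∈ E := by
  have := (hu.inv).coeff_mem 0
  rwa [coeff_zero_eq_constantCoeff_apply, PowerSeries.constantCoeff_inv] at this

lemma of_coeff_mem (h : ∀ n, coeff n u ∈ E) (h0 : constantCoeff u ≠ 0)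
    (h1 : (constantCoeff u)⁻¹ ∈ E) : PSU E u := by
  let w : E⟦X⟧ := PowerSeries.mk fun n => ⟨coeff n u, h n⟩
  have hw : IsUnit w := by
    rw [PowerSeries.isUnit_iff_constantCoeff]
    have hc : constantCoeff w = ⟨constantCoeff u, by
        have := h 0; rwa [coeff_zero_eq_constantCoeff_apply] at this⟩ := by
      rw [← coeff_zero_eq_constantCoeff_apply]
      ext
      simp [w]
    rw [hc]
    refine IsUnit.of_mul_eq_one (⟨(constantCoeff u)⁻¹, h1⟩ : E) ?_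
    ext
    simp [h0]
  refine ⟨hw.unit, ?_⟩
  ext n
  simp [w]

lemma mono (h : E ≤ E') (hu : PSU E u) : PSU E' u :=
  of_coeff_mem (fun n => h (hu.coeff_mem n)) hu.constantCoeff_ne_zero
    (h hu.constantCoeff_inv_mem)

lemma one_add_X_pow {n : ℕ} (hn : n ≠ 0) {c : F} (hc : c ∈ E) :
    PSU E (1 + C c * X ^ n) := by
  have h0 : constantCoeff (1 + C c * X ^ n : F⟦X⟧) = 1 := by
    simp [hn]
  refine of_coeff_mem (fun m => ?_) ?_ ?_
  · rw [map_add, coeff_C_mul, coeff_X_pow, coeff_one]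
    split_ifs <;> simp [hc, E.one_mem, E.zero_mem, E.add_mem]
  · rw [h0]; exact one_ne_zero
  · rw [h0, inv_one]; exact E.one_mem

lemma C_mem {c : F} (hc : c ∈ E) (hc' : c⁻¹ ∈ E) (h0 : c ≠ 0) : PSU E (C c) := by
  refine of_coeff_mem (fun n => ?_) (by simpa using h0) (by simpa using hc')
  rw [coeff_C]
  split_ifs
  · exact hc
  · exact E.zero_mem

end PSU

namespace PSRel

variable {S : Subring F} {ρ : S →+* L} {u u' : F⟦X⟧} {v v' : L⟦X⟧}

lemma mul (h : PSRel S ρ u v) (h' : PSRel S ρ u' v') : PSRel S ρ (u * u') (v * v') := by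
  obtain ⟨a, rfl, rfl⟩ := h
  obtain ⟨b, rfl, rfl⟩ := h'
  exact ⟨a * b, by simp, by simp⟩

lemma inv (h : PSRel S ρ u v) : PSRel S ρ u⁻¹ v⁻¹ := by
  obtain ⟨a, rfl, rfl⟩ := h
  exact ⟨a⁻¹, map_unit_inv _ _, map_unit_inv' _ _⟩

lemma psu (h : PSRel S ρ u v) : PSU S u := by
  obtain ⟨a, rfl, rfl⟩ := h
  exact ⟨a, rfl⟩

lemma coeff_eq (h : PSRel S ρ u v) (n : ℕ) (hn : coeff n u ∈ S) :
    ρ ⟨coeff n u, hn⟩ = coeff n v := by
  obtain ⟨a, rfl, rfl⟩ := h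
  simp only [coeff_map]
  congr 1

lemma of_psu {E : Subring F} (hE : E ≤ S) {C' : Subring L}
    (hC : ∀ (x : F) (hx : x ∈ E), ρ ⟨x, hE hx⟩ ∈ C') (hu : PSU E u) :
    ∃ v, PSRel S ρ u v ∧ PSU C' v := by
  obtain ⟨w, rfl⟩ := hu
  let f : E →+* C' := (ρ.comp (Subring.inclusion hE)).codRestrict C' (fun x => hC x x.2)
  refine ⟨PowerSeries.map (ρ.comp (Subring.inclusion hE)) (w : E⟦X⟧),
    ⟨Units.map (PowerSeries.map (Subring.inclusion hE)).toMonoidHom w, ?_, ?_⟩,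
    ⟨Units.map (PowerSeries.map f).toMonoidHom w, ?_⟩⟩
  · ext n; simp
  · ext n; simp
  · ext n; simp [f]

end PSRel

end

end Fermat.Agent.H20
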