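import Fermat.Agent.H20.Kunneth
import Fermat.Agent.H20.PSUnits

/-!
# Infinitesimal theorem of the cube (power series form)
-/

set_option autoImplicit false

open PowerSeries TensorProduct

namespace Fermat.Agent.H20

section

universe u1 u2 u3 u4

variable {K : Type u3} {FY : Type u1} {FZ : Type u2} {F : Type u4} [Field K] [Field FY] [Field FZ]
  [Field F] [Algebra K FY] [Algebra K FZ] [Algebra K F]

/-- The image of `P ⊗ Q` in `F`, as a subring. -/
def boxR (iY : FY →ₐ[K] F) (iZ : FZ →ₐ[K] F) (P : Subalgebra K FY) (Q : Subalgebra K FZ) :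
    Subring F :=
  ((Algebra.TensorProduct.productMap (iY.comp P.val) (iZ.comp Q.val)).range).toSubring

lemma mem_boxR_iff (iY : FY →ₐ[K] F) (iZ : FZ →ₐ[K] F) (P : Subalgebra K FY)
    (Q : Subalgebra K FZ) (x : F) :
    x ∈ boxR iY iZ P Q ↔ ∃ w ∈ box (Subalgebra.toSubmodule P) (Subalgebra.toSubmodule Q),
      Algebra.TensorProduct.productMap iY iZ w = x := by
  constructor
  · rintro ⟨w, rfl⟩
    induction w using TensorProduct.induction_on with
    | zero => exact ⟨0, Submodule.zero_mem _, by simp⟩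
    | tmul p q =>
      exact ⟨(p : FY) ⊗ₜ (q : FZ), tmul_mem_box p.2 q.2, by simp⟩
    | add a b ha hb =>
      obtain ⟨a', ha', ha''⟩ := ha
      obtain ⟨b', hb', hb''⟩ := hb
      refine ⟨a' + b', Submodule.add_mem _ ha' hb', ?_⟩
      rw [map_add, ha'', hb'']
      simp
  · rintro ⟨w, hw, rfl⟩
    refine box_induction (p := fun w => Algebra.TensorProduct.productMap iY iZ w ∈
      boxR iY iZ P Q) hw ?_ ?_ ?_
    · simp only [map_zero]; exact Subring.zero_mem _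
    · intro y hy z hz
      exact ⟨(⟨y, hy⟩ : P) ⊗ₜ[K] (⟨z, hz⟩ : Q), by simp⟩
    · intro a b ha hb
      simp only [map_add]
      exact Subring.add_mem _ ha hb

lemma boxR_mono (iY : FY →ₐ[K] F) (iZ : FZ →ₐ[K] F) {P P' : Subalgebra K FY}
    {Q Q' : Subalgebra K FZ} (h : P ≤ P') (h' : Q ≤ Q') :
    boxR iY iZ P Q ≤ boxR iY iZ P' Q' := by
  intro x hx
  rw [mem_boxR_iff] at hx ⊢
  obtain ⟨w, hw, rfl⟩ := hx
  exact ⟨w, box_mono h h' hw, rfl⟩

lemma mul_mem_boxR (iY : FY →ₐ[K] F) (iZ : FZ →ₐ[K] F) {P : Subalgebra K FY}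
    {Q : Subalgebra K FZ} {y : FY} {z : FZ} (hy : y ∈ P) (hz : z ∈ Q) :
    iY y * iZ z ∈ boxR iY iZ P Q :=
  ⟨(⟨y, hy⟩ : P) ⊗ₜ[K] (⟨z, hz⟩ : Q), by simp⟩

/-- Data of a ring hom `ρ` on a subring `S` of `F` extending `ev ⊗ id` (restriction to
`{y₀} × Z`). -/
lemma rho_box {iY : FY →ₐ[K] F} {iZ : FZ →ₐ[K] F} {P : Subalgebra K FY}
    (ev : P →ₐ[K] K) (S : Subring F) (ρ : S →+* FZ)
    (hSY : ∀ y ∈ P, iY y ∈ S) (hSZ : ∀ z, iZ z ∈ S)
    (hρY : ∀ y (hy : y ∈ P), ρ ⟨iY y, hSY y hy⟩ = algebraMap K FZ (ev ⟨y, hy⟩))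
    (hρZ : ∀ z, ρ ⟨iZ z, hSZ z⟩ = z)
    (evY : Module.Dual K FY) (hev : ∀ y (hy : y ∈ P), evY y = ev ⟨y, hy⟩)
    {Q : Subalgebra K FZ} {w : FY ⊗[K] FZ}
    (hw : w ∈ box (Subalgebra.toSubmodule P) (Subalgebra.toSubmodule Q)) :
    ∃ h : Algebra.TensorProduct.productMap iY iZ w ∈ S, ρ ⟨_, h⟩ = lY evY w := by
  refine box_induction (p := fun w => ∃ h : Algebra.TensorProduct.productMap iY iZ w ∈ S,
    ρ ⟨_, h⟩ = lY evY w) hw ?_ ?_ ?_
  · have h : Algebra.TensorProduct.productMap iY iZ (0 : FY ⊗[K] FZ) ∈ S := by simp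
    refine ⟨h, ?_⟩
    have : (⟨_, h⟩ : S) = 0 := by ext; simp
    rw [this]; simp
  · intro y hy z _
    have h : Algebra.TensorProduct.productMap iY iZ (y ⊗ₜ[K] z) ∈ S := by
      simpa using S.mul_mem (hSY y hy) (hSZ z)
    refine ⟨h, ?_⟩
    have : (⟨_, h⟩ : S) = ⟨iY y, hSY y hy⟩ * ⟨iZ z, hSZ z⟩ := by ext; simp
    rw [this, map_mul, hρY, hρZ, lY_tmul, hev y hy, Algebra.smul_def]
  · rintro a b ⟨ha, ha'⟩ ⟨hb, hb'⟩
    have h : Algebra.TensorProduct.productMap iY iZ (a + b) ∈ S := by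
      simpa using S.add_mem ha hb
    refine ⟨h, ?_⟩
    have : (⟨_, h⟩ : S) = ⟨_, ha⟩ + ⟨_, hb⟩ := by ext; simp
    rw [this, map_add, ha', hb', map_add]

lemma rho_box' {iY : FY →ₐ[K] F} {iZ : FZ →ₐ[K] F} {Q : Subalgebra K FZ}
    (ev : Q →ₐ[K] K) (S : Subring F) (ρ : S →+* FY)
    (hSY : ∀ y, iY y ∈ S) (hSZ : ∀ z ∈ Q, iZ z ∈ S)
    (hρY : ∀ y, ρ ⟨iY y, hSY y⟩ = y)
    (hρZ : ∀ z (hz : z ∈ Q), ρ ⟨iZ z, hSZ z hz⟩ = algebraMap K FY (ev ⟨z, hz⟩))
    (evZ : Module.Dual K FZ) (hev : ∀ z (hz : z ∈ Q), evZ z = ev ⟨z, hz⟩)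
    {P : Subalgebra K FY} {w : FY ⊗[K] FZ}
    (hw : w ∈ box (Subalgebra.toSubmodule P) (Subalgebra.toSubmodule Q)) :
    ∃ h : Algebra.TensorProduct.productMap iY iZ w ∈ S, ρ ⟨_, h⟩ = lZ evZ w := by
  refine box_induction (p := fun w => ∃ h : Algebra.TensorProduct.productMap iY iZ w ∈ S,
    ρ ⟨_, h⟩ = lZ evZ w) hw ?_ ?_ ?_
  · have h : Algebra.TensorProduct.productMap iY iZ (0 : FY ⊗[K] FZ) ∈ S := by simp
    refine ⟨h, ?_⟩
    have : (⟨_, h⟩ : S) = 0 := by ext; simp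
    rw [this]; simp
  · intro y _ z hz
    have h : Algebra.TensorProduct.productMap iY iZ (y ⊗ₜ[K] z) ∈ S := by
      simpa using S.mul_mem (hSY y) (hSZ z hz)
    refine ⟨h, ?_⟩
    have : (⟨_, h⟩ : S) = ⟨iY y, hSY y⟩ * ⟨iZ z, hSZ z hz⟩ := by ext; simp
    rw [this, map_mul, hρY, hρZ, lZ_tmul, hev z hz, Algebra.smul_def, mul_comm]
  · rintro a b ⟨ha, ha'⟩ ⟨hb, hb'⟩
    have h : Algebra.TensorProduct.productMap iY iZ (a + b) ∈ S := by
      simpa using S.add_mem ha hb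
    refine ⟨h, ?_⟩
    have : (⟨_, h⟩ : S) = ⟨_, ha⟩ + ⟨_, hb⟩ := by ext; simp
    rw [this, map_add, ha', hb', map_add]

/-- Comparison on an axis. -/
lemma axis_aux {L : Type*} [Field L] [Algebra K L] {J : Type*} (S : Subring F) (ρ : S →+* L)
    (Q : J → Subalgebra K L) (hQ : ⨅ j, Q j = ⊥) (n : ℕ) (hn : n ≠ 0)
    (wf : J → J → F⟦X⟧) (z : J → J → L⟦X⟧) (W : J → L⟦X⟧)
    (hW : ∀ j, PSU (Q j).toSubring (W j))
    (hrel : ∀ j j', PSRel S ρ (wf j j') (z j j')) (hz : ∀ j j', z j j' * W j' = W j)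
    (hw : ∀ j j', X ^ n ∣ wf j j' - 1) :
    ∃ lam : J → L, (∀ j, lam j ∈ Q j) ∧ ∀ j j', coeff n (z j j') = lam j - lam j' := by
  -- z ≡ 1 mod X^n
  have hz1 : ∀ j j', ∃ y, z j j' = 1 + X ^ n * y := by
    intro j j'
    have : X ^ n ∣ z j j' - 1 := by
      rw [X_pow_dvd_iff]
      intro m hm
      have h1 := (X_pow_dvd_iff.1 (hw j j')) m hm
      have h2 := (hrel j j').coeff_eq m ((hrel j j').psu.coeff_mem m)
      rw [map_sub, sub_eq_zero] at h1 ⊢
      rw [← h2]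
      have h3 : (⟨coeff m (wf j j'), (hrel j j').psu.coeff_mem m⟩ : S) =
          if m = 0 then 1 else 0 := by
        apply Subtype.ext
        refine h1.trans ?_
        rw [coeff_one]
        split_ifs <;> simp
      rw [h3, coeff_one]
      split_ifs <;> simp
    obtain ⟨y, hy⟩ := this
    exact ⟨y, by rw [← hy]; ring⟩
  have hc0 : ∀ j j', constantCoeff (W j) = constantCoeff (W j') := by
    intro j j'
    obtain ⟨y, hy⟩ := hz1 j j'
    rw [← hz j j', hy]
    simp [hn]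
  rcases isEmpty_or_nonempty J with hJ | ⟨⟨j1⟩⟩
  · exact ⟨fun j => 0, fun j => (Q j).zero_mem, fun j => (hJ.false j).elim⟩
  have hk : ∃ k : K, algebraMap K L k = constantCoeff (W j1) := by
    have : constantCoeff (W j1) ∈ ⨅ j, Q j := by
      rw [Algebra.mem_iInf]
      intro j
      rw [hc0 j1 j]
      have := (hW j).coeff_mem 0
      rwa [coeff_zero_eq_constantCoeff_apply] at this
    rw [hQ] at this
    exact this
  obtain ⟨k, hk⟩ := hk
  refine ⟨fun j => (constantCoeff (W j1))⁻¹ * coeff n (W j), fun j => ?_, fun j j' => ?_⟩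
  · rw [← hk, ← map_inv₀]
    exact (Q j).mul_mem (Subalgebra.algebraMap_mem _ _) ((hW j).coeff_mem n)
  · obtain ⟨y, hy⟩ := hz1 j j'
    have hne : constantCoeff (W j1) ≠ 0 := (hW j1).constantCoeff_ne_zero
    have h1 : coeff n (W j) = coeff n (W j') + constantCoeff y * constantCoeff (W j') := by
      rw [← hz j j', hy, add_mul, one_mul, map_add, mul_assoc,
        show X ^ n * (y * W j') = (y * W j') * X ^ n by ring]
      congr 1
      have := coeff_mul_X_pow (y * W j') n 0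
      rw [zero_add] at this
      rw [this, coeff_zero_eq_constantCoeff_apply, map_mul]
    have h2 : coeff n (z j j') = constantCoeff y := by
      rw [hy, map_add, coeff_one, if_neg hn, zero_add, mul_comm]
      have := coeff_mul_X_pow y n 0
      rw [zero_add] at this
      rw [this, coeff_zero_eq_constantCoeff_apply]
    simp only
    rw [h2, h1, hc0 j' j1]
    field_simp
    ring

/-- **Infinitesimal theorem of the cube**, power series version. -/
theorem formal_kunneth {I J : Type*} [Finite I] [Finite J]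
    (iY : FY →ₐ[K] F) (iZ : FZ →ₐ[K] F)
    (hinj : Function.Injective (Algebra.TensorProduct.productMap iY iZ))
    (B : I → Subalgebra K FY) (B2 : I → I → Subalgebra K FY)
    (hB2 : ∀ i, B2 i i ≤ B i)
    (C' : J → Subalgebra K FZ) (C2 : J → J → Subalgebra K FZ)
    (hC2 : ∀ j, C2 j j ≤ C' j)
    (hBl : ∀ i i', B i ≤ B2 i i') (hBr : ∀ i i', B i' ≤ B2 i i')
    (hCl : ∀ j j', C' j ≤ C2 j j') (hCr : ∀ j j', C' j' ≤ C2 j j')
    (hB1 : ⨅ i, B i = ⊥) (hC1 : ⨅ j, C' j = ⊥)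
    (D : I → J → F⟦X⟧)
    (hD0 : ∀ i j, constantCoeff (D i j) ≠ 0 ∧ constantCoeff (D i j) ∈ boxR iY iZ (B i) (C' j) ∧
      (constantCoeff (D i j))⁻¹ ∈ boxR iY iZ (B i) (C' j))
    (hD : ∀ i j i' j', PSU (boxR iY iZ (B2 i i') (C2 j j')) (D i j * (D i' j')⁻¹))
    (i0 : I) (ev : B i0 →ₐ[K] K) (S : Subring F) (ρ : S →+* FZ)
    (hSY : ∀ y ∈ B i0, iY y ∈ S) (hSZ : ∀ z, iZ z ∈ S)
    (hρY : ∀ y (hy : y ∈ B i0), ρ ⟨iY y, hSY y hy⟩ = algebraMap K FZ (ev ⟨y, hy⟩))
    (hρZ : ∀ z, ρ ⟨iZ z, hSZ z⟩ = z)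
    (v : J → FZ⟦X⟧) (hv : ∀ j, PSU (C' j).toSubring (v j))
    (hax : ∀ j j', PSRel S ρ (D i0 j * (D i0 j')⁻¹) (v j * (v j')⁻¹))
    (j0 : J) (ev' : C' j0 →ₐ[K] K) (S' : Subring F) (ρ' : S' →+* FY)
    (hSY' : ∀ y, iY y ∈ S') (hSZ' : ∀ z ∈ C' j0, iZ z ∈ S')
    (hρY' : ∀ y, ρ' ⟨iY y, hSY' y⟩ = y)
    (hρZ' : ∀ z (hz : z ∈ C' j0), ρ' ⟨iZ z, hSZ' z hz⟩ = algebraMap K FY (ev' ⟨z, hz⟩))
    (v' : I → FY⟦X⟧) (hv' : ∀ i, PSU (B i).toSubring (v' i))
    (hax' : ∀ i i', PSRel S' ρ' (D i j0 * (D i' j0)⁻¹) (v' i * (v' i')⁻¹)) :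
    ∃ s : F⟦X⟧, constantCoeff s ≠ 0 ∧ ∀ i j, PSU (boxR iY iZ (B i) (C' j)) (D i j * s⁻¹) := by
  classical
  -- extend the evaluations
  obtain ⟨evY, hevY⟩ := LinearMap.exists_extend (p := Subalgebra.toSubmodule (B i0))
    (ev.toLinearMap)
  obtain ⟨evZ, hevZ⟩ := LinearMap.exists_extend (p := Subalgebra.toSubmodule (C' j0))
    (ev'.toLinearMap)
  have hevY' : ∀ y (hy : y ∈ B i0), evY y = ev ⟨y, hy⟩ := fun y hy =>
    LinearMap.congr_fun hevY ⟨y, hy⟩
  have hevZ' : ∀ z (hz : z ∈ C' j0), evZ z = ev' ⟨z, hz⟩ := fun z hz =>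
    LinearMap.congr_fun hevZ ⟨z, hz⟩
  have hone : evY 1 = 1 := by
    rw [hevY' 1 (B i0).one_mem]
    exact map_one ev
  have hone' : evZ 1 = 1 := by
    rw [hevZ' 1 (C' j0).one_mem]
    exact map_one ev'
  have hBs : ⨅ i, Subalgebra.toSubmodule (B i) = Submodule.span K {(1 : FY)} := by
    rw [← Algebra.iInf_toSubmodule, hB1, Algebra.toSubmodule_bot, Submodule.one_eq_span]
  have hCs : ⨅ j, Subalgebra.toSubmodule (C' j) = Submodule.span K {(1 : FZ)} := by
    rw [← Algebra.iInf_toSubmodule, hC1, Algebra.toSubmodule_bot, Submodule.one_eq_span]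
  -- the statement at stage n
  let P : ℕ → F⟦X⟧ → Prop := fun n s => constantCoeff s ≠ 0 ∧ ∀ i j, ∃ u x : F⟦X⟧,
    PSU (boxR iY iZ (B i) (C' j)) u ∧ D i j = s * u * (1 + X ^ n * x)
  have hstart : P 1 1 := by
    refine ⟨by simp, fun i j => ?_⟩
    obtain ⟨h0, h1, h2⟩ := hD0 i j
    have h3 : X ∣ D i j * (C (constantCoeff (D i j)))⁻¹ - 1 := by
      rw [X_dvd_iff]
      simp [h0]
    obtain ⟨x, hx⟩ := h3
    refine ⟨C (constantCoeff (D i j)), x, PSU.C_mem h1 h2 h0, ?_⟩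
    rw [one_mul, pow_one, ← hx]
    have : C (constantCoeff (D i j)) * (C (constantCoeff (D i j)))⁻¹ = (1 : F⟦X⟧) :=
      PowerSeries.mul_inv_cancel _ (by simpa using h0)
    linear_combination (-(D i j)) * this
  have hstep : ∀ n, n ≠ 0 → ∀ s, P n s → ∃ η : F, P (n + 1) (s * (1 + C η * X ^ n)) := by
    intro n hn s hs
    obtain ⟨hs0, hs1⟩ := hs
    choose u x hu hx using hs1
    have hs1 : s * s⁻¹ = 1 := PowerSeries.mul_inv_cancel s hs0
    have huu : ∀ i j, u i j * (u i j)⁻¹ = 1 := fun i j =>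
      PowerSeries.mul_inv_cancel _ (hu i j).constantCoeff_ne_zero
    have hDD : ∀ i j, D i j * (D i j)⁻¹ = 1 := fun i j =>
      PowerSeries.mul_inv_cancel _ (hD0 i j).1
    -- the comparison functions
    let w : I → J → I → J → F⟦X⟧ := fun i j i' j' =>
      D i j * (D i' j')⁻¹ * (u i' j' * (u i j)⁻¹)
    have hwE : ∀ i j i' j', PSU (boxR iY iZ (B2 i i') (C2 j j')) (w i j i' j') := by
      intro i j i' j'
      refine (hD i j i' j').mul (PSU.mul ((hu i' j').mono ?_) ((hu i j).inv.mono ?_))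
      · exact boxR_mono _ _ (hBr i i') (hCr j j')
      · exact boxR_mono _ _ (hBl i i') (hCl j j')
    have hwid : ∀ i j i' j', w i j i' j' * (1 + X ^ n * x i' j') = 1 + X ^ n * x i j := by
      intro i j i' j'
      have h1 := hDD i' j'
      have h2 := huu i j
      have e1 := hx i j
      have e2 := hx i' j'
      simp only [w]
      set q := (D i' j')⁻¹
      set r := (u i j)⁻¹
      rw [e1]
      rw [e2] at h1
      linear_combination ((1 + X ^ n * x i j) * r * u i j) * h1 + (1 + X ^ n * x i j) * h2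
    have hwdvd : ∀ i j i' j', X ^ n ∣ w i j i' j' - 1 := by
      intro i j i' j'
      refine ⟨x i j - w i j i' j' * x i' j', ?_⟩
      linear_combination hwid i j i' j'
    have hwc0 : ∀ i j i' j', constantCoeff (w i j i' j') = 1 := by
      intro i j i' j'
      have := congrArg constantCoeff (hwid i j i' j')
      simpa [hn] using this
    have hwcn : ∀ i j i' j', coeff n (w i j i' j') =
        constantCoeff (x i j) - constantCoeff (x i' j') := by
      intro i j i' j'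
      have h1 : w i j i' j' = 1 + (x i j - w i j i' j' * x i' j') * X ^ n := by
        linear_combination hwid i j i' j'
      rw [h1, map_add, coeff_one, if_neg hn, zero_add]
      have := coeff_mul_X_pow (x i j - w i j i' j' * x i' j') n 0
      rw [zero_add] at this
      rw [this, coeff_zero_eq_constantCoeff_apply, map_sub, map_mul, hwc0, one_mul]
    let ξ : I → J → F := fun i j => constantCoeff (x i j)
    have hξE : ∀ i j i' j', ξ i j - ξ i' j' ∈ boxR iY iZ (B2 i i') (C2 j j') := by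
      intro i j i' j'
      have := (hwE i j i' j').coeff_mem n
      rwa [hwcn] at this
    have ht : ∀ i j, ∃ t : FY ⊗[K] FZ, Algebra.TensorProduct.productMap iY iZ t =
        ξ i j - ξ i0 j0 := by
      intro i j
      obtain ⟨t, -, ht⟩ := (mem_boxR_iff _ _ _ _ _).1 (hξE i j i0 j0)
      exact ⟨t, ht⟩
    choose t ht using ht
    have htd : ∀ i j i' j', Algebra.TensorProduct.productMap iY iZ (t i j - t i' j') =
        ξ i j - ξ i' j' := by
      intro i j i' j'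
      rw [map_sub, ht, ht]; ring
    have htE : ∀ i j i' j', t i j - t i' j' ∈
        box (Subalgebra.toSubmodule (B2 i i')) (Subalgebra.toSubmodule (C2 j j')) := by
      intro i j i' j'
      obtain ⟨t', ht', ht''⟩ := (mem_boxR_iff _ _ _ _ _).1 (hξE i j i' j')
      have : t i j - t i' j' = t' := hinj (by rw [htd, ht''])
      rw [this]; exact ht'
    -- left axis
    have hEle : ∀ j, boxR iY iZ (B i0) (C' j) ≤ S := by
      intro j a ha
      obtain ⟨b, hb, rfl⟩ := (mem_boxR_iff _ _ _ _ _).1 ha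
      exact (rho_box ev S ρ hSY hSZ hρY hρZ evY hevY' hb).1
    have hub : ∀ j, ∃ ub, PSRel S ρ (u i0 j) ub ∧ PSU (C' j).toSubring ub := by
      intro j
      refine PSRel.of_psu (hEle j) ?_ (hu i0 j)
      intro a ha
      obtain ⟨b, hb, rfl⟩ := (mem_boxR_iff _ _ _ _ _).1 ha
      obtain ⟨h, h'⟩ := rho_box ev S ρ hSY hSZ hρY hρZ evY hevY' hb
      have h2 := lY_mem hb evY
      rw [← h'] at h2
      exact h2
    choose ub hub hub' using hub
    obtain ⟨lam, hlam, hlam'⟩ := axis_aux S ρ C' hC1 n hn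
      (fun j j' => w i0 j i0 j')
      (fun j j' => v j * (v j')⁻¹ * (ub j' * (ub j)⁻¹))
      (fun j => v j * (ub j)⁻¹)
      (fun j => (hv j).mul (hub' j).inv)
      (fun j j' => (hax j j').mul ((hub j').mul (hub j).inv))
      (fun j j' => by
        have h1 : v j' * (v j')⁻¹ = 1 :=
          PowerSeries.mul_inv_cancel _ (hv j').constantCoeff_ne_zero
        have h2 : ub j' * (ub j')⁻¹ = 1 :=
          PowerSeries.mul_inv_cancel _ (hub' j').constantCoeff_ne_zero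
        linear_combination (v j * (ub j)⁻¹ * ub j' * (ub j')⁻¹) * h1 + (v j * (ub j)⁻¹) * h2)
      (fun j j' => hwdvd i0 j i0 j')
    have hY : ∀ j j', lY evY (t i0 j - t i0 j') = lam j - lam j' := by
      intro j j'
      rw [← hlam' j j']
      have h1 : t i0 j - t i0 j' ∈ box (Subalgebra.toSubmodule (B i0))
          (Subalgebra.toSubmodule (C2 j j')) := box_mono (hB2 i0) le_rfl (htE i0 j i0 j')
      obtain ⟨h, h'⟩ := rho_box ev S ρ hSY hSZ hρY hρZ evY hevY' h1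
      have h2 := ((hax j j').mul ((hub j').mul (hub j).inv)).coeff_eq n
        (((hax j j').mul ((hub j').mul (hub j).inv)).psu.coeff_mem n)
      rw [← h', ← h2]
      congr 1
      ext
      simp only
      rw [htd]
      exact (hwcn i0 j i0 j').symm
    -- right axis
    have hEle' : ∀ i, boxR iY iZ (B i) (C' j0) ≤ S' := by
      intro i a ha
      obtain ⟨b, hb, rfl⟩ := (mem_boxR_iff _ _ _ _ _).1 ha
      exact (rho_box' ev' S' ρ' hSY' hSZ' hρY' hρZ' evZ hevZ' hb).1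
    have hub2 : ∀ i, ∃ ub, PSRel S' ρ' (u i j0) ub ∧ PSU (B i).toSubring ub := by
      intro i
      refine PSRel.of_psu (hEle' i) ?_ (hu i j0)
      intro a ha
      obtain ⟨b, hb, rfl⟩ := (mem_boxR_iff _ _ _ _ _).1 ha
      obtain ⟨h, h'⟩ := rho_box' ev' S' ρ' hSY' hSZ' hρY' hρZ' evZ hevZ' hb
      have h2 := lZ_mem hb evZ
      rw [← h'] at h2
      exact h2
    choose ub2 hub2 hub2' using hub2
    obtain ⟨mu, hmu, hmu'⟩ := axis_aux S' ρ' B hB1 n hn
      (fun i i' => w i j0 i' j0)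
      (fun i i' => v' i * (v' i')⁻¹ * (ub2 i' * (ub2 i)⁻¹))
      (fun i => v' i * (ub2 i)⁻¹)
      (fun i => (hv' i).mul (hub2' i).inv)
      (fun i i' => (hax' i i').mul ((hub2 i').mul (hub2 i).inv))
      (fun i i' => by
        have h1 : v' i' * (v' i')⁻¹ = 1 :=
          PowerSeries.mul_inv_cancel _ (hv' i').constantCoeff_ne_zero
        have h2 : ub2 i' * (ub2 i')⁻¹ = 1 :=
          PowerSeries.mul_inv_cancel _ (hub2' i').constantCoeff_ne_zero
        linear_combination (v' i * (ub2 i)⁻¹ * ub2 i' * (ub2 i')⁻¹) * h1 +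
          (v' i * (ub2 i)⁻¹) * h2)
      (fun i i' => hwdvd i j0 i' j0)
    have hZ : ∀ i i', lZ evZ (t i j0 - t i' j0) = mu i - mu i' := by
      intro i i'
      rw [← hmu' i i']
      have h1 : t i j0 - t i' j0 ∈ box (Subalgebra.toSubmodule (B2 i i'))
          (Subalgebra.toSubmodule (C' j0)) := box_mono le_rfl (hC2 j0) (htE i j0 i' j0)
      obtain ⟨h, h'⟩ := rho_box' ev' S' ρ' hSY' hSZ' hρY' hρZ' evZ hevZ' h1
      have h2 := ((hax' i i').mul ((hub2 i').mul (hub2 i).inv)).coeff_eq n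
        (((hax' i i').mul ((hub2 i').mul (hub2 i).inv)).psu.coeff_mem n)
      rw [← h', ← h2]
      congr 1
      ext
      simp only
      rw [htd]
      exact (hwcn i j0 i' j0).symm
    obtain ⟨η', hη'⟩ := kunneth_cousin (fun i => Subalgebra.toSubmodule (B i))
      (fun i i' => Subalgebra.toSubmodule (B2 i i')) hB2
      (fun j => Subalgebra.toSubmodule (C' j)) (fun j j' => Subalgebra.toSubmodule (C2 j j'))
      hC2 hBl hBr 1 hBs 1 hCs t htE i0 evY hone lam hlam hY j0 evZ hone' mu hmu hZ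
    let η : F := Algebra.TensorProduct.productMap iY iZ η' + ξ i0 j0
    have hη : ∀ i j, ξ i j - η ∈ boxR iY iZ (B i) (C' j) := by
      intro i j
      rw [mem_boxR_iff]
      refine ⟨_, hη' i j, ?_⟩
      rw [map_sub, ht]
      simp only [η]; ring
    refine ⟨η, ?_, fun i j => ?_⟩
    · rw [map_mul]
      simp [hn, hs0]
    · -- new u and x
      have hc : constantCoeff ((1 + C η * X ^ n) * (1 + C (ξ i j - η) * X ^ n) : F⟦X⟧) ≠ 0 := by
        simp [hn]
      set Q : F⟦X⟧ := (1 + C η * X ^ n) * (1 + C (ξ i j - η) * X ^ n) with hQ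
      have hQQ : Q * Q⁻¹ = 1 := PowerSeries.mul_inv_cancel Q hc
      have h1 : X ∣ x i j - C (ξ i j) := by
        rw [X_dvd_iff]; simp [ξ]
      obtain ⟨y, hy⟩ := h1
      obtain ⟨m, rfl⟩ : ∃ m, n = m + 1 := ⟨n - 1, by omega⟩
      refine ⟨u i j * (1 + C (ξ i j - η) * X ^ (m + 1)),
        Q⁻¹ * (y - C η * C (ξ i j - η) * X ^ m), (hu i j).mul
          (PSU.one_add_X_pow hn (hη i j)), ?_⟩
      rw [hx i j]
      have h2 : x i j = C (ξ i j) + X * y := by rw [← hy]; ring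
      have h3 : C (ξ i j) = C η + C (ξ i j - η) := by rw [← map_add]; congr 1; ring
      rw [h2]
      have h4 : (1 + X ^ (m + 1) * (C (ξ i j) + X * y)) =
          Q * (1 + X ^ (m + 1 + 1) * (Q⁻¹ * (y - C η * C (ξ i j - η) * X ^ m))) := by
        have h5 : Q * (1 + X ^ (m + 1 + 1) * (Q⁻¹ * (y - C η * C (ξ i j - η) * X ^ m)))
            = Q + X ^ (m + 1 + 1) * (y - C η * C (ξ i j - η) * X ^ m) * (Q * Q⁻¹) := by ring
        rw [h5, hQQ, hQ, h3]
        ring
      rw [h4, hQ]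
      ring
  -- build the sequence
  choose! ηf hηf using hstep
  let sq : ℕ → F⟦X⟧ := fun n => Nat.rec 1 (fun n s => s * (1 + C (ηf (n + 1) s) * X ^ (n + 1))) n
  have hsq0 : sq 0 = 1 := rfl
  have hsqs : ∀ n, sq (n + 1) = sq n * (1 + C (ηf (n + 1) (sq n)) * X ^ (n + 1)) := fun n => rfl
  have hsqP : ∀ n, P (n + 1) (sq n) := by
    intro n
    induction n with
    | zero => simpa [hsq0] using hstart
    | succ n ih =>
      rw [hsqs]
      exact hηf (n + 1) (Nat.succ_ne_zero n) (sq n) ih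
  -- limit
  have hcong : ∀ n k, coeff n (sq (n + k)) = coeff n (sq n) := by
    intro n k
    induction k with
    | zero => rfl
    | succ k ih =>
      rw [← ih, ← add_assoc, hsqs, mul_add, mul_one, map_add]
      have : coeff n (sq (n + k) * (C (ηf (n + k + 1) (sq (n + k))) * X ^ (n + k + 1))) = 0 := by
        rw [← mul_assoc, coeff_mul_X_pow', if_neg (by omega)]
      rw [this, add_zero]
  let s : F⟦X⟧ := PowerSeries.mk fun n => coeff n (sq n)
  have hs : ∀ n, X ^ (n + 1) ∣ s - sq n := by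
    intro n
    rw [X_pow_dvd_iff]
    intro m hm
    obtain ⟨k, rfl⟩ : ∃ k, n = m + k := ⟨n - m, by omega⟩
    rw [map_sub, hcong]
    simp [s]
  have hs0 : constantCoeff s ≠ 0 := by
    have h1 := hs 0
    rw [zero_add, pow_one, X_dvd_iff, map_sub, sub_eq_zero] at h1
    rw [h1]
    exact (hsqP 0).1
  refine ⟨s, hs0, fun i j => ?_⟩
  have hss : s * s⁻¹ = 1 := PowerSeries.mul_inv_cancel s hs0
  -- coefficients
  have hcoef : ∀ n, ∃ u : F⟦X⟧, PSU (boxR iY iZ (B i) (C' j)) u ∧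
      X ^ (n + 1) ∣ D i j * s⁻¹ - u := by
    intro n
    obtain ⟨h0, h1⟩ := hsqP n
    obtain ⟨u, x, hu, hx⟩ := h1 i j
    refine ⟨u, hu, ?_⟩
    obtain ⟨y, hy⟩ := hs n
    have : D i j * s⁻¹ - u = X ^ (n + 1) * (s⁻¹ * (sq n * u * x - y * u)) := by
      have e1 : sq n = s - X ^ (n + 1) * y := by rw [← hy]; ring
      rw [hx]
      linear_combination (u) * hss - (u * s⁻¹) * hy
    exact ⟨_, this⟩
  have hcm : ∀ n, coeff n (D i j * s⁻¹) ∈ boxR iY iZ (B i) (C' j) := by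
    intro n
    obtain ⟨u, hu, hd⟩ := hcoef n
    have := (X_pow_dvd_iff.1 hd) n (by omega)
    rw [map_sub, sub_eq_zero] at this
    rw [this]
    exact hu.coeff_mem n
  obtain ⟨u, hu, hd⟩ := hcoef 0
  have hc := (X_pow_dvd_iff.1 hd) 0 (by omega)
  rw [map_sub, sub_eq_zero, coeff_zero_eq_constantCoeff_apply,
    coeff_zero_eq_constantCoeff_apply] at hc
  refine PSU.of_coeff_mem hcm ?_ ?_
  · rw [hc]; exact hu.constantCoeff_ne_zero
  · rw [hc]; exact hu.constantCoeff_inv_mem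

end

end Fermat.Agent.H20
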