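import Mathlib

/-!
# Local rings of an integral scheme as subrings of the function field
-/

set_option autoImplicit false

universe u

open AlgebraicGeometry CategoryTheory TopologicalSpace

namespace Fermat.Agent.H20

noncomputable section

variable {X Y Z : Scheme.{u}} [IsIntegral X] [IsIntegral Y] [IsIntegral Z]

omit [IsIntegral Y] [IsIntegral Z] in
lemma generic_mem {U : X.Opens} (h : (U : Set X).Nonempty) : genericPoint X ∈ U :=
  ((genericPoint_spec X).mem_open_set_iff U.isOpen).mpr (by simpa using h)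

/-- The local ring at `x` as a subring of the function field. -/
def stk (X : Scheme.{u}) [IsIntegral X] (x : X) : Subring X.functionField :=
  (algebraMap (X.presheaf.stalk x) X.functionField).range

lemma algebraMap_stalk_injective (x : X) :
    Function.Injective (algebraMap (X.presheaf.stalk x) X.functionField) :=
  IsFractionRing.injective _ _

/-- The local ring is isomorphic to its image in the function field. -/
def stkEquiv (x : X) : X.presheaf.stalk x ≃+* stk X x :=
  RingEquiv.ofBijective (algebraMap (X.presheaf.stalk x) X.functionField).rangeRestrict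
    ⟨fun a b h => algebraMap_stalk_injective x (congrArg Subtype.val h),
      RingHom.rangeRestrict_surjective _⟩

@[simp] lemma coe_stkEquiv (x : X) (a : X.presheaf.stalk x) :
    (stkEquiv x a : X.functionField) = algebraMap (X.presheaf.stalk x) X.functionField a := rfl

lemma algebraMap_stkEquiv_symm (x : X) (a : stk X x) :
    algebraMap (X.presheaf.stalk x) X.functionField ((stkEquiv x).symm a) = a := by
  rw [← coe_stkEquiv, RingEquiv.apply_symm_apply]

lemma algebraMap_stalkSpecializes {x y : X} (h : x ⤳ y) (a : X.presheaf.stalk y) :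
    algebraMap (X.presheaf.stalk x) X.functionField ((X.presheaf.stalkSpecializes h).hom a) =
      algebraMap (X.presheaf.stalk y) X.functionField a := by
  exact congrArg (fun g => g.hom a) (TopCat.Presheaf.stalkSpecializes_comp X.presheaf
    ((genericPoint_spec X).specializes trivial) h)

lemma stk_mono {x y : X} (h : x ⤳ y) : stk X y ≤ stk X x := by
  rintro _ ⟨a, rfl⟩
  exact ⟨(X.presheaf.stalkSpecializes h).hom a, algebraMap_stalkSpecializes h a⟩

lemma stk_genericPoint (f : X.functionField) : f ∈ stk X (genericPoint X) := by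
  refine ⟨f, ?_⟩
  simp only [RingHom.algebraMap_toAlgebra]
  rw [TopCat.Presheaf.stalkSpecializes_refl]
  rfl

lemma germ_mem_stk {U : X.Opens} [Nonempty U] {x : X} (hx : x ∈ U) (s : Γ(X, U)) :
    X.germToFunctionField U s ∈ stk X x :=
  ⟨X.presheaf.germ U x hx s, X.algebraMap_germ_eq_germToFunctionField hx s⟩

/-- If `f` is regular at `x`, it is given by a section near `x`. -/
lemma exists_germ_of_mem_stk {x : X} {f : X.functionField} (hf : f ∈ stk X x) :
    ∃ (U : X.Opens) (_ : x ∈ U) (_ : Nonempty U) (s : Γ(X, U)), X.germToFunctionField U s = f := by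
  obtain ⟨a, rfl⟩ := hf
  obtain ⟨U, hxU, s, hs⟩ := X.presheaf.exists_germ_eq a
  have : Nonempty U := ⟨⟨x, hxU⟩⟩
  refine ⟨U, hxU, this, s, ?_⟩
  rw [← X.algebraMap_germ_eq_germToFunctionField hxU, hs]

lemma isOpen_mem_stk (f : X.functionField) : IsOpen {x : X | f ∈ stk X x} := by
  rw [isOpen_iff_forall_mem_open]
  intro x hx
  obtain ⟨U, hxU, hU, s, rfl⟩ := exists_germ_of_mem_stk hx
  exact ⟨U, fun y hy => germ_mem_stk hy s, U.2, hxU⟩

lemma germToFunctionField_res {U V : X.Opens} [Nonempty U] [Nonempty V] (i : U ⟶ V)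
    (s : Γ(X, V)) :
    X.germToFunctionField U (X.presheaf.map i.op s) = X.germToFunctionField V s := by
  exact TopCat.Presheaf.germ_res_apply _ _ _ _ _

/-- A rational function which is regular at all points of `U` is a section over `U`. -/
lemma exists_section_of_forall_mem_stk {U : X.Opens} [Nonempty U] {f : X.functionField}
    (hf : ∀ x ∈ U, f ∈ stk X x) : ∃ s : Γ(X, U), X.germToFunctionField U s = f := by
  choose V hxV hV s hs using fun x : U => exists_germ_of_mem_stk (hf x.1 x.2)
  have hne : ∀ x : U, Nonempty (V x ⊓ U : X.Opens) := fun x => ⟨⟨x.1, hxV x, x.2⟩⟩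
  let W : U → X.Opens := fun x => V x ⊓ U
  let sf : ∀ x : U, Γ(X, W x) := fun x => X.presheaf.map (homOfLE inf_le_left).op (s x)
  have hsf : ∀ x : U, X.germToFunctionField (W x) (sf x) = f := by
    intro x
    simp only [sf]
    rw [germToFunctionField_res, hs]
  have hcompat : TopCat.Presheaf.IsCompatible X.sheaf.1 W sf := by
    intro x y
    have : Nonempty (W x ⊓ W y : X.Opens) := by
      have h1 : genericPoint X ∈ W x := generic_mem ⟨x.1, hxV x, x.2⟩
      have h2 : genericPoint X ∈ W y := generic_mem ⟨y.1, hxV y, y.2⟩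
      exact ⟨⟨_, h1, h2⟩⟩
    apply X.germToFunctionField_injective (W x ⊓ W y)
    have e1 := germToFunctionField_res (Opens.infLELeft (W x) (W y)) (sf x)
    have e2 := germToFunctionField_res (Opens.infLERight (W x) (W y)) (sf y)
    exact (e1.trans (hsf x)).trans (e2.trans (hsf y)).symm
  have hcov : U ≤ iSup W := by
    intro x hx
    exact Opens.mem_iSup.2 ⟨⟨x, hx⟩, hxV _, hx⟩
  obtain ⟨t, ht, -⟩ := X.sheaf.existsUnique_gluing' W U (fun x => homOfLE inf_le_right) hcov sf
    hcompat
  refine ⟨t, ?_⟩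
  obtain ⟨x⟩ := ‹Nonempty U›
  rw [← hsf x, ← ht x]
  exact (germToFunctionField_res (homOfLE inf_le_right) t).symm

/-- The restriction homomorphism associated with a morphism of integral schemes: rational
functions regular at the image of the generic point can be pulled back. -/
def rho (φ : Y ⟶ X) : stk X (φ (genericPoint Y)) →+* Y.functionField :=
  (φ.stalkMap (genericPoint Y)).hom.comp (stkEquiv (φ (genericPoint Y))).symm.toRingHom

lemma rho_apply (φ : Y ⟶ X) (a : X.presheaf.stalk (φ (genericPoint Y)))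
    (h : algebraMap (X.presheaf.stalk (φ (genericPoint Y))) X.functionField a ∈
      stk X (φ (genericPoint Y))) :
    rho φ ⟨algebraMap (X.presheaf.stalk (φ (genericPoint Y))) X.functionField a, h⟩ =
      (φ.stalkMap (genericPoint Y)).hom a := by
  have : (⟨_, h⟩ : stk X (φ (genericPoint Y))) = stkEquiv _ a := rfl
  rw [this]
  simp [rho]

omit [IsIntegral X] in
lemma specializes_map_generic (φ : Y ⟶ X) (y : Y) : φ (genericPoint Y) ⤳ φ y :=
  ((genericPoint_spec Y).specializes trivial).map φ.continuous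

lemma mem_stk_generic_of_mem {φ : Y ⟶ X} {y : Y} {f : X.functionField} (hf : f ∈ stk X (φ y)) :
    f ∈ stk X (φ (genericPoint Y)) :=
  stk_mono (specializes_map_generic φ y) hf

lemma rho_eq_stalkMap (φ : Y ⟶ X) (y : Y) (a : X.presheaf.stalk (φ y))
    (h : algebraMap (X.presheaf.stalk (φ y)) X.functionField a ∈ stk X (φ (genericPoint Y))) :
    rho φ ⟨algebraMap (X.presheaf.stalk (φ y)) X.functionField a, h⟩ =
      algebraMap (Y.presheaf.stalk y) Y.functionField ((φ.stalkMap y).hom a) := by
  have h1 : algebraMap (X.presheaf.stalk (φ y)) X.functionField a =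
      algebraMap (X.presheaf.stalk (φ (genericPoint Y))) X.functionField
        ((X.presheaf.stalkSpecializes (specializes_map_generic φ y)).hom a) :=
    (algebraMap_stalkSpecializes _ _).symm
  have h2 : (⟨_, h⟩ : stk X (φ (genericPoint Y))) =
      ⟨algebraMap (X.presheaf.stalk (φ (genericPoint Y))) X.functionField
        ((X.presheaf.stalkSpecializes (specializes_map_generic φ y)).hom a), h1 ▸ h⟩ :=
    Subtype.ext h1
  rw [h2, rho_apply]
  have h3 := Scheme.Hom.stalkSpecializes_stalkMap φ (genericPoint Y) y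
    ((genericPoint_spec Y).specializes trivial)
  have h4 := congrArg (fun g => g.hom a) h3
  simp only [RingHom.algebraMap_toAlgebra]
  simpa using h4

lemma rho_mem_stk (φ : Y ⟶ X) {y : Y} {f : X.functionField} (hf : f ∈ stk X (φ y)) :
    rho φ ⟨f, mem_stk_generic_of_mem hf⟩ ∈ stk Y y := by
  obtain ⟨a, rfl⟩ := hf
  rw [rho_eq_stalkMap]
  exact ⟨_, rfl⟩

lemma rho_rho_mem {φ : Y ⟶ X} (ψ : Z ⟶ Y) {f : X.functionField}
    (hf : f ∈ stk X ((ψ ≫ φ) (genericPoint Z))) :
    f ∈ stk X (φ (ψ (genericPoint Z))) := by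
  simpa using hf

/-- Functoriality of `rho`. -/
lemma rho_comp (ψ : Z ⟶ Y) (φ : Y ⟶ X) (f : X.functionField)
    (hf : f ∈ stk X ((ψ ≫ φ) (genericPoint Z))) (hf' : f ∈ stk X (φ (genericPoint Y)))
    (hf'' : rho φ ⟨f, hf'⟩ ∈ stk Y (ψ (genericPoint Z))) :
    rho (ψ ≫ φ) ⟨f, hf⟩ = rho ψ ⟨rho φ ⟨f, hf'⟩, hf''⟩ := by
  have hf3 : f ∈ stk X (φ (ψ (genericPoint Z))) := hf
  obtain ⟨a, ha⟩ := hf3
  subst ha
  have e1 := rho_eq_stalkMap φ (ψ (genericPoint Z)) a hf'
  have e2 : (⟨_, hf''⟩ : stk Y (ψ (genericPoint Z))) =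
     ⟨algebraMap (Y.presheaf.stalk (ψ (genericPoint Z))) Y.functionField
        ((φ.stalkMap (ψ (genericPoint Z))).hom a), e1 ▸ hf''⟩ := Subtype.ext e1
  rw [e2, rho_apply]
  have e3 := Scheme.Hom.stalkMap_comp ψ φ (genericPoint Z)
  have e4 := congrArg (fun g => g.hom a) e3
  refine Eq.trans ?_ e4
  exact rho_apply (ψ ≫ φ) a hf

lemma rho_id (f : X.functionField) (hf : f ∈ stk X ((𝟙 X : X ⟶ X) (genericPoint X))) :
    rho (𝟙 X) ⟨f, hf⟩ = f := by
  have hf3 : f ∈ stk X (genericPoint X) := hf
  obtain ⟨a, ha⟩ := hf3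
  subst ha
  refine (rho_apply (𝟙 X) a hf).trans ?_
  have e4 := congrArg (fun g => g.hom a) (Scheme.Hom.stalkMap_id X (genericPoint X))
  refine e4.trans ?_
  have e5 := congrArg (fun g => g.hom a)
    (TopCat.Presheaf.stalkSpecializes_refl (F := X.presheaf) (genericPoint X))
  exact e5.symm

end

end Fermat.Agent.H20
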