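import Mathlib

/-!
# Tensor products of domains over an algebraically closed field
-/

set_option autoImplicit false

open TensorProduct

namespace Fermat.Agent.H20

section

variable {K : Type*} [Field K] [IsAlgClosed K]

/-- Nullstellensatz: a nonzero element of a finitely generated algebra which is a domain does not
vanish at some rational point. -/
lemma exists_algHom_ne_zero {A : Type*} [CommRing A] [IsDomain A] [Algebra K A]
    [Algebra.FiniteType K A] (a : A) (ha : a ≠ 0) : ∃ ev : A →ₐ[K] K, ev a ≠ 0 := by
  have : Nontrivial (Localization.Away a) :=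
    (IsLocalization.injective (Localization.Away a)
      (powers_le_nonZeroDivisors_of_noZeroDivisors ha)).nontrivial
  have : Algebra.FiniteType K (Localization.Away a) :=
    Algebra.FiniteType.trans (S := A) inferInstance
      (IsLocalization.finiteType_of_monoid_fg (Submonoid.powers a) _)
  obtain ⟨m, hm⟩ := Ideal.exists_maximal (Localization.Away a)
  letI := Ideal.Quotient.field m
  have hfin : Module.Finite K (Localization.Away a ⧸ m) :=
    finite_of_finite_type_of_isJacobsonRing K _
  have hbij : Function.Bijective (algebraMap K (Localization.Away a ⧸ m)) :=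
    IsAlgClosed.algebraMap_bijective_of_isIntegral
  let e : K ≃ₐ[K] (Localization.Away a ⧸ m) :=
    AlgEquiv.ofBijective (Algebra.ofId K _) hbij
  let φ : A →ₐ[K] K := (e.symm.toAlgHom.comp (Ideal.Quotient.mkₐ K m)).comp
    (IsScalarTower.toAlgHom K A (Localization.Away a))
  refine ⟨φ, ?_⟩
  have hu : IsUnit (algebraMap A (Localization.Away a) a) :=
    IsLocalization.Away.algebraMap_isUnit a
  have hu2 : IsUnit (φ a) := by
    have := (hu.map (Ideal.Quotient.mkₐ K m)).map e.symm.toAlgHom
    exact this
  exact hu2.ne_zero

omit [IsAlgClosed K] in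
lemma basis_repr_map {A B : Type*} [CommRing A] [Algebra K A] [CommRing B] [Algebra K B]
    {A' : Type*} [CommRing A'] [Algebra K A'] (φ : A →ₐ[K] A')
    {ι : Type*} (b : Module.Basis ι K B) (x : A ⊗[K] B) (i : ι) :
    (Algebra.TensorProduct.basis A' b).repr (Algebra.TensorProduct.map φ (AlgHom.id K B) x) i =
      φ ((Algebra.TensorProduct.basis A b).repr x i) := by
  induction x using TensorProduct.induction_on with
  | zero => simp
  | tmul p q => simp [Algebra.TensorProduct.basis_repr_tmul, Algebra.smul_def]
  | add p q hp hq => simp [hp, hq]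

lemma tensor_noZeroDivisors_of_finiteType {A B : Type*} [CommRing A] [IsDomain A] [Algebra K A]
    [CommRing B] [IsDomain B] [Algebra K B] [Algebra.FiniteType K A] (x y : A ⊗[K] B)
    (h : x * y = 0) : x = 0 ∨ y = 0 := by
  by_contra hc
  push Not at hc
  obtain ⟨hx, hy⟩ := hc
  let b := Module.Free.chooseBasis K B
  let bA := Algebra.TensorProduct.basis A b
  have hx' : bA.repr x ≠ 0 := fun h => hx (by simpa using h)
  have hy' : bA.repr y ≠ 0 := fun h => hy (by simpa using h)
  obtain ⟨i, hi⟩ := Finsupp.ne_iff.1 hx'
  obtain ⟨j, hj⟩ := Finsupp.ne_iff.1 hy'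
  obtain ⟨ev, hev⟩ := exists_algHom_ne_zero (K := K) (bA.repr x i * bA.repr y j)
    (mul_ne_zero hi hj)
  rw [map_mul] at hev
  let Φ : A ⊗[K] B →ₐ[K] K ⊗[K] B := Algebra.TensorProduct.map ev (AlgHom.id K B)
  have h1 : Φ x * Φ y = 0 := by rw [← map_mul, h, map_zero]
  have hΦx : Φ x ≠ 0 := by
    intro h0
    have := basis_repr_map ev b x i
    change (Algebra.TensorProduct.basis K b).repr (Φ x) i = ev (bA.repr x i) at this
    rw [h0] at this
    exact left_ne_zero_of_mul hev (by rw [← this]; simp)
  have hΦy : Φ y ≠ 0 := by
    intro h0
    have := basis_repr_map ev b y j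
    change (Algebra.TensorProduct.basis K b).repr (Φ y) j = ev (bA.repr y j) at this
    rw [h0] at this
    exact right_ne_zero_of_mul hev (by rw [← this]; simp)
  have h2 : Algebra.TensorProduct.lid K B (Φ x) * Algebra.TensorProduct.lid K B (Φ y) = 0 := by
    rw [← map_mul, h1, map_zero]
  rcases mul_eq_zero.1 h2 with h3 | h3
  · exact hΦx (by simpa using h3)
  · exact hΦy (by simpa using h3)

/-- Tensor products of domains over an algebraically closed field are domains. -/
theorem tensor_isDomain (A B : Type*) [CommRing A] [IsDomain A] [Algebra K A]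
    [CommRing B] [IsDomain B] [Algebra K B] : IsDomain (A ⊗[K] B) := by
  have hnt : Nontrivial (A ⊗[K] B) :=
    (Algebra.TensorProduct.includeLeft_injective (R := K) (S := K) (A := A) (B := B)
      (algebraMap K B).injective).nontrivial
  have : NoZeroDivisors (A ⊗[K] B) := by
    constructor
    intro x y hxy
    let b := Module.Free.chooseBasis K B
    let bA := Algebra.TensorProduct.basis A b
    classical
    let A' : Subalgebra K A := Algebra.adjoin K
      (((bA.repr x).support.image (bA.repr x) ∪ (bA.repr y).support.image (bA.repr y) : Finset A) :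
        Set A)
    have hft : Algebra.FiniteType K A' :=
      (Subalgebra.fg_iff_finiteType _).1 (Subalgebra.fg_adjoin_finset _)
    let bA' := Algebra.TensorProduct.basis A' b
    have key : ∀ z : A ⊗[K] B, (∀ i, bA.repr z i ∈ A') →
        ∃ z' : A' ⊗[K] B, Algebra.TensorProduct.map A'.val (AlgHom.id K B) z' = z := by
      intro z hz
      refine ⟨bA'.repr.symm (Finsupp.onFinset (bA.repr z).support (fun i => ⟨bA.repr z i, hz i⟩)
        (fun i hi => by
          rw [Finsupp.mem_support_iff]
          intro h0
          exact hi (Subtype.ext h0))), ?_⟩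
      apply bA.repr.injective
      ext i
      have := basis_repr_map A'.val b (bA'.repr.symm (Finsupp.onFinset (bA.repr z).support
        (fun i => (⟨bA.repr z i, hz i⟩ : A'))
        (fun i hi => by
          rw [Finsupp.mem_support_iff]
          intro h0
          exact hi (Subtype.ext h0)))) i
      refine this.trans ?_
      change A'.val (bA'.repr (bA'.repr.symm _) i) = _
      rw [LinearEquiv.apply_symm_apply]
      rfl
    have hinj : Function.Injective (Algebra.TensorProduct.map A'.val (AlgHom.id K B)) := by
      rw [injective_iff_map_eq_zero]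
      intro z hz
      apply bA'.repr.injective
      rw [map_zero]
      ext i
      have := basis_repr_map A'.val b z i
      rw [hz] at this
      simpa using this.symm
    have hxm : ∀ i, bA.repr x i ∈ A' := by
      intro i
      by_cases hi : bA.repr x i = 0
      · rw [hi]; exact A'.zero_mem
      · apply Algebra.subset_adjoin
        simp only [Finset.coe_union, Finset.coe_image, Set.mem_union, Set.mem_image,
          Finset.mem_coe, Finsupp.mem_support_iff]
        exact Or.inl ⟨i, hi, rfl⟩
    have hym : ∀ i, bA.repr y i ∈ A' := by
      intro i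
      by_cases hi : bA.repr y i = 0
      · rw [hi]; exact A'.zero_mem
      · apply Algebra.subset_adjoin
        simp only [Finset.coe_union, Finset.coe_image, Set.mem_union, Set.mem_image,
          Finset.mem_coe, Finsupp.mem_support_iff]
        exact Or.inr ⟨i, hi, rfl⟩
    obtain ⟨x', hx'⟩ := key x hxm
    obtain ⟨y', hy'⟩ := key y hym
    have hx'y' : x' * y' = 0 := by
      apply hinj
      rw [map_mul, hx', hy', hxy, map_zero]
    rcases tensor_noZeroDivisors_of_finiteType x' y' hx'y' with h | h
    · left; rw [← hx', h, map_zero]
    · right; rw [← hy', h, map_zero]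
  exact NoZeroDivisors.to_isDomain _

end

end Fermat.Agent.H20
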