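import Mathlib
import Fermat.Agent.H20.Stk
import Fermat.Agent.H20.TensorDomain

/-!
# Schemes over a field, products
-/

set_option autoImplicit false

universe u

open AlgebraicGeometry CategoryTheory CategoryTheory.Limits TopologicalSpace TensorProduct

namespace Fermat.Agent.H20

noncomputable section

/-- A structure of `K`-scheme. -/
class KSch (K : Type u) [Field K] (X : Scheme.{u}) where
  /-- the structure morphism -/
  str : X ⟶ Spec (CommRingCat.of K)

variable (K : Type u) [Field K]

/-- The structure morphism. -/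
abbrev pK (X : Scheme.{u}) [KSch K X] : X ⟶ Spec (CommRingCat.of K) := KSch.str

section basic

variable {X : Scheme.{u}} [KSch K X]

/-- constants as sections -/
def kSec (U : X.Opens) : CommRingCat.of K ⟶ Γ(X, U) :=
  (Scheme.ΓSpecIso (.of K)).inv ≫ (pK K X).appLE ⊤ U le_top

lemma kSec_map {U V : X.Opens} (i : U ⟶ V) : kSec K V ≫ X.presheaf.map i.op = kSec K U := by
  rw [kSec, Category.assoc, Scheme.Hom.appLE_map]
  rfl

instance (priority := 900) algSec (U : X.Opens) : Algebra K Γ(X, U) := (kSec K U).hom.toAlgebra

lemma algebraMap_sec (U : X.Opens) : algebraMap K Γ(X, U) = (kSec K U).hom := rfl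

lemma fromSpec_str {U : X.Opens} (hU : IsAffineOpen U) :
    hU.fromSpec ≫ pK K X = Spec.map (CommRingCat.ofHom (algebraMap K Γ(X, U))) := by
  rw [← IsAffineOpen.SpecMap_appLE_fromSpec (pK K X) (isAffineOpen_top _) hU le_top,
    IsAffineOpen.fromSpec_top]
  have : (Spec (CommRingCat.of K)).isoSpec.inv = Spec.map (Scheme.ΓSpecIso (.of K)).inv := by
    rw [← cancel_epi (Spec (CommRingCat.of K)).isoSpec.hom, Iso.hom_inv_id,
      Scheme.isoSpec_Spec_hom, ← Spec.map_comp, Iso.inv_hom_id, Spec.map_id]
  rw [this, ← Spec.map_comp]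
  rfl

end basic

section integral

variable {X : Scheme.{u}} [KSch K X] [IsIntegral X]

omit [KSch K X] in
instance (priority := 900) nonempty_top : Nonempty (⊤ : X.Opens) := ⟨⟨genericPoint X, trivial⟩⟩

instance (priority := 900) algFun : Algebra K X.functionField :=
  (kSec K ⊤ ≫ X.germToFunctionField ⊤).hom.toAlgebra

lemma algebraMap_fun (c : K) : algebraMap K X.functionField c =
    X.germToFunctionField ⊤ (kSec K ⊤ c) := rfl

lemma algebraMap_fun' (U : X.Opens) [Nonempty U] (c : K) : algebraMap K X.functionField c =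
    X.germToFunctionField U (algebraMap K Γ(X, U) c) := by
  rw [algebraMap_fun, algebraMap_sec, ← kSec_map K (homOfLE (le_top : U ≤ ⊤))]
  exact (germToFunctionField_res (homOfLE (le_top : U ≤ ⊤)) _).symm

lemma algebraMap_mem_stk (x : X) (c : K) : algebraMap K X.functionField c ∈ stk X x := by
  rw [algebraMap_fun]
  exact germ_mem_stk (by trivial) _

/-- Sections over `U` as a subalgebra of the function field. -/
def sec (U : X.Opens) : Subalgebra K X.functionField where
  carrier := {f | ∀ x ∈ U, f ∈ stk X x}
  mul_mem' := fun ha hb x hx => mul_mem (ha x hx) (hb x hx)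
  add_mem' := fun ha hb x hx => add_mem (ha x hx) (hb x hx)
  algebraMap_mem' := fun c x _ => algebraMap_mem_stk K x c

lemma mem_sec_iff {U : X.Opens} {f : X.functionField} : f ∈ sec K U ↔ ∀ x ∈ U, f ∈ stk X x :=
  Iff.rfl

lemma sec_mono {U V : X.Opens} (h : U ≤ V) : sec K V ≤ sec K U :=
  fun _ hf x hx => hf x (h hx)

lemma germ_mem_sec {U : X.Opens} [Nonempty U] (s : Γ(X, U)) :
    X.germToFunctionField U s ∈ sec K U := fun _ hx => germ_mem_stk hx s

/-- sections over `U` -/
def secEquiv (U : X.Opens) [Nonempty U] : Γ(X, U) ≃ₐ[K] sec K U :=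
  AlgEquiv.ofBijective
    ({ toFun := fun s => ⟨X.germToFunctionField U s, germ_mem_sec K s⟩
       map_one' := by ext; simp
       map_mul' := fun a b => by ext; simp
       map_zero' := by ext; simp
       map_add' := fun a b => by ext; simp
       commutes' := fun c => by
        ext
        exact (algebraMap_fun' K U c).symm } : Γ(X, U) →ₐ[K] sec K U)
    ⟨fun a b h => X.germToFunctionField_injective U (congrArg Subtype.val h), fun f => by
      obtain ⟨s, hs⟩ := exists_section_of_forall_mem_stk f.2
      exact ⟨s, Subtype.ext hs⟩⟩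

lemma secEquiv_apply (U : X.Opens) [Nonempty U] (s : Γ(X, U)) :
    (secEquiv K U s : X.functionField) = X.germToFunctionField U s := rfl

end integral

end

end Fermat.Agent.H20
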