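import Mathlib
import Fermat.Agent.H20.KSch
import Fermat.Agent.H20.Formal

/-!
# Products of integral schemes over an algebraically closed field
-/

set_option autoImplicit false

universe u

open AlgebraicGeometry CategoryTheory CategoryTheory.Limits TopologicalSpace TensorProduct

namespace Fermat.Agent.H20

noncomputable section

variable (K : Type u) [Field K]

section

variable (X S : Scheme.{u}) [KSch K X] [KSch K S]

/-- product over `K` -/
abbrev kprod : Scheme.{u} := pullback (pK K X) (pK K S)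

/-- first projection -/
abbrev pr1 : kprod K X S ⟶ X := pullback.fst _ _

/-- second projection -/
abbrev pr2 : kprod K X S ⟶ S := pullback.snd _ _

instance kschProd : KSch K (kprod K X S) := ⟨pr1 K X S ≫ pK K X⟩

lemma pK_prod : pK K (kprod K X S) = pr1 K X S ≫ pK K X := rfl

lemma pK_prod' : pK K (kprod K X S) = pr2 K X S ≫ pK K S := pullback.condition

variable {X S}

/-- chart of a product -/
def chart {U : X.Opens} (hU : IsAffineOpen U) {V : S.Opens} (hV : IsAffineOpen V) :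
    Spec (CommRingCat.of (Γ(X, U) ⊗[K] Γ(S, V))) ⟶ kprod K X S :=
  (pullbackSpecIso K Γ(X, U) Γ(S, V)).inv ≫ pullback.map _ _ _ _ hU.fromSpec hV.fromSpec (𝟙 _)
    (by rw [Category.comp_id, fromSpec_str]) (by rw [Category.comp_id, fromSpec_str])

instance {U : X.Opens} (hU : IsAffineOpen U) {V : S.Opens} (hV : IsAffineOpen V) :
    IsOpenImmersion (chart K hU hV) := by
  unfold chart
  infer_instance

/-- the open subset `U × V` -/
def boxO (U : X.Opens) (V : S.Opens) : (kprod K X S).Opens :=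
  (pr1 K X S ⁻¹ᵁ U) ⊓ (pr2 K X S ⁻¹ᵁ V)

lemma mem_boxO {U : X.Opens} {V : S.Opens} {z : kprod K X S} :
    z ∈ boxO K U V ↔ pr1 K X S z ∈ U ∧ pr2 K X S z ∈ V := Iff.rfl

lemma chart_range {U : X.Opens} (hU : IsAffineOpen U) {V : S.Opens} (hV : IsAffineOpen V) :
    Set.range (chart K hU hV) = boxO K U V := by
  have h1 : Set.range (chart K hU hV) = Set.range (pullback.map _ _ _ _ hU.fromSpec hV.fromSpec
      (𝟙 (Spec (CommRingCat.of K))) (by rw [Category.comp_id, fromSpec_str])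
      (by rw [Category.comp_id, fromSpec_str]) :
        pullback (Spec.map (CommRingCat.ofHom (algebraMap K Γ(X, U))))
          (Spec.map (CommRingCat.ofHom (algebraMap K Γ(S, V)))) ⟶ kprod K X S) := by
    unfold chart
    ext z
    constructor
    · rintro ⟨y, rfl⟩
      exact ⟨_, (Scheme.Hom.comp_apply _ _ _).symm⟩
    · rintro ⟨y, rfl⟩
      refine ⟨(pullbackSpecIso K Γ(X, U) Γ(S, V)).hom y, ?_⟩
      rw [← Scheme.Hom.comp_apply, Iso.hom_inv_id_assoc]
  rw [h1, Scheme.Pullback.range_map, hU.range_fromSpec, hV.range_fromSpec]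
  rfl

@[reassoc]
lemma chart_fst {U : X.Opens} (hU : IsAffineOpen U) {V : S.Opens} (hV : IsAffineOpen V) :
    chart K hU hV ≫ pr1 K X S = Spec.map (CommRingCat.ofHom
      (Algebra.TensorProduct.includeLeftRingHom (R := K) (A := Γ(X, U)) (B := Γ(S, V)))) ≫
        hU.fromSpec := by
  unfold chart
  rw [Category.assoc, pullback.map, pullback.lift_fst, pullbackSpecIso_inv_fst_assoc]

@[reassoc]
lemma chart_snd {U : X.Opens} (hU : IsAffineOpen U) {V : S.Opens} (hV : IsAffineOpen V) :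
    chart K hU hV ≫ pr2 K X S = Spec.map (CommRingCat.ofHom
      (Algebra.TensorProduct.includeRight (R := K) (A := Γ(X, U)) (B := Γ(S, V))).toRingHom) ≫
        hV.fromSpec := by
  unfold chart
  rw [Category.assoc, pullback.map, pullback.lift_snd, pullbackSpecIso_inv_snd_assoc]
  rfl

lemma exists_chart (z : kprod K X S) : ∃ (U : X.Opens) (_ : IsAffineOpen U) (V : S.Opens)
    (_ : IsAffineOpen V), z ∈ boxO K U V := by
  obtain ⟨U, hU, hzU, -⟩ := exists_isAffineOpen_mem_and_subset (Opens.mem_top (pr1 K X S z))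
  obtain ⟨V, hV, hzV, -⟩ := exists_isAffineOpen_mem_and_subset (Opens.mem_top (pr2 K X S z))
  exact ⟨U, hU, V, hV, hzU, hzV⟩

end

section integral

variable [IsAlgClosed K] (X S : Scheme.{u}) [KSch K X] [KSch K S] [IsIntegral X] [IsIntegral S]

variable {X S} in
lemma chart_isDomain (U : X.Opens) [Nonempty U] (V : S.Opens) [Nonempty V] :
    IsDomain (Γ(X, U) ⊗[K] Γ(S, V)) := tensor_isDomain _ _

variable {X S} in
lemma boxO_irreducible {U : X.Opens} (hU : IsAffineOpen U) [Nonempty U] {V : S.Opens}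
    (hV : IsAffineOpen V) [Nonempty V] : IsIrreducible (boxO K U V : Set (kprod K X S)) := by
  have := chart_isDomain K U V
  rw [← chart_range K hU hV, ← Set.image_univ]
  exact (IrreducibleSpace.isIrreducible_univ _).image _ (chart K hU hV).continuous.continuousOn

instance kprod_irreducible : IrreducibleSpace (kprod K X S) := by
  have hne : Nonempty (kprod K X S) := by
    obtain ⟨U, hU, hzU, -⟩ := exists_isAffineOpen_mem_and_subset (Opens.mem_top (genericPoint X))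
    obtain ⟨V, hV, hzV, -⟩ := exists_isAffineOpen_mem_and_subset (Opens.mem_top (genericPoint S))
    have : Nonempty U := ⟨⟨_, hzU⟩⟩
    have : Nonempty V := ⟨⟨_, hzV⟩⟩
    obtain ⟨z, -⟩ := (boxO_irreducible K hU hV).nonempty
    exact ⟨z⟩
  have : PreirreducibleSpace (kprod K X S) := by
    constructor
    rintro O₁ O₂ hO₁ hO₂ ⟨z₁, -, hz₁⟩ ⟨z₂, -, hz₂⟩
    obtain ⟨U₁, hU₁, V₁, hV₁, h₁⟩ := exists_chart K z₁
    obtain ⟨U₂, hU₂, V₂, hV₂, h₂⟩ := exists_chart K z₂
    have : Nonempty U₁ := ⟨⟨_, h₁.1⟩⟩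
    have : Nonempty V₁ := ⟨⟨_, h₁.2⟩⟩
    have : Nonempty U₂ := ⟨⟨_, h₂.1⟩⟩
    have : Nonempty V₂ := ⟨⟨_, h₂.2⟩⟩
    obtain ⟨U, hU, hzU, hUU⟩ := exists_isAffineOpen_mem_and_subset (U := U₁ ⊓ U₂)
      (x := genericPoint X) ⟨generic_mem ⟨_, h₁.1⟩, generic_mem ⟨_, h₂.1⟩⟩
    obtain ⟨V, hV, hzV, hVV⟩ := exists_isAffineOpen_mem_and_subset (U := V₁ ⊓ V₂)
      (x := genericPoint S) ⟨generic_mem ⟨_, h₁.2⟩, generic_mem ⟨_, h₂.2⟩⟩
    have : Nonempty U := ⟨⟨_, hzU⟩⟩
    have : Nonempty V := ⟨⟨_, hzV⟩⟩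
    have hirr := boxO_irreducible K hU hV
    obtain ⟨z, hz⟩ := hirr.nonempty
    have e1 : (boxO K U V : Set (kprod K X S)) ⊆ boxO K U₁ V₁ :=
      fun z hz => ⟨(hUU hz.1).1, (hVV hz.2).1⟩
    have e2 : (boxO K U V : Set (kprod K X S)) ⊆ boxO K U₂ V₂ :=
      fun z hz => ⟨(hUU hz.1).2, (hVV hz.2).2⟩
    obtain ⟨y₁, hy₁, hy₁', hy₁''⟩ := (boxO_irreducible K hU₁ hV₁).2 O₁ (boxO K U V) hO₁
      (boxO K U V).isOpen ⟨z₁, h₁, hz₁⟩ ⟨z, e1 hz, hz⟩
    obtain ⟨y₂, hy₂, hy₂', hy₂''⟩ := (boxO_irreducible K hU₂ hV₂).2 O₂ (boxO K U V) hO₂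
      (boxO K U V).isOpen ⟨z₂, h₂, hz₂⟩ ⟨z, e2 hz, hz⟩
    obtain ⟨y, hy, hy'⟩ := hirr.2 O₁ O₂ hO₁ hO₂ ⟨y₁, hy₁'', hy₁'⟩ ⟨y₂, hy₂'', hy₂'⟩
    exact ⟨y, trivial, hy'⟩
  exact ⟨hne⟩

instance kprod_reduced : IsReduced (kprod K X S) := by
  apply +allowSynthFailures isReduced_of_isReduced_stalk
  intro z
  obtain ⟨U, hU, V, hV, hz⟩ := exists_chart K z
  have : Nonempty U := ⟨⟨_, hz.1⟩⟩
  have : Nonempty V := ⟨⟨_, hz.2⟩⟩
  have := chart_isDomain K U V
  have hz' : z ∈ Set.range (chart K hU hV) := by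
    rw [chart_range]; exact hz
  obtain ⟨y, rfl⟩ := hz'
  exact isReduced_of_injective ((chart K hU hV).stalkMap y).hom
    (asIso ((chart K hU hV).stalkMap y)).commRingCatIsoToRingEquiv.injective

instance kprod_integral : IsIntegral (kprod K X S) :=
  isIntegral_of_irreducibleSpace_of_isReduced _

end integral

end

end Fermat.Agent.H20
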