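import Mathlib

/-!
# Power series rings over fields are unique factorization domains
-/

set_option autoImplicit false

open Polynomial IsLocalRing

namespace Fermat.Agent.H20

section weier

variable {A : Type*} [CommRing A] [IsDomain A] [IsLocalRing A]

/-- divisors of distinguished polynomials are distinguished -/
lemma distinguished_of_dvd {f q : A[X]} (hf : f.IsDistinguishedAt (maximalIdeal A))
    (hq : q.Monic) (hdvd : q ∣ f) : q.IsDistinguishedAt (maximalIdeal A) := by
  refine ⟨⟨?_⟩, hq⟩
  intro n hn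
  have h1 : f.map (Ideal.Quotient.mk (maximalIdeal A)) = X ^ f.natDegree := hf.map_eq_X_pow
  have h2 : q.map (Ideal.Quotient.mk (maximalIdeal A)) ∣ X ^ f.natDegree := by
    rw [← h1]
    exact Polynomial.map_dvd _ hdvd
  have hdom : IsDomain (A ⧸ maximalIdeal A) := inferInstance
  obtain ⟨e, he, hass⟩ := (dvd_prime_pow (prime_X (R := A ⧸ maximalIdeal A)) _).1 h2
  have h3 : q.map (Ideal.Quotient.mk (maximalIdeal A)) = X ^ e :=
    Polynomial.eq_of_monic_of_associated (hq.map _) (monic_X_pow e) hass
  have h4 : q.natDegree = e := by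
    have := hq.natDegree_map (Ideal.Quotient.mk (maximalIdeal A))
    rw [h3, natDegree_X_pow] at this
    exact this.symm
  have h5 := congrArg (fun r => r.coeff n) h3
  simp only [coeff_map, coeff_X_pow] at h5
  rw [if_neg (by omega)] at h5
  exact Ideal.Quotient.eq_zero_iff_mem.1 h5

variable [IsAdicComplete (maximalIdeal A) A]

lemma prime_coe_of_distinguished {q : A[X]} (hq : q.IsDistinguishedAt (maximalIdeal A))
    (hprime : Prime q) : Prime (q : PowerSeries A) := by
  have h0 : (q : PowerSeries A) ≠ 0 := by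
    intro h
    exact hprime.ne_zero (by exact_mod_cast h)
  rw [← Ideal.span_singleton_prime h0]
  have h1 : (Ideal.span {q}).IsPrime := (Ideal.span_singleton_prime hprime.ne_zero).2 hprime
  have h2 : IsDomain (A[X] ⧸ Ideal.span {q}) := inferInstance
  have e := hq.algEquivQuotient
  have h3 : IsDomain (PowerSeries A ⧸ Ideal.span {(q : PowerSeries A)}) :=
    e.toMulEquiv.symm.isDomain _
  exact (Ideal.Quotient.isDomain_iff_prime _).1 h3

theorem exists_prime_mem [UniqueFactorizationMonoid A] (P : Ideal (PowerSeries A)) [P.IsPrime]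
    (g : PowerSeries A) (hg : g ∈ P) (hg0 : g.map (residue A) ≠ 0) : ∃ π ∈ P, Prime π := by
  obtain ⟨f, h, H⟩ := g.exists_isWeierstrassFactorization hg0
  have hf : (f : PowerSeries A) ∈ P := by
    have h1 : (f : PowerSeries A) * h ∈ P := by
      rw [← H.eq_mul]
      exact hg
    rcases Ideal.IsPrime.mem_or_mem ‹_› h1 with h2 | h2
    · exact h2
    · exact absurd (Ideal.eq_top_of_isUnit_mem _ h2 H.isUnit) (Ideal.IsPrime.ne_top ‹_›)
  have hfd := H.isDistinguishedAt
  have hf0 : f ≠ 0 := hfd.monic.ne_zero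
  obtain ⟨s, hs, hass⟩ := UniqueFactorizationMonoid.exists_prime_factors f hf0
  let Q : Ideal A[X] := P.comap (Polynomial.coeToPowerSeries.ringHom (R := A))
  have hQ : Q.IsPrime := inferInstance
  have h1 : s.prod ∈ Q := by
    have : f ∈ Q := by
      change Polynomial.coeToPowerSeries.ringHom f ∈ P
      simpa using hf
    obtain ⟨u, hu⟩ := hass
    rw [← hu] at this
    rcases hQ.mem_or_mem this with h2 | h2
    · exact h2
    · exact absurd (Ideal.eq_top_of_isUnit_mem _ h2 u.isUnit) hQ.ne_top
  obtain ⟨q, hqs, hqQ⟩ := (hQ.multiset_prod_mem_iff_exists_mem s).1 h1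
  have hq := hs q hqs
  have hdvd : q ∣ f := (Multiset.dvd_prod hqs).trans hass.dvd
  -- make `q` monic
  obtain ⟨r, hr⟩ := hdvd
  have hlc : q.leadingCoeff * r.leadingCoeff = 1 := by
    rw [← leadingCoeff_mul, ← hr]
    exact hfd.monic
  let q' : A[X] := C r.leadingCoeff * q
  have hunit : IsUnit (C r.leadingCoeff) :=
    IsUnit.map C (IsUnit.of_mul_eq_one_right q.leadingCoeff hlc)
  have hq'm : q'.Monic := by
    rw [Monic, leadingCoeff_mul, leadingCoeff_C, mul_comm]
    exact hlc
  have hass' : Associated q q' := by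
    obtain ⟨u, hu⟩ := hunit
    refine ⟨u, ?_⟩
    rw [hu, mul_comm]
  have hq' : Prime q' := hass'.prime hq
  have hdvd' : q' ∣ f := (hass'.symm.dvd).trans ⟨r, hr⟩
  refine ⟨(q' : PowerSeries A), ?_, prime_coe_of_distinguished
    (distinguished_of_dvd hfd hq'm hdvd') hq'⟩
  have : q' ∈ Q := Ideal.mul_mem_left _ _ hqQ
  change Polynomial.coeToPowerSeries.ringHom q' ∈ P at this
  simpa using this

end weier

section coords

open MvPowerSeries

variable (K : Type*) [Field K] (n : ℕ)

/-- linear change of coordinates -/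
noncomputable def lin (c0 : K) (c : Fin n → K) : Fin (n + 1) → MvPowerSeries (Fin (n + 1)) K :=
  Fin.cons (c0 • MvPowerSeries.X 0) fun i => MvPowerSeries.X i.succ + c i • MvPowerSeries.X 0

lemma lin_zero (c0 : K) (c : Fin n → K) : lin K n c0 c 0 = c0 • MvPowerSeries.X 0 := rfl

lemma lin_succ (c0 : K) (c : Fin n → K) (i : Fin n) :
    lin K n c0 c i.succ = MvPowerSeries.X i.succ + c i • MvPowerSeries.X 0 := rfl

lemma hasSubst_lin (c0 : K) (c : Fin n → K) : HasSubst (lin K n c0 c) := by
  apply hasSubst_of_constantCoeff_zero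
  intro s
  refine Fin.cases ?_ (fun i => ?_) s
  · rw [lin_zero]; simp
  · rw [lin_succ]; simp

lemma subst_lin_lin (c0 : K) (c : Fin n → K) (d0 : K) (d : Fin n → K) (h0 : c0 * d0 = 1)
    (h : ∀ i, d i + c i * d0 = 0) (f : MvPowerSeries (Fin (n + 1)) K) :
    subst (lin K n d0 d) (subst (lin K n c0 c) f) = f := by
  rw [subst_comp_subst_apply (hasSubst_lin K n c0 c) (hasSubst_lin K n d0 d)]
  have h1 : (fun s => subst (lin K n d0 d) (lin K n c0 c s)) =
      (MvPowerSeries.X : Fin (n + 1) → MvPowerSeries (Fin (n + 1)) K) := by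
    funext s
    refine Fin.cases ?_ (fun i => ?_) s
    · rw [lin_zero, subst_smul (hasSubst_lin K n d0 d), subst_X (hasSubst_lin K n d0 d), lin_zero,
        smul_smul, h0, one_smul]
    · rw [lin_succ, subst_add (hasSubst_lin K n d0 d), subst_smul (hasSubst_lin K n d0 d),
        subst_X (hasSubst_lin K n d0 d), subst_X (hasSubst_lin K n d0 d), lin_zero, lin_succ,
        smul_smul, add_assoc, ← add_smul, h, zero_smul, add_zero]
  rw [h1, subst_self]
  rfl

/-- linear change of coordinates as an automorphism -/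
noncomputable def linEquiv (c0 : K) (hc0 : c0 ≠ 0) (c : Fin n → K) :
    MvPowerSeries (Fin (n + 1)) K ≃+* MvPowerSeries (Fin (n + 1)) K :=
  { (substAlgHom (hasSubst_lin K n c0 c) :
      MvPowerSeries (Fin (n + 1)) K →ₐ[K] MvPowerSeries (Fin (n + 1)) K).toRingHom with
    invFun := subst (lin K n c0⁻¹ fun i => -(c i * c0⁻¹))
    left_inv := fun f => by
      change subst _ (substAlgHom (hasSubst_lin K n c0 c) f) = f
      rw [substAlgHom_apply]
      exact subst_lin_lin K n _ _ _ _ (mul_inv_cancel₀ hc0) (fun i => by ring) f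
    right_inv := fun f => by
      change substAlgHom (hasSubst_lin K n c0 c) (subst _ f) = f
      rw [substAlgHom_apply]
      exact subst_lin_lin K n _ _ _ _ (inv_mul_cancel₀ hc0) (fun i => by field_simp; ring) f }

lemma linEquiv_apply (c0 : K) (hc0 : c0 ≠ 0) (c : Fin n → K)
    (f : MvPowerSeries (Fin (n + 1)) K) : linEquiv K n c0 hc0 c f = subst (lin K n c0 c) f := by
  rw [← substAlgHom_apply (hasSubst_lin K n c0 c)]
  rfl

/-- restriction to the first axis -/
noncomputable def axisHom : MvPowerSeries (Fin (n + 1)) K →+* PowerSeries K :=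
  (PowerSeries.map (MvPowerSeries.constantCoeff (σ := Fin n) (R := K))).comp
    (finSuccEquiv K n).toRingEquiv.toRingHom

lemma coeff_axisHom (f : MvPowerSeries (Fin (n + 1)) K) (k : ℕ) :
    PowerSeries.coeff k (axisHom K n f) = MvPowerSeries.coeff ((0 : Fin n →₀ ℕ).cons k) f := by
  rw [← coeff_coeff_finSuccEquiv]
  simp [axisHom, PowerSeries.coeff_map]

lemma axisHom_X_zero : axisHom K n (MvPowerSeries.X 0) = PowerSeries.X := by
  simp [axisHom]

lemma axisHom_X_succ (i : Fin n) : axisHom K n (MvPowerSeries.X i.succ) = 0 := by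
  simp [axisHom]

lemma axisHom_smul (c : K) (f : MvPowerSeries (Fin (n + 1)) K) :
    axisHom K n (c • f) = c • axisHom K n f := by
  ext k
  rw [coeff_axisHom, map_smul, map_smul, coeff_axisHom]

/-- Coefficients of the restriction to the axis, after a change of coordinates -/
lemma coeff_axis_subst (c0 : K) (c : Fin n → K) (f : MvPowerSeries (Fin (n + 1)) K) (k : ℕ) :
    PowerSeries.coeff k (axisHom K n (subst (lin K n c0 c) f)) =
      MvPolynomial.eval (Fin.cons c0 c : Fin (n + 1) → K)
        (∑ d ∈ Finset.finsuppAntidiag Finset.univ k,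
          MvPolynomial.monomial d (MvPowerSeries.coeff d f)) := by
  classical
  have hax : ∀ s, axisHom K n (lin K n c0 c s) =
      (Fin.cons c0 c : Fin (n + 1) → K) s • PowerSeries.X := by
    intro s
    refine Fin.cases ?_ (fun i => ?_) s
    · rw [lin_zero, axisHom_smul, axisHom_X_zero]
      rfl
    · rw [lin_succ, map_add, axisHom_smul, axisHom_X_zero, axisHom_X_succ, zero_add]
      rfl
  have hterm : ∀ d : Fin (n + 1) →₀ ℕ,
      MvPowerSeries.coeff ((0 : Fin n →₀ ℕ).cons k)
        (d.prod fun s e => (lin K n c0 c s) ^ e) =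
      if ∑ i, d i = k then ∏ i, (Fin.cons c0 c : Fin (n + 1) → K) i ^ (d i) else 0 := by
    intro d
    rw [← coeff_axisHom, Finsupp.prod_fintype _ _ (by simp), map_prod]
    simp only [map_pow, hax, _root_.smul_pow]
    have h2 : ∏ i, (Fin.cons c0 c : Fin (n + 1) → K) i ^ (d i) •
        (PowerSeries.X : PowerSeries K) ^ (d i) =
        (∏ i, (Fin.cons c0 c : Fin (n + 1) → K) i ^ (d i)) •
          (PowerSeries.X : PowerSeries K) ^ (∑ i, d i) := by
      rw [Finset.prod_smul, Finset.prod_pow_eq_pow_sum]
    rw [h2, map_smul, PowerSeries.coeff_X_pow, smul_eq_mul]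
    by_cases h3 : ∑ i, d i = k
    · rw [if_pos h3, if_pos h3.symm, mul_one]
    · rw [if_neg h3, if_neg (fun h => h3 h.symm), mul_zero]
  rw [coeff_axisHom, coeff_subst (hasSubst_lin K n c0 c), map_sum]
  simp only [hterm, MvPolynomial.eval_monomial]
  rw [finsum_eq_sum_of_support_subset (s := Finset.finsuppAntidiag Finset.univ k)]
  · refine Finset.sum_congr rfl fun d hd => ?_
    rw [Finset.mem_finsuppAntidiag] at hd
    rw [if_pos hd.1, smul_eq_mul, Finsupp.prod_fintype _ _ (by simp)]
  · intro d hd
    rw [Finset.mem_coe, Finset.mem_finsuppAntidiag]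
    refine ⟨?_, Finset.subset_univ _⟩
    by_contra h
    rw [Function.mem_support, if_neg h, smul_zero] at hd
    exact hd rfl

/-- After a linear change of coordinates, a nonzero power series is regular along the first axis. -/
lemma exists_regular [Infinite K] (f : MvPowerSeries (Fin (n + 1)) K) (hf : f ≠ 0) :
    ∃ (c0 : K) (_ : c0 ≠ 0) (c : Fin n → K), axisHom K n (subst (lin K n c0 c) f) ≠ 0 := by
  classical
  obtain ⟨d0, hd0⟩ : ∃ d, MvPowerSeries.coeff d f ≠ 0 := by
    by_contra h
    push Not at h
    exact hf (MvPowerSeries.ext fun d => by rw [h d, map_zero])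
  let k := ∑ i, d0 i
  let p : MvPolynomial (Fin (n + 1)) K := ∑ d ∈ Finset.finsuppAntidiag Finset.univ k,
          MvPolynomial.monomial d (MvPowerSeries.coeff d f)
  have hp : p ≠ 0 := by
    intro h
    have h1 := congrArg (MvPolynomial.coeff d0) h
    simp only [p, MvPolynomial.coeff_sum, MvPolynomial.coeff_monomial, MvPolynomial.coeff_zero] at h1
    rw [Finset.sum_ite_eq', if_pos (by
      rw [Finset.mem_finsuppAntidiag]
      exact ⟨rfl, Finset.subset_univ _⟩)] at h1
    exact hd0 h1
  have hXp : MvPolynomial.X 0 * p ≠ 0 := mul_ne_zero (MvPolynomial.X_ne_zero _) hp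
  obtain ⟨c', hc'⟩ : ∃ c' : Fin (n + 1) → K, MvPolynomial.eval c' (MvPolynomial.X 0 * p) ≠ 0 := by
    by_contra h
    push Not at h
    exact hXp (MvPolynomial.funext fun x => by rw [h x, map_zero])
  rw [map_mul, MvPolynomial.eval_X] at hc'
  refine ⟨c' 0, left_ne_zero_of_mul hc', fun i => c' i.succ, fun h => ?_⟩
  have h1 := coeff_axis_subst K n (c' 0) (fun i => c' i.succ) f k
  rw [h, map_zero] at h1
  have h2 : (Fin.cons (c' 0) (fun i => c' i.succ) : Fin (n + 1) → K) = c' := by
    funext s
    refine Fin.cases rfl (fun i => rfl) s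
  rw [h2] at h1
  exact (right_ne_zero_of_mul hc') h1.symm

end coords

section complete

open MvPowerSeries

lemma mem_span_X {σ : Type*} [Finite σ] {K : Type*} [Field K] (f : MvPowerSeries σ K)
    (hf : MvPowerSeries.constantCoeff f = 0) :
    f ∈ Ideal.span (Set.range (MvPowerSeries.X : σ → MvPowerSeries σ K)) := by
  have h1 : Ideal.map (toAdicCompletionAlgEquiv σ K).toRingEquiv
      (Ideal.span (Set.range (MvPowerSeries.X : σ → MvPowerSeries σ K))) =
    (MvPolynomial.idealOfVars σ K).map (algebraMap (MvPolynomial σ K) _) := by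
    simp_rw [MvPolynomial.idealOfVars, Ideal.map_span, ← Set.range_comp]
    congr 2; ext1
    simp [AdicCompletion.algebraMap_apply, ← MvPolynomial.coe_X, toAdicCompletion_coe]
  have h0 := AdicCompletion.ker_evalOneₐ_eq_map _ (MvPolynomial.idealOfVars_fg σ K)
  replace h1 := h1.trans h0.symm
  have h2 : (toAdicCompletionAlgEquiv σ K).toRingEquiv f ∈
      Ideal.map (toAdicCompletionAlgEquiv σ K).toRingEquiv
      (Ideal.span (Set.range (MvPowerSeries.X : σ → MvPowerSeries σ K))) := by
    rw [h1, RingHom.mem_ker]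
    have h4 : truncTotal 1 f = 0 := by
      ext d
      rw [coeff_truncTotal_eq_ite, MvPolynomial.coeff_zero]
      split_ifs with h
      · have : d = 0 := by
          rw [← Finsupp.degree_eq_zero_iff]
          omega
        rw [this]
        exact hf
      · rfl
    change AdicCompletion.evalOneₐ _ (toAdicCompletion σ K f) = 0
    rw [← AdicCompletion.factorₐ_evalₐ_one]
    have h5 : AdicCompletion.evalₐ (MvPolynomial.idealOfVars σ K) 1 (toAdicCompletion σ K f) =
        truncTotalAlgHom σ K 1 f := AdicCompletion.evalₐ_liftAlgHom _ _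
          (fun h ↦ AlgHom.ext fun _ ↦ by
            simpa [Ideal.Quotient.mk_eq_mk_iff_sub_mem] using
              truncTotal_sub_truncTotal_mem_pow_idealOfVars h (le_refl _) _) _ _
    rw [h5, truncTotalAlgHom_apply, h4, map_zero, map_zero]
  obtain ⟨g, hg, hgf⟩ := (Ideal.mem_map_iff_of_surjective _
    (toAdicCompletionAlgEquiv σ K).toRingEquiv.surjective).1 h2
  rwa [(toAdicCompletionAlgEquiv σ K).toRingEquiv.injective hgf] at hg

lemma maximalIdeal_eq_span {σ : Type*} [Finite σ] {K : Type*} [Field K] :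
    maximalIdeal (MvPowerSeries σ K) =
      Ideal.span (Set.range (MvPowerSeries.X : σ → MvPowerSeries σ K)) := by
  apply le_antisymm
  · intro f hf
    apply mem_span_X
    by_contra h
    rw [mem_maximalIdeal, mem_nonunits_iff] at hf
    exact hf (MvPowerSeries.isUnit_iff_constantCoeff.2 (isUnit_iff_ne_zero.2 h))
  · rw [Ideal.span_le]
    rintro _ ⟨i, rfl⟩
    rw [SetLike.mem_coe, mem_maximalIdeal, mem_nonunits_iff]
    intro h
    have := MvPowerSeries.isUnit_iff_constantCoeff.1 h
    simp at this

instance isAdicComplete_maximalIdeal {σ : Type*} [Finite σ] {K : Type*} [Field K] :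
    IsAdicComplete (maximalIdeal (MvPowerSeries σ K)) (MvPowerSeries σ K) := by
  rw [maximalIdeal_eq_span]
  infer_instance

instance isDomain_mvPowerSeries {σ : Type*} {K : Type*} [Field K] :
    IsDomain (MvPowerSeries σ K) := NoZeroDivisors.to_isDomain _

/-- **Power series rings over infinite fields are UFDs.** -/
theorem ufm_mvPowerSeries (K : Type*) [Field K] [Infinite K] (n : ℕ) :
    UniqueFactorizationMonoid (MvPowerSeries (Fin n) K) := by
  induction n with
  | zero =>
    have h : UniqueFactorizationMonoid K := inferInstance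
    exact MulEquiv.uniqueFactorizationMonoid (isEmptyEquiv (Fin 0) K).toMulEquiv.symm h
  | succ n ih =>
    rw [UniqueFactorizationMonoid.iff_exists_prime_mem_of_isPrime]
    intro P hP hPp
    obtain ⟨f, hfP, hf0⟩ := (Submodule.ne_bot_iff P).1 hP
    obtain ⟨c0, hc0, c, hreg⟩ := exists_regular K n f hf0
    let e : MvPowerSeries (Fin (n + 1)) K ≃+* PowerSeries (MvPowerSeries (Fin n) K) :=
      (linEquiv K n c0 hc0 c).trans (finSuccEquiv K n).toRingEquiv
    let Q : Ideal (PowerSeries (MvPowerSeries (Fin n) K)) := P.comap e.symm.toRingHom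
    have hQ : Q.IsPrime := Ideal.IsPrime.comap _
    have hfQ : e f ∈ Q := by
      change e.symm (e f) ∈ P
      rwa [e.symm_apply_apply]
    have hres : (e f).map (residue (MvPowerSeries (Fin n) K)) ≠ 0 := by
      intro h
      apply hreg
      have h1 : e f = finSuccEquiv K n (subst (lin K n c0 c) f) := by
        rw [← linEquiv_apply K n c0 hc0 c]
        rfl
      ext k
      have h2 : PowerSeries.coeff k (axisHom K n (subst (lin K n c0 c) f)) =
          MvPowerSeries.constantCoeff (PowerSeries.coeff k (e f)) := by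
        rw [h1]
        rfl
      rw [h2, map_zero]
      have h3 := congrArg (PowerSeries.coeff k) h
      rw [PowerSeries.coeff_map, map_zero, residue_eq_zero_iff, mem_maximalIdeal,
        mem_nonunits_iff] at h3
      by_contra h4
      exact h3 (MvPowerSeries.isUnit_iff_constantCoeff.2 (isUnit_iff_ne_zero.2 h4))
    obtain ⟨π, hπ, hprime⟩ := exists_prime_mem Q (e f) hfQ hres
    refine ⟨e.symm π, hπ, ?_⟩
    exact (MulEquiv.prime_iff e.symm.toMulEquiv).2 hprime

end complete

end Fermat.Agent.H20
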