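import Mathlib
import Fermat.Agent.H20.PSUfd

/-!
# Local rings of smooth algebras over a field are unique factorization domains
-/

set_option autoImplicit false

open TensorProduct IsLocalRing

namespace Fermat.Agent.H20

noncomputable section

section flat

universe u1 u2 u3

/-- If `P → B` is étale and `P → S` flat, then every `P`-algebra map `B → S` is flat. -/
lemma flat_of_etale {P : Type u1} {B : Type u2} {S : Type u3} [CommRing P] [CommRing B]
    [CommRing S] [Algebra P B] [Algebra P S] [Algebra.Etale P B] [Module.Flat P S]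
    (β : B →ₐ[P] S) : β.toRingHom.Flat := by
  have h1 : (algebraMap B (B ⊗[P] S)).Flat :=
    RingHom.flat_algebraMap_iff.2 inferInstance
  have h2 : (Algebra.TensorProduct.comm P B S).toRingHom.Flat :=
    .of_bijective (Algebra.TensorProduct.comm P B S).bijective
  let μ : S ⊗[P] B →ₐ[S] S := Algebra.TensorProduct.lift (AlgHom.id S S) β
    (fun x y => Commute.all _ _)
  have h3 : μ.toRingHom.Flat := by
    algebraize [μ.toRingHom]
    have : IsScalarTower S (S ⊗[P] B) S := IsScalarTower.of_algebraMap_eq' (by
      ext s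
      simp [RingHom.algebraMap_toAlgebra, μ])
    have : Algebra.Etale (S ⊗[P] B) S := .of_restrictScalars S _ _
    exact Algebra.Smooth.flat (S ⊗[P] B) S
  have h4 : β.toRingHom = (μ.toRingHom.comp (Algebra.TensorProduct.comm P B S).toRingHom).comp
      (algebraMap B (B ⊗[P] S)) := by
    ext b
    simp [μ, Algebra.TensorProduct.algebraMap_apply]
  rw [h4]
  exact h1.comp (h2.comp h3)

instance flat_mvPowerSeries (K : Type*) [Field K] (g : ℕ) :
    Module.Flat (MvPolynomial (Fin g) K) (MvPowerSeries (Fin g) K) :=
  Module.Flat.of_linearEquiv (MvPowerSeries.toAdicCompletionAlgEquiv (Fin g) K).toLinearEquiv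

end flat

section descent

variable {O S : Type*} [CommRing O] [CommRing S] [Algebra O S]

/-- **Descent of unique factorization** along faithfully flat maps to local rings. -/
theorem ufm_of_faithfullyFlat [IsDomain O] [IsNoetherianRing O] [IsDomain S]
    [UniqueFactorizationMonoid S] [IsLocalRing S] [Module.FaithfullyFlat O S] :
    UniqueFactorizationMonoid O := by
  have hinj : Function.Injective (algebraMap O S) :=
    FaithfulSMul.algebraMap_injective O S
  refine { (inferInstance : WfDvdMonoid O) with
    irreducible_iff_prime := fun {π} => ⟨fun hπ => ⟨hπ.ne_zero, hπ.not_isUnit, ?_⟩,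
      Prime.irreducible⟩ }
  intro a b hab
  -- the colon ideal
  let J : Ideal O :=
    { carrier := {c | π ∣ c * a}
      add_mem' := by
        intro c d hc hd
        change π ∣ (c + d) * a
        rw [add_mul]
        exact dvd_add hc hd
      zero_mem' := by
        change π ∣ 0 * a
        rw [zero_mul]
        exact dvd_zero _
      smul_mem' := by
        intro r c hc
        change π ∣ (r • c) * a
        rw [smul_eq_mul, mul_assoc]
        exact Dvd.dvd.mul_left hc r }
  have hJ : ∀ c, c ∈ J ↔ π ∣ c * a := fun c => Iff.rfl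
  have hπ0 : algebraMap O S π ≠ 0 := by
    rw [Ne, map_eq_zero_iff _ hinj]
    exact hπ.ne_zero
  obtain ⟨δ, e, γ, hrel, hδ, he⟩ :=
    UniqueFactorizationMonoid.exists_reduced_factors (algebraMap O S π) hπ0 (algebraMap O S a)
  have hγ0 : γ ≠ 0 := by
    rintro rfl
    rw [zero_mul] at hδ
    exact hπ0 hδ.symm
  have hδ0 : δ ≠ 0 := by
    rintro rfl
    rw [mul_zero] at hδ
    exact hπ0 hδ.symm
  have h1 : ∀ c ∈ J, δ ∣ algebraMap O S c := by
    intro c hc
    have h2 : algebraMap O S π ∣ algebraMap O S c * algebraMap O S a := by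
      rw [← map_mul]
      exact map_dvd _ hc
    rw [← hδ, ← he] at h2
    have h3 : γ * δ ∣ γ * (algebraMap O S c * e) := by
      convert h2 using 1
      ring
    exact hrel.dvd_of_dvd_mul_right ((mul_dvd_mul_iff_left hγ0).1 h3)
  have h2 : δ ∈ J.map (algebraMap O S) := by
    have h3 : ∑ i, (![a, -π] : Fin 2 → O) i • (![δ, e] : Fin 2 → S) i = 0 := by
      rw [Fin.sum_univ_two]
      simp only [Matrix.cons_val_zero, Matrix.cons_val_one, Matrix.cons_val_fin_one,
        Algebra.smul_def, map_neg]
      rw [← hδ, ← he]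
      ring
    obtain ⟨k, a', y, hy, hy'⟩ := Module.Flat.isTrivialRelation_of_sum_smul_eq_zero
      (R := O) (M := S) h3
    have h4 := hy 0
    simp only [Matrix.cons_val_zero] at h4
    rw [h4]
    refine Ideal.sum_mem _ fun j _ => ?_
    rw [Algebra.smul_def]
    apply Ideal.mul_mem_right
    apply Ideal.mem_map_of_mem
    rw [hJ]
    have h5 := hy' j
    rw [Fin.sum_univ_two] at h5
    simp only [Matrix.cons_val_zero, Matrix.cons_val_one, Matrix.cons_val_fin_one] at h5
    refine ⟨a' 1 j, ?_⟩
    linear_combination h5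
  have h3 : ∃ c ∈ J, algebraMap O S c ∣ δ := by
    by_contra hcon
    push Not at hcon
    have h4 : J.map (algebraMap O S) ≤ Ideal.span {δ} * maximalIdeal S := by
      rw [Ideal.map_le_iff_le_comap]
      intro c hc
      obtain ⟨t, ht⟩ := h1 c hc
      rw [Ideal.mem_comap, ht]
      refine Ideal.mul_mem_mul (Ideal.mem_span_singleton_self _) ?_
      rw [mem_maximalIdeal, mem_nonunits_iff]
      intro hu
      refine hcon c hc ?_
      rw [ht]
      obtain ⟨u, rfl⟩ := hu
      exact ⟨↑u⁻¹, by rw [mul_assoc, Units.mul_inv, mul_one]⟩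
    have h5 := h4 h2
    rw [Ideal.mem_span_singleton_mul] at h5
    obtain ⟨m, hm, hmδ⟩ := h5
    have h6 : m = 1 := by
      have : δ * m = δ * 1 := by rw [hmδ, mul_one]
      exact mul_left_cancel₀ hδ0 this
    rw [h6] at hm
    exact (Ideal.ne_top_iff_one _).1 (maximalIdeal.isMaximal S).ne_top hm
  obtain ⟨c, hcJ, hcδ⟩ := h3
  have h4 : ∀ d ∈ J, c ∣ d := by
    intro d hd
    have h5 : algebraMap O S c ∣ algebraMap O S d := hcδ.trans (h1 d hd)
    have h6 : d ∈ ((Ideal.span {c}).map (algebraMap O S)).comap (algebraMap O S) := by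
      rw [Ideal.mem_comap, Ideal.map_span, Set.image_singleton, Ideal.mem_span_singleton]
      exact h5
    rw [Ideal.comap_map_eq_self_of_faithfullyFlat] at h6
    exact Ideal.mem_span_singleton.1 h6
  have h5 : π ∈ J := by
    rw [hJ]
    exact dvd_mul_right _ _
  obtain ⟨r, hr⟩ := h4 π h5
  rcases hπ.isUnit_or_isUnit hr with hu | hu
  · left
    obtain ⟨u, rfl⟩ := hu
    have h6 : (1 : O) ∈ J := by
      have := J.mul_mem_left (↑u⁻¹ : O) hcJ
      rwa [Units.inv_mul] at this
    rw [hJ, one_mul] at h6
    exact h6
  · right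
    have h6 : b ∈ J := by
      rw [hJ, mul_comm]
      exact hab
    have h7 := h4 b h6
    obtain ⟨u, rfl⟩ := hu
    refine (Dvd.dvd.trans ?_ h7)
    rw [hr]
    exact ⟨↑u⁻¹, by rw [mul_assoc, Units.mul_inv, mul_one]⟩

end descent

section etale

variable {K : Type*} [Field K] {g : ℕ} {B : Type*} [CommRing B]
  [Algebra (MvPolynomial (Fin g) K) B] [Algebra.Etale (MvPolynomial (Fin g) K) B]
  (x : B →+* K) (hx : ∀ p, x (algebraMap (MvPolynomial (Fin g) K) B p) =
    MvPolynomial.constantCoeff p)

include hx in
/-- The completion map at a rational point, in étale coordinates. -/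
lemma exists_completion : ∃ β : B →ₐ[MvPolynomial (Fin g) K] MvPowerSeries (Fin g) K,
    ∀ b, MvPowerSeries.constantCoeff (β b) = x b := by
  let S := MvPowerSeries (Fin g) K
  let f : B →ₐ[MvPolynomial (Fin g) K] S ⧸ maximalIdeal S :=
    { ((Ideal.Quotient.mk (maximalIdeal S)).comp (MvPowerSeries.C (σ := Fin g) (R := K))).comp x
        with
      commutes' := fun p => by
        change Ideal.Quotient.mk (maximalIdeal S) (MvPowerSeries.C (x (algebraMap _ B p))) =
          Ideal.Quotient.mk (maximalIdeal S) (algebraMap _ S p)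
        rw [hx, Ideal.Quotient.mk_eq_mk_iff_sub_mem, mem_maximalIdeal, mem_nonunits_iff,
          MvPowerSeries.isUnit_iff_constantCoeff, map_sub]
        have h1 : MvPowerSeries.constantCoeff (algebraMap (MvPolynomial (Fin g) K) S p) =
            MvPolynomial.constantCoeff p := by
          rw [MvPowerSeries.algebraMap_apply']
          simp [← MvPowerSeries.coeff_zero_eq_constantCoeff_apply, MvPolynomial.constantCoeff_eq]
        rw [h1, MvPowerSeries.constantCoeff_C, sub_self]
        exact not_isUnit_zero }
  obtain ⟨β, hβ⟩ := Algebra.FormallySmooth.exists_mkₐ_comp_eq_of_isAdicComplete f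
  refine ⟨β, fun b => ?_⟩
  have h1 : Ideal.Quotient.mk (maximalIdeal S) (β b) =
      Ideal.Quotient.mk (maximalIdeal S) (MvPowerSeries.C (x b)) := DFunLike.congr_fun hβ b
  rw [Ideal.Quotient.mk_eq_mk_iff_sub_mem, mem_maximalIdeal, mem_nonunits_iff,
          MvPowerSeries.isUnit_iff_constantCoeff, map_sub, MvPowerSeries.constantCoeff_C,
          isUnit_iff_ne_zero, not_not, sub_eq_zero] at h1
  exact h1

include hx in
/-- Local rings of étale algebras over polynomial rings at rational points are UFDs. -/
theorem ufm_localization [Infinite K] (O : Type*) [CommRing O] [Algebra B O]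
    [hp : (RingHom.ker x).IsPrime] [IsLocalization.AtPrime O (RingHom.ker x)] :
    ∃ _ : IsDomain O, UniqueFactorizationMonoid O := by
  obtain ⟨β, hβ⟩ := exists_completion x hx
  have hBn : IsNoetherianRing B :=
    Algebra.FiniteType.isNoetherianRing (MvPolynomial (Fin g) K) B
  have hOn : IsNoetherianRing O := IsLocalization.isNoetherianRing (RingHom.ker x).primeCompl O hBn
  have hOl : IsLocalRing O := IsLocalization.AtPrime.isLocalRing O (RingHom.ker x)
  have hflat : β.toRingHom.Flat := flat_of_etale β
  have hunit : ∀ s : (RingHom.ker x).primeCompl, IsUnit (β.toRingHom s) := by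
    intro s
    change IsUnit (β s)
    rw [MvPowerSeries.isUnit_iff_constantCoeff, hβ, isUnit_iff_ne_zero]
    exact s.2
  algebraize [β.toRingHom, (IsLocalization.lift hunit : O →+* MvPowerSeries (Fin g) K)]
  have htower : IsScalarTower B O (MvPowerSeries (Fin g) K) :=
    IsScalarTower.of_algebraMap_eq' (IsLocalization.lift_comp hunit).symm
  have hfl : Module.Flat O (MvPowerSeries (Fin g) K) :=
    (Module.flat_iff_of_isLocalization O (RingHom.ker x).primeCompl _).2 hflat
  have hloc : IsLocalHom (algebraMap O (MvPowerSeries (Fin g) K)) := by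
    constructor
    intro o ho
    obtain ⟨b, s, rfl⟩ := IsLocalization.exists_mk'_eq (RingHom.ker x).primeCompl o
    rw [RingHom.algebraMap_toAlgebra, IsLocalization.lift_mk'] at ho
    have h1 : IsUnit (β b) := by
      exact isUnit_of_mul_isUnit_left ho
    rw [MvPowerSeries.isUnit_iff_constantCoeff, hβ, isUnit_iff_ne_zero] at h1
    exact (IsLocalization.AtPrime.isUnit_mk'_iff O (RingHom.ker x) b s).2 h1
  have hff : Module.FaithfullyFlat O (MvPowerSeries (Fin g) K) :=
    Module.FaithfullyFlat.of_flat_of_isLocalHom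
  have hinj : Function.Injective (algebraMap O (MvPowerSeries (Fin g) K)) :=
    FaithfulSMul.algebraMap_injective O _
  have hdom : IsDomain O := hinj.isDomain _
  have hufd := ufm_mvPowerSeries K g
  exact ⟨hdom, ufm_of_faithfullyFlat (S := MvPowerSeries (Fin g) K)⟩

end etale

end

end Fermat.Agent.H20
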