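import Mathlib
import Fermat.Agent.H20.KSch

/-!
# Pull back of rational functions
-/

set_option autoImplicit false

universe u

open AlgebraicGeometry CategoryTheory CategoryTheory.Limits TopologicalSpace TensorProduct

namespace Fermat.Agent.H20

noncomputable section

section

variable {X Y Z : Scheme.{u}} [IsIntegral X] [IsIntegral Y] [IsIntegral Z]

lemma rho_germ (φ : Y ⟶ X) {U : X.Opens} [Nonempty U] {V : Y.Opens} [Nonempty V]
    (hV : V ≤ φ ⁻¹ᵁ U) (s : Γ(X, U))
    (h : X.germToFunctionField U s ∈ stk X (φ (genericPoint Y))) :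
    rho φ ⟨X.germToFunctionField U s, h⟩ = Y.germToFunctionField V (φ.appLE U V hV s) := by
  have hη : genericPoint Y ∈ V := generic_mem (Set.nonempty_coe_sort.1 ‹Nonempty V›)
  have hηU : φ (genericPoint Y) ∈ U := hV hη
  have e1 : X.germToFunctionField U s =
      algebraMap (X.presheaf.stalk (φ (genericPoint Y))) X.functionField
        (X.presheaf.germ U _ hηU s) := (X.algebraMap_germ_eq_germToFunctionField hηU s).symm
  have e2 : (⟨_, h⟩ : stk X (φ (genericPoint Y))) =
      ⟨algebraMap (X.presheaf.stalk (φ (genericPoint Y))) X.functionField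
        (X.presheaf.germ U _ hηU s), e1 ▸ h⟩ := Subtype.ext e1
  rw [e2, rho_apply]
  have e3 := Scheme.Hom.germ_stalkMap_apply φ U (genericPoint Y) hηU s
  refine (e3).trans ?_
  rw [Scheme.Hom.appLE]
  exact (TopCat.Presheaf.germ_res_apply Y.presheaf (homOfLE hV) (genericPoint Y) hη _).symm

/-- A morphism of integral schemes mapping generic point to generic point. -/
def IsDom (φ : Y ⟶ X) : Prop := φ (genericPoint Y) = genericPoint X

lemma isDom_of_forall {φ : Y ⟶ X} (h : ∀ U : X.Opens, (U : Set X).Nonempty →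
    ((φ ⁻¹ᵁ U : Y.Opens) : Set Y).Nonempty) : IsDom φ := by
  have h1 : IsGenericPoint (φ (genericPoint Y)) (Set.univ : Set X) := by
    rw [isGenericPoint_iff_forall_closed isClosed_univ trivial]
    intro Z hZ hmem
    by_contra hne
    have hU : (Zᶜ).Nonempty := by
      rw [Set.nonempty_compl]
      intro h0
      exact hne (by rw [h0])
    have := h ⟨Zᶜ, hZ.isOpen_compl⟩ hU
    have h2 : genericPoint Y ∈ φ ⁻¹ᵁ (⟨Zᶜ, hZ.isOpen_compl⟩ : X.Opens) := generic_mem this
    exact h2 hmem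
  exact h1.eq (genericPoint_spec X)

lemma IsDom.comp {φ : Y ⟶ X} {ψ : Z ⟶ Y} (h : IsDom φ) (h' : IsDom ψ) : IsDom (ψ ≫ φ) := by
  unfold IsDom at *
  rw [Scheme.Hom.comp_apply, h', h]

lemma IsDom.id : IsDom (𝟙 X) := rfl

lemma IsDom.of_comp {φ : Y ⟶ X} {ψ : Z ⟶ Y} (h : IsDom (ψ ≫ φ)) : IsDom φ := by
  apply isDom_of_forall
  intro U hU
  have : genericPoint X ∈ U := generic_mem hU
  unfold IsDom at h
  rw [← h] at this
  exact ⟨ψ (genericPoint Z), this⟩

lemma isDom_of_isIso (φ : Y ⟶ X) [IsIso φ] : IsDom φ := by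
  apply IsDom.of_comp (ψ := inv φ)
  rw [IsIso.inv_hom_id]
  exact IsDom.id

lemma isDom_of_isOpenImmersion (φ : Y ⟶ X) [IsOpenImmersion φ] : IsDom φ :=
  genericPoint_eq_of_isOpenImmersion φ

lemma IsDom.mem_stk {φ : Y ⟶ X} (h : IsDom φ) (f : X.functionField) :
    f ∈ stk X (φ (genericPoint Y)) := by
  unfold IsDom at h
  rw [h]
  exact stk_genericPoint f

/-- Pull back of rational functions under a dominant morphism. -/
def pull (φ : Y ⟶ X) (h : IsDom φ) : X.functionField →+* Y.functionField where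
  toFun f := rho φ ⟨f, h.mem_stk f⟩
  map_one' := by
    have : (⟨1, h.mem_stk 1⟩ : stk X (φ (genericPoint Y))) = 1 := rfl
    rw [this, map_one]
  map_mul' a b := by rw [← map_mul]; rfl
  map_zero' := by
    have : (⟨0, h.mem_stk 0⟩ : stk X (φ (genericPoint Y))) = 0 := rfl
    rw [this, map_zero]
  map_add' a b := by rw [← map_add]; rfl

lemma pull_apply (φ : Y ⟶ X) (h : IsDom φ) (f : X.functionField) :
    pull φ h f = rho φ ⟨f, h.mem_stk f⟩ := rfl

lemma rho_eq_pull (φ : Y ⟶ X) (h : IsDom φ) (f : stk X (φ (genericPoint Y))) :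
    rho φ f = pull φ h f := rfl

lemma pull_germ (φ : Y ⟶ X) (h : IsDom φ) {U : X.Opens} [Nonempty U] {V : Y.Opens} [Nonempty V]
    (hV : V ≤ φ ⁻¹ᵁ U) (s : Γ(X, U)) :
    pull φ h (X.germToFunctionField U s) = Y.germToFunctionField V (φ.appLE U V hV s) :=
  rho_germ φ hV s _

lemma pull_mem_stk {φ : Y ⟶ X} (h : IsDom φ) {y : Y} {f : X.functionField}
    (hf : f ∈ stk X (φ y)) : pull φ h f ∈ stk Y y := rho_mem_stk φ hf

lemma pull_comp {φ : Y ⟶ X} {ψ : Z ⟶ Y} (h : IsDom φ) (h' : IsDom ψ) (f : X.functionField) :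
    pull (ψ ≫ φ) (h.comp h') f = pull ψ h' (pull φ h f) :=
  rho_comp ψ φ f _ _ _

lemma pull_id (f : X.functionField) : pull (𝟙 X) IsDom.id f = f := rho_id f _

lemma pull_congr {φ φ' : Y ⟶ X} (e : φ = φ') (h : IsDom φ) (f : X.functionField) :
    pull φ h f = pull φ' (e ▸ h) f := by subst e; rfl

lemma rho_congr {φ φ' : Y ⟶ X} (e : φ = φ') (f : X.functionField)
    (h : f ∈ stk X (φ (genericPoint Y))) :
    rho φ ⟨f, h⟩ = rho φ' ⟨f, e ▸ h⟩ := by subst e; rfl

/-- Pullback along an open immersion is an isomorphism on function fields, and detects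
regularity. -/
lemma pull_bijective_of_isOpenImmersion (φ : Y ⟶ X) [IsOpenImmersion φ] :
    Function.Bijective (pull φ (isDom_of_isOpenImmersion φ)) := by
  refine ⟨(pull φ _).injective, fun g => ?_⟩
  obtain ⟨a, rfl⟩ := stk_genericPoint g
  refine ⟨algebraMap (X.presheaf.stalk (φ (genericPoint Y))) X.functionField
    ((inv (φ.stalkMap (genericPoint Y))).hom a), ?_⟩
  refine (rho_eq_stalkMap φ (genericPoint Y) _ _).trans ?_
  congr 1
  rw [← CommRingCat.comp_apply, IsIso.inv_hom_id]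
  rfl

lemma pull_mem_stk_iff (φ : Y ⟶ X) [IsOpenImmersion φ] (f : X.functionField) (y : Y) :
    pull φ (isDom_of_isOpenImmersion φ) f ∈ stk Y y ↔ f ∈ stk X (φ y) := by
  refine ⟨fun h => ?_, fun h => pull_mem_stk _ h⟩
  obtain ⟨a, ha⟩ := h
  have h1 : f = algebraMap (X.presheaf.stalk (φ y)) X.functionField
      ((inv (φ.stalkMap y)).hom a) := by
    apply (pull_bijective_of_isOpenImmersion φ).1
    have := rho_eq_stalkMap φ y ((inv (φ.stalkMap y)).hom a)
      (mem_stk_generic_of_mem ⟨_, rfl⟩)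
    refine Eq.trans ?_ this.symm
    rw [← ha]
    congr 1
    rw [← CommRingCat.comp_apply, IsIso.inv_hom_id]
    rfl
  exact ⟨_, h1.symm⟩

end

section overK

variable (K : Type u) [Field K] {X Y Z : Scheme.{u}} [KSch K X] [KSch K Y] [KSch K Z]
  [IsIntegral X] [IsIntegral Y] [IsIntegral Z]

/-- `φ` is a morphism over `K` -/
def IsKHom (φ : Y ⟶ X) : Prop := φ ≫ pK K X = pK K Y

omit [IsIntegral X] [IsIntegral Y] [IsIntegral Z] in
variable {K} in
lemma IsKHom.comp {φ : Y ⟶ X} {ψ : Z ⟶ Y} (h : IsKHom K φ) (h' : IsKHom K ψ) :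
    IsKHom K (ψ ≫ φ) := by
  unfold IsKHom at *
  rw [Category.assoc, h, h']

omit [IsIntegral X] in
lemma IsKHom.id : IsKHom K (𝟙 X) := Category.id_comp _

omit [IsIntegral X] [IsIntegral Y] in
variable {K} in
lemma IsKHom.appLE_kSec {φ : Y ⟶ X} (h : IsKHom K φ) {U : X.Opens} {V : Y.Opens}
    (hV : V ≤ φ ⁻¹ᵁ U) : kSec K U ≫ φ.appLE U V hV = kSec K V := by
  unfold kSec
  rw [Category.assoc, Scheme.Hom.appLE_comp_appLE]
  congr 1
  have : ∀ (α β : Y ⟶ Spec (CommRingCat.of K)) (_ : α = β),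
    α.appLE ⊤ V le_top = β.appLE ⊤ V le_top := by rintro α β rfl; rfl
  exact this _ _ h

variable {K} in
lemma IsKHom.rho_algebraMap {φ : Y ⟶ X} (h : IsKHom K φ) (c : K)
    (hc : algebraMap K X.functionField c ∈ stk X (φ (genericPoint Y))) :
    rho φ ⟨algebraMap K X.functionField c, hc⟩ = algebraMap K Y.functionField c := by
  refine (rho_germ φ (U := ⊤) (V := ⊤) le_top (kSec K ⊤ c) _).trans ?_
  rw [algebraMap_fun]
  congr 1
  rw [← h.appLE_kSec (U := ⊤) (V := ⊤) le_top]
  rfl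

/-- Pull back of rational functions under a dominant `K`-morphism -/
def pullK (φ : Y ⟶ X) (h : IsKHom K φ) (h' : IsDom φ) :
    X.functionField →ₐ[K] Y.functionField :=
  { pull φ h' with
    commutes' := fun c => h.rho_algebraMap c _ }

lemma pullK_apply (φ : Y ⟶ X) (h : IsKHom K φ) (h' : IsDom φ) (f : X.functionField) :
    pullK K φ h h' f = pull φ h' f := rfl

end overK

end

end Fermat.Agent.H20
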