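import Mathlib
import Fermat.Agent.H20.Fun

/-!
# Cartier divisors and the Picard group of an integral scheme
-/

set_option autoImplicit false

universe u

open AlgebraicGeometry CategoryTheory CategoryTheory.Limits TopologicalSpace

namespace Fermat.Agent.H20

noncomputable section

section

variable {X Y Z : Scheme.{u}} [IsIntegral X] [IsIntegral Y] [IsIntegral Z]

/-- rational functions which are units at `x` -/
def UG (X : Scheme.{u}) [IsIntegral X] (x : X) : Subgroup X.functionFieldˣ where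
  carrier := {a | (a : X.functionField) ∈ stk X x ∧ ((a⁻¹ : X.functionFieldˣ) : X.functionField) ∈
    stk X x}
  mul_mem' := by
    rintro a b ⟨ha, ha'⟩ ⟨hb, hb'⟩
    refine ⟨by simpa using mul_mem ha hb, ?_⟩
    rw [mul_inv]
    simpa using mul_mem ha' hb'
  one_mem' := by
    constructor
    · simpa using one_mem (stk X x)
    · simpa using one_mem (stk X x)
  inv_mem' := by
    rintro a ⟨ha, ha'⟩
    exact ⟨ha', by simpa using ha⟩

lemma mem_UG_iff {x : X} {a : X.functionFieldˣ} : a ∈ UG X x ↔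
    (a : X.functionField) ∈ stk X x ∧ ((a⁻¹ : X.functionFieldˣ) : X.functionField) ∈ stk X x :=
  Iff.rfl

lemma UG_mono {x y : X} (h : x ⤳ y) : UG X y ≤ UG X x :=
  fun _ ha => ⟨stk_mono h ha.1, stk_mono h ha.2⟩

lemma mem_UG_generic (a : X.functionFieldˣ) : a ∈ UG X (genericPoint X) :=
  ⟨stk_genericPoint _, stk_genericPoint _⟩

lemma isOpen_mem_UG (a : X.functionFieldˣ) : IsOpen {x : X | a ∈ UG X x} :=
  (isOpen_mem_stk (a : X.functionField)).inter (isOpen_mem_stk _)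

/-- units of the local ring -/
def ugUnit {x : X} (a : UG X x) : (stk X x)ˣ where
  val := ⟨a.1, a.2.1⟩
  inv := ⟨_, a.2.2⟩
  val_inv := by ext; simp
  inv_val := by ext; simp

/-- The pullback homomorphism on rational functions which are units at the image of the generic
point. -/
def rhoU (φ : Y ⟶ X) : UG X (φ (genericPoint Y)) →* Y.functionFieldˣ where
  toFun a := Units.map (rho φ).toMonoidHom (ugUnit a)
  map_one' := by
    have : ugUnit (1 : UG X (φ (genericPoint Y))) = 1 := by ext; rfl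
    rw [this, map_one]
  map_mul' a b := by
    have : ugUnit (a * b) = ugUnit a * ugUnit b := by ext; rfl
    rw [this, map_mul]

lemma coe_rhoU (φ : Y ⟶ X) (a : UG X (φ (genericPoint Y))) :
    (rhoU φ a : Y.functionField) = rho φ ⟨(a.1 : X.functionField), a.2.1⟩ := rfl

lemma mem_UG_generic_of_mem {φ : Y ⟶ X} {y : Y} {a : X.functionFieldˣ} (ha : a ∈ UG X (φ y)) :
    a ∈ UG X (φ (genericPoint Y)) := UG_mono (specializes_map_generic φ y) ha

lemma rhoU_mem_UG (φ : Y ⟶ X) {y : Y} {a : X.functionFieldˣ} (ha : a ∈ UG X (φ y)) :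
    rhoU φ ⟨a, mem_UG_generic_of_mem ha⟩ ∈ UG Y y := by
  refine ⟨rho_mem_stk φ ha.1, ?_⟩
  rw [← map_inv]
  exact rho_mem_stk φ ha.2

/-- Cartier divisors, as families of local equations. -/
def CDiv (X : Scheme.{u}) [IsIntegral X] : Subgroup (X → X.functionFieldˣ) where
  carrier := {D | ∀ x, ∃ U : X.Opens, x ∈ U ∧ ∀ y ∈ U, D y / D x ∈ UG X y}
  mul_mem' := by
    rintro D D' hD hD' x
    obtain ⟨U, hxU, hU⟩ := hD x
    obtain ⟨U', hxU', hU'⟩ := hD' x
    refine ⟨U ⊓ U', ⟨hxU, hxU'⟩, fun y hy => ?_⟩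
    have := mul_mem (hU y hy.1) (hU' y hy.2)
    rwa [div_mul_div_comm] at this
  one_mem' := fun x => ⟨⊤, trivial, fun y _ => by simp [one_mem]⟩
  inv_mem' := by
    rintro D hD x
    obtain ⟨U, hxU, hU⟩ := hD x
    refine ⟨U, hxU, fun y hy => ?_⟩
    have := inv_mem (hU y hy)
    rwa [Pi.inv_apply, Pi.inv_apply, inv_div_inv, ← inv_div]

lemma mem_CDiv_iff {D : X → X.functionFieldˣ} : D ∈ CDiv X ↔
    ∀ x, ∃ U : X.Opens, x ∈ U ∧ ∀ y ∈ U, D y / D x ∈ UG X y := Iff.rfl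

/-- Principal Cartier divisors -/
def Triv (X : Scheme.{u}) [IsIntegral X] : Subgroup (X → X.functionFieldˣ) where
  carrier := {D | ∃ f : X.functionFieldˣ, ∀ x, D x / f ∈ UG X x}
  mul_mem' := by
    rintro D D' ⟨f, hf⟩ ⟨f', hf'⟩
    refine ⟨f * f', fun x => ?_⟩
    have := mul_mem (hf x) (hf' x)
    rwa [div_mul_div_comm] at this
  one_mem' := ⟨1, fun x => by simp [one_mem]⟩
  inv_mem' := by
    rintro D ⟨f, hf⟩
    refine ⟨f⁻¹, fun x => ?_⟩
    have := inv_mem (hf x)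
    rwa [Pi.inv_apply, inv_div_inv, ← inv_div]

lemma mem_Triv_iff {D : X → X.functionFieldˣ} : D ∈ Triv X ↔
    ∃ f : X.functionFieldˣ, ∀ x, D x / f ∈ UG X x := Iff.rfl

lemma Triv_le_CDiv : Triv X ≤ CDiv X := by
  rintro D ⟨f, hf⟩ x
  have h1 : IsOpen {y : X | D x / f ∈ UG X y} := isOpen_mem_UG _
  refine ⟨⟨_, h1⟩, hf x, fun y hy => ?_⟩
  have := div_mem (hf y) hy
  rwa [div_div_div_cancel_right] at this

lemma cdiv_specializes {D : X → X.functionFieldˣ} (hD : D ∈ CDiv X) {x y : X}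
    (h : x ⤳ y) : D y / D x ∈ UG X x := by
  obtain ⟨U, hyU, hU⟩ := hD y
  have := inv_mem (hU x (h.mem_open U.isOpen hyU))
  rwa [inv_div] at this

/-- pull back of Cartier divisors -/
def pullD (φ : Y ⟶ X) (D : CDiv X) : Y → Y.functionFieldˣ := fun y =>
  rhoU φ ⟨D.1 (φ y) / D.1 (φ (genericPoint Y)),
    cdiv_specializes D.2 (specializes_map_generic φ y)⟩

lemma pullD_apply (φ : Y ⟶ X) (D : CDiv X) (y : Y) : pullD φ D y =
  rhoU φ ⟨D.1 (φ y) / D.1 (φ (genericPoint Y)),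
    cdiv_specializes D.2 (specializes_map_generic φ y)⟩ := rfl

lemma rhoU_div (φ : Y ⟶ X) {a b : X.functionFieldˣ} (ha : a ∈ UG X (φ (genericPoint Y)))
    (hb : b ∈ UG X (φ (genericPoint Y))) (hab : a / b ∈ UG X (φ (genericPoint Y))) :
    rhoU φ ⟨a / b, hab⟩ = rhoU φ ⟨a, ha⟩ / rhoU φ ⟨b, hb⟩ := by
  rw [← map_div]; rfl

lemma pullD_div (φ : Y ⟶ X) (D : CDiv X) (y z : Y)
    (h : D.1 (φ y) / D.1 (φ z) ∈ UG X (φ (genericPoint Y))) :
    pullD φ D y / pullD φ D z = rhoU φ ⟨D.1 (φ y) / D.1 (φ z), h⟩ := by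
  rw [pullD_apply, pullD_apply, ← map_div]
  congr 1
  ext
  simp

lemma pullD_mem (φ : Y ⟶ X) (D : CDiv X) : pullD φ D ∈ CDiv Y := by
  intro y
  obtain ⟨U, hyU, hU⟩ := D.2 (φ y)
  refine ⟨φ ⁻¹ᵁ U, hyU, fun z hz => ?_⟩
  have h1 := hU (φ z) hz
  rw [pullD_div φ D z y (mem_UG_generic_of_mem h1)]
  exact rhoU_mem_UG φ h1

/-- pull back of Cartier divisors, as a group homomorphism -/
def pullC (φ : Y ⟶ X) : CDiv X →* CDiv Y where
  toFun D := ⟨pullD φ D, pullD_mem φ D⟩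
  map_one' := by
    ext1
    funext y
    change rhoU φ _ = 1
    rw [← map_one (rhoU φ)]
    congr 1
    ext
    simp
  map_mul' D D' := by
    ext1
    funext y
    change rhoU φ _ = rhoU φ _ * rhoU φ _
    rw [← map_mul]
    congr 1
    ext
    simp [div_eq_mul_inv]
    ring

lemma pullC_apply (φ : Y ⟶ X) (D : CDiv X) : (pullC φ D).1 = pullD φ D := rfl

lemma pullC_mem_Triv (φ : Y ⟶ X) {D : CDiv X} (hD : D.1 ∈ Triv X) : (pullC φ D).1 ∈ Triv Y := by
  obtain ⟨f, hf⟩ := hD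
  refine ⟨(rhoU φ ⟨_, hf (φ (genericPoint Y))⟩)⁻¹, fun y => ?_⟩
  rw [div_inv_eq_mul, pullC_apply, pullD_apply, ← map_mul]
  have h1 := rhoU_mem_UG φ (hf (φ y))
  convert h1 using 2
  ext
  simp

lemma rhoU_comp (ψ : Z ⟶ Y) (φ : Y ⟶ X) (a : X.functionFieldˣ)
    (ha : a ∈ UG X ((ψ ≫ φ) (genericPoint Z))) (ha' : a ∈ UG X (φ (genericPoint Y)))
    (ha'' : rhoU φ ⟨a, ha'⟩ ∈ UG Y (ψ (genericPoint Z))) :
    rhoU (ψ ≫ φ) ⟨a, ha⟩ = rhoU ψ ⟨rhoU φ ⟨a, ha'⟩, ha''⟩ := by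
  ext
  exact rho_comp ψ φ _ _ _ _

lemma pullC_comp (ψ : Z ⟶ Y) (φ : Y ⟶ X) (D : CDiv X) :
    pullC (ψ ≫ φ) D = pullC ψ (pullC φ D) := by
  ext1
  funext z
  rw [pullC_apply, pullC_apply, pullD_apply, pullD_apply]
  have hsp : ψ (genericPoint Z) ⤳ ψ z := specializes_map_generic ψ z
  have h1 : D.1 (φ (ψ z)) / D.1 (φ (ψ (genericPoint Z))) ∈ UG X (φ (ψ (genericPoint Z))) :=
    cdiv_specializes D.2 (hsp.map φ.continuous)
  have h2 := mem_UG_generic_of_mem h1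
  have h3 := pullD_div φ D (ψ z) (ψ (genericPoint Z)) h2
  have h4 : (⟨(pullC φ D).1 (ψ z) / (pullC φ D).1 (ψ (genericPoint Z)),
      cdiv_specializes (pullC φ D).2 (specializes_map_generic ψ z)⟩ :
        UG Y (ψ (genericPoint Z))) = ⟨rhoU φ ⟨_, h2⟩, rhoU_mem_UG φ h1⟩ := Subtype.ext h3
  rw [h4]
  exact rhoU_comp ψ φ _ h1 h2 _

lemma pullC_id (D : CDiv X) (x : X) : (pullC (𝟙 X) D).1 x = D.1 x / D.1 (genericPoint X) := by
  rw [pullC_apply, pullD_apply]
  ext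
  rw [coe_rhoU]
  exact rho_id _ _

/-- The Picard group. -/
def PicI (X : Scheme.{u}) [IsIntegral X] : Type u :=
  Additive (CDiv X ⧸ (Triv X).subgroupOf (CDiv X))

instance : AddCommGroup (PicI X) :=
  inferInstanceAs (AddCommGroup (Additive (CDiv X ⧸ (Triv X).subgroupOf (CDiv X))))

/-- The class of a Cartier divisor -/
def cls (D : CDiv X) : PicI X := Additive.ofMul (QuotientGroup.mk D)

lemma cls_surjective : Function.Surjective (cls (X := X)) := fun c =>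
  QuotientGroup.mk_surjective (Additive.toMul c)

lemma cls_mul (D D' : CDiv X) : cls (D * D') = cls D + cls D' := rfl

lemma cls_one : cls (1 : CDiv X) = 0 := rfl

lemma cls_inv (D : CDiv X) : cls (D⁻¹) = - cls D := rfl

lemma cls_eq_zero_iff (D : CDiv X) : cls D = 0 ↔ D.1 ∈ Triv X := by
  have : cls D = 0 ↔ (QuotientGroup.mk D : CDiv X ⧸ (Triv X).subgroupOf (CDiv X)) = 1 := Iff.rfl
  rw [this, QuotientGroup.eq_one_iff]
  exact Subgroup.mem_subgroupOf

/-- pull back of divisor classes -/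
def pullP (φ : Y ⟶ X) : PicI X →+ PicI Y :=
  MonoidHom.toAdditive (QuotientGroup.map ((Triv X).subgroupOf (CDiv X))
    ((Triv Y).subgroupOf (CDiv Y)) (pullC φ) (fun D hD => by
      rw [Subgroup.mem_comap, Subgroup.mem_subgroupOf]
      exact pullC_mem_Triv φ (Subgroup.mem_subgroupOf.1 hD)))

@[simp] lemma pullP_cls (φ : Y ⟶ X) (D : CDiv X) : pullP φ (cls D) = cls (pullC φ D) := rfl

lemma pullP_comp (ψ : Z ⟶ Y) (φ : Y ⟶ X) (c : PicI X) :
    pullP (ψ ≫ φ) c = pullP ψ (pullP φ c) := by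
  obtain ⟨D, rfl⟩ := cls_surjective c
  simp only [pullP_cls]
  rw [pullC_comp]

lemma pullP_id (c : PicI X) : pullP (𝟙 X) c = c := by
  obtain ⟨D, rfl⟩ := cls_surjective c
  rw [pullP_cls]
  have : cls (pullC (𝟙 X) D * D⁻¹) = 0 := by
    rw [cls_eq_zero_iff]
    refine ⟨(D.1 (genericPoint X))⁻¹, fun x => ?_⟩
    have h1 : (pullC (𝟙 X) D * D⁻¹).1 x = (pullC (𝟙 X) D).1 x * (D.1 x)⁻¹ := rfl
    rw [h1, pullC_id]
    have h2 : D.1 x / D.1 (genericPoint X) * (D.1 x)⁻¹ / (D.1 (genericPoint X))⁻¹ = 1 := by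
      rw [div_inv_eq_mul, div_eq_mul_inv]
      rw [mul_assoc, mul_assoc, mul_comm (D.1 (genericPoint X))⁻¹, mul_assoc]
      simp
    rw [h2]
    exact one_mem _
  rw [cls_mul, cls_inv, add_neg_eq_zero] at this
  exact this

end

end

end Fermat.Agent.H20
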