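import Mathlib
import Fermat.Agent.H20.Prod
import Fermat.Agent.H20.Fun

/-!
# Function fields of products
-/

set_option autoImplicit false

universe u

open AlgebraicGeometry CategoryTheory CategoryTheory.Limits TopologicalSpace TensorProduct

namespace Fermat.Agent.H20

noncomputable section

variable (K : Type u) [Field K] [IsAlgClosed K] (X S : Scheme.{u}) [KSch K X] [KSch K S]
  [IsIntegral X] [IsIntegral S]

omit [IsIntegral X] [KSch K X] in
lemma exists_affine_nonempty (U : X.Opens) (hU : (U : Set X).Nonempty) :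
    ∃ (U' : X.Opens) (_ : IsAffineOpen U'), Nonempty U' ∧ U' ≤ U := by
  obtain ⟨x, hx⟩ := hU
  obtain ⟨U', hU', hxU', hle⟩ := exists_isAffineOpen_mem_and_subset (U := U) (x := x) hx
  exact ⟨U', hU', ⟨⟨x, hxU'⟩⟩, hle⟩

variable {X S} in
lemma boxO_nonempty {U : X.Opens} {V : S.Opens} (hU : (U : Set X).Nonempty)
    (hV : (V : Set S).Nonempty) : (boxO K U V : Set (kprod K X S)).Nonempty := by
  obtain ⟨U', hU', hne, hle⟩ := exists_affine_nonempty X U hU
  obtain ⟨V', hV', hne', hle'⟩ := exists_affine_nonempty S V hV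
  obtain ⟨z, hz⟩ := (boxO_irreducible K hU' hV').nonempty
  exact ⟨z, hle hz.1, hle' hz.2⟩

lemma isDom_pr1 : IsDom (pr1 K X S) := by
  apply isDom_of_forall
  intro U hU
  obtain ⟨z, hz⟩ := boxO_nonempty K (V := (⊤ : S.Opens)) hU ⟨genericPoint S, trivial⟩
  exact ⟨z, hz.1⟩

lemma isDom_pr2 : IsDom (pr2 K X S) := by
  apply isDom_of_forall
  intro V hV
  obtain ⟨z, hz⟩ := boxO_nonempty K (U := (⊤ : X.Opens)) ⟨genericPoint X, trivial⟩ hV
  exact ⟨z, hz.2⟩

omit [IsAlgClosed K] [IsIntegral X] [IsIntegral S] in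
lemma isKHom_pr1 : IsKHom K (pr1 K X S) := rfl

omit [IsAlgClosed K] [IsIntegral X] [IsIntegral S] in
lemma isKHom_pr2 : IsKHom K (pr2 K X S) := pullback.condition.symm

/-- pull back of rational functions along the first projection -/
def iX : X.functionField →ₐ[K] (kprod K X S).functionField :=
  pullK K (pr1 K X S) (isKHom_pr1 K X S) (isDom_pr1 K X S)

/-- pull back of rational functions along the second projection -/
def iS : S.functionField →ₐ[K] (kprod K X S).functionField :=
  pullK K (pr2 K X S) (isKHom_pr2 K X S) (isDom_pr2 K X S)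

variable {X S}

omit [IsAlgClosed K] [IsIntegral X] [IsIntegral S] in
lemma boxO_le_fst (U : X.Opens) (V : S.Opens) : boxO K U V ≤ pr1 K X S ⁻¹ᵁ U := inf_le_left

omit [IsAlgClosed K] [IsIntegral X] [IsIntegral S] in
lemma boxO_le_snd (U : X.Opens) (V : S.Opens) : boxO K U V ≤ pr2 K X S ⁻¹ᵁ V := inf_le_right

/-- pullback of sections, as algebra hom -/
def appK {X Y : Scheme.{u}} [KSch K X] [KSch K Y] (φ : Y ⟶ X) (h : IsKHom K φ) {U : X.Opens}
    {V : Y.Opens} (hV : V ≤ φ ⁻¹ᵁ U) : Γ(X, U) →ₐ[K] Γ(Y, V) :=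
  { (φ.appLE U V hV).hom with
    commutes' := fun c => by
      have := congrArg (fun g => g.hom c) (h.appLE_kSec hV)
      exact this }

omit [IsAlgClosed K] [IsIntegral X] [IsIntegral S] in
lemma appK_apply {X Y : Scheme.{u}} [KSch K X] [KSch K Y] (φ : Y ⟶ X) (h : IsKHom K φ)
    {U : X.Opens} {V : Y.Opens} (hV : V ≤ φ ⁻¹ᵁ U) (s : Γ(X, U)) :
    appK K φ h hV s = φ.appLE U V hV s := rfl

/-- functions on a box -/
def theta (U : X.Opens) (V : S.Opens) :
    Γ(X, U) ⊗[K] Γ(S, V) →ₐ[K] Γ(kprod K X S, boxO K U V) :=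
  Algebra.TensorProduct.productMap (appK K (pr1 K X S) (isKHom_pr1 K X S) (boxO_le_fst K U V))
    (appK K (pr2 K X S) (isKHom_pr2 K X S) (boxO_le_snd K U V))

omit [IsAlgClosed K] [IsIntegral X] [IsIntegral S] in
lemma appLE_congr_mor {X Y : Scheme.{u}} {φ φ' : Y ⟶ X} (e : φ = φ') (U : X.Opens) (V : Y.Opens)
    (hV : V ≤ φ ⁻¹ᵁ U) : φ.appLE U V hV = φ'.appLE U V (e ▸ hV) := by subst e; rfl

omit [IsAlgClosed K] [IsIntegral X] [IsIntegral S] in
lemma appLE_specMap_fromSpec {U : X.Opens} (hU : IsAffineOpen U) {T : CommRingCat.{u}}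
    (a : Γ(X, U) ⟶ T) (h : ⊤ ≤ (Spec.map a ≫ hU.fromSpec) ⁻¹ᵁ U) :
    (Spec.map a ≫ hU.fromSpec).appLE U ⊤ h ≫ (Scheme.ΓSpecIso T).hom = a := by
  rw [Scheme.Hom.comp_appLE, hU.fromSpec_app_self, Category.assoc, Category.assoc,
    Scheme.Hom.map_appLE_assoc]
  have h2 : (Spec.map a).appLE ⊤ ⊤ le_top = (Spec.map a).appTop := by
    simp [Scheme.Hom.appLE]
  have := Scheme.ΓSpecIso_naturality a
  rw [Iso.inv_comp_eq, ← this, ← h2]

lemma theta_bijective {U : X.Opens} (hU : IsAffineOpen U) {V : S.Opens} (hV : IsAffineOpen V) :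
    Function.Bijective (theta K U V) := by
  -- `ψ : Γ(Z, U × V) → Γ(U) ⊗ Γ(V)`
  set e := chart K hU hV with he
  have hle : boxO K U V ≤ e.opensRange := by
    intro z hz
    have : z ∈ Set.range e := by rw [he, chart_range]; exact hz
    exact this
  have htop : (⊤ : (Spec (CommRingCat.of (Γ(X, U) ⊗[K] Γ(S, V)))).Opens) ≤
      e ⁻¹ᵁ (boxO K U V) := by
    intro y _
    have : e y ∈ Set.range e := ⟨y, rfl⟩
    rw [he, chart_range] at this
    exact this
  have heq : e ⁻¹ᵁ (boxO K U V) = ⊤ := top_le_iff.1 htop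
  have hiso1 : IsIso (e.app (boxO K U V)) := Scheme.Hom.isIso_app e _ hle
  have hiso2 : IsIso ((Spec (CommRingCat.of (Γ(X, U) ⊗[K] Γ(S, V)))).presheaf.map
      (homOfLE htop).op) := by
    have : IsIso (homOfLE htop).op := by
      have : IsIso (homOfLE htop) := ⟨homOfLE le_top, rfl, rfl⟩
      infer_instance
    infer_instance
  let ψ : Γ(kprod K X S, boxO K U V) ⟶ CommRingCat.of (Γ(X, U) ⊗[K] Γ(S, V)) :=
    e.appLE (boxO K U V) ⊤ htop ≫ (Scheme.ΓSpecIso _).hom
  have hψiso : IsIso ψ := by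
    have : IsIso (e.appLE (boxO K U V) ⊤ htop) := by
      unfold Scheme.Hom.appLE
      infer_instance
    infer_instance
  have hψ : Function.Bijective ψ := ConcreteCategory.bijective_of_isIso ψ
  have h1 : ∀ a : Γ(X, U), ψ ((pr1 K X S).appLE U (boxO K U V) (boxO_le_fst K U V) a) =
      a ⊗ₜ[K] 1 := by
    intro a
    have h2 : (pr1 K X S).appLE U (boxO K U V) (boxO_le_fst K U V) ≫ ψ =
        CommRingCat.ofHom (Algebra.TensorProduct.includeLeftRingHom (R := K) (A := Γ(X, U))
          (B := Γ(S, V))) := by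
      simp only [ψ]
      rw [Scheme.Hom.appLE_comp_appLE_assoc, appLE_congr_mor (chart_fst K hU hV)]
      exact appLE_specMap_fromSpec hU _ _
    exact congrArg (fun g => g.hom a) h2
  have h1' : ∀ b : Γ(S, V), ψ ((pr2 K X S).appLE V (boxO K U V) (boxO_le_snd K U V) b) =
      1 ⊗ₜ[K] b := by
    intro b
    have h2 : (pr2 K X S).appLE V (boxO K U V) (boxO_le_snd K U V) ≫ ψ =
        CommRingCat.ofHom (Algebra.TensorProduct.includeRight (R := K) (A := Γ(X, U))
          (B := Γ(S, V))).toRingHom := by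
      simp only [ψ]
      rw [Scheme.Hom.appLE_comp_appLE_assoc, appLE_congr_mor (chart_snd K hU hV)]
      exact appLE_specMap_fromSpec hV _ _
    exact congrArg (fun g => g.hom b) h2
  have h3 : ∀ w, ψ (theta K U V w) = w := by
    intro w
    induction w using TensorProduct.induction_on with
    | zero => rw [map_zero, map_zero]
    | tmul a b =>
      rw [theta, Algebra.TensorProduct.productMap_apply_tmul, map_mul, appK_apply, appK_apply,
        h1, h1', Algebra.TensorProduct.tmul_mul_tmul, one_mul, mul_one]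
    | add a b ha hb => rw [map_add, map_add, ha, hb]
  refine ⟨fun a b hab => by rw [← h3 a, ← h3 b, hab], fun s => ?_⟩
  exact ⟨ψ s, hψ.1 (h3 _)⟩

instance boxO_nonempty' (U : X.Opens) [hU : Nonempty U] (V : S.Opens) [hV : Nonempty V] :
    Nonempty (boxO K U V) := by
  obtain ⟨x, hx⟩ := hU
  obtain ⟨y, hy⟩ := hV
  obtain ⟨z, hz⟩ := boxO_nonempty K (U := U) (V := V) ⟨x, hx⟩ ⟨y, hy⟩
  exact ⟨⟨z, hz⟩⟩

lemma germ_theta (U : X.Opens) [Nonempty U] (V : S.Opens) [Nonempty V]
    (w : Γ(X, U) ⊗[K] Γ(S, V)) :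
    (kprod K X S).germToFunctionField (boxO K U V) (theta K U V w) =
      Algebra.TensorProduct.productMap (iX K X S) (iS K X S)
        (Algebra.TensorProduct.map ((sec K U).val.comp (secEquiv K U).toAlgHom)
          ((sec K V).val.comp (secEquiv K V).toAlgHom) w) := by
  induction w using TensorProduct.induction_on with
  | zero => simp
  | tmul a b =>
    rw [theta, Algebra.TensorProduct.productMap_apply_tmul, map_mul, appK_apply, appK_apply,
      Algebra.TensorProduct.map_tmul, Algebra.TensorProduct.productMap_apply_tmul]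
    congr 1
    · exact (pull_germ (pr1 K X S) (isDom_pr1 K X S) (boxO_le_fst K U V) a).symm
    · exact (pull_germ (pr2 K X S) (isDom_pr2 K X S) (boxO_le_snd K U V) b).symm
  | add a b ha hb => simp only [map_add, ha, hb]

/-- Sections over a product of affine opens. -/
theorem mem_sec_boxO_iff {U : X.Opens} (hU : IsAffineOpen U) [Nonempty U] {V : S.Opens}
    (hV : IsAffineOpen V) [Nonempty V] (z : (kprod K X S).functionField) :
    z ∈ sec K (boxO K U V) ↔ z ∈ boxR (iX K X S) (iS K X S) (sec K U) (sec K V) := by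
  constructor
  · intro hz
    obtain ⟨s, rfl⟩ := exists_section_of_forall_mem_stk hz
    obtain ⟨w, rfl⟩ := (theta_bijective K hU hV).2 s
    rw [germ_theta]
    refine ⟨Algebra.TensorProduct.map (secEquiv K U).toAlgHom (secEquiv K V).toAlgHom w, ?_⟩
    have key : ∀ w : Γ(X, U) ⊗[K] Γ(S, V),
        Algebra.TensorProduct.productMap ((iX K X S).comp (sec K U).val)
          ((iS K X S).comp (sec K V).val)
          (Algebra.TensorProduct.map (secEquiv K U).toAlgHom (secEquiv K V).toAlgHom w) =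
        Algebra.TensorProduct.productMap (iX K X S) (iS K X S)
        (Algebra.TensorProduct.map ((sec K U).val.comp (secEquiv K U).toAlgHom)
          ((sec K V).val.comp (secEquiv K V).toAlgHom) w) := by
      intro w
      induction w using TensorProduct.induction_on with
      | zero => simp
      | tmul a b => simp
      | add a b ha hb =>
        rw [map_add, map_add, ha, hb, map_add, map_add]
    exact key w
  · rintro ⟨w, rfl⟩
    induction w using TensorProduct.induction_on with
    | zero => simp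
    | tmul a b =>
      change Algebra.TensorProduct.productMap ((iX K X S).comp (sec K U).val)
        ((iS K X S).comp (sec K V).val) (a ⊗ₜ b) ∈ _
      rw [Algebra.TensorProduct.productMap_apply_tmul]
      refine mul_mem ?_ ?_
      · intro x hx
        exact pull_mem_stk (isDom_pr1 K X S) (a.2 _ hx.1)
      · intro x hx
        exact pull_mem_stk (isDom_pr2 K X S) (b.2 _ hx.2)
    | add a b ha hb =>
      rw [map_add]
      exact add_mem ha hb

omit [IsAlgClosed K] in
/-- Clearing denominators. -/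
lemma exists_clear {U : X.Opens} (hU : IsAffineOpen U) [Nonempty U]
    (s : Finset X.functionField) :
    ∃ u : X.functionField, u ≠ 0 ∧ u ∈ sec K U ∧ ∀ f ∈ s, u * f ∈ sec K U := by
  have := functionField_isFractionRing_of_isAffineOpen X U hU
  obtain ⟨b, hb⟩ := IsLocalization.exist_integer_multiples_of_finset
    (nonZeroDivisors Γ(X, U)) s
  refine ⟨X.germToFunctionField U b, ?_, germ_mem_sec K _, fun f hf => ?_⟩
  · intro h0
    exact nonZeroDivisors.ne_zero b.2 (X.germToFunctionField_injective U (by rw [h0, map_zero]))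
  · obtain ⟨c, hc⟩ := hb f hf
    have h2 : X.germToFunctionField U c = X.germToFunctionField U b * f := by
      refine Eq.trans ?_ (hc.trans ?_)
      · rfl
      · exact Algebra.smul_def _ _
    rw [← h2]
    exact germ_mem_sec K _

omit [IsAlgClosed K] in
lemma exists_clear_tensor_aux {U : X.Opens} [Nonempty U] {V : S.Opens} [Nonempty V]
    (w : X.functionField ⊗[K] S.functionField) :
    ∃ (A : Finset X.functionField) (B : Finset S.functionField),
      ∀ (u : X.functionField) (v : S.functionField), (∀ a ∈ A, u * a ∈ sec K U) →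
        (∀ b ∈ B, v * b ∈ sec K V) →
      ∃ w' : Γ(X, U) ⊗[K] Γ(S, V), (u ⊗ₜ[K] v) * w =
        Algebra.TensorProduct.map ((sec K U).val.comp (secEquiv K U).toAlgHom)
          ((sec K V).val.comp (secEquiv K V).toAlgHom) w' := by
  classical
  induction w using TensorProduct.induction_on with
  | zero => exact ⟨∅, ∅, fun u v _ _ => ⟨0, by rw [mul_zero, map_zero]⟩⟩
  | tmul a b =>
    refine ⟨{a}, {b}, fun u v hu hv => ?_⟩
    refine ⟨(secEquiv K U).symm ⟨u * a, hu a (by simp)⟩ ⊗ₜ
      (secEquiv K V).symm ⟨v * b, hv b (by simp)⟩, ?_⟩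
    rw [Algebra.TensorProduct.tmul_mul_tmul, Algebra.TensorProduct.map_tmul]
    simp
  | add a b ha hb =>
    obtain ⟨A, B, h⟩ := ha
    obtain ⟨A', B', h'⟩ := hb
    refine ⟨A ∪ A', B ∪ B', fun u v hu hv => ?_⟩
    obtain ⟨w₁, h₁⟩ := h u v (fun a ha => hu a (Finset.mem_union_left _ ha))
      (fun b hb => hv b (Finset.mem_union_left _ hb))
    obtain ⟨w₂, h₂⟩ := h' u v (fun a ha => hu a (Finset.mem_union_right _ ha))
      (fun b hb => hv b (Finset.mem_union_right _ hb))
    exact ⟨w₁ + w₂, by rw [mul_add, h₁, h₂, map_add]⟩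

omit [IsAlgClosed K] in
lemma exists_clear_tensor {U : X.Opens} (hU : IsAffineOpen U) [Nonempty U]
    {V : S.Opens} (hV : IsAffineOpen V) [Nonempty V]
    (w : X.functionField ⊗[K] S.functionField) :
    ∃ (u : X.functionField) (v : S.functionField), u ≠ 0 ∧ v ≠ 0 ∧
      ∃ w' : Γ(X, U) ⊗[K] Γ(S, V), (u ⊗ₜ[K] v) * w =
        Algebra.TensorProduct.map ((sec K U).val.comp (secEquiv K U).toAlgHom)
          ((sec K V).val.comp (secEquiv K V).toAlgHom) w' := by
  obtain ⟨A, B, h⟩ := exists_clear_tensor_aux K (U := U) (V := V) w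
  obtain ⟨u, hu, -, hu'⟩ := exists_clear K hU A
  obtain ⟨v, hv, -, hv'⟩ := exists_clear K hV B
  exact ⟨u, v, hu, hv, h u v hu' hv'⟩

/-- The function fields of the factors are linearly disjoint in the function field of the
product. -/
theorem productMap_injective :
    Function.Injective (Algebra.TensorProduct.productMap (iX K X S) (iS K X S)) := by
  rw [injective_iff_map_eq_zero]
  intro w hw
  obtain ⟨U, hU, hne, -⟩ := exists_affine_nonempty X ⊤ ⟨genericPoint X, trivial⟩
  obtain ⟨V, hV, hne', -⟩ := exists_affine_nonempty S ⊤ ⟨genericPoint S, trivial⟩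
  obtain ⟨u, v, hu, hv, w', hw'⟩ := exists_clear_tensor K hU hV w
  have h1 : (kprod K X S).germToFunctionField (boxO K U V) (theta K U V w') = 0 := by
    rw [germ_theta, ← hw', map_mul, hw, mul_zero]
  have h2 : w' = 0 := by
    apply (theta_bijective K hU hV).1
    apply (kprod K X S).germToFunctionField_injective (boxO K U V)
    rw [h1, map_zero, map_zero]
  rw [h2, map_zero] at hw'
  have h3 : (u⁻¹ ⊗ₜ[K] v⁻¹) * ((u ⊗ₜ[K] v) * w) = w := by
    rw [← mul_assoc, Algebra.TensorProduct.tmul_mul_tmul, inv_mul_cancel₀ hu, inv_mul_cancel₀ hv,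
      ← Algebra.TensorProduct.one_def, one_mul]
  rw [← h3, hw', mul_zero]

end

end Fermat.Agent.H20
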