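import Mathlib
import Fermat.Agent.H20.ProdFun
import Fermat.Agent.H20.CDiv

/-!
# Affine opens: local rings as localizations
-/

set_option autoImplicit false

universe u

open AlgebraicGeometry CategoryTheory CategoryTheory.Limits TopologicalSpace TensorProduct

namespace Fermat.Agent.H20

noncomputable section

section

variable {X Y : Scheme.{u}} [IsIntegral X] [IsIntegral Y]

/-- `rho` detects units -/
lemma mem_stk_of_rho {φ : Y ⟶ X} {y : Y} {f : X.functionField} (hf : f ∈ stk X (φ y))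
    (h0 : rho φ ⟨f, mem_stk_generic_of_mem hf⟩ ≠ 0)
    (h1 : (rho φ ⟨f, mem_stk_generic_of_mem hf⟩)⁻¹ ∈ stk Y y) : f⁻¹ ∈ stk X (φ y) ∧ f ≠ 0 := by
  obtain ⟨a, rfl⟩ := hf
  rw [rho_eq_stalkMap] at h0 h1
  obtain ⟨b, hb⟩ := h1
  have hu : IsUnit ((φ.stalkMap y).hom a) := by
    refine IsUnit.of_mul_eq_one b ?_
    apply algebraMap_stalk_injective y
    rw [map_mul, map_one, hb, mul_inv_cancel₀ h0]
  have hua : IsUnit a := by
    exact (isUnit_map_iff (φ.stalkMap y).hom a).1 hu
  obtain ⟨a', rfl⟩ := hua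
  have h2 : algebraMap (X.presheaf.stalk (φ y)) X.functionField a' *
      algebraMap (X.presheaf.stalk (φ y)) X.functionField ((a'⁻¹ : (X.presheaf.stalk (φ y))ˣ)) =
        1 := by
    rw [← map_mul, Units.mul_inv, map_one]
  refine ⟨?_, left_ne_zero_of_mul_eq_one h2⟩
  rw [inv_eq_of_mul_eq_one_right h2]
  exact ⟨_, rfl⟩

/-- `rho` at a generic point: nonzero implies unit. -/
lemma mem_stk_of_rho_generic {φ : Y ⟶ X} {f : X.functionField}
    (hf : f ∈ stk X (φ (genericPoint Y))) (h0 : rho φ ⟨f, hf⟩ ≠ 0) :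
    f⁻¹ ∈ stk X (φ (genericPoint Y)) ∧ f ≠ 0 :=
  mem_stk_of_rho hf h0 (stk_genericPoint _)

lemma exists_div_of_mem_stk {U : X.Opens} (hU : IsAffineOpen U) {x : X} (hx : x ∈ U)
    {f : X.functionField} (hf : f ∈ stk X x) :
    ∃ a b : X.functionField, (∀ y ∈ U, a ∈ stk X y) ∧ (∀ y ∈ U, b ∈ stk X y) ∧ b ≠ 0 ∧
      b⁻¹ ∈ stk X x ∧ f = a / b := by
  have hne : Nonempty U := ⟨⟨x, hx⟩⟩
  obtain ⟨g, rfl⟩ := hf
  let _ := TopCat.Presheaf.algebra_section_stalk X.presheaf (⟨x, hx⟩ : U)
  have := hU.isLocalization_stalk ⟨x, hx⟩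
  obtain ⟨⟨a, b⟩, hab⟩ := IsLocalization.surj (hU.primeIdealOf ⟨x, hx⟩).asIdeal.primeCompl g
  have halg : ∀ c : Γ(X, U), algebraMap Γ(X, U) (X.presheaf.stalk x) c =
    X.presheaf.germ U x hx c := fun c => rfl
  have hb : IsUnit (algebraMap Γ(X, U) (X.presheaf.stalk x) b) := IsLocalization.map_units _ b
  have e1 : ∀ c : Γ(X, U), algebraMap (X.presheaf.stalk x) X.functionField
      (algebraMap Γ(X, U) (X.presheaf.stalk x) c) = X.germToFunctionField U c := by
    intro c
    rw [halg]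
    exact X.algebraMap_germ_eq_germToFunctionField hx c
  obtain ⟨b', hb'⟩ := hb
  have h2 : X.germToFunctionField U b *
      algebraMap (X.presheaf.stalk x) X.functionField ((b'⁻¹ : (X.presheaf.stalk x)ˣ)) = 1 := by
    rw [← e1, ← hb', ← map_mul, Units.mul_inv, map_one]
  have hb0 : X.germToFunctionField U b ≠ 0 := left_ne_zero_of_mul_eq_one h2
  refine ⟨X.germToFunctionField U a, X.germToFunctionField U b,
    fun y hy => germ_mem_stk hy a, fun y hy => germ_mem_stk hy _, hb0, ?_, ?_⟩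
  · rw [inv_eq_of_mul_eq_one_right h2]
    exact ⟨_, rfl⟩
  · rw [eq_div_iff hb0, ← e1, ← e1, ← map_mul, hab]

/-- Ring homomorphisms defined on local rings are determined by sections. -/
lemma stk_hom_ext {U : X.Opens} (hU : IsAffineOpen U) {x : X} (hx : x ∈ U) {L : Type*}
    [CommRing L] (α β : stk X x →+* L)
    (h : ∀ a, ∀ ha : (∀ y ∈ U, a ∈ stk X y), α ⟨a, ha x hx⟩ = β ⟨a, ha x hx⟩) : α = β := by
  ext ⟨f, hf⟩
  obtain ⟨a, b, ha, hb, hb0, hb1, rfl⟩ := exists_div_of_mem_stk hU hx hf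
  have hmul : (⟨a / b, hf⟩ : stk X x) * ⟨b, hb x hx⟩ = ⟨a, ha x hx⟩ := by
    ext; simp [div_mul_cancel₀ _ hb0]
  have hunit : IsUnit (⟨b, hb x hx⟩ : stk X x) := by
    refine IsUnit.of_mul_eq_one ⟨b⁻¹, hb1⟩ ?_
    ext; simp [hb0]
  have h1 := congrArg α hmul
  have h2 := congrArg β hmul
  rw [map_mul] at h1 h2
  rw [h b hb, h a ha] at h1
  exact (hunit.map β).mul_right_cancel (h1.trans h2.symm)

end

section affine

variable (K : Type u) [Field K] (B : Type u) [CommRing B] [Algebra K B]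

instance kschSpec : KSch K (Spec (CommRingCat.of B)) :=
  ⟨Spec.map (CommRingCat.ofHom (algebraMap K B))⟩

lemma pK_spec : pK K (Spec (CommRingCat.of B)) = Spec.map (CommRingCat.ofHom (algebraMap K B)) :=
  rfl

lemma kSec_spec : kSec K (X := Spec (CommRingCat.of B)) ⊤ =
    CommRingCat.ofHom (algebraMap K B) ≫ (Scheme.ΓSpecIso (CommRingCat.of B)).inv := by
  rw [kSec, Iso.inv_comp_eq]
  have := Scheme.ΓSpecIso_naturality (CommRingCat.ofHom (algebraMap K B))
  rw [← Category.assoc, ← this, Category.assoc, Iso.hom_inv_id, Category.comp_id]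
  simp [Scheme.Hom.appLE, pK_spec]

variable [IsDomain B]

/-- Elements of `B` as rational functions on `Spec B`. -/
def specFun : B →ₐ[K] (Spec (CommRingCat.of B)).functionField :=
  { ((Spec (CommRingCat.of B)).germToFunctionField ⊤).hom.comp
      (Scheme.ΓSpecIso (CommRingCat.of B)).inv.hom with
    commutes' := fun c => by
      rw [algebraMap_fun, kSec_spec]
      rfl }

lemma specFun_apply (b : B) : specFun K B b =
    (Spec (CommRingCat.of B)).germToFunctionField ⊤ ((Scheme.ΓSpecIso (CommRingCat.of B)).inv b) :=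
  rfl

lemma specFun_injective : Function.Injective (specFun K B) := by
  intro a b hab
  rw [specFun_apply, specFun_apply] at hab
  have h1 := (Spec (CommRingCat.of B)).germToFunctionField_injective ⊤ hab
  exact (ConcreteCategory.bijective_of_isIso
    (Scheme.ΓSpecIso (CommRingCat.of B)).inv).1 h1

lemma mem_sec_top_spec_iff (f : (Spec (CommRingCat.of B)).functionField) :
    f ∈ sec K (X := Spec (CommRingCat.of B)) ⊤ ↔ ∃ b, specFun K B b = f := by
  constructor
  · intro hf
    obtain ⟨s, rfl⟩ := exists_section_of_forall_mem_stk hf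
    obtain ⟨b, rfl⟩ := (ConcreteCategory.bijective_of_isIso
      (Scheme.ΓSpecIso (CommRingCat.of B)).inv).2 s
    exact ⟨b, rfl⟩
  · rintro ⟨b, rfl⟩
    rw [specFun_apply]
    exact germ_mem_sec K _

/-- pull back of functions under a morphism to an affine scheme -/
lemma rho_specMap {B' : Type u} [CommRing B'] [Algebra K B'] [IsDomain B'] (g : B →+* B')
    (b : B) (h : specFun K B b ∈ stk (Spec (CommRingCat.of B))
      (Spec.map (CommRingCat.ofHom g) (genericPoint (Spec (CommRingCat.of B'))))) :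
    rho (Spec.map (CommRingCat.ofHom g)) ⟨specFun K B b, h⟩ = specFun K B' (g b) := by
  refine (rho_germ (Spec.map (CommRingCat.ofHom g)) (U := ⊤) (V := ⊤) le_top _ _).trans ?_
  rw [specFun_apply]
  congr 1
  have h2 : (Spec.map (CommRingCat.ofHom g)).appLE ⊤ ⊤ le_top =
      (Spec.map (CommRingCat.ofHom g)).appTop := by
    simp [Scheme.Hom.appLE]
  rw [h2]
  have h3 := Scheme.ΓSpecIso_naturality (CommRingCat.ofHom g)
  have h4 : (Scheme.ΓSpecIso (CommRingCat.of B)).inv ≫ (Spec.map (CommRingCat.ofHom g)).appTop =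
      CommRingCat.ofHom g ≫ (Scheme.ΓSpecIso (CommRingCat.of B')).inv := by
    rw [Iso.inv_comp_eq, ← Category.assoc, ← h3, Category.assoc, Iso.hom_inv_id, Category.comp_id]
  exact congrArg (fun φ => φ.hom b) h4

end affine

end

end Fermat.Agent.H20
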