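import Mathlib
import Fermat.Agent.H20.Affine
import Fermat.Agent.H20.PSUnits

/-!
# Cousin problems on affine schemes, triviality of formal line bundles on affine schemes
-/

set_option autoImplicit false

universe u

open AlgebraicGeometry CategoryTheory CategoryTheory.Limits TopologicalSpace PowerSeries

namespace Fermat.Agent.H20

noncomputable section

section

variable {X : Scheme.{u}} [IsIntegral X]

lemma mem_basicOpen_iff_stk {U : X.Opens} [Nonempty U] (s : Γ(X, U)) {y : X} (hy : y ∈ U)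
    (hs : s ≠ 0) : y ∈ X.basicOpen s ↔ (X.germToFunctionField U s)⁻¹ ∈ stk X y := by
  have hne : X.germToFunctionField U s ≠ 0 := by
    intro h
    exact hs (X.germToFunctionField_injective U (by rw [h, map_zero]))
  rw [Scheme.mem_basicOpen X s y hy]
  have e1 : algebraMap (X.presheaf.stalk y) X.functionField (X.presheaf.germ U y hy s) =
    X.germToFunctionField U s := X.algebraMap_germ_eq_germToFunctionField hy s
  constructor
  · rintro ⟨v, hv⟩
    refine ⟨((v⁻¹ : (X.presheaf.stalk y)ˣ) : X.presheaf.stalk y), ?_⟩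
    symm
    apply inv_eq_of_mul_eq_one_right
    rw [← e1, ← hv, ← map_mul, Units.mul_inv, map_one]
  · rintro ⟨b, hb⟩
    refine IsUnit.of_mul_eq_one b ?_
    apply algebraMap_stalk_injective y
    rw [map_mul, map_one, hb, e1, mul_inv_cancel₀ hne]

omit [IsIntegral X] in
lemma mem_basicOpen_iff_notMem {U : X.Opens} (hU : IsAffineOpen U) (s : Γ(X, U))
    (p : PrimeSpectrum Γ(X, U)) : hU.fromSpec p ∈ X.basicOpen s ↔ s ∉ p.asIdeal := by
  have h1 : p ∈ hU.fromSpec ⁻¹ᵁ X.basicOpen s ↔ p ∈ PrimeSpectrum.basicOpen s := by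
    rw [hU.fromSpec_preimage_basicOpen s]
    exact Iff.rfl
  exact h1

omit [IsIntegral X] in
lemma fromSpec_mem {U : X.Opens} (hU : IsAffineOpen U) (p : PrimeSpectrum Γ(X, U)) :
    hU.fromSpec p ∈ U := by
  have : hU.fromSpec p ∈ Set.range hU.fromSpec := ⟨p, rfl⟩
  rwa [hU.range_fromSpec] at this

/-- denominators -/
def denIdeal (U : X.Opens) [Nonempty U] (z : X.functionField) : Ideal Γ(X, U) where
  carrier := {a | ∀ y ∈ U, X.germToFunctionField U a * z ∈ stk X y}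
  add_mem' := by
    intro a b ha hb y hy
    rw [map_add, add_mul]
    exact add_mem (ha y hy) (hb y hy)
  zero_mem' := by
    intro y _
    rw [map_zero, zero_mul]
    exact zero_mem _
  smul_mem' := by
    intro c a ha y hy
    rw [smul_eq_mul, map_mul, mul_assoc]
    exact mul_mem (germ_mem_stk hy c) (ha y hy)

/-- A rational function which is regular on `D(s) ∩ U` becomes regular on `U` after
multiplication with a power of `s`. -/
lemma exists_pow_mul_mem {U : X.Opens} (hU : IsAffineOpen U) [Nonempty U] (s : Γ(X, U))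
    (z : X.functionField) (hz : ∀ y ∈ U, y ∈ X.basicOpen s → z ∈ stk X y) :
    ∃ N : ℕ, ∀ y ∈ U, X.germToFunctionField U s ^ N * z ∈ stk X y := by
  have hs : s ∈ (denIdeal U z).radical := by
    rw [Ideal.radical_eq_sInf, Ideal.mem_sInf]
    rintro p ⟨hp, hprime⟩
    by_contra hsp
    set y := hU.fromSpec ⟨p, hprime⟩ with hy
    have hyU : y ∈ U := fromSpec_mem hU _
    have hys : y ∈ X.basicOpen s := (mem_basicOpen_iff_notMem hU s ⟨p, hprime⟩).2 hsp
    obtain ⟨a, b, ha, hb, hb0, hb1, hab⟩ := exists_div_of_mem_stk hU hyU (hz y hyU hys)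
    obtain ⟨b', rfl⟩ := exists_section_of_forall_mem_stk hb
    have hb'0 : b' ≠ 0 := by
      rintro rfl
      exact hb0 (map_zero _)
    have h1 : y ∈ X.basicOpen b' := (mem_basicOpen_iff_stk b' hyU hb'0).2 hb1
    have h2 : b' ∉ p := (mem_basicOpen_iff_notMem hU b' ⟨p, hprime⟩).1 h1
    apply h2
    apply hp
    intro y' hy'
    rw [hab, mul_div_cancel₀ _ hb0]
    exact ha y' hy'
  obtain ⟨N, hN⟩ := hs
  refine ⟨N, fun y hy => ?_⟩
  have := hN y hy
  rwa [map_pow] at this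

omit [IsIntegral X] in
/-- Local data on an affine open subset can be found on a finite cover by basic open sets. -/
lemma exists_finite_basic_cover {U : X.Opens} (hU : IsAffineOpen U)
    (P : X → X → Prop) (h : ∀ x ∈ U, ∃ V : X.Opens, x ∈ V ∧ ∀ y ∈ V, y ∈ U → P x y) :
    ∃ (n : ℕ) (q : Fin n → X) (s : Fin n → Γ(X, U)), (∀ k, q k ∈ U) ∧
      Ideal.span (Set.range s) = ⊤ ∧ ∀ k, ∀ y ∈ X.basicOpen (s k), P (q k) y := by
  choose V hV hVP using h
  have h1 : ∀ x : U, ∃ f : Γ(X, U), X.basicOpen f ≤ V x.1 x.2 ∧ x.1 ∈ X.basicOpen f :=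
    fun x => hU.exists_basicOpen_le ⟨x.1, hV x.1 x.2⟩ x.2
  choose f hf hf' using h1
  have hspan : Ideal.span (Set.range f) = ⊤ := by
    rw [← hU.self_le_iSup_basicOpen_iff]
    intro x hx
    rw [iSup_range', Opens.mem_iSup]
    exact ⟨⟨x, hx⟩, hf' ⟨x, hx⟩⟩
  obtain ⟨t, ht, ht'⟩ := (Ideal.span_eq_top_iff_finite _).1 hspan
  have h2 : ∀ g : t, ∃ x : U, f x = g.1 := fun g => ht g.2
  choose x hx using h2
  let e := t.equivFin.symm
  refine ⟨t.card, fun k => (x (e k)).1, fun k => (e k).1, fun k => (x (e k)).2, ?_, ?_⟩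
  · rw [← ht']
    congr 1
    ext g
    constructor
    · rintro ⟨k, rfl⟩
      exact (e k).2
    · intro hg
      exact ⟨e.symm ⟨g, hg⟩, by simp⟩
  · intro k y hy
    have h3 : y ∈ X.basicOpen (f (x (e k))) := by rw [hx]; exact hy
    exact hVP _ (x (e k)).2 y (hf _ h3) (X.basicOpen_le _ hy)

/-- The additive Cousin problem is solvable on an affine open subset. -/
theorem cousin_affine {U : X.Opens} (hU : IsAffineOpen U) (ξ : X → X.functionField)
    (h : ∀ x ∈ U, ∃ V : X.Opens, x ∈ V ∧ ∀ y ∈ V, y ∈ U → ξ y - ξ x ∈ stk X y) :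
    ∃ η : X.functionField, ∀ x ∈ U, ξ x - η ∈ stk X x := by
  by_cases hne : Nonempty U
  swap
  · exact ⟨0, fun x hx => absurd ⟨⟨x, hx⟩⟩ hne⟩
  obtain ⟨n, q, s, hq, hs, hP⟩ := exists_finite_basic_cover hU (fun x y => ξ y - ξ x ∈ stk X y) h
  -- exponents
  have hN : ∀ k l : Fin n, ∃ N : ℕ, ∀ M, N ≤ M → ∀ y ∈ X.basicOpen (s l),
      X.germToFunctionField U (s k) ^ M * (ξ (q l) - ξ (q k)) ∈ stk X y := by
    intro k l
    by_cases hsl : s l = 0
    · refine ⟨0, fun M _ y hy => ?_⟩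
      rw [hsl] at hy
      simp at hy
    have hkl : ∀ y ∈ U, y ∈ X.basicOpen (s k * s l) → ξ (q l) - ξ (q k) ∈ stk X y := by
      intro y hyU hy
      rw [Scheme.basicOpen_mul] at hy
      have h1 := hP k y hy.1
      have h2 := hP l y hy.2
      have := sub_mem h1 h2
      simpa using this
    obtain ⟨N, hN⟩ := exists_pow_mul_mem hU (s k * s l) _ hkl
    refine ⟨N, fun M hM y hy => ?_⟩
    have hyU := X.basicOpen_le _ hy
    have h1 := hN y hyU
    have h2 : (X.germToFunctionField U (s l))⁻¹ ∈ stk X y :=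
      (mem_basicOpen_iff_stk (s l) hyU hsl).1 hy
    have hl0 : X.germToFunctionField U (s l) ≠ 0 := by
      intro h
      exact hsl (X.germToFunctionField_injective U (by rw [h, map_zero]))
    have h3 : X.germToFunctionField U (s k) ^ N * (ξ (q l) - ξ (q k)) =
        (X.germToFunctionField U (s l))⁻¹ ^ N *
          (X.germToFunctionField U (s k * s l) ^ N * (ξ (q l) - ξ (q k))) := by
      rw [map_mul, mul_pow, inv_pow]
      field_simp
    obtain ⟨M', rfl⟩ := Nat.exists_eq_add_of_le hM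
    rw [add_comm, pow_add, mul_assoc, h3]
    exact mul_mem (pow_mem (germ_mem_stk hyU _) _) (mul_mem (pow_mem h2 _) h1)
  choose Nf hNf using hN
  obtain ⟨M, hM⟩ : ∃ M : ℕ, ∀ k l, Nf k l ≤ M :=
    ⟨∑ k, ∑ l, Nf k l, fun k l => (Finset.single_le_sum (f := fun l => Nf k l)
      (fun _ _ => Nat.zero_le _) (Finset.mem_univ l)).trans
      (Finset.single_le_sum (f := fun k => ∑ l, Nf k l) (fun _ _ => Nat.zero_le _)
        (Finset.mem_univ k))⟩
  have hspan : Ideal.span (Set.range fun k => s k ^ M) = ⊤ := by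
    have := Ideal.span_pow_eq_top _ hs M
    rw [← this]
    congr 1
    ext g
    simp
  have h1 : (1 : Γ(X, U)) ∈ Ideal.span (Set.range fun k => s k ^ M) := by rw [hspan]; trivial
  obtain ⟨g, hg⟩ := (Ideal.mem_span_range_iff_exists_fun).1 h1
  let G := X.germToFunctionField U
  have hg' : ∑ k, G (g k) * G (s k) ^ M = 1 := by
    have := congrArg G hg
    rw [map_sum, map_one] at this
    simpa using this
  refine ⟨∑ k, G (g k) * G (s k) ^ M * ξ (q k), fun x hx => ?_⟩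
  -- find l with x ∈ D(s l)
  obtain ⟨l, hl⟩ : ∃ l, x ∈ X.basicOpen (s l) := by
    have := (hU.self_le_iSup_basicOpen_iff (s := Set.range s)).2 hs hx
    rw [iSup_range', Opens.mem_iSup] at this
    exact this
  have h2 : ξ x - ∑ k, G (g k) * G (s k) ^ M * ξ (q k) =
      (ξ x - ξ (q l)) + ∑ k, G (g k) * (G (s k) ^ M * (ξ (q l) - ξ (q k))) := by
    have h3 : ∑ k, G (g k) * (G (s k) ^ M * (ξ (q l) - ξ (q k))) =
        (∑ k, G (g k) * G (s k) ^ M) * ξ (q l) - ∑ k, G (g k) * G (s k) ^ M * ξ (q k) := by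
      rw [Finset.sum_mul, ← Finset.sum_sub_distrib]
      exact Finset.sum_congr rfl fun k _ => by ring
    rw [h3, hg']
    ring
  rw [h2]
  exact add_mem (hP l x hl) (sum_mem fun k _ => mul_mem (germ_mem_stk hx _)
    (hNf k l M (hM k l) x hl))

end

section limit

variable {F : Type*} [Field F] {Idx : Type*}

/-- Infinite products. -/
theorem ps_limit (E : Idx → Subring F) (D : Idx → F⟦X⟧)
    (hD0 : ∀ i, constantCoeff (D i) ≠ 0 ∧ constantCoeff (D i) ∈ E i ∧
      (constantCoeff (D i))⁻¹ ∈ E i)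
    (hstep : ∀ n : ℕ, n ≠ 0 → ∀ s : F⟦X⟧, constantCoeff s ≠ 0 → ∀ (u x : Idx → F⟦X⟧),
      (∀ i, PSU (E i) (u i)) → (∀ i, D i = s * u i * (1 + X ^ n * x i)) →
      ∃ η : F, ∀ i, constantCoeff (x i) - η ∈ E i) :
    ∃ s : F⟦X⟧, constantCoeff s ≠ 0 ∧ ∀ i, PSU (E i) (D i * s⁻¹) := by
  classical
  let P : ℕ → F⟦X⟧ → Prop := fun n s => constantCoeff s ≠ 0 ∧ ∀ i, ∃ u x : F⟦X⟧,
    PSU (E i) u ∧ D i = s * u * (1 + X ^ n * x)
  have hstart : P 1 1 := by
    refine ⟨by simp, fun i => ?_⟩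
    obtain ⟨h0, h1, h2⟩ := hD0 i
    have h3 : X ∣ D i * (C (constantCoeff (D i)))⁻¹ - 1 := by
      rw [X_dvd_iff]
      simp [h0]
    obtain ⟨x, hx⟩ := h3
    refine ⟨C (constantCoeff (D i)), x, PSU.C_mem h1 h2 h0, ?_⟩
    rw [one_mul, pow_one, ← hx]
    have : C (constantCoeff (D i)) * (C (constantCoeff (D i)))⁻¹ = (1 : F⟦X⟧) :=
      PowerSeries.mul_inv_cancel _ (by simpa using h0)
    linear_combination (-(D i)) * this
  have hstep' : ∀ n, n ≠ 0 → ∀ s, P n s → ∃ η : F, P (n + 1) (s * (1 + C η * X ^ n)) := by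
    intro n hn s hs
    obtain ⟨hs0, hs1⟩ := hs
    choose u x hu hx using hs1
    obtain ⟨η, hη⟩ := hstep n hn s hs0 u x hu hx
    refine ⟨η, ?_, fun i => ?_⟩
    · rw [map_mul]
      simp [hn, hs0]
    · have hc : constantCoeff ((1 + C η * X ^ n) *
          (1 + C (constantCoeff (x i) - η) * X ^ n) : F⟦X⟧) ≠ 0 := by
        simp [hn]
      set ξ := constantCoeff (x i) with hξ
      set Q : F⟦X⟧ := (1 + C η * X ^ n) * (1 + C (ξ - η) * X ^ n) with hQ
      have hQQ : Q * Q⁻¹ = 1 := PowerSeries.mul_inv_cancel Q hc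
      have h1 : X ∣ x i - C ξ := by
        rw [X_dvd_iff]; simp [ξ]
      obtain ⟨y, hy⟩ := h1
      obtain ⟨m, rfl⟩ : ∃ m, n = m + 1 := ⟨n - 1, by omega⟩
      refine ⟨u i * (1 + C (ξ - η) * X ^ (m + 1)),
        Q⁻¹ * (y - C η * C (ξ - η) * X ^ m), (hu i).mul
          (PSU.one_add_X_pow hn (hη i)), ?_⟩
      rw [hx i]
      have h2 : x i = C ξ + X * y := by rw [← hy]; ring
      have h3 : C ξ = C η + C (ξ - η) := by rw [← map_add]; congr 1; ring
      rw [h2]
      have h4 : (1 + X ^ (m + 1) * (C ξ + X * y)) =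
          Q * (1 + X ^ (m + 1 + 1) * (Q⁻¹ * (y - C η * C (ξ - η) * X ^ m))) := by
        have h5 : Q * (1 + X ^ (m + 1 + 1) * (Q⁻¹ * (y - C η * C (ξ - η) * X ^ m)))
            = Q + X ^ (m + 1 + 1) * (y - C η * C (ξ - η) * X ^ m) * (Q * Q⁻¹) := by ring
        rw [h5, hQQ, hQ, h3]
        ring
      rw [h4, hQ]
      ring
  -- build the sequence
  choose! ηf hηf using hstep'
  let sq : ℕ → F⟦X⟧ := fun n => Nat.rec 1 (fun n s => s * (1 + C (ηf (n + 1) s) * X ^ (n + 1))) n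
  have hsq0 : sq 0 = 1 := rfl
  have hsqs : ∀ n, sq (n + 1) = sq n * (1 + C (ηf (n + 1) (sq n)) * X ^ (n + 1)) := fun n => rfl
  have hsqP : ∀ n, P (n + 1) (sq n) := by
    intro n
    induction n with
    | zero => simpa [hsq0] using hstart
    | succ n ih =>
      rw [hsqs]
      exact hηf (n + 1) (Nat.succ_ne_zero n) (sq n) ih
  -- limit
  have hcong : ∀ n k, coeff n (sq (n + k)) = coeff n (sq n) := by
    intro n k
    induction k with
    | zero => rfl
    | succ k ih =>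
      rw [← ih, ← add_assoc, hsqs, mul_add, mul_one, map_add]
      have : coeff n (sq (n + k) * (C (ηf (n + k + 1) (sq (n + k))) * X ^ (n + k + 1))) = 0 := by
        rw [← mul_assoc, coeff_mul_X_pow', if_neg (by omega)]
      rw [this, add_zero]
  let s : F⟦X⟧ := PowerSeries.mk fun n => coeff n (sq n)
  have hs : ∀ n, X ^ (n + 1) ∣ s - sq n := by
    intro n
    rw [X_pow_dvd_iff]
    intro m hm
    obtain ⟨k, rfl⟩ : ∃ k, n = m + k := ⟨n - m, by omega⟩
    rw [map_sub, hcong]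
    simp [s]
  have hs0 : constantCoeff s ≠ 0 := by
    have h1 := hs 0
    rw [zero_add, pow_one, X_dvd_iff, map_sub, sub_eq_zero] at h1
    rw [h1]
    exact (hsqP 0).1
  refine ⟨s, hs0, fun i => ?_⟩
  have hss : s * s⁻¹ = 1 := PowerSeries.mul_inv_cancel s hs0
  -- coefficients
  have hcoef : ∀ n, ∃ u : F⟦X⟧, PSU (E i) u ∧ X ^ (n + 1) ∣ D i * s⁻¹ - u := by
    intro n
    obtain ⟨h0, h1⟩ := hsqP n
    obtain ⟨u, x, hu, hx⟩ := h1 i
    refine ⟨u, hu, ?_⟩
    obtain ⟨y, hy⟩ := hs n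
    have : D i * s⁻¹ - u = X ^ (n + 1) * (s⁻¹ * (sq n * u * x - y * u)) := by
      have e1 : sq n = s - X ^ (n + 1) * y := by rw [← hy]; ring
      rw [hx]
      linear_combination (u) * hss - (u * s⁻¹) * hy
    exact ⟨_, this⟩
  have hcm : ∀ n, coeff n (D i * s⁻¹) ∈ E i := by
    intro n
    obtain ⟨u, hu, hd⟩ := hcoef n
    have := (X_pow_dvd_iff.1 hd) n (by omega)
    rw [map_sub, sub_eq_zero] at this
    rw [this]
    exact hu.coeff_mem n
  obtain ⟨u, hu, hd⟩ := hcoef 0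
  have hc := (X_pow_dvd_iff.1 hd) 0 (by omega)
  rw [map_sub, sub_eq_zero, coeff_zero_eq_constantCoeff_apply,
    coeff_zero_eq_constantCoeff_apply] at hc
  refine PSU.of_coeff_mem hcm ?_ ?_
  · rw [hc]; exact hu.constantCoeff_ne_zero
  · rw [hc]; exact hu.constantCoeff_inv_mem

lemma coeff_quot {E : Subring F} (n : ℕ) (hn : n ≠ 0) (s by' bz v uy uz xy xz w : F⟦X⟧)
    (hs0 : constantCoeff s ≠ 0) (hvz : PSU E v) (huz : PSU E uz)
    (hw : uy - v = X ^ (n + 1) * w) (hbz : bz = s * uz * (1 + X ^ n * xz))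
    (hby : by' = s * uy * (1 + X ^ n * xy)) (hV : PSU E (bz * by'⁻¹))
    (hby0 : constantCoeff by' ≠ 0) : constantCoeff xz - constantCoeff xy ∈ E := by
  have hv0' : constantCoeff v ≠ 0 := hvz.constantCoeff_ne_zero
  have huy : uy = v * (1 + X ^ (n + 1) * (v⁻¹ * w)) := by
    have hvv : v * v⁻¹ = 1 := PowerSeries.mul_inv_cancel _ hv0'
    linear_combination hw - (X ^ (n + 1) * w) * hvv
  have key := (hV.mul hvz).mul huz.inv
  set T := bz * by'⁻¹ * v * uz⁻¹ with hT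
  have hbb : by' * by'⁻¹ = 1 := PowerSeries.mul_inv_cancel _ hby0
  have huu : uz * uz⁻¹ = 1 := PowerSeries.mul_inv_cancel _ huz.constantCoeff_ne_zero
  have hs1 : s ≠ 0 := by
    intro h
    rw [h] at hs0
    simp at hs0
  have hTeq : T * ((1 + X ^ (n + 1) * (v⁻¹ * w)) * (1 + X ^ n * xy)) = 1 + X ^ n * xz := by
    apply mul_left_cancel₀ hs1
    have e1 : by' = s * v * ((1 + X ^ (n + 1) * (v⁻¹ * w)) * (1 + X ^ n * xy)) := by
      rw [hby, huy]; ring
    have e2 : s * (T * ((1 + X ^ (n + 1) * (v⁻¹ * w)) * (1 + X ^ n * xy))) =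
        (bz * uz⁻¹) * by'⁻¹ * (s * v * ((1 + X ^ (n + 1) * (v⁻¹ * w)) * (1 + X ^ n * xy))) := by
      rw [hT]
      ring
    rw [e2, ← e1, mul_assoc, mul_comm by'⁻¹, hbb, mul_one, hbz]
    linear_combination (s * (1 + X ^ n * xz)) * huu
  have hcoef : coeff n T = constantCoeff xz - constantCoeff xy := by
    obtain ⟨m, rfl⟩ : ∃ m, n = m + 1 := ⟨n - 1, by omega⟩
    have e3 : T = 1 + X ^ (m + 1) * (xz - T * xy -
        X * (T * (v⁻¹ * w)) * (1 + X ^ (m + 1) * xy)) := by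
      linear_combination hTeq
    have hT0 : constantCoeff T = 1 := by
      rw [e3]; simp
    rw [e3, map_add, coeff_one, if_neg (by omega), zero_add, coeff_X_pow_mul', if_pos le_rfl,
      Nat.sub_self, coeff_zero_eq_constantCoeff_apply]
    simp [hT0]
  rw [← hcoef]
  exact key.coeff_mem n

end limit

section formal

variable {Z : Scheme.{u}} [IsIntegral Z]

lemma exists_open_psu_trunc {y : Z} {u : (Z.functionField)⟦X⟧} (hu : PSU (stk Z y) u) (n : ℕ) :
    ∃ v w : (Z.functionField)⟦X⟧, u - v = X ^ (n + 1) * w ∧ ∃ V : Z.Opens, y ∈ V ∧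
      ∀ z ∈ V, PSU (stk Z z) v := by
  classical
  let v : (Z.functionField)⟦X⟧ := PowerSeries.mk fun m => if m < n + 1 then coeff m u else 0
  have hvu : X ^ (n + 1) ∣ u - v := by
    rw [X_pow_dvd_iff]
    intro m hm
    rw [map_sub, coeff_mk, if_pos hm, sub_self]
  have hv0 : constantCoeff v = constantCoeff u := by
    rw [← coeff_zero_eq_constantCoeff_apply, ← coeff_zero_eq_constantCoeff_apply, coeff_mk,
      if_pos (by omega)]
  have hv0' : constantCoeff v ≠ 0 := by rw [hv0]; exact hu.constantCoeff_ne_zero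
  obtain ⟨w, hw⟩ := hvu
  have hop : ∀ N : ℕ, ∃ V : Z.Opens, y ∈ V ∧ ∀ z ∈ V, ∀ k < N, coeff k u ∈ stk Z z := by
    intro N
    induction N with
    | zero => exact ⟨⊤, trivial, fun z _ k hk => absurd hk (by omega)⟩
    | succ N ih =>
      obtain ⟨V, hyV, hV⟩ := ih
      refine ⟨V ⊓ ⟨{z : Z | coeff N u ∈ stk Z z}, isOpen_mem_stk _⟩, ⟨hyV, hu.coeff_mem N⟩,
        fun z hz k hk => ?_⟩
      rcases Nat.lt_succ_iff_lt_or_eq.1 hk with hk | rfl
      · exact hV z hz.1 k hk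
      · exact hz.2
  obtain ⟨V, hyV, hV⟩ := hop (n + 1)
  refine ⟨v, w, hw, V ⊓ ⟨{z : Z | (constantCoeff u)⁻¹ ∈ stk Z z}, isOpen_mem_stk _⟩,
    ⟨hyV, hu.constantCoeff_inv_mem⟩, fun z hz => ?_⟩
  refine PSU.of_coeff_mem (fun m => ?_) hv0' ?_
  · rw [coeff_mk]
    split_ifs with hm
    · exact hV z hz.1 m hm
    · exact zero_mem _
  · rw [hv0]; exact hz.2

/-- A formal line bundle (given by local equations) which is trivial modulo `t` is trivial on
affine opens. -/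
theorem formal_affine {U : Z.Opens} (hU : IsAffineOpen U) (b : Z → (Z.functionField)⟦X⟧)
    (hb0 : ∀ x ∈ U, constantCoeff (b x) ≠ 0 ∧ constantCoeff (b x) ∈ stk Z x ∧
      (constantCoeff (b x))⁻¹ ∈ stk Z x)
    (hb : ∀ x ∈ U, ∃ V : Z.Opens, x ∈ V ∧ ∀ y ∈ V, y ∈ U → PSU (stk Z y) (b y * (b x)⁻¹)) :
    ∃ s : (Z.functionField)⟦X⟧, constantCoeff s ≠ 0 ∧ ∀ x ∈ U, PSU (stk Z x) (b x * s⁻¹) := by
  have hstep : ∀ n : ℕ, n ≠ 0 → ∀ s : (Z.functionField)⟦X⟧, constantCoeff s ≠ 0 →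
      ∀ (u x : U → (Z.functionField)⟦X⟧), (∀ i : U, PSU (stk Z i.1) (u i)) →
      (∀ i : U, b i.1 = s * u i * (1 + PowerSeries.X ^ n * x i)) →
      ∃ η : Z.functionField, ∀ i : U, constantCoeff (x i) - η ∈ stk Z i.1 := by
    intro n hn s hs0 u x hu hx
    classical
    let ξ : Z → Z.functionField := fun y => if hy : y ∈ U then constantCoeff (x ⟨y, hy⟩) else 0
    have hξ : ∀ y (hy : y ∈ U), ξ y = constantCoeff (x ⟨y, hy⟩) := fun y hy => dif_pos hy
    have hloc : ∀ x ∈ U, ∃ V : Z.Opens, x ∈ V ∧ ∀ y ∈ V, y ∈ U → ξ y - ξ x ∈ stk Z y := by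
      intro y hyU
      obtain ⟨V, hyV, hV⟩ := hb y hyU
      obtain ⟨v, w, hw, V', hyV', hvz⟩ := exists_open_psu_trunc (hu ⟨y, hyU⟩) n
      refine ⟨V ⊓ V', ⟨hyV, hyV'⟩, fun z hz hzU => ?_⟩
      rw [hξ z hzU, hξ y hyU]
      exact coeff_quot (E := stk Z z) n hn s (b y) (b z) v (u ⟨y, hyU⟩) (u ⟨z, hzU⟩)
        (x ⟨y, hyU⟩) (x ⟨z, hzU⟩) w hs0 (hvz z hz.2) (hu ⟨z, hzU⟩) hw (hx ⟨z, hzU⟩) (hx ⟨y, hyU⟩)
        (hV z hz.1 hzU) (hb0 y hyU).1
    obtain ⟨η, hη⟩ := cousin_affine hU ξ hloc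
    refine ⟨η, fun i => ?_⟩
    rw [← hξ i.1 i.2]
    exact hη i.1 i.2
  obtain ⟨s, hs, hs'⟩ := ps_limit (Idx := U) (fun x => stk Z x.1) (fun x => b x.1)
    (fun x => hb0 x.1 x.2) hstep
  exact ⟨s, hs, fun x hx => hs' ⟨x, hx⟩⟩

end formal

end

end Fermat.Agent.H20
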