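import Mathlib
import Fermat.Agent.H20.Affine
import Fermat.Agent.H20.PSUnits

/-!
# Expansion of rational functions on `X × Spec K⟦t⟧` along the special fibre
-/

set_option autoImplicit false

universe u

open AlgebraicGeometry CategoryTheory CategoryTheory.Limits TopologicalSpace TensorProduct
  PowerSeries

namespace Fermat.Agent.H20

noncomputable section

section tensor

variable (K E : Type*) [Field K] [Field E] [Algebra K E]

/-- `E ⊗ K⟦t⟧ → E⟦t⟧` -/
def jmap : E ⊗[K] K⟦X⟧ →ₐ[K] E⟦X⟧ :=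
  Algebra.TensorProduct.productMap (IsScalarTower.toAlgHom K E E⟦X⟧)
    (PowerSeries.mapAlgHom (Algebra.ofId K E))

variable {K E}

lemma coeff_jmap_tmul (f : E) (r : K⟦X⟧) (n : ℕ) :
    coeff n (jmap K E (f ⊗ₜ r)) = f * algebraMap K E (coeff n r) := by
  rw [jmap, Algebra.TensorProduct.productMap_apply_tmul, PowerSeries.mapAlgHom_apply]
  have : IsScalarTower.toAlgHom K E E⟦X⟧ f = C f := rfl
  rw [this, coeff_C_mul, coeff_map]
  rfl

lemma jmap_injective : Function.Injective (jmap K E) := by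
  rw [injective_iff_map_eq_zero]
  intro w hw
  let b := Module.Free.chooseBasis K E
  have key : ∀ (i : Module.Free.ChooseBasisIndex K E) (n : ℕ) (w : E ⊗[K] K⟦X⟧),
      coeff n (TensorProduct.equivFinsuppOfBasisLeft b w i) = b.repr (coeff n (jmap K E w)) i := by
    intro i n w
    induction w using TensorProduct.induction_on with
    | zero => simp
    | tmul f r =>
      rw [TensorProduct.equivFinsuppOfBasisLeft_apply_tmul, coeff_jmap_tmul]
      simp only [Finsupp.mapRange_apply, map_smul, smul_eq_mul]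
      rw [mul_comm f, ← Algebra.smul_def, map_smul]
      simp [mul_comm]
    | add a b ha hb => simp [ha, hb]
  apply (TensorProduct.equivFinsuppOfBasisLeft b).injective
  rw [map_zero]
  ext i n
  rw [key, hw]
  simp

end tensor

section iota

variable (K : Type u) [Field K]

/-- `Spec K⟦t⟧` -/
abbrev SR : Scheme.{u} := Spec (CommRingCat.of K⟦X⟧)

variable [IsAlgClosed K] (X : Scheme.{u}) [KSch K X] [IsIntegral X]

/-- `X × Spec K⟦t⟧` -/
abbrev XR : Scheme.{u} := kprod K X (SR K)

/-- power series as rational functions on `X_R` -/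
def iR : K⟦X⟧ →ₐ[K] (XR K X).functionField := (iS K X (SR K)).comp (specFun K K⟦X⟧)

/-- `K(X) ⊗ K⟦t⟧ → K(X_R)` -/
def muR : X.functionField ⊗[K] K⟦X⟧ →ₐ[K] (XR K X).functionField :=
  Algebra.TensorProduct.productMap (iX K X (SR K)) (iR K X)

lemma muR_eq (w : X.functionField ⊗[K] K⟦X⟧) : muR K X w =
    Algebra.TensorProduct.productMap (iX K X (SR K)) (iS K X (SR K))
      (Algebra.TensorProduct.map (AlgHom.id K _) (specFun K K⟦X⟧) w) := by
  induction w using TensorProduct.induction_on with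
  | zero => simp
  | tmul a b => simp [muR, iR]
  | add a b ha hb => simp only [map_add, ha, hb]

lemma muR_injective : Function.Injective (muR K X) := by
  intro a b hab
  rw [muR_eq, muR_eq] at hab
  have h1 := productMap_injective K hab
  have h2 : Function.Injective (Algebra.TensorProduct.map (AlgHom.id K X.functionField)
      (specFun K K⟦X⟧)) := by
    have := Module.Flat.lTensor_preserves_injective_linearMap (R := K) (M := X.functionField)
      (specFun K K⟦X⟧).toLinearMap (specFun_injective K K⟦X⟧)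
    exact this
  exact h2 h1

variable {X} in
lemma boxR_affineOpen {U : X.Opens} (hU : IsAffineOpen U) :
    IsAffineOpen (boxO K U (⊤ : (SR K).Opens)) := by
  have h := isAffineOpen_opensRange (chart K hU (isAffineOpen_top (SR K)))
  have h2 : (chart K hU (isAffineOpen_top (SR K))).opensRange = boxO K U ⊤ := by
    ext1
    exact chart_range K hU _
  rwa [h2] at h

variable {X} in
/-- sections over `U × Spec K⟦t⟧` -/
lemma mem_sec_UR_iff {U : X.Opens} (hU : IsAffineOpen U) [Nonempty U]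
    (z : (XR K X).functionField) :
    z ∈ sec K (boxO K U (⊤ : (SR K).Opens)) ↔ ∃ w : sec K U ⊗[K] K⟦X⟧,
      muR K X (Algebra.TensorProduct.map (sec K U).val (AlgHom.id K _) w) = z := by
  rw [mem_sec_boxO_iff K hU (isAffineOpen_top (SR K))]
  constructor
  · rintro ⟨w, rfl⟩
    have key : ∀ w : sec K U ⊗[K] sec K (⊤ : (SR K).Opens), ∃ w' : sec K U ⊗[K] K⟦X⟧,
        muR K X (Algebra.TensorProduct.map (sec K U).val (AlgHom.id K _) w') =
        Algebra.TensorProduct.productMap ((iX K X (SR K)).comp (sec K U).val)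
          ((iS K X (SR K)).comp (sec K ⊤).val) w := by
      intro w
      induction w using TensorProduct.induction_on with
      | zero => exact ⟨0, by simp⟩
      | tmul a b =>
        obtain ⟨r, hr⟩ := (mem_sec_top_spec_iff K K⟦X⟧ b.1).1 b.2
        refine ⟨a ⊗ₜ r, ?_⟩
        simp [muR, iR, hr]
      | add a b ha hb =>
        obtain ⟨a', ha'⟩ := ha
        obtain ⟨b', hb'⟩ := hb
        exact ⟨a' + b', by rw [map_add, map_add, map_add, ha', hb']⟩
    exact key w
  · rintro ⟨w, rfl⟩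
    have key : ∀ w : sec K U ⊗[K] K⟦X⟧, ∃ w' : sec K U ⊗[K] sec K (⊤ : (SR K).Opens),
        Algebra.TensorProduct.productMap ((iX K X (SR K)).comp (sec K U).val)
          ((iS K X (SR K)).comp (sec K ⊤).val) w' =
        muR K X (Algebra.TensorProduct.map (sec K U).val (AlgHom.id K _) w) := by
      intro w
      induction w using TensorProduct.induction_on with
      | zero => exact ⟨0, by simp⟩
      | tmul a b =>
        refine ⟨a ⊗ₜ ⟨specFun K K⟦X⟧ b, (mem_sec_top_spec_iff K K⟦X⟧ _).2 ⟨b, rfl⟩⟩, ?_⟩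
        simp [muR, iR]
      | add a b ha hb =>
        obtain ⟨a', ha'⟩ := ha
        obtain ⟨b', hb'⟩ := hb
        exact ⟨a' + b', by rw [map_add, map_add, map_add, ha', hb']⟩
    exact key w

lemma exists_div_muR (z : (XR K X).functionField) : ∃ a b : X.functionField ⊗[K] K⟦X⟧,
    b ≠ 0 ∧ z = muR K X a / muR K X b := by
  obtain ⟨U, hU, hne, -⟩ := exists_affine_nonempty X ⊤ ⟨genericPoint X, trivial⟩
  have hg : genericPoint (XR K X) ∈ boxO K U (⊤ : (SR K).Opens) := by
    apply generic_mem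
    obtain ⟨x, hx⟩ := hne
    exact boxO_nonempty K ⟨x, hx⟩ ⟨genericPoint _, trivial⟩
  obtain ⟨a, b, ha, hb, hb0, -, h⟩ := exists_div_of_mem_stk (boxR_affineOpen K hU) hg
    (stk_genericPoint z)
  obtain ⟨a', rfl⟩ := (mem_sec_UR_iff K hU a).1 ha
  obtain ⟨b', rfl⟩ := (mem_sec_UR_iff K hU b).1 hb
  refine ⟨_, _, ?_, h⟩
  rintro h0
  rw [h0, map_zero] at hb0
  exact hb0 rfl

instance tensorIsDomain : IsDomain (X.functionField ⊗[K] K⟦X⟧) := tensor_isDomain _ _

/-- The algebra structure on `K(X_R)` -/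
abbrev algMuR : Algebra (X.functionField ⊗[K] K⟦X⟧) (XR K X).functionField :=
  (muR K X).toRingHom.toAlgebra

lemma isFractionRing_muR :
    @IsFractionRing (X.functionField ⊗[K] K⟦X⟧) _ (XR K X).functionField _ (algMuR K X) := by
  let _ := algMuR K X
  have hinj : Function.Injective (algebraMap (X.functionField ⊗[K] K⟦X⟧)
      (XR K X).functionField) := muR_injective K X
  have : FaithfulSMul (X.functionField ⊗[K] K⟦X⟧) (XR K X).functionField :=
    (faithfulSMul_iff_algebraMap_injective _ _).2 hinj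
  refine IsFractionRing.of_field _ _ fun z => ?_
  obtain ⟨a, b, -, h⟩ := exists_div_muR K X z
  exact ⟨a, b, h⟩

/-- Laurent series of a power series -/
abbrev lau (E : Type u) [Field E] : E⟦X⟧ →+* LaurentSeries E := HahnSeries.ofPowerSeries ℤ E

lemma lau_injective (E : Type u) [Field E] : Function.Injective (lau E) :=
  HahnSeries.ofPowerSeries_injective

/-- Expansion of rational functions on `X_R` as Laurent series. -/
def iota : (XR K X).functionField →+* LaurentSeries X.functionField :=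
  letI := algMuR K X
  haveI := isFractionRing_muR K X
  IsFractionRing.lift (A := X.functionField ⊗[K] K⟦X⟧)
    (g := (lau X.functionField).comp (jmap K X.functionField).toRingHom)
    ((lau_injective _).comp jmap_injective)

lemma iota_muR (w : X.functionField ⊗[K] K⟦X⟧) :
    iota K X (muR K X w) = lau X.functionField (jmap K X.functionField w) := by
  let _ := algMuR K X
  have := isFractionRing_muR K X
  exact IsFractionRing.lift_algebraMap (A := X.functionField ⊗[K] K⟦X⟧)
    (g := (lau X.functionField).comp (jmap K X.functionField).toRingHom)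
    ((lau_injective _).comp jmap_injective) w

/-- the closed point of `Spec K⟦t⟧` -/
def z0 : Spec (CommRingCat.of K) ⟶ SR K :=
  Spec.map (CommRingCat.ofHom (PowerSeries.constantCoeff (R := K)))

omit [IsAlgClosed K] in
lemma z0_str : z0 K ≫ pK K (SR K) = 𝟙 _ := by
  rw [pK_spec, z0, ← Spec.map_comp, ← CommRingCat.ofHom_comp]
  have : (PowerSeries.constantCoeff (R := K)).comp (algebraMap K K⟦X⟧) = RingHom.id K := by
    ext c; simp
  rw [this]
  exact Spec.map_id _

/-- the special fibre -/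
def s0 : X ⟶ XR K X :=
  pullback.lift (𝟙 X) (pK K X ≫ z0 K) (by
    rw [Category.id_comp, Category.assoc, z0_str, Category.comp_id])

omit [IsAlgClosed K] [IsIntegral X] in
@[reassoc (attr := simp)]
lemma s0_fst : s0 K X ≫ pr1 K X (SR K) = 𝟙 X := pullback.lift_fst _ _ _

omit [IsAlgClosed K] [IsIntegral X] in
@[reassoc (attr := simp)]
lemma s0_snd : s0 K X ≫ pr2 K X (SR K) = pK K X ≫ z0 K := pullback.lift_snd _ _ _

omit [IsAlgClosed K] [IsIntegral X] in
lemma isKHom_s0 : IsKHom K (s0 K X) := by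
  unfold IsKHom
  rw [pK_prod, s0_fst_assoc]

omit [IsAlgClosed K] [IsIntegral X] in
lemma pr1_s0 (x : X) : pr1 K X (SR K) (s0 K X x) = x := by
  rw [← Scheme.Hom.comp_apply, s0_fst]; rfl

lemma iX_mem_stk {x : X} {f : X.functionField} (hf : f ∈ stk X x) :
    iX K X (SR K) f ∈ stk (XR K X) (s0 K X x) :=
  pull_mem_stk (isDom_pr1 K X (SR K)) (by rwa [pr1_s0])

lemma rho_s0_iX (f : X.functionField)
    (h : iX K X (SR K) f ∈ stk (XR K X) (s0 K X (genericPoint X))) :
    rho (s0 K X) ⟨iX K X (SR K) f, h⟩ = f := by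
  have hf1 : f ∈ stk X (pr1 K X (SR K) (genericPoint (XR K X))) :=
    (isDom_pr1 K X (SR K)).mem_stk f
  have hf2 : f ∈ stk X ((s0 K X ≫ pr1 K X (SR K)) (genericPoint X)) := by
    rw [s0_fst]; exact stk_genericPoint f
  have h1 := rho_comp (s0 K X) (pr1 K X (SR K)) f hf2 hf1 h
  refine h1.symm.trans ?_
  rw [rho_congr (s0_fst K X)]
  exact rho_id f _

omit [IsAlgClosed K] in
lemma specFun_self (c : K) : specFun K K c =
    algebraMap K (Spec (CommRingCat.of K)).functionField c := by
  conv_lhs => rw [show c = algebraMap K K c from rfl]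
  rw [AlgHom.commutes]

lemma iR_mem_stk (r : K⟦X⟧) (z : XR K X) : iR K X r ∈ stk (XR K X) z := by
  apply pull_mem_stk (isDom_pr2 K X (SR K))
  exact ((mem_sec_top_spec_iff K K⟦X⟧ _).2 ⟨r, rfl⟩) _ trivial

omit [IsAlgClosed K] in
lemma isKHom_pK : IsKHom K (pK K X) := by
  unfold IsKHom
  rw [pK_spec]
  have : CommRingCat.ofHom (algebraMap K K) = 𝟙 (CommRingCat.of K) := rfl
  rw [this, Spec.map_id, Category.comp_id]

lemma rho_s0_iR (r : K⟦X⟧)
    (h : iR K X r ∈ stk (XR K X) (s0 K X (genericPoint X))) :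
    rho (s0 K X) ⟨iR K X r, h⟩ = algebraMap K X.functionField (constantCoeff r) := by
  have htop : ∀ z : SR K, specFun K K⟦X⟧ r ∈ stk (SR K) z := fun z =>
    ((mem_sec_top_spec_iff K K⟦X⟧ _).2 ⟨r, rfl⟩) _ trivial
  have h1 := rho_comp (s0 K X) (pr2 K X (SR K)) (specFun K K⟦X⟧ r) (htop _) (htop _) h
  refine h1.symm.trans ?_
  rw [rho_congr (s0_snd K X)]
  have htop' : ∀ z : Spec (CommRingCat.of K), rho (z0 K) ⟨specFun K K⟦X⟧ r, htop _⟩ ∈
      stk (Spec (CommRingCat.of K)) z := by
    intro z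
    rw [z0, rho_specMap K K⟦X⟧ (constantCoeff (R := K)) r]
    exact ((mem_sec_top_spec_iff K K _).2 ⟨_, rfl⟩) _ trivial
  have h2 := rho_comp (pK K X) (z0 K) (specFun K K⟦X⟧ r) (htop _) (htop _) (htop' _)
  refine h2.trans ?_
  have h3 : rho (z0 K) ⟨specFun K K⟦X⟧ r, htop _⟩ =
      algebraMap K (Spec (CommRingCat.of K)).functionField (constantCoeff r) := by
    rw [← specFun_self, z0, rho_specMap K K⟦X⟧ (constantCoeff (R := K)) r]
  have h4 : (⟨_, htop' (pK K X (genericPoint X))⟩ :
      stk (Spec (CommRingCat.of K)) (pK K X (genericPoint X))) =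
      ⟨algebraMap K (Spec (CommRingCat.of K)).functionField (constantCoeff r),
        algebraMap_mem_stk K _ _⟩ := Subtype.ext h3
  rw [h4]
  exact (isKHom_pK K X).rho_algebraMap _ _

lemma muR_mem_stk (w : X.functionField ⊗[K] K⟦X⟧) :
    ∃ h : muR K X w ∈ stk (XR K X) (s0 K X (genericPoint X)),
      rho (s0 K X) ⟨muR K X w, h⟩ = constantCoeff (jmap K X.functionField w) := by
  induction w using TensorProduct.induction_on with
  | zero =>
    refine ⟨by rw [map_zero]; exact zero_mem _, ?_⟩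
    have : (⟨muR K X 0, by rw [map_zero]; exact zero_mem _⟩ :
      stk (XR K X) (s0 K X (genericPoint X))) = 0 := by ext; simp
    rw [this]; simp
  | tmul a b =>
    have h1 : muR K X (a ⊗ₜ b) = iX K X (SR K) a * iR K X b := by simp [muR]
    have hm1 := iX_mem_stk K X (stk_genericPoint a)
    have hm2 := iR_mem_stk K X b (s0 K X (genericPoint X))
    have hm : muR K X (a ⊗ₜ b) ∈ stk (XR K X) (s0 K X (genericPoint X)) := by
      rw [h1]; exact mul_mem hm1 hm2
    refine ⟨hm, ?_⟩
    have h2 : (⟨muR K X (a ⊗ₜ b), hm⟩ : stk (XR K X) (s0 K X (genericPoint X))) =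
        ⟨_, hm1⟩ * ⟨_, hm2⟩ := Subtype.ext h1
    rw [h2, map_mul, rho_s0_iX, rho_s0_iR]
    have := coeff_jmap_tmul (K := K) a b 0
    rw [coeff_zero_eq_constantCoeff_apply, coeff_zero_eq_constantCoeff_apply] at this
    exact this.symm
  | add a b ha hb =>
    obtain ⟨ha, ha'⟩ := ha
    obtain ⟨hb, hb'⟩ := hb
    have hm : muR K X (a + b) ∈ stk (XR K X) (s0 K X (genericPoint X)) := by
      rw [map_add]; exact add_mem ha hb
    refine ⟨hm, ?_⟩
    have h2 : (⟨muR K X (a + b), hm⟩ : stk (XR K X) (s0 K X (genericPoint X))) =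
        ⟨_, ha⟩ + ⟨_, hb⟩ := Subtype.ext (map_add _ _ _)
    rw [h2, map_add, ha', hb', map_add, map_add]

/-- Power series with coefficients in a subring. -/
def psRing {F : Type*} [Field F] (E : Subring F) : Subring F⟦X⟧ :=
  (PowerSeries.map E.subtype).range

omit [IsAlgClosed K] in
lemma mem_psRing {F : Type*} [Field F] {E : Subring F} {u : F⟦X⟧} :
    u ∈ psRing E ↔ ∀ n, coeff n u ∈ E := by
  constructor
  · rintro ⟨v, rfl⟩ n
    rw [coeff_map]
    exact (coeff n v).2
  · intro h
    exact ⟨PowerSeries.mk fun n => ⟨coeff n u, h n⟩, by ext n; simp⟩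

omit [IsAlgClosed K] in
lemma PSU.mem_psRing {F : Type*} [Field F] {E : Subring F} {u : F⟦X⟧} (h : PSU E u) :
    u ∈ psRing E := Fermat.Agent.H20.mem_psRing.2 h.coeff_mem

lemma jmap_mem_psRing {U : X.Opens} {x : X} (hx : x ∈ U) (w : sec K U ⊗[K] K⟦X⟧) :
    jmap K X.functionField (Algebra.TensorProduct.map (sec K U).val (AlgHom.id K _) w) ∈
      psRing (stk X x) := by
  induction w using TensorProduct.induction_on with
  | zero => simp [zero_mem]
  | tmul a b =>
    rw [mem_psRing]
    intro n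
    rw [Algebra.TensorProduct.map_tmul, coeff_jmap_tmul]
    exact mul_mem (a.2 x hx) (algebraMap_mem_stk K x _)
  | add a b ha hb =>
    rw [map_add, map_add]
    exact add_mem ha hb

/-- (I3) Expansion of functions which are regular at a point of the special fibre. -/
lemma exists_expansion {x : X} {a : (XR K X).functionField} (ha : a ∈ stk (XR K X) (s0 K X x)) :
    ∃ u ∈ psRing (stk X x), iota K X a = lau _ u ∧
      constantCoeff u = rho (s0 K X) ⟨a, mem_stk_generic_of_mem ha⟩ := by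
  obtain ⟨U, hU, hxU, -⟩ := exists_isAffineOpen_mem_and_subset (Opens.mem_top x)
  have hne : Nonempty U := ⟨⟨x, hxU⟩⟩
  have hx' : s0 K X x ∈ boxO K U (⊤ : (SR K).Opens) := ⟨by
    change pr1 K X (SR K) (s0 K X x) ∈ U
    rwa [pr1_s0], trivial⟩
  obtain ⟨a1, b1, ha1, hb1, hb0, hb2, rfl⟩ := exists_div_of_mem_stk (boxR_affineOpen K hU) hx' ha
  obtain ⟨w1, rfl⟩ := (mem_sec_UR_iff K hU a1).1 ha1
  obtain ⟨w2, rfl⟩ := (mem_sec_UR_iff K hU b1).1 hb1
  set a1 := muR K X (Algebra.TensorProduct.map (sec K U).val (AlgHom.id K _) w1) with ha1'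
  set b1 := muR K X (Algebra.TensorProduct.map (sec K U).val (AlgHom.id K _) w2) with hb1'
  set u1 := jmap K X.functionField
    (Algebra.TensorProduct.map (sec K U).val (AlgHom.id K _) w1) with hu1
  set u2 := jmap K X.functionField
    (Algebra.TensorProduct.map (sec K U).val (AlgHom.id K _) w2) with hu2
  have hb1m : b1 ∈ stk (XR K X) (s0 K X (genericPoint X)) :=
    (muR_mem_stk K X _).1
  have ha1m : a1 ∈ stk (XR K X) (s0 K X (genericPoint X)) :=
    (muR_mem_stk K X _).1
  have hc1 : rho (s0 K X) ⟨a1, ha1m⟩ = constantCoeff u1 := (muR_mem_stk K X _).2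
  have hc2 : rho (s0 K X) ⟨b1, hb1m⟩ = constantCoeff u2 := (muR_mem_stk K X _).2
  have hinv : rho (s0 K X) ⟨b1, hb1m⟩ * rho (s0 K X) ⟨b1⁻¹, mem_stk_generic_of_mem hb2⟩ = 1 := by
    rw [← map_mul, ← map_one (rho (s0 K X))]
    congr 1
    ext
    simp [hb0]
  have hc20 : constantCoeff u2 ≠ 0 := by
    rw [← hc2]
    exact left_ne_zero_of_mul_eq_one hinv
  have hc2i : (constantCoeff u2)⁻¹ = rho (s0 K X) ⟨b1⁻¹, mem_stk_generic_of_mem hb2⟩ := by
    rw [← hc2]
    exact inv_eq_of_mul_eq_one_right hinv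
  have hPSU : PSU (stk X x) u2 := by
    refine PSU.of_coeff_mem (mem_psRing.1 (jmap_mem_psRing K X hxU w2)) hc20 ?_
    rw [hc2i]
    exact rho_mem_stk (s0 K X) hb2
  have hu2' : u2 * u2⁻¹ = 1 := PowerSeries.mul_inv_cancel _ hc20
  refine ⟨u1 * u2⁻¹, mul_mem (jmap_mem_psRing K X hxU w1) hPSU.inv.mem_psRing, ?_, ?_⟩
  · have e1 : iota K X a1 = lau _ u1 := iota_muR K X _
    have e2 : iota K X b1 = lau _ u2 := iota_muR K X _
    rw [map_div₀, e1, e2, map_mul, div_eq_mul_inv]
    congr 1
    apply inv_eq_of_mul_eq_one_right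
    rw [← map_mul, hu2', map_one]
  · rw [map_mul, PowerSeries.constantCoeff_inv, hc2i, ← hc1, ← map_mul]
    congr 1

/-- The uniformizer. -/
def tR : (XR K X).functionField := iR K X PowerSeries.X

lemma tR_mem (z : XR K X) : tR K X ∈ stk (XR K X) z := iR_mem_stk K X _ z

lemma tR_ne_zero : tR K X ≠ 0 := by
  unfold tR iR
  intro h
  have h1 : specFun K K⟦X⟧ PowerSeries.X = 0 := by
    apply (iS K X (SR K)).injective
    rw [map_zero]
    exact h
  have h2 := specFun_injective K K⟦X⟧ (h1.trans (map_zero _).symm)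
  exact PowerSeries.X_ne_zero h2

lemma muR_one_tmul (r : K⟦X⟧) : muR K X (1 ⊗ₜ r) = iR K X r := by simp [muR]

lemma iota_tR : iota K X (tR K X) = lau _ PowerSeries.X := by
  rw [tR, ← muR_one_tmul, iota_muR]
  congr 1
  ext n
  rw [coeff_jmap_tmul, one_mul, coeff_X, coeff_X]
  split_ifs <;> simp

lemma rho_s0_tR (h) : rho (s0 K X) ⟨tR K X, h⟩ = 0 := by
  unfold tR
  rw [rho_s0_iR]
  simp

omit [IsIntegral X] [KSch K X] [IsAlgClosed K] in
/-- Elements of `A ⊗ K⟦t⟧` with vanishing constant coefficient are divisible by `t`. -/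
lemma exists_eq_X_mul {A : Type u} [CommRing A] [Algebra K A] {E : Type u} [Field E] [Algebra K E]
    (φ : A →ₐ[K] E) (hφ : Function.Injective φ)
    (w : A ⊗[K] K⟦X⟧)
    (hw : constantCoeff (jmap K E (Algebra.TensorProduct.map φ (AlgHom.id K _) w)) = 0) :
    ∃ w', w = (1 ⊗ₜ PowerSeries.X) * w' := by
  have key : ∀ w : A ⊗[K] K⟦X⟧, ∃ (a : A) (w' : A ⊗[K] K⟦X⟧),
      w = a ⊗ₜ 1 + (1 ⊗ₜ PowerSeries.X) * w' := by
    intro w
    induction w using TensorProduct.induction_on with
    | zero => exact ⟨0, 0, by simp⟩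
    | tmul a r =>
      refine ⟨constantCoeff r • a, a ⊗ₜ (PowerSeries.mk fun n => coeff (n + 1) r), ?_⟩
      rw [Algebra.TensorProduct.tmul_mul_tmul, one_mul, TensorProduct.smul_tmul,
        ← TensorProduct.tmul_add]
      congr 1
      conv_lhs => rw [PowerSeries.eq_X_mul_shift_add_const r]
      rw [add_comm]
      congr 1
      ext n
      simp [coeff_C, coeff_one]
    | add a b ha hb =>
      obtain ⟨a1, w1, h1⟩ := ha
      obtain ⟨a2, w2, h2⟩ := hb
      refine ⟨a1 + a2, w1 + w2, ?_⟩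
      rw [h1, h2, TensorProduct.add_tmul, mul_add]
      abel
  obtain ⟨a, w', rfl⟩ := key w
  have h2 : φ a = 0 := by
    rw [map_add, map_mul, Algebra.TensorProduct.map_tmul, Algebra.TensorProduct.map_tmul, map_add,
      map_mul, map_add, map_mul] at hw
    have e1 : constantCoeff (jmap K E (φ a ⊗ₜ[K] (AlgHom.id K K⟦X⟧) 1)) = φ a := by
      rw [← coeff_zero_eq_constantCoeff_apply, coeff_jmap_tmul]; simp
    have e2 : constantCoeff (jmap K E (φ 1 ⊗ₜ[K] (AlgHom.id K K⟦X⟧) PowerSeries.X)) = 0 := by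
      rw [← coeff_zero_eq_constantCoeff_apply, coeff_jmap_tmul]; simp
    rw [e1, e2, zero_mul, add_zero] at hw
    exact hw
  have h3 : a = 0 := hφ (h2.trans (map_zero φ).symm)
  exact ⟨w', by rw [h3, TensorProduct.zero_tmul, zero_add]⟩

/-- division by `t` -/
lemma div_tR_mem {x : X} {a : (XR K X).functionField} (ha : a ∈ stk (XR K X) (s0 K X x))
    (h0 : rho (s0 K X) ⟨a, mem_stk_generic_of_mem ha⟩ = 0) :
    a / tR K X ∈ stk (XR K X) (s0 K X x) := by
  obtain ⟨U, hU, hxU, -⟩ := exists_isAffineOpen_mem_and_subset (Opens.mem_top x)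
  have hne : Nonempty U := ⟨⟨x, hxU⟩⟩
  have hx' : s0 K X x ∈ boxO K U (⊤ : (SR K).Opens) := ⟨by
    change pr1 K X (SR K) (s0 K X x) ∈ U
    rwa [pr1_s0], trivial⟩
  obtain ⟨a1, b1, ha1, hb1, hb0, hb2, rfl⟩ := exists_div_of_mem_stk (boxR_affineOpen K hU) hx' ha
  obtain ⟨w1, rfl⟩ := (mem_sec_UR_iff K hU a1).1 ha1
  have ha1m : muR K X (Algebra.TensorProduct.map (sec K U).val (AlgHom.id K _) w1) ∈
      stk (XR K X) (s0 K X (genericPoint X)) := (muR_mem_stk K X _).1
  have hc1 : rho (s0 K X) ⟨_, ha1m⟩ = constantCoeff (jmap K X.functionField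
    (Algebra.TensorProduct.map (sec K U).val (AlgHom.id K _) w1)) := (muR_mem_stk K X _).2
  have hb1m : b1 ∈ stk (XR K X) (s0 K X (genericPoint X)) :=
    mem_stk_generic_of_mem (hb1 _ hx')
  have hzero : rho (s0 K X) ⟨_, ha1m⟩ = 0 := by
    have : (⟨_, ha1m⟩ : stk (XR K X) (s0 K X (genericPoint X))) =
        ⟨_, mem_stk_generic_of_mem ha⟩ * ⟨b1, hb1m⟩ := by
      ext
      simp [div_mul_cancel₀ _ hb0]
    rw [this, map_mul, h0, zero_mul]
  rw [hc1] at hzero
  obtain ⟨w', hw'⟩ := exists_eq_X_mul K (sec K U).val Subtype.val_injective w1 hzero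
  have h1 : muR K X (Algebra.TensorProduct.map (sec K U).val (AlgHom.id K _) w1) =
      tR K X * muR K X (Algebra.TensorProduct.map (sec K U).val (AlgHom.id K _) w') := by
    rw [hw', map_mul, map_mul, Algebra.TensorProduct.map_tmul]
    congr 1
    rw [map_one]
    exact muR_one_tmul K X _
  have h2 : muR K X (Algebra.TensorProduct.map (sec K U).val (AlgHom.id K _) w') ∈
      stk (XR K X) (s0 K X x) := (mem_sec_UR_iff K hU _).2 ⟨w', rfl⟩ _ hx'
  rw [h1, mul_div_assoc, mul_div_right_comm, div_self (tR_ne_zero K X), one_mul, div_eq_mul_inv]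
  exact mul_mem h2 hb2

/-- auxiliary definition for `iotaP` -/
def iotaAux (a : stk (XR K X) (s0 K X (genericPoint X))) : (X.functionField)⟦X⟧ :=
  (exists_expansion K X a.2).choose

lemma lau_iotaAux (a : stk (XR K X) (s0 K X (genericPoint X))) :
    lau _ (iotaAux K X a) = iota K X a :=
  ((exists_expansion K X a.2).choose_spec.2.1).symm

/-- expansion of a function regular at the generic point of the special fibre -/
def iotaP : stk (XR K X) (s0 K X (genericPoint X)) →+* (X.functionField)⟦X⟧ where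
  toFun a := iotaAux K X a
  map_one' := by
    apply lau_injective
    rw [lau_iotaAux, map_one]
    exact map_one _
  map_mul' a b := by
    apply lau_injective
    rw [map_mul, lau_iotaAux, lau_iotaAux, lau_iotaAux]
    exact map_mul _ _ _
  map_zero' := by
    apply lau_injective
    rw [lau_iotaAux, map_zero]
    exact map_zero _
  map_add' a b := by
    apply lau_injective
    rw [map_add, lau_iotaAux, lau_iotaAux, lau_iotaAux]
    exact map_add _ _ _

lemma lau_iotaP (a : stk (XR K X) (s0 K X (genericPoint X))) :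
    lau _ (iotaP K X a) = iota K X a :=
  ((exists_expansion K X a.2).choose_spec.2.1).symm

lemma constantCoeff_iotaP (a : stk (XR K X) (s0 K X (genericPoint X))) :
    constantCoeff (iotaP K X a) = rho (s0 K X) a :=
  (exists_expansion K X a.2).choose_spec.2.2

lemma iotaP_injective : Function.Injective (iotaP K X) := by
  intro a b hab
  have := congrArg (lau X.functionField) hab
  rw [lau_iotaP, lau_iotaP] at this
  exact Subtype.ext ((iota K X).injective this)

lemma iotaP_mem_psRing {x : X} {a : (XR K X).functionField}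
    (ha : a ∈ stk (XR K X) (s0 K X x)) :
    iotaP K X ⟨a, mem_stk_generic_of_mem ha⟩ ∈ psRing (stk X x) := by
  obtain ⟨u, hu, hu', -⟩ := exists_expansion K X ha
  have : iotaP K X ⟨a, mem_stk_generic_of_mem ha⟩ = u := by
    apply lau_injective
    rw [lau_iotaP, hu']
  rwa [this]

lemma iotaP_muR (w : X.functionField ⊗[K] K⟦X⟧) (h) :
    iotaP K X ⟨muR K X w, h⟩ = jmap K X.functionField w := by
  apply lau_injective
  rw [lau_iotaP, iota_muR]

lemma iotaP_iX (f : X.functionField) (h) : iotaP K X ⟨iX K X (SR K) f, h⟩ = C f := by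
  have h1 : iX K X (SR K) f = muR K X (f ⊗ₜ 1) := by simp [muR]
  have h2 : (⟨iX K X (SR K) f, h⟩ : stk (XR K X) (s0 K X (genericPoint X))) =
    ⟨muR K X (f ⊗ₜ 1), h1 ▸ h⟩ := Subtype.ext h1
  rw [h2, iotaP_muR]
  ext n
  rw [coeff_jmap_tmul, coeff_C, coeff_one]
  split_ifs <;> simp

lemma iotaP_iR (r : K⟦X⟧) (h) : iotaP K X ⟨iR K X r, h⟩ =
    PowerSeries.map (algebraMap K X.functionField) r := by
  have h1 : iR K X r = muR K X (1 ⊗ₜ r) := (muR_one_tmul K X r).symm
  have h2 : (⟨iR K X r, h⟩ : stk (XR K X) (s0 K X (genericPoint X))) =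
    ⟨muR K X (1 ⊗ₜ r), h1 ▸ h⟩ := Subtype.ext h1
  rw [h2, iotaP_muR]
  ext n
  rw [coeff_jmap_tmul, coeff_map, one_mul]

lemma iotaP_tR (h) : iotaP K X ⟨tR K X, h⟩ = PowerSeries.X := by
  unfold tR
  rw [iotaP_iR]
  simp

/-- division by powers of `t` -/
lemma div_tR_pow_mem {x : X} (n : ℕ) {a : (XR K X).functionField}
    (ha : a ∈ stk (XR K X) (s0 K X x))
    (h0 : PowerSeries.X ^ n ∣ iotaP K X ⟨a, mem_stk_generic_of_mem ha⟩) :
    ∃ b ∈ stk (XR K X) (s0 K X x), a = tR K X ^ n * b := by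
  induction n generalizing a with
  | zero => exact ⟨a, ha, by simp⟩
  | succ n ih =>
    obtain ⟨c, hc⟩ := h0
    have hc0 : rho (s0 K X) ⟨a, mem_stk_generic_of_mem ha⟩ = 0 := by
      rw [← constantCoeff_iotaP, hc]
      simp
    have h1 := div_tR_mem K X ha hc0
    have h2 : iotaP K X ⟨_, mem_stk_generic_of_mem h1⟩ = PowerSeries.X ^ n * c := by
      have h3 : (⟨a, mem_stk_generic_of_mem ha⟩ : stk (XR K X) (s0 K X (genericPoint X))) =
          ⟨tR K X, tR_mem K X _⟩ * ⟨_, mem_stk_generic_of_mem h1⟩ := by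
        ext
        simp [mul_div_cancel₀, tR_ne_zero]
      rw [h3, map_mul, iotaP_tR, pow_succ', mul_assoc] at hc
      exact mul_left_cancel₀ PowerSeries.X_ne_zero hc
    obtain ⟨b, hb, hb'⟩ := ih h1 ⟨c, h2⟩
    refine ⟨b, hb, ?_⟩
    rw [pow_succ', mul_assoc, ← hb', mul_div_cancel₀]
    exact tR_ne_zero K X

/-- approximation of power series -/
lemma exists_approx {x : X} {c : (X.functionField)⟦X⟧} (hc : c ∈ psRing (stk X x)) (n : ℕ) :
    ∃ b, ∃ hb : b ∈ stk (XR K X) (s0 K X x),
      PowerSeries.X ^ n ∣ c - iotaP K X ⟨b, mem_stk_generic_of_mem hb⟩ := by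
  rw [mem_psRing] at hc
  let b := ∑ k ∈ Finset.range n, iX K X (SR K) (coeff k c) * tR K X ^ k
  have hb : ∀ y : X, (∀ k, coeff k c ∈ stk X y) → b ∈ stk (XR K X) (s0 K X y) := by
    intro y hy
    exact sum_mem fun k _ => mul_mem (iX_mem_stk K X (hy k)) (pow_mem (tR_mem K X _) k)
  refine ⟨b, hb x hc, ?_⟩
  have h1 : (⟨b, mem_stk_generic_of_mem (hb x hc)⟩ : stk (XR K X) (s0 K X (genericPoint X))) =
      ∑ k ∈ Finset.range n, ⟨iX K X (SR K) (coeff k c), iX_mem_stk K X (stk_genericPoint _)⟩ *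
        ⟨tR K X, tR_mem K X _⟩ ^ k := by
    ext
    simp [b]
  rw [h1, map_sum, PowerSeries.X_pow_dvd_iff]
  intro m hm
  simp only [map_mul, map_pow, iotaP_tR, iotaP_iX, map_sub, map_sum, coeff_C_mul, coeff_X_pow]
  rw [Finset.sum_eq_single m]
  · simp
  · intro k _ hk
    simp [Ne.symm hk]
  · intro h
    exact absurd (Finset.mem_range.2 hm) h

/-- (I4) A function whose expansion is regular at `x` is regular at `x`. -/
theorem mem_stk_of_iotaP_mem [LocallyOfFiniteType (pK K X)] {x : X}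
    (a : stk (XR K X) (s0 K X (genericPoint X)))
    (h : iotaP K X a ∈ psRing (stk X x)) : (a : (XR K X).functionField) ∈
      stk (XR K X) (s0 K X x) := by
  -- write `a = p / q`
  obtain ⟨p, q, hq, hpq⟩ : ∃ p q : stk (XR K X) (s0 K X x), (q : (XR K X).functionField) ≠ 0 ∧
      (a : (XR K X).functionField) = p / q := by
    obtain ⟨p, q, hq, h⟩ := IsFractionRing.div_surjective
      (A := (XR K X).presheaf.stalk (s0 K X x)) (a : (XR K X).functionField)
    refine ⟨⟨_, ⟨p, rfl⟩⟩, ⟨_, ⟨q, rfl⟩⟩, ?_, h.symm⟩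
    simpa using hq
  have hnoeth : IsLocallyNoetherian (XR K X) := by
    have : IsLocallyNoetherian (SR K) := inferInstance
    exact LocallyOfFiniteType.isLocallyNoetherian (pr2 K X (SR K))
  have hN : IsNoetherianRing (stk (XR K X) (s0 K X x)) :=
    isNoetherianRing_of_ringEquiv _ (stkEquiv (s0 K X x))
  have hL : IsLocalRing (stk (XR K X) (s0 K X x)) :=
    (stkEquiv (s0 K X x)).isLocalRing
  set J : Ideal (stk (XR K X) (s0 K X x)) := Ideal.span {q} with hJ
  set t : stk (XR K X) (s0 K X x) := ⟨tR K X, tR_mem K X _⟩ with ht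
  have hdom : ∀ n, p ∈ J ⊔ Ideal.span {t} ^ n := by
    intro n
    obtain ⟨b, hb, hb'⟩ := exists_approx K X h n
    have h1 : PowerSeries.X ^ n ∣ iotaP K X ⟨(p : (XR K X).functionField) - q * b,
        mem_stk_generic_of_mem (sub_mem p.2 (mul_mem q.2 hb))⟩ := by
      have e1 : (⟨(p : (XR K X).functionField) - q * b,
        mem_stk_generic_of_mem (sub_mem p.2 (mul_mem q.2 hb))⟩ :
          stk (XR K X) (s0 K X (genericPoint X))) =
          ⟨q, mem_stk_generic_of_mem q.2⟩ * (a - ⟨b, mem_stk_generic_of_mem hb⟩) := by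
        ext
        simp only [Subring.coe_mul, AddSubgroupClass.coe_sub, hpq]
        field_simp
      rw [e1, map_mul, map_sub]
      exact Dvd.dvd.mul_left hb' _
    obtain ⟨c, hc, hc'⟩ := div_tR_pow_mem K X (x := x) n (sub_mem p.2 (mul_mem q.2 hb)) h1
    have e2 : p = q * ⟨b, hb⟩ + t ^ n * ⟨c, hc⟩ := by
      ext
      simp only [Subring.coe_add, Subring.coe_mul, Subring.coe_pow, ht]
      rw [← hc']
      ring
    rw [e2]
    refine Ideal.add_mem _ (Ideal.mem_sup_left (Ideal.mul_mem_right _ _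
      (Ideal.mem_span_singleton_self q))) (Ideal.mem_sup_right (Ideal.mul_mem_right _ _
        (Ideal.pow_mem_pow (Ideal.mem_span_singleton_self t) n)))
  have htop : Ideal.span {t} ≠ ⊤ := by
    rw [Ne, Ideal.span_singleton_eq_top]
    intro hu
    obtain ⟨v, hv⟩ := hu.exists_right_inv
    have h1 : (⟨tR K X, tR_mem K X _⟩ : stk (XR K X) (s0 K X (genericPoint X))) *
        ⟨v, mem_stk_generic_of_mem v.2⟩ = 1 := by
      ext
      exact congrArg (fun a : stk (XR K X) (s0 K X x) => (a : (XR K X).functionField)) hv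
    have h2 := congrArg (rho (s0 K X)) h1
    rw [map_mul, rho_s0_tR, zero_mul, map_one] at h2
    exact zero_ne_one h2
  have hp : p ∈ J := by
    have := Ideal.iInf_pow_smul_eq_bot_of_isLocalRing (M := stk (XR K X) (s0 K X x) ⧸ J)
      (Ideal.span {t}) htop
    rw [← Ideal.Quotient.eq_zero_iff_mem]
    have hmem : Ideal.Quotient.mk J p ∈ (⨅ i : ℕ, Ideal.span {t} ^ i •
        (⊤ : Submodule (stk (XR K X) (s0 K X x)) (stk (XR K X) (s0 K X x) ⧸ J))) := by
      rw [Submodule.mem_iInf]
      intro n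
      obtain ⟨y, hy, z, hz, hyz⟩ := Submodule.mem_sup.1 (hdom n)
      have : Ideal.Quotient.mk J p = z • (1 : stk (XR K X) (s0 K X x) ⧸ J) := by
        rw [← hyz, map_add, Ideal.Quotient.eq_zero_iff_mem.2 hy, zero_add]
        rw [Algebra.smul_def, mul_one]
        rfl
      rw [this]
      exact Submodule.smul_mem_smul hz trivial
    rw [this] at hmem
    exact hmem
  obtain ⟨c, hc⟩ := Ideal.mem_span_singleton'.1 hp
  rw [hpq, ← hc]
  simp only [Subring.coe_mul]
  rw [mul_div_cancel_right₀ _ hq]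
  exact c.2

end iota

end

end Fermat.Agent.H20
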