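import Mathlib
import Fermat.Agent.H20.Iota
import Fermat.Agent.H20.Cousin

/-!
# Algebraization: formally trivial line bundles on `X_R` are trivial
-/

set_option autoImplicit false

universe u

open AlgebraicGeometry CategoryTheory CategoryTheory.Limits TopologicalSpace TensorProduct
  PowerSeries

namespace Fermat.Agent.H20

noncomputable section

section basic

variable (K : Type u) [Field K] (X : Scheme.{u}) [KSch K X] [IsIntegral X]

/-- global sections of a "fractional line bundle" -/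
def secH {ι : Type*} (W : ι → X.Opens) (h : ι → X.functionField) :
    Submodule K X.functionField where
  carrier := {f | ∀ i, ∀ x ∈ W i, h i * f ∈ stk X x}
  add_mem' := by
    intro a b ha hb i x hx
    rw [mul_add]
    exact add_mem (ha i x hx) (hb i x hx)
  zero_mem' := by
    intro i x _
    rw [mul_zero]
    exact zero_mem _
  smul_mem' := by
    intro c a ha i x hx
    rw [Algebra.smul_def, mul_left_comm]
    exact mul_mem (algebraMap_mem_stk K x c) (ha i x hx)

/-- finite dimensionality of spaces of global sections -/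
def FinSec : Prop := ∀ (n : ℕ) (W : Fin n → X.Opens) (h : Fin n → X.functionField),
  (∀ x : X, ∃ i, x ∈ W i) → (∀ i, h i ≠ 0) → Module.Finite K (secH K X W h)

end basic

section fibre

variable (K : Type u) [Field K] (X : Scheme.{u}) [KSch K X]

lemma isPullback_s0 : IsPullback (s0 K X) (pK K X) (pr2 K X (SR K)) (z0 K) := by
  have h1 : IsPullback (pr1 K X (SR K)) (pr2 K X (SR K)) (pK K X) (pK K (SR K)) :=
    IsPullback.of_hasPullback _ _
  have h2 : IsPullback (s0 K X ≫ pr1 K X (SR K)) (pK K X) (pK K X) (z0 K ≫ pK K (SR K)) := by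
    rw [s0_fst, z0_str]
    exact IsPullback.of_id_fst
  exact IsPullback.of_right h2 (s0_snd K X) h1

lemma z0_closedPoint (y : Spec (CommRingCat.of K)) :
    z0 K y = IsLocalRing.closedPoint K⟦X⟧ := by
  have h1 : (z0 K y : PrimeSpectrum K⟦X⟧).asIdeal.IsMaximal := by
    have : (z0 K y : PrimeSpectrum K⟦X⟧) =
      PrimeSpectrum.comap (PowerSeries.constantCoeff (R := K)) y := rfl
    rw [this, PrimeSpectrum.comap_asIdeal]
    have hy : (y : PrimeSpectrum K).asIdeal.IsMaximal := inferInstance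
    exact Ideal.comap_isMaximal_of_surjective _ PowerSeries.constantCoeff_surj
  exact PrimeSpectrum.ext (IsLocalRing.eq_maximalIdeal h1)

lemma mem_range_s0 (z : XR K X) (hz : pr2 K X (SR K) z = IsLocalRing.closedPoint K⟦X⟧) :
    ∃ x, s0 K X x = z := by
  let y : Spec (CommRingCat.of K) := (IsLocalRing.closedPoint K : PrimeSpectrum K)
  obtain ⟨x, hx, -⟩ := Scheme.exists_preimage_of_isPullback (isPullback_s0 K X) z y
    (hz.trans (z0_closedPoint K y).symm)
  exact ⟨x, hx⟩

end fibre

section alg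

variable (K : Type u) [Field K] [IsAlgClosed K] (X : Scheme.{u}) [KSch K X] [IsIntegral X]

lemma mem_UG_s0_of_psu [LocallyOfFiniteType (pK K X)] {x : X} (e : (XR K X).functionFieldˣ)
    (he : e ∈ UG (XR K X) (s0 K X (genericPoint X)))
    (h : PSU (stk X x) (iotaP K X ⟨e, he.1⟩)) : e ∈ UG (XR K X) (s0 K X x) := by
  constructor
  · exact mem_stk_of_iotaP_mem K X ⟨e, he.1⟩ h.mem_psRing
  · have h1 : iotaP K X ⟨_, he.2⟩ = (iotaP K X ⟨e, he.1⟩)⁻¹ := by
      apply ps_eq_inv_of_mul_eq_one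
      rw [← map_mul, ← map_one (iotaP K X)]
      congr 1
      ext
      simp
    exact mem_stk_of_iotaP_mem K X ⟨_, he.2⟩ (by rw [h1]; exact h.inv.mem_psRing)

lemma psu_of_mem_UG_s0 {x : X} (e : (XR K X).functionFieldˣ)
    (he : e ∈ UG (XR K X) (s0 K X x)) :
    PSU (stk X x) (iotaP K X ⟨e, mem_stk_generic_of_mem he.1⟩) := by
  have h1 : iotaP K X ⟨e, mem_stk_generic_of_mem he.1⟩ *
      iotaP K X ⟨_, mem_stk_generic_of_mem he.2⟩ = 1 := by
    rw [← map_mul, ← map_one (iotaP K X)]
    congr 1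
    ext
    simp
  have h2 := congrArg constantCoeff h1
  rw [map_mul, map_one] at h2
  refine PSU.of_coeff_mem (mem_psRing.1 (iotaP_mem_psRing K X he.1))
    (left_ne_zero_of_mul_eq_one h2) ?_
  rw [inv_eq_of_mul_eq_one_right h2, ← coeff_zero_eq_constantCoeff_apply]
  exact mem_psRing.1 (iotaP_mem_psRing K X he.2) 0

variable {K X} in
omit [IsAlgClosed K] in
lemma coeff_jmap_bounded (w : X.functionField ⊗[K] K⟦X⟧) : ∃ A : Finset X.functionField,
    ∀ (h : X.functionField) (W : X.Opens), (∀ a ∈ A, h * a ∈ sec K W) →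
      ∀ n, h * coeff n (jmap K X.functionField w) ∈ sec K W := by
  classical
  induction w using TensorProduct.induction_on with
  | zero => exact ⟨∅, fun h W _ n => by simp [zero_mem]⟩
  | tmul a b =>
    refine ⟨{a}, fun h W hA n => ?_⟩
    rw [coeff_jmap_tmul, ← mul_assoc]
    exact mul_mem (hA a (by simp)) ((sec K W).algebraMap_mem _)
  | add a b ha hb =>
    obtain ⟨A, hA⟩ := ha
    obtain ⟨B, hB⟩ := hb
    refine ⟨A ∪ B, fun h W hAB n => ?_⟩
    rw [map_add, map_add, mul_add]
    exact add_mem (hA h W (fun a ha => hAB a (Finset.mem_union_left _ ha)) n)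
      (hB h W (fun a ha => hAB a (Finset.mem_union_right _ ha)) n)

/-- Every formal section which has bounded denominators and which lives in a finite dimensional
space is algebraic. -/
lemma exists_jmap_eq (V : Submodule K X.functionField) [Module.Finite K V]
    (f : (X.functionField)⟦X⟧) (hf : ∀ n, coeff n f ∈ V) :
    ∃ w : X.functionField ⊗[K] K⟦X⟧, jmap K X.functionField w = f := by
  let b := Module.finBasis K V
  let r : Fin (Module.finrank K V) → K⟦X⟧ := fun j =>
    PowerSeries.mk fun n => b.repr ⟨coeff n f, hf n⟩ j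
  refine ⟨∑ j, ((b j : V) : X.functionField) ⊗ₜ r j, ?_⟩
  ext n
  rw [map_sum, map_sum]
  have h1 := b.sum_repr ⟨coeff n f, hf n⟩
  have h2 := congrArg Subtype.val h1
  rw [Submodule.coe_sum] at h2
  refine Eq.trans ?_ h2
  refine Finset.sum_congr rfl fun j _ => ?_
  rw [coeff_jmap_tmul]
  simp only [r, coeff_mk, Submodule.coe_smul, Algebra.smul_def]
  rw [mul_comm]

/-- A formal unit `s` such that for a family of algebraic units `e i` all quotients are regular
is algebraic. -/
lemma exists_algebraic (hfin : FinSec K X) (n : ℕ) (W : Fin n → X.Opens)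
    (hW : ∀ i, IsAffineOpen (W i)) (hWne : ∀ i, Nonempty (W i)) (hcov : ∀ x : X, ∃ i, x ∈ W i)
    (e : Fin n → stk (XR K X) (s0 K X (genericPoint X)))
    (he : ∀ i, constantCoeff (iotaP K X (e i)) ≠ 0)
    (s : (X.functionField)⟦X⟧) (hs0 : constantCoeff s ≠ 0)
    (hs : ∀ i, ∀ y ∈ W i, PSU (stk X y) (iotaP K X (e i) * s⁻¹)) :
    ∃ g : (XR K X).functionFieldˣ, ∃ hg : g ∈ UG (XR K X) (s0 K X (genericPoint X)),
      iotaP K X ⟨g, hg.1⟩ = s := by
  classical
  obtain ⟨U, hU, hUne, -⟩ := exists_affine_nonempty X ⊤ ⟨genericPoint X, trivial⟩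
  have hgU : genericPoint X ∈ U := generic_mem (Set.nonempty_coe_sort.1 hUne)
  have hg' : s0 K X (genericPoint X) ∈ boxO K U (⊤ : (SR K).Opens) := ⟨by
    change pr1 K X (SR K) (s0 K X (genericPoint X)) ∈ U
    rwa [pr1_s0], trivial⟩
  have h1 : ∀ i, ∃ w1 w2 : X.functionField ⊗[K] K⟦X⟧, muR K X w2 ≠ 0 ∧
      (muR K X w2)⁻¹ ∈ stk (XR K X) (s0 K X (genericPoint X)) ∧
      (e i : (XR K X).functionField) = muR K X w1 / muR K X w2 := by
    intro i
    obtain ⟨a, b, ha, hb, hb0, hb1, h⟩ := exists_div_of_mem_stk (boxR_affineOpen K hU) hg' (e i).2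
    obtain ⟨w1, rfl⟩ := (mem_sec_UR_iff K hU a).1 ha
    obtain ⟨w2, rfl⟩ := (mem_sec_UR_iff K hU b).1 hb
    exact ⟨_, _, hb0, hb1, h⟩
  choose w1 w2 hw0 hw1 hw using h1
  -- the common denominator
  let τ : X.functionField ⊗[K] K⟦X⟧ := ∏ i, w2 i
  have hτ0 : muR K X τ ≠ 0 := by
    rw [map_prod]
    exact Finset.prod_ne_zero_iff.2 fun i _ => hw0 i
  have hτ1 : (muR K X τ)⁻¹ ∈ stk (XR K X) (s0 K X (genericPoint X)) := by
    rw [map_prod, ← Finset.prod_inv_distrib]
    exact prod_mem fun i _ => hw1 i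
  have hτm : muR K X τ ∈ stk (XR K X) (s0 K X (genericPoint X)) := (muR_mem_stk K X τ).1
  let c : Fin n → X.functionField ⊗[K] K⟦X⟧ := fun i => w1 i * ∏ j ∈ Finset.univ.erase i, w2 j
  have hc : ∀ i, muR K X (c i) = muR K X τ * e i := by
    intro i
    have h2 : τ = w2 i * ∏ j ∈ Finset.univ.erase i, w2 j :=
      (Finset.mul_prod_erase Finset.univ w2 (Finset.mem_univ i)).symm
    rw [hw i, h2, map_mul, map_mul, mul_comm (muR K X (w2 i)), mul_assoc,
      mul_div_cancel₀ _ (hw0 i), mul_comm]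
  have hjc : ∀ i, jmap K X.functionField (c i) = jmap K X.functionField τ * iotaP K X (e i) := by
    intro i
    rw [← iotaP_muR K X (c i) (muR_mem_stk K X (c i)).1, ← iotaP_muR K X τ hτm, ← map_mul]
    congr 1
    ext
    exact hc i
  -- bounded denominators
  have hA : ∀ i, ∃ h : X.functionField, h ≠ 0 ∧ ∀ m,
      h * coeff m (jmap K X.functionField (c i)) ∈ sec K (W i) := by
    intro i
    obtain ⟨A, hA⟩ := coeff_jmap_bounded (c i)
    have := hWne i
    obtain ⟨h, h0, -, h1⟩ := exists_clear K (hW i) A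
    exact ⟨h, h0, hA h (W i) h1⟩
  choose h hh0 hh using hA
  have hss : s * s⁻¹ = 1 := PowerSeries.mul_inv_cancel s hs0
  have hV := hfin n W h hcov hh0
  have hcoef : ∀ m, coeff m (jmap K X.functionField τ * s) ∈ secH K X W h := by
    intro m i y hy
    have h3 : C (h i) * (jmap K X.functionField τ * s) ∈ psRing (stk X y) := by
      have h4 : C (h i) * (jmap K X.functionField τ * s) =
          (C (h i) * jmap K X.functionField (c i)) * (iotaP K X (e i) * s⁻¹)⁻¹ := by
        have h5 : (iotaP K X (e i) * s⁻¹) * (iotaP K X (e i) * s⁻¹)⁻¹ = 1 :=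
          PowerSeries.mul_inv_cancel _ (hs i y hy).constantCoeff_ne_zero
        rw [hjc]
        linear_combination (C (h i) * jmap K X.functionField τ * iotaP K X (e i) *
          (iotaP K X (e i) * s⁻¹)⁻¹) * hss - (C (h i) * jmap K X.functionField τ * s) * h5
      rw [h4]
      refine mul_mem ?_ (hs i y hy).inv.mem_psRing
      rw [mem_psRing]
      intro m
      rw [coeff_C_mul]
      exact hh i m y hy
    rw [mem_psRing] at h3
    have := h3 m
    rwa [coeff_C_mul] at this
  obtain ⟨w, hw'⟩ := exists_jmap_eq K X (secH K X W h) _ hcoef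
  -- the algebraic element
  have hwm : muR K X w ∈ stk (XR K X) (s0 K X (genericPoint X)) := (muR_mem_stk K X w).1
  have hgm : muR K X w * (muR K X τ)⁻¹ ∈ stk (XR K X) (s0 K X (genericPoint X)) :=
    mul_mem hwm hτ1
  have hgs : iotaP K X ⟨_, hgm⟩ = s := by
    have h6 : iotaP K X ⟨_, hgm⟩ * iotaP K X ⟨_, hτm⟩ = iotaP K X ⟨_, hwm⟩ := by
      rw [← map_mul]
      congr 1
      ext
      simp [hτ0]
    rw [iotaP_muR, iotaP_muR, hw'] at h6
    have h7 : constantCoeff (jmap K X.functionField τ) ≠ 0 := by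
      have h8 : iotaP K X ⟨_, hτm⟩ * iotaP K X ⟨_, hτ1⟩ = 1 := by
        rw [← map_mul, ← map_one (iotaP K X)]
        congr 1
        ext
        simp [hτ0]
      have h9 := congrArg constantCoeff h8
      rw [map_mul, map_one, iotaP_muR] at h9
      exact left_ne_zero_of_mul_eq_one h9
    have h10 : jmap K X.functionField τ ≠ 0 := by
      intro h0
      rw [h0] at h7
      simp at h7
    rw [mul_comm (jmap K X.functionField τ)] at h6
    exact mul_right_cancel₀ h10 h6
  have hg0 : muR K X w * (muR K X τ)⁻¹ ≠ 0 := by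
    intro h0
    have h1 : (⟨_, hgm⟩ : stk (XR K X) (s0 K X (genericPoint X))) = 0 := Subtype.ext h0
    rw [h1, map_zero] at hgs
    rw [← hgs] at hs0
    simp at hs0
  have hinv : (muR K X w * (muR K X τ)⁻¹)⁻¹ ∈ stk (XR K X) (s0 K X (genericPoint X)) := by
    refine (mem_stk_of_rho_generic hgm ?_).1
    rw [← constantCoeff_iotaP, hgs]
    exact hs0
  exact ⟨Units.mk0 _ hg0, ⟨hgm, by simpa using hinv⟩, hgs⟩

/-- Bad points of a Cartier divisor on `X_R` are detected on the special fibre. -/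
lemma mem_Triv_of_special_fibre [IsProper (pK K X)] (D : CDiv (XR K X))
    (G : (XR K X).functionFieldˣ) (h : ∀ x : X, D.1 (s0 K X x) / G ∈ UG (XR K X) (s0 K X x)) :
    D.1 ∈ Triv (XR K X) := by
  refine ⟨G, ?_⟩
  by_contra hcon
  push Not at hcon
  obtain ⟨z, hz⟩ := hcon
  let B : Set (XR K X) := {y | D.1 y / G ∉ UG (XR K X) y}
  have hB : IsClosed B := by
    rw [← isOpen_compl_iff, isOpen_iff_forall_mem_open]
    intro y hy
    have hy' : D.1 y / G ∈ UG (XR K X) y := by
      by_contra h0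
      exact hy h0
    obtain ⟨V, hyV, hV⟩ := D.2 y
    refine ⟨V ∩ {z | D.1 y / G ∈ UG (XR K X) z}, ?_, V.isOpen.inter (isOpen_mem_UG _),
      ⟨hyV, hy'⟩⟩
    rintro w ⟨hw, hw'⟩ hwB
    apply hwB
    have := mul_mem (hV w hw) hw'
    rwa [div_mul_div_cancel] at this
  have hcl : IsClosed (pr2 K X (SR K) '' B) := (pr2 K X (SR K)).isClosedMap _ hB
  have hmem : (IsLocalRing.closedPoint K⟦X⟧ : SR K) ∈ pr2 K X (SR K) '' B := by
    have h1 : pr2 K X (SR K) z ∈ pr2 K X (SR K) '' B := ⟨z, hz, rfl⟩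
    have h2 : (pr2 K X (SR K) z : SR K) ⤳ (IsLocalRing.closedPoint K⟦X⟧ : SR K) :=
      IsLocalRing.specializes_closedPoint _
    exact h2.mem_closed hcl h1
  obtain ⟨w, hw, hw'⟩ := hmem
  obtain ⟨x, rfl⟩ := mem_range_s0 K X w hw'
  exact hw (h x)

omit [IsAlgClosed K] in
lemma spec_s0 (x : X) : s0 K X (genericPoint X) ⤳ s0 K X x :=
  ((genericPoint_spec X).specializes (trivial : x ∈ Set.univ)).map (s0 K X).continuous

/-- formal expansion of local equations of a Cartier divisor along the special fibre -/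
def fexp (D : CDiv (XR K X)) (x : X) : (X.functionField)⟦X⟧ :=
  iotaP K X ⟨(D.1 (s0 K X x) / D.1 (s0 K X (genericPoint X)) : (XR K X).functionFieldˣ),
    (cdiv_specializes D.2 (spec_s0 K X x)).1⟩

/-- **Algebraization**: a Cartier divisor on `X_R` which is formally trivial along the special
fibre is trivial. -/
theorem algebraize [IsProper (pK K X)] (hfin : FinSec K X) (D : CDiv (XR K X))
    (s : (X.functionField)⟦X⟧) (hs0 : constantCoeff s ≠ 0)
    (hs : ∀ x : X, PSU (stk X x) (fexp K X D x * s⁻¹)) :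
    D.1 ∈ Triv (XR K X) := by
  have hspec : ∀ x : X, s0 K X (genericPoint X) ⤳ s0 K X x := spec_s0 K X
  have hd : ∀ x : X, D.1 (s0 K X x) / D.1 (s0 K X (genericPoint X)) ∈
      UG (XR K X) (s0 K X (genericPoint X)) := fun x => cdiv_specializes D.2 (hspec x)
  let b : X → (X.functionField)⟦X⟧ := fun x => iotaP K X ⟨_, (hd x).1⟩
  have hb : ∀ x : X, PSU (stk X x) (b x * s⁻¹) := hs
  have hbne : ∀ x, constantCoeff (b x) ≠ 0 := by
    intro x h0
    have := (hb x).constantCoeff_ne_zero
    rw [map_mul, h0, zero_mul] at this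
    exact this rfl
  have hss : s * s⁻¹ = 1 := PowerSeries.mul_inv_cancel s hs0
  -- local compatibility
  have hloc : ∀ x : X, ∃ W : X.Opens, IsAffineOpen W ∧ x ∈ W ∧
      ∀ y ∈ W, PSU (stk X y) (b x * s⁻¹) := by
    intro x
    obtain ⟨V, hxV, hV⟩ := D.2 (s0 K X x)
    obtain ⟨W, hW, hxW, hWV⟩ := exists_isAffineOpen_mem_and_subset
      (U := s0 K X ⁻¹ᵁ V) (x := x) hxV
    refine ⟨W, hW, hxW, fun y hy => ?_⟩
    have h1 := psu_of_mem_UG_s0 K X _ (hV (s0 K X y) (hWV hy))
    have h2 : b y = b x * iotaP K X ⟨_, mem_stk_generic_of_mem (hV (s0 K X y) (hWV hy)).1⟩ := by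
      simp only [b]
      rw [← map_mul]
      congr 1
      ext
      simp only [Subring.coe_mul, Units.val_div_eq_div_val]
      have e1 : (D.1 (s0 K X x) : (XR K X).functionField) ≠ 0 := Units.ne_zero _
      have e2 : (D.1 (s0 K X (genericPoint X)) : (XR K X).functionField) ≠ 0 := Units.ne_zero _
      field_simp
    have h3 := (hb y).mul h1.inv
    convert h3 using 1
    rw [h2]
    have h4 : iotaP K X ⟨_, mem_stk_generic_of_mem (hV (s0 K X y) (hWV hy)).1⟩ *
      (iotaP K X ⟨_, mem_stk_generic_of_mem (hV (s0 K X y) (hWV hy)).1⟩)⁻¹ = 1 :=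
        PowerSeries.mul_inv_cancel _ h1.constantCoeff_ne_zero
    linear_combination (-(b x * s⁻¹)) * h4
  choose W hW hxW hWb using hloc
  have hcomp : CompactSpace X := QuasiCompact.compactSpace_of_compactSpace (pK K X)
  obtain ⟨t, ht⟩ := hcomp.elim_nhds_subcover (fun x => (W x : Set X))
    (fun x => (W x).isOpen.mem_nhds (hxW x))
  let q := t.equivFin.symm
  obtain ⟨g, hg, hgs⟩ := exists_algebraic K X hfin t.card (fun i => W (q i)) (fun i => hW _)
    (fun i => ⟨⟨_, hxW (q i)⟩⟩) (fun x => by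
      have hx : x ∈ ⋃ y ∈ t, (W y : Set X) := by rw [ht]; trivial
      rw [Set.mem_iUnion₂] at hx
      obtain ⟨y, hy, hxy⟩ := hx
      exact ⟨q.symm ⟨y, hy⟩, by simpa using hxy⟩)
    (fun i => ⟨_, (hd (q i)).1⟩) (fun i => hbne (q i)) s hs0
    (fun i y hy => hWb (q i) y hy)
  refine mem_Triv_of_special_fibre K X D (D.1 (s0 K X (genericPoint X)) * g) fun x => ?_
  have he : D.1 (s0 K X x) / D.1 (s0 K X (genericPoint X)) / g ∈
      UG (XR K X) (s0 K X (genericPoint X)) := div_mem (hd x) hg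
  have h1 := mem_UG_s0_of_psu K X (x := x) _ he ?_
  · rwa [div_div] at h1
  · have h2 : iotaP K X ⟨_, he.1⟩ = b x * s⁻¹ := by
      have h3 : iotaP K X ⟨_, he.1⟩ * s = b x := by
        rw [← hgs]
        simp only [b]
        rw [← map_mul]
        congr 1
        ext
        simp
      rw [← h3, mul_assoc, hss, mul_one]
    rw [h2]
    exact hb x

end alg

end

end Fermat.Agent.H20
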