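import Mathlib
import Fermat.Agent.H20.Algebraize

/-!
# Restricting formal expansions along morphisms
-/

set_option autoImplicit false

universe u

open AlgebraicGeometry CategoryTheory CategoryTheory.Limits TopologicalSpace TensorProduct
  PowerSeries

namespace Fermat.Agent.H20

noncomputable section

section ps

variable {F L : Type*} [Field F] [Field L]

/-- lifting a power series with coefficients in a subring -/
def psLift (E : Subring F) : psRing E ≃+* E⟦X⟧ :=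
  (RingEquiv.ofBijective (PowerSeries.map E.subtype).rangeRestrict
    ⟨fun a b h => by
      have h1 : PowerSeries.map E.subtype a = PowerSeries.map E.subtype b :=
        congrArg Subtype.val h
      ext n
      have := congrArg (coeff n) h1
      simpa using this, RingHom.rangeRestrict_surjective _⟩).symm

lemma map_psLift (E : Subring F) (u : psRing E) :
    PowerSeries.map E.subtype (psLift E u) = u := by
  have h1 := (psLift E).symm_apply_apply u
  exact congrArg Subtype.val h1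

/-- apply a ring hom to the coefficients -/
def psMap (E : Subring F) (ρ : E →+* L) : psRing E →+* L⟦X⟧ :=
  (PowerSeries.map ρ).comp (psLift E).toRingHom

lemma coeff_psMap (E : Subring F) (ρ : E →+* L) (u : psRing E) (n : ℕ) :
    coeff n (psMap E ρ u) = ρ ⟨coeff n (u : F⟦X⟧), mem_psRing.1 u.2 n⟩ := by
  have h1 : coeff n (psMap E ρ u) = ρ (coeff n (psLift E u)) := by
    rw [psMap, RingHom.comp_apply, coeff_map]
    rfl
  rw [h1]
  congr 1
  ext
  have := congrArg (coeff n) (map_psLift E u)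
  rw [coeff_map] at this
  exact this

lemma PSRel.of_coeff {E : Subring F} {ρ : E →+* L} {u : F⟦X⟧} {v : L⟦X⟧} (hu : PSU E u)
    (h : ∀ n, ρ ⟨coeff n u, hu.coeff_mem n⟩ = coeff n v) : PSRel E ρ u v := by
  have hu' := hu
  obtain ⟨w, rfl⟩ := hu
  refine ⟨w, rfl, ?_⟩
  ext n
  rw [← h n, coeff_map]
  congr 1

lemma PSRel.unique {E : Subring F} {ρ : E →+* L} {u : F⟦X⟧} {v v' : L⟦X⟧} (h : PSRel E ρ u v)
    (h' : PSRel E ρ u v') : v = v' := by
  ext n
  rw [← h.coeff_eq n (h.psu.coeff_mem n), ← h'.coeff_eq n (h'.psu.coeff_mem n)]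

end ps

section R

variable (K : Type u) [Field K] {X Y Z : Scheme.{u}} [KSch K X] [KSch K Y] [KSch K Z]

/-- base change to `K⟦t⟧` -/
def phiR (φ : Y ⟶ X) (h : IsKHom K φ) : XR K Y ⟶ XR K X :=
  pullback.lift (pr1 K Y (SR K) ≫ φ) (pr2 K Y (SR K)) (by
    rw [Category.assoc, h, ← pK_prod, pK_prod'])

@[reassoc (attr := simp)]
lemma phiR_fst (φ : Y ⟶ X) (h : IsKHom K φ) :
    phiR K φ h ≫ pr1 K X (SR K) = pr1 K Y (SR K) ≫ φ := pullback.lift_fst _ _ _

@[reassoc (attr := simp)]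
lemma phiR_snd (φ : Y ⟶ X) (h : IsKHom K φ) :
    phiR K φ h ≫ pr2 K X (SR K) = pr2 K Y (SR K) := pullback.lift_snd _ _ _

@[reassoc]
lemma s0_phiR (φ : Y ⟶ X) (h : IsKHom K φ) : s0 K Y ≫ phiR K φ h = φ ≫ s0 K X := by
  apply pullback.hom_ext
  · rw [Category.assoc, Category.assoc]
    erw [phiR_fst, s0_fst]
    rw [s0_fst_assoc, Category.comp_id]
  · rw [Category.assoc, Category.assoc]
    erw [phiR_snd, s0_snd]
    rw [s0_snd, ← Category.assoc, h]

lemma phiR_s0 (φ : Y ⟶ X) (h : IsKHom K φ) (y : Y) :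
    phiR K φ h (s0 K Y y) = s0 K X (φ y) := by
  rw [← Scheme.Hom.comp_apply, s0_phiR, Scheme.Hom.comp_apply]

lemma isKHom_phiR (φ : Y ⟶ X) (h : IsKHom K φ) : IsKHom K (phiR K φ h) := by
  unfold IsKHom
  rw [pK_prod, phiR_fst_assoc, h, ← pK_prod]

end R

section compat

variable (K : Type u) [Field K] [IsAlgClosed K] {X Y : Scheme.{u}} [KSch K X] [KSch K Y]
  [IsIntegral X] [IsIntegral Y]

lemma rho_phiR_iX (φ : Y ⟶ X) (h : IsKHom K φ) (f : X.functionField)
    (hf : f ∈ stk X (φ (genericPoint Y)))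
    (h1 : iX K X (SR K) f ∈ stk (XR K X) (phiR K φ h (genericPoint (XR K Y)))) :
    rho (phiR K φ h) ⟨iX K X (SR K) f, h1⟩ = iX K Y (SR K) (rho φ ⟨f, hf⟩) := by
  have e1 : pr1 K Y (SR K) (genericPoint (XR K Y)) = genericPoint Y := isDom_pr1 K Y (SR K)
  have e2 : f ∈ stk X ((phiR K φ h ≫ pr1 K X (SR K)) (genericPoint (XR K Y))) := by
    rw [phiR_fst, Scheme.Hom.comp_apply, e1]; exact hf
  have h2 := rho_comp (phiR K φ h) (pr1 K X (SR K)) f e2
    ((isDom_pr1 K X (SR K)).mem_stk f) h1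
  have h3 := rho_comp (pr1 K Y (SR K)) φ f (by rw [Scheme.Hom.comp_apply, e1]; exact hf) hf
    ((isDom_pr1 K Y (SR K)).mem_stk _)
  refine h2.symm.trans ?_
  rw [rho_congr (phiR_fst K φ h)]
  exact h3

lemma rho_phiR_iR (φ : Y ⟶ X) (h : IsKHom K φ) (r : K⟦X⟧)
    (h1 : iR K X r ∈ stk (XR K X) (phiR K φ h (genericPoint (XR K Y)))) :
    rho (phiR K φ h) ⟨iR K X r, h1⟩ = iR K Y r := by
  have h2 := rho_comp (phiR K φ h) (pr2 K X (SR K)) (specFun K K⟦X⟧ r)
    (((mem_sec_top_spec_iff K K⟦X⟧ _).2 ⟨r, rfl⟩) _ trivial)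
    ((isDom_pr2 K X (SR K)).mem_stk _) h1
  refine h2.symm.trans ?_
  rw [rho_congr (phiR_snd K φ h)]
  rfl

lemma rho_phiR_mem (φ : Y ⟶ X) (h : IsKHom K φ) {y : Y} {a : (XR K X).functionField}
    (ha : a ∈ stk (XR K X) (s0 K X (φ y))) :
    ∃ h1 : a ∈ stk (XR K X) (phiR K φ h (genericPoint (XR K Y))),
      rho (phiR K φ h) ⟨a, h1⟩ ∈ stk (XR K Y) (s0 K Y y) := by
  have h2 : a ∈ stk (XR K X) (phiR K φ h (s0 K Y y)) := by rwa [phiR_s0]
  exact ⟨mem_stk_generic_of_mem h2, rho_mem_stk _ h2⟩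

omit [KSch K Y] in
lemma spec_s0_phi (φ : Y ⟶ X) {a : (XR K X).functionField}
    (ha : a ∈ stk (XR K X) (s0 K X (φ (genericPoint Y)))) :
    a ∈ stk (XR K X) (s0 K X (genericPoint X)) :=
  stk_mono (((genericPoint_spec X).specializes trivial).map (s0 K X).continuous) ha

/-- expand, then restrict -/
def alphaHom (φ : Y ⟶ X) :
    stk (XR K X) (s0 K X (φ (genericPoint Y))) →+* (Y.functionField)⟦X⟧ :=
  (psMap (stk X (φ (genericPoint Y))) (rho φ)).comp
    (((iotaP K X).comp (Subring.inclusion (fun _ ha => spec_s0_phi K φ ha))).codRestrict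
      (psRing (stk X (φ (genericPoint Y)))) (fun a => iotaP_mem_psRing K X a.2))

omit [KSch K Y] in
lemma coeff_alphaHom (φ : Y ⟶ X) (a : (XR K X).functionField)
    (ha : a ∈ stk (XR K X) (s0 K X (φ (genericPoint Y)))) (n : ℕ) :
    coeff n (alphaHom K φ ⟨a, ha⟩) = rho φ ⟨coeff n (iotaP K X ⟨a, spec_s0_phi K φ ha⟩),
      mem_psRing.1 (iotaP_mem_psRing K X ha) n⟩ :=
  coeff_psMap (stk X (φ (genericPoint Y))) (rho φ)
    ⟨iotaP K X ⟨a, spec_s0_phi K φ ha⟩, iotaP_mem_psRing K X ha⟩ n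

lemma stk_le_phiR (φ : Y ⟶ X) (h : IsKHom K φ) : stk (XR K X) (s0 K X (φ (genericPoint Y))) ≤
      stk (XR K X) (phiR K φ h (genericPoint (XR K Y))) := fun _ ha => (rho_phiR_mem K φ h ha).1

/-- restrict, then expand -/
def betaHom (φ : Y ⟶ X) (h : IsKHom K φ) :
    stk (XR K X) (s0 K X (φ (genericPoint Y))) →+* (Y.functionField)⟦X⟧ :=
  (iotaP K Y).comp (((rho (phiR K φ h)).comp (Subring.inclusion (stk_le_phiR K φ h))).codRestrict
      (stk (XR K Y) (s0 K Y (genericPoint Y))) (fun a => (rho_phiR_mem K φ h a.2).2))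

lemma betaHom_apply (φ : Y ⟶ X) (h : IsKHom K φ) (a : (XR K X).functionField)
    (ha : a ∈ stk (XR K X) (s0 K X (φ (genericPoint Y)))) :
    betaHom K φ h ⟨a, ha⟩ = iotaP K Y ⟨_, (rho_phiR_mem K φ h ha).2⟩ := rfl

lemma alpha_beta_iX (φ : Y ⟶ X) (h : IsKHom K φ) (f : X.functionField)
    (hf : f ∈ stk X (φ (genericPoint Y)))
    (hm1 : iX K X (SR K) f ∈ stk (XR K X) (s0 K X (φ (genericPoint Y)))) :
    alphaHom K φ ⟨_, hm1⟩ = betaHom K φ h ⟨_, hm1⟩ := by
  ext n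
  rw [coeff_alphaHom, betaHom_apply]
  have e4 : (⟨_, (rho_phiR_mem K φ h hm1).2⟩ : stk (XR K Y) (s0 K Y (genericPoint Y))) =
      ⟨iX K Y (SR K) (rho φ ⟨f, hf⟩), iX_mem_stk K Y (stk_genericPoint _)⟩ :=
    Subtype.ext (rho_phiR_iX K φ h f hf _)
  have e6 : iotaP K Y ⟨_, (rho_phiR_mem K φ h hm1).2⟩ = C (rho φ ⟨f, hf⟩) :=
    (congrArg (iotaP K Y) e4).trans (iotaP_iX K Y _ _)
  have e7 : iotaP K X ⟨_, spec_s0_phi K φ hm1⟩ = C f := iotaP_iX K X f _
  have e5 : ∀ h, (⟨coeff n (iotaP K X ⟨_, spec_s0_phi K φ hm1⟩), h⟩ :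
      stk X (φ (genericPoint Y))) = if n = 0 then ⟨f, hf⟩ else 0 := by
    intro h
    apply Subtype.ext
    change coeff n (iotaP K X ⟨_, spec_s0_phi K φ hm1⟩) = _
    rw [e7, coeff_C]
    split_ifs <;> rfl
  rw [e5, e6, coeff_C]
  split_ifs
  · rfl
  · exact map_zero _

lemma alpha_beta_iR (φ : Y ⟶ X) (h : IsKHom K φ) (r : K⟦X⟧)
    (hm2 : iR K X r ∈ stk (XR K X) (s0 K X (φ (genericPoint Y)))) :
    alphaHom K φ ⟨_, hm2⟩ = betaHom K φ h ⟨_, hm2⟩ := by
  ext n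
  rw [coeff_alphaHom, betaHom_apply]
  have e4 : (⟨_, (rho_phiR_mem K φ h hm2).2⟩ : stk (XR K Y) (s0 K Y (genericPoint Y))) =
      ⟨iR K Y r, iR_mem_stk K Y r _⟩ :=
    Subtype.ext (rho_phiR_iR K φ h r _)
  have e6 : iotaP K Y ⟨_, (rho_phiR_mem K φ h hm2).2⟩ =
      PowerSeries.map (algebraMap K Y.functionField) r :=
    (congrArg (iotaP K Y) e4).trans (iotaP_iR K Y _ _)
  have e7 : iotaP K X ⟨_, spec_s0_phi K φ hm2⟩ =
      PowerSeries.map (algebraMap K X.functionField) r := iotaP_iR K X r _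
  have e5 : ∀ h, (⟨coeff n (iotaP K X ⟨_, spec_s0_phi K φ hm2⟩), h⟩ :
      stk X (φ (genericPoint Y))) =
        ⟨algebraMap K X.functionField (coeff n r), algebraMap_mem_stk K _ _⟩ := by
    intro h
    apply Subtype.ext
    change coeff n (iotaP K X ⟨_, spec_s0_phi K φ hm2⟩) = _
    rw [e7, coeff_map]
  rw [e5, e6, coeff_map]
  exact h.rho_algebraMap _ _

lemma alpha_beta (φ : Y ⟶ X) (h : IsKHom K φ) : alphaHom K φ = betaHom K φ h := by
  obtain ⟨U, hU, hxU, -⟩ := exists_isAffineOpen_mem_and_subset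
    (Opens.mem_top (φ (genericPoint Y)))
  have hne : Nonempty U := ⟨⟨_, hxU⟩⟩
  have hx' : s0 K X (φ (genericPoint Y)) ∈ boxO K U (⊤ : (SR K).Opens) := ⟨by
    change pr1 K X (SR K) (s0 K X (φ (genericPoint Y))) ∈ U
    rwa [pr1_s0], trivial⟩
  refine stk_hom_ext (boxR_affineOpen K hU) hx' _ _ fun a ha => ?_
  obtain ⟨w, rfl⟩ := (mem_sec_UR_iff K hU a).1 ha
  have hmem : ∀ w : sec K U ⊗[K] K⟦X⟧,
      muR K X (Algebra.TensorProduct.map (sec K U).val (AlgHom.id K _) w) ∈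
      stk (XR K X) (s0 K X (φ (genericPoint Y))) := fun w =>
    (mem_sec_UR_iff K hU _).2 ⟨w, rfl⟩ _ hx'
  let γ : sec K U ⊗[K] K⟦X⟧ →+* stk (XR K X) (s0 K X (φ (genericPoint Y))) :=
    ((muR K X).comp (Algebra.TensorProduct.map (sec K U).val
      (AlgHom.id K _))).toRingHom.codRestrict _ hmem
  have hγ : ∀ w, (γ w : (XR K X).functionField) =
    muR K X (Algebra.TensorProduct.map (sec K U).val (AlgHom.id K _) w) := fun w => rfl
  have key : ∀ w : sec K U ⊗[K] K⟦X⟧, alphaHom K φ (γ w) = betaHom K φ h (γ w) := by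
    intro w
    induction w using TensorProduct.induction_on with
    | zero => rw [map_zero, map_zero, map_zero]
    | tmul f r =>
      have hf : (f : X.functionField) ∈ stk X (φ (genericPoint Y)) := f.2 _ hxU
      have hm1 : iX K X (SR K) f ∈ stk (XR K X) (s0 K X (φ (genericPoint Y))) :=
        iX_mem_stk K X hf
      have hm2 : iR K X r ∈ stk (XR K X) (s0 K X (φ (genericPoint Y))) :=
        iR_mem_stk K X r _
      have e1 : γ (f ⊗ₜ r) = ⟨_, hm1⟩ * ⟨_, hm2⟩ := by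
        apply Subtype.ext
        rw [Subring.coe_mul, hγ, Algebra.TensorProduct.map_tmul, muR,
          Algebra.TensorProduct.productMap_apply_tmul]
        rfl
      rw [e1, map_mul, map_mul, alpha_beta_iX K φ h f hf hm1, alpha_beta_iR K φ h r hm2]
    | add a b ha hb => rw [map_add, map_add, map_add, ha, hb]
  exact key w

/-- (I5) compatibility of expansions with restrictions -/
lemma psMap_iotaP (φ : Y ⟶ X) (h : IsKHom K φ) (a : (XR K X).functionField)
    (ha : a ∈ stk (XR K X) (s0 K X (φ (genericPoint Y)))) (n : ℕ) :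
    rho φ ⟨coeff n (iotaP K X ⟨a, spec_s0_phi K φ ha⟩),
      mem_psRing.1 (iotaP_mem_psRing K X ha) n⟩ =
    coeff n (iotaP K Y ⟨_, (rho_phiR_mem K φ h ha).2⟩) := by
  rw [← coeff_alphaHom K φ a ha, ← betaHom_apply K φ h a ha, alpha_beta K φ h]

/-- the same, for units. -/
lemma psRel_iotaP (φ : Y ⟶ X) (h : IsKHom K φ) (a : (XR K X).functionFieldˣ)
    (ha : a ∈ UG (XR K X) (s0 K X (φ (genericPoint Y)))) :
    PSRel (stk X (φ (genericPoint Y))) (rho φ) (iotaP K X ⟨a, spec_s0_phi K φ ha.1⟩)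
      (iotaP K Y ⟨_, (rho_phiR_mem K φ h ha.1).2⟩) := by
  exact PSRel.of_coeff (psu_of_mem_UG_s0 K X a ha) fun n => psMap_iotaP K φ h _ ha.1 n

end compat

end

end Fermat.Agent.H20
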