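import Mathlib
import Fermat.Agent.H20.Axis

/-!
# Axis data
-/

set_option autoImplicit false

universe u

open AlgebraicGeometry CategoryTheory CategoryTheory.Limits TopologicalSpace TensorProduct
  PowerSeries

namespace Fermat.Agent.H20

noncomputable section

section

variable (K : Type u) [Field K] [IsAlgClosed K] {X Y : Scheme.{u}} [KSch K X] [KSch K Y]
  [IsIntegral X] [IsIntegral Y]

lemma fexp_ne_zero (D : CDiv (XR K X)) (x : X) : constantCoeff (fexp K X D x) ≠ 0 := by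
  have h := cdiv_specializes D.2 (spec_s0 K X x)
  exact (psu_of_mem_UG_s0 K X _ h).constantCoeff_ne_zero

lemma fexp_mul_inv (D : CDiv (XR K X)) (x : X) :
    fexp K X D x * (fexp K X D x)⁻¹ = 1 := PowerSeries.mul_inv_cancel _ (fexp_ne_zero K D x)

/-- quotients of local equations -/
lemma iotaP_div_eq (D : CDiv (XR K X)) (x y : X)
    (h : ((D.1 (s0 K X x) / D.1 (s0 K X y) : (XR K X).functionFieldˣ) : (XR K X).functionField) ∈
      stk (XR K X) (s0 K X (genericPoint X))) :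
    iotaP K X ⟨_, h⟩ = fexp K X D x * (fexp K X D y)⁻¹ := by
  have h1 : iotaP K X ⟨_, h⟩ * fexp K X D y = fexp K X D x := by
    unfold fexp
    rw [← map_mul]
    congr 1
    apply Subtype.ext
    simp only [Subring.coe_mul, ← Units.val_mul]
    congr 1
    rw [div_mul_div_cancel]
  rw [← h1, mul_assoc, fexp_mul_inv, mul_one]

lemma fexp_local (D : CDiv (XR K X)) (x : X) : ∃ V : X.Opens, x ∈ V ∧ ∀ y ∈ V,
    PSU (stk X y) (fexp K X D y * (fexp K X D x)⁻¹) := by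
  obtain ⟨V, hxV, hV⟩ := D.2 (s0 K X x)
  refine ⟨s0 K X ⁻¹ᵁ V, hxV, fun y hy => ?_⟩
  have h1 := psu_of_mem_UG_s0 K X _ (hV (s0 K X y) hy)
  rwa [iotaP_div_eq] at h1

lemma axis_data (φ : Y ⟶ X) (h : IsKHom K φ) (D : CDiv (XR K X))
    (hD : (pullC (phiR K φ h) D).1 ∈ Triv (XR K Y)) :
    ∃ (c : (Y.functionField)⟦X⟧) (w : Y → (Y.functionField)⟦X⟧), constantCoeff c ≠ 0 ∧
      (∀ y, PSU (stk Y y) (w y)) ∧
      ∀ y, PSRel (stk X (φ (genericPoint Y))) (rho φ)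
        (fexp K X D (φ y) * (fexp K X D (φ (genericPoint Y)))⁻¹) (w y * c) := by
  obtain ⟨g, hg⟩ := hD
  have hη : (pullC (phiR K φ h) D).1 (s0 K Y (genericPoint Y)) / g ∈
      UG (XR K Y) (s0 K Y (genericPoint Y)) := hg _
  have hc : ((pullC (phiR K φ h) D).1 (s0 K Y (genericPoint Y)) / g)⁻¹ ∈
      UG (XR K Y) (s0 K Y (genericPoint Y)) := inv_mem hη
  refine ⟨iotaP K Y ⟨_, hc.1⟩, fun y => iotaP K Y ⟨_, mem_stk_generic_of_mem (hg (s0 K Y y)).1⟩,
    (psu_of_mem_UG_s0 K Y _ hc).constantCoeff_ne_zero, fun y => psu_of_mem_UG_s0 K Y _ (hg _),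
    fun y => ?_⟩
  have hsp : φ (genericPoint Y) ⤳ φ y := specializes_map_generic φ y
  have hE : D.1 (s0 K X (φ y)) / D.1 (s0 K X (φ (genericPoint Y))) ∈
      UG (XR K X) (s0 K X (φ (genericPoint Y))) :=
    cdiv_specializes D.2 (hsp.map (s0 K X).continuous)
  have h1 := psRel_iotaP K φ h _ hE
  have h2 := iotaP_div_eq K D (φ y) (φ (genericPoint Y)) (spec_s0_phi K φ hE.1)
  rw [h2] at h1
  convert h1 using 1
  rw [← map_mul]
  congr 1
  apply Subtype.ext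
  -- the value of the pull back
  have h3 : D.1 (phiR K φ h (s0 K Y y)) / D.1 (phiR K φ h (s0 K Y (genericPoint Y))) ∈
      UG (XR K X) (phiR K φ h (genericPoint (XR K Y))) := by
    rw [phiR_s0, phiR_s0]
    exact ⟨(rho_phiR_mem K φ h hE.1).1, (rho_phiR_mem K φ h hE.2).1⟩
  have hval : D.1 (phiR K φ h (s0 K Y y)) / D.1 (phiR K φ h (s0 K Y (genericPoint Y))) =
    D.1 (s0 K X (φ y)) / D.1 (s0 K X (φ (genericPoint Y))) := by rw [phiR_s0, phiR_s0]
  have h4 := pullD_div (phiR K φ h) D (s0 K Y y) (s0 K Y (genericPoint Y)) h3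
  have h5 : (⟨_, h3⟩ : UG (XR K X) (phiR K φ h (genericPoint (XR K Y)))) =
      ⟨_, ⟨(rho_phiR_mem K φ h hE.1).1, (rho_phiR_mem K φ h hE.2).1⟩⟩ :=
    Subtype.ext hval
  rw [h5] at h4
  have h6 := congrArg Units.val h4
  rw [coe_rhoU] at h6
  simp only [Subring.coe_mul, ← Units.val_mul]
  rw [← h6]
  congr 1
  rw [← div_eq_mul_inv, div_div_div_cancel_right]
  rfl

lemma axis_data2 (φ : Y ⟶ X) (D : CDiv (XR K X))
    (c : (Y.functionField)⟦X⟧) (w : Y → (Y.functionField)⟦X⟧) (hc : constantCoeff c ≠ 0)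
    (hw : ∀ y, PSU (stk Y y) (w y))
    (hcw : ∀ y, PSRel (stk X (φ (genericPoint Y))) (rho φ)
        (fexp K X D (φ y) * (fexp K X D (φ (genericPoint Y)))⁻¹) (w y * c))
    (V : Y.Opens) (hV : (V : Set Y).Nonempty) (c0 : X.functionField) (hc0 : c0 ≠ 0)
    (Dj : (X.functionField)⟦X⟧) (hDj0 : constantCoeff Dj ≠ 0)
    (hDj : ∀ y ∈ V, PSU (stk X (φ y)) (fexp K X D (φ y) * C c0 * Dj⁻¹)) :
    ∃ v : (Y.functionField)⟦X⟧, (∀ y ∈ V, PSU (stk Y y) v) ∧
      PSRel (stk X (φ (genericPoint Y))) (rho φ)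
        (Dj * (C c0)⁻¹ * (fexp K X D (φ (genericPoint Y)))⁻¹) (v * c) := by
  have hCC : C c0 * (C c0)⁻¹ = (1 : (X.functionField)⟦X⟧) :=
    PowerSeries.mul_inv_cancel _ (by simpa using hc0)
  have hDD : Dj * Dj⁻¹ = 1 := PowerSeries.mul_inv_cancel _ hDj0
  have h1 : ∀ y, ∀ hy : y ∈ V, ∃ v : (Y.functionField)⟦X⟧, PSU (stk Y y) v ∧
      PSRel (stk X (φ (genericPoint Y))) (rho φ)
        (Dj * (C c0)⁻¹ * (fexp K X D (φ (genericPoint Y)))⁻¹) (v * c) := by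
    intro y hy
    have hle : stk X (φ y) ≤ stk X (φ (genericPoint Y)) := fun a ha => mem_stk_generic_of_mem ha
    obtain ⟨v1, hv1, hv1'⟩ := PSRel.of_psu (ρ := rho φ) hle (C' := stk Y y)
      (fun a ha => rho_mem_stk φ ha) (hDj y hy).inv
    refine ⟨v1 * w y, hv1'.mul (hw y), ?_⟩
    have h2 := hv1.mul (hcw y)
    rw [← mul_assoc v1] at h2
    convert h2 using 1
    have e1 : (fexp K X D (φ y) * C c0 * Dj⁻¹)⁻¹ * (fexp K X D (φ y) * C c0 * Dj⁻¹) = 1 :=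
      PowerSeries.inv_mul_cancel _ (hDj y hy).constantCoeff_ne_zero
    set b := fexp K X D (φ y)
    set bη := fexp K X D (φ (genericPoint Y))
    set Q := (b * C c0 * Dj⁻¹)⁻¹
    have e2 : Dj * (C c0)⁻¹ = Q * b := by
      calc Dj * (C c0)⁻¹ = (Q * (b * C c0 * Dj⁻¹)) * (Dj * (C c0)⁻¹) := by rw [e1, one_mul]
        _ = Q * b * (C c0 * (C c0)⁻¹) * (Dj * Dj⁻¹) := by ring
        _ = Q * b := by rw [hCC, hDD, mul_one, mul_one]
    linear_combination (bη⁻¹) * e2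
  obtain ⟨y0, hy0⟩ := hV
  obtain ⟨v, hv, hv'⟩ := h1 y0 hy0
  refine ⟨v, fun y hy => ?_, hv'⟩
  obtain ⟨v2, hv2, hv2'⟩ := h1 y hy
  have h3 := hv'.unique hv2'
  have hc1 : c ≠ 0 := by
    rintro rfl
    simp at hc
  rw [mul_right_cancel₀ hc1 h3]
  exact hv2

end

end

end Fermat.Agent.H20
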