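import Mathlib
import Fermat.Agent.H20.Affine

/-!
# Global functions on proper schemes
-/

set_option autoImplicit false

universe u

open AlgebraicGeometry CategoryTheory CategoryTheory.Limits TopologicalSpace TensorProduct

namespace Fermat.Agent.H20

noncomputable section

section

variable (K : Type u) [Field K] [IsAlgClosed K] (X : Scheme.{u}) [KSch K X] [IsIntegral X]

/-- Global functions on a proper integral scheme are constant. -/
theorem sec_top_eq_bot [IsProper (pK K X)] : sec K (⊤ : X.Opens) = ⊥ := by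
  rw [eq_bot_iff]
  intro f hf
  obtain ⟨s, rfl⟩ := exists_section_of_forall_mem_stk hf
  have h1 : (pK K X).appTop.hom.IsIntegral := isIntegral_appTop_of_universallyClosed (pK K X)
  have h2 : ((kSec K (⊤ : X.Opens)).hom).IsIntegral := by
    have h3 : (kSec K (⊤ : X.Opens)) = (Scheme.ΓSpecIso (.of K)).inv ≫ (pK K X).appTop := by
      rw [kSec]
      congr 1
      simp [Scheme.Hom.appLE]
    rw [h3, CommRingCat.hom_comp]
    intro x
    obtain ⟨p, hp, hp'⟩ := h1 x
    refine ⟨p.map (Scheme.ΓSpecIso (.of K)).hom.hom, hp.map _, ?_⟩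
    rw [Polynomial.eval₂_map]
    convert hp' using 2
    rw [RingHom.comp_assoc, ← CommRingCat.hom_comp, Iso.hom_inv_id]
    rfl
  have h4 : Algebra.IsIntegral K Γ(X, ⊤) := ⟨h2⟩
  have h5 : Function.Bijective (algebraMap K Γ(X, ⊤)) := by
    exact IsAlgClosed.algebraMap_bijective_of_isIntegral
  obtain ⟨c, rfl⟩ := h5.2 s
  rw [← algebraMap_fun' K ⊤ c]
  exact (⊥ : Subalgebra K X.functionField).algebraMap_mem c

lemma iInf_sec_eq_bot [IsProper (pK K X)] {ι : Type*} (U : ι → X.Opens)
    (hU : ∀ x, ∃ i, x ∈ U i) : ⨅ i, sec K (U i) = ⊥ := by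
  rw [← sec_top_eq_bot K X]
  apply le_antisymm
  · intro f hf x _
    obtain ⟨i, hi⟩ := hU x
    rw [Algebra.mem_iInf] at hf
    exact hf i x hi
  · exact le_iInf fun i => sec_mono K le_top

lemma isAffineOpen_inf [IsSeparated (pK K X)] {U V : X.Opens} (hU : IsAffineOpen U)
    (hV : IsAffineOpen V) : IsAffineOpen (U ⊓ V) := by
  have hsep : X.IsSeparated := by
    have : IsSeparated (terminal.from (Spec (CommRingCat.of K))) := inferInstance
    have h2 : terminal.from X = pK K X ≫ terminal.from _ := Subsingleton.elim _ _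
    constructor
    rw [h2]
    infer_instance
  exact hU.inf hV

/-- finite affine covers -/
lemma exists_finite_affine_cover [CompactSpace X] : ∃ (n : ℕ) (U : Fin n → X.Opens),
    (∀ i, IsAffineOpen (U i)) ∧ (∀ i, Nonempty (U i)) ∧ ∀ x, ∃ i, x ∈ U i := by
  have h : ∀ x : X, ∃ W : X.Opens, IsAffineOpen W ∧ x ∈ W := fun x => by
    obtain ⟨W, hW, hxW, -⟩ := exists_isAffineOpen_mem_and_subset (Opens.mem_top x)
    exact ⟨W, hW, hxW⟩
  choose W hW hxW using h
  obtain ⟨t, ht⟩ := CompactSpace.elim_nhds_subcover (fun x => (W x : Set X))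
    (fun x => (W x).isOpen.mem_nhds (hxW x))
  let q := t.equivFin.symm
  refine ⟨t.card, fun i => W (q i), fun i => hW _, fun i => ⟨⟨_, hxW (q i)⟩⟩, fun x => ?_⟩
  have hx : x ∈ ⋃ y ∈ t, (W y : Set X) := by rw [ht]; trivial
  rw [Set.mem_iUnion₂] at hx
  obtain ⟨y, hy, hxy⟩ := hx
  exact ⟨q.symm ⟨y, hy⟩, by simpa using hxy⟩

end

section points

variable (K : Type u) [Field K]

/-- functions on the point -/
lemma specFun_self_bijective : Function.Bijective (specFun K K) := by
  refine ⟨specFun_injective K K, fun f => ?_⟩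
  apply (mem_sec_top_spec_iff K K f).1
  intro x _
  have hx : x = genericPoint (Spec (CommRingCat.of K)) := by
    have : Subsingleton (Spec (CommRingCat.of K)) :=
      inferInstanceAs (Subsingleton (PrimeSpectrum K))
    exact Subsingleton.elim _ _
  rw [hx]
  exact stk_genericPoint f

/-- `K(Spec K) = K` -/
def kappa : (Spec (CommRingCat.of K)).functionField ≃ₐ[K] K :=
  (AlgEquiv.ofBijective (specFun K K) (specFun_self_bijective K)).symm

lemma kappa_algebraMap (c : K) : kappa K (algebraMap K _ c) = c := by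
  rw [AlgEquiv.commutes]; rfl

lemma algebraMap_kappa (f : (Spec (CommRingCat.of K)).functionField) :
    algebraMap K _ (kappa K f) = f := by
  apply (kappa K).injective
  rw [kappa_algebraMap]

variable {K} {X : Scheme.{u}} [KSch K X] [IsIntegral X]

/-- evaluation at a rational point, on sections over a neighbourhood. -/
def evalPt (p : Spec (CommRingCat.of K) ⟶ X) (hp : IsKHom K p) (U : X.Opens)
    (hU : p (genericPoint (Spec (CommRingCat.of K))) ∈ U) : sec K U →ₐ[K] K :=
  { toFun := fun f => kappa K (rho p ⟨f.1, f.2 _ hU⟩)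
    map_one' := by
      have : (⟨(1 : sec K U).1, (1 : sec K U).2 _ hU⟩ :
        stk X (p (genericPoint (Spec (CommRingCat.of K))))) = 1 := rfl
      rw [this, map_one, map_one]
    map_mul' := fun a b => by
      have : (⟨(a * b).1, (a * b).2 _ hU⟩ :
        stk X (p (genericPoint (Spec (CommRingCat.of K))))) =
          ⟨a.1, a.2 _ hU⟩ * ⟨b.1, b.2 _ hU⟩ := rfl
      rw [this, map_mul, map_mul]
    map_zero' := by
      have : (⟨(0 : sec K U).1, (0 : sec K U).2 _ hU⟩ :
        stk X (p (genericPoint (Spec (CommRingCat.of K))))) = 0 := rfl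
      rw [this, map_zero, map_zero]
    map_add' := fun a b => by
      have : (⟨(a + b).1, (a + b).2 _ hU⟩ :
        stk X (p (genericPoint (Spec (CommRingCat.of K))))) =
          ⟨a.1, a.2 _ hU⟩ + ⟨b.1, b.2 _ hU⟩ := rfl
      rw [this, map_add, map_add]
    commutes' := fun c => by
      have h1 := hp.rho_algebraMap c (algebraMap_mem_stk K _ c)
      exact (congrArg (kappa K) h1).trans (kappa_algebraMap K c) }

lemma evalPt_apply (p : Spec (CommRingCat.of K) ⟶ X) (hp : IsKHom K p) (U : X.Opens)
    (hU : p (genericPoint (Spec (CommRingCat.of K))) ∈ U) (f : X.functionField) (hf : f ∈ sec K U) :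
    evalPt p hp U hU ⟨f, hf⟩ = kappa K (rho p ⟨f, hf _ hU⟩) := rfl

end points

end

end Fermat.Agent.H20
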