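import Mathlib
import Fermat.Agent.H20.Axis2
import Fermat.Agent.H20.Global

/-!
# The theorem of the cube over `K⟦t⟧`
-/

set_option autoImplicit false

universe u

open AlgebraicGeometry CategoryTheory CategoryTheory.Limits TopologicalSpace TensorProduct
  PowerSeries

namespace Fermat.Agent.H20

noncomputable section

section

variable (K : Type u) [Field K]

instance properProd (Y Z : Scheme.{u}) [KSch K Y] [KSch K Z] [IsProper (pK K Y)]
    [IsProper (pK K Z)] : IsProper (pK K (kprod K Y Z)) := by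
  rw [pK_prod]
  infer_instance

variable {Y Z W : Scheme.{u}} [IsIntegral Y] [IsIntegral Z] [IsIntegral W]

omit [Field K] in
lemma rho_pull_comp (ψ : Y ⟶ Z) (φ : Z ⟶ W) (hφ : IsDom φ) (f : W.functionField)
    (h : pull φ hφ f ∈ stk Z (ψ (genericPoint Y))) (h' : f ∈ stk W ((ψ ≫ φ) (genericPoint Y))) :
    rho ψ ⟨pull φ hφ f, h⟩ = rho (ψ ≫ φ) ⟨f, h'⟩ :=
  (rho_comp ψ φ f h' (hφ.mem_stk f) h).symm

lemma rho_pull_id (ψ : Y ⟶ Z) (φ : Z ⟶ Y) (hφ : IsDom φ) (e : ψ ≫ φ = 𝟙 Y)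
    (f : Y.functionField) (h : pull φ hφ f ∈ stk Z (ψ (genericPoint Y))) :
    rho ψ ⟨pull φ hφ f, h⟩ = f := by
  have h' : f ∈ stk Y ((ψ ≫ φ) (genericPoint Y)) := by rw [e]; exact stk_genericPoint f
  rw [rho_pull_comp ψ φ hφ f h h', rho_congr e]
  exact rho_id f _

lemma specK_eq (x y : Spec (CommRingCat.of K)) : x = y := by
  have : Subsingleton (Spec (CommRingCat.of K)) :=
    inferInstanceAs (Subsingleton (PrimeSpectrum K))
  exact Subsingleton.elim _ _

lemma rho_pull_const [KSch K Y] [KSch K W] (ψ : Y ⟶ Z) (φ : Z ⟶ W) (hφ : IsDom φ)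
    (p : Spec (CommRingCat.of K) ⟶ W) (e : ψ ≫ φ = pK K Y ≫ p)
    (f : W.functionField) (h : pull φ hφ f ∈ stk Z (ψ (genericPoint Y)))
    (hf : f ∈ stk W (p (genericPoint (Spec (CommRingCat.of K))))) :
    rho ψ ⟨pull φ hφ f, h⟩ = algebraMap K Y.functionField (kappa K (rho p ⟨f, hf⟩)) := by
  have h'' : f ∈ stk W ((pK K Y ≫ p) (genericPoint Y)) := by
    rw [Scheme.Hom.comp_apply, specK_eq K (pK K Y (genericPoint Y))
      (genericPoint (Spec (CommRingCat.of K)))]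
    exact hf
  have h' : f ∈ stk W ((ψ ≫ φ) (genericPoint Y)) := by rw [e]; exact h''
  rw [rho_pull_comp ψ φ hφ f h h', rho_congr e]
  have h3 : rho p ⟨f, hf⟩ ∈ stk (Spec (CommRingCat.of K)) (pK K Y (genericPoint Y)) := by
    rw [specK_eq K (pK K Y (genericPoint Y)) (genericPoint (Spec (CommRingCat.of K)))]
    exact stk_genericPoint _
  rw [rho_comp (pK K Y) p f h'' hf h3]
  have h4 : (⟨_, h3⟩ : stk (Spec (CommRingCat.of K)) (pK K Y (genericPoint Y))) =
      ⟨algebraMap K _ (kappa K (rho p ⟨f, hf⟩)), algebraMap_mem_stk K _ _⟩ :=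
    Subtype.ext (algebraMap_kappa K _).symm
  rw [h4]
  exact (isKHom_pK K Y).rho_algebraMap _ _

omit [IsIntegral Y] [IsIntegral Z] in
lemma boxO_affine [KSch K Y] [KSch K Z] {U : Y.Opens} (hU : IsAffineOpen U) {V : Z.Opens}
    (hV : IsAffineOpen V) : IsAffineOpen (boxO K U V) := by
  have h := isAffineOpen_opensRange (chart K hU hV)
  have h2 : (chart K hU hV).opensRange = boxO K U V := by
    ext1
    exact chart_range K hU _
  rwa [h2] at h

end

section axes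

variable (K : Type u) [Field K] (Y Z : Scheme.{u}) [KSch K Y] [KSch K Z]

lemma isKHom_pK' : IsKHom K (pK K Y) := by
  unfold IsKHom
  rw [pK_spec]
  have : CommRingCat.ofHom (algebraMap K K) = 𝟙 (CommRingCat.of K) := rfl
  rw [this, Spec.map_id, Category.comp_id]

variable {Z} in
/-- `y ↦ (y, z₀)` -/
def ax1 (z : Spec (CommRingCat.of K) ⟶ Z) (hz : IsKHom K z) : Y ⟶ kprod K Y Z :=
  pullback.lift (𝟙 Y) (pK K Y ≫ z) (by
    rw [Category.id_comp, Category.assoc, hz, isKHom_pK'])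

variable {Z} in
@[reassoc (attr := simp)]
lemma ax1_fst (z : Spec (CommRingCat.of K) ⟶ Z) (hz : IsKHom K z) :
    ax1 K Y z hz ≫ pr1 K Y Z = 𝟙 Y := pullback.lift_fst _ _ _

variable {Z} in
@[reassoc (attr := simp)]
lemma ax1_snd (z : Spec (CommRingCat.of K) ⟶ Z) (hz : IsKHom K z) :
    ax1 K Y z hz ≫ pr2 K Y Z = pK K Y ≫ z := pullback.lift_snd _ _ _

variable {Z} in
lemma isKHom_ax1 (z : Spec (CommRingCat.of K) ⟶ Z) (hz : IsKHom K z) :
    IsKHom K (ax1 K Y z hz) := by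
  unfold IsKHom
  rw [pK_prod, ax1_fst_assoc]

variable {Y} in
/-- `z ↦ (y₀, z)` -/
def ax2 (y : Spec (CommRingCat.of K) ⟶ Y) (hy : IsKHom K y) : Z ⟶ kprod K Y Z :=
  pullback.lift (pK K Z ≫ y) (𝟙 Z) (by
    rw [Category.id_comp, Category.assoc, hy, isKHom_pK'])

variable {Y} in
@[reassoc (attr := simp)]
lemma ax2_fst (y : Spec (CommRingCat.of K) ⟶ Y) (hy : IsKHom K y) :
    ax2 K Z y hy ≫ pr1 K Y Z = pK K Z ≫ y := pullback.lift_fst _ _ _

variable {Y} in
@[reassoc (attr := simp)]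
lemma ax2_snd (y : Spec (CommRingCat.of K) ⟶ Y) (hy : IsKHom K y) :
    ax2 K Z y hy ≫ pr2 K Y Z = 𝟙 Z := pullback.lift_snd _ _ _

variable {Y} in
lemma isKHom_ax2 (y : Spec (CommRingCat.of K) ⟶ Y) (hy : IsKHom K y) :
    IsKHom K (ax2 K Z y hy) := by
  unfold IsKHom
  rw [pK_prod', ax2_snd_assoc]

end axes

section main

variable (K : Type u) [Field K] [IsAlgClosed K] (Y Z : Scheme.{u}) [KSch K Y] [KSch K Z]
  [IsIntegral Y] [IsIntegral Z]

lemma constantCoeff_fexp (X : Scheme.{u}) [KSch K X] [IsIntegral X] (D : CDiv (XR K X)) (x : X) :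
    constantCoeff (fexp K X D x) = ((pullC (s0 K X) D).1 x : X.functionField) := by
  unfold fexp
  rw [constantCoeff_iotaP]
  rfl

/-- Membership in `PSU` of a product box from pointwise membership. -/
lemma psu_boxR {U : Y.Opens} (hU : IsAffineOpen U) [Nonempty U] {V : Z.Opens}
    (hV : IsAffineOpen V) [Nonempty V] (u : ((kprod K Y Z).functionField)⟦X⟧)
    (hu : ∀ x ∈ boxO K U V, PSU (stk (kprod K Y Z) x) u) :
    PSU (boxR (iX K Y Z) (iS K Y Z) (sec K U) (sec K V)) u := by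
  obtain ⟨x0, hx0⟩ : ∃ x, x ∈ boxO K U V := by
    obtain ⟨x, hx⟩ := (boxO_nonempty' K U V)
    exact ⟨x, hx⟩
  refine PSU.of_coeff_mem (fun n => ?_) (hu x0 hx0).constantCoeff_ne_zero ?_
  · rw [← mem_sec_boxO_iff K hU hV]
    exact fun x hx => (hu x hx).coeff_mem n
  · rw [← mem_sec_boxO_iff K hU hV]
    exact fun x hx => (hu x hx).constantCoeff_inv_mem

/-- **Theorem of the cube over `K⟦t⟧`**. -/
theorem cubeR [IsProper (pK K Y)] [IsProper (pK K Z)]
    (y : Spec (CommRingCat.of K) ⟶ Y) (hy : IsKHom K y)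
    (z : Spec (CommRingCat.of K) ⟶ Z) (hz : IsKHom K z)
    (hfin : FinSec K (kprod K Y Z)) (D : CDiv (XR K (kprod K Y Z)))
    (h0 : (pullC (s0 K (kprod K Y Z)) D).1 ∈ Triv (kprod K Y Z))
    (h1 : (pullC (phiR K (ax1 K Y z hz) (isKHom_ax1 K Y z hz)) D).1 ∈ Triv (XR K Y))
    (h2 : (pullC (phiR K (ax2 K Z y hy) (isKHom_ax2 K Z y hy)) D).1 ∈ Triv (XR K Z)) :
    D.1 ∈ Triv (XR K (kprod K Y Z)) := by
  obtain ⟨f0, hf0⟩ := h0
  have hcY : CompactSpace Y := QuasiCompact.compactSpace_of_compactSpace (pK K Y)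
  have hcZ : CompactSpace Z := QuasiCompact.compactSpace_of_compactSpace (pK K Z)
  obtain ⟨n1, U, hU, hUne, hUc⟩ := exists_finite_affine_cover Y
  obtain ⟨n2, V, hV, hVne, hVc⟩ := exists_finite_affine_cover Z
  set P := kprod K Y Z with hP
  -- normalised local equations
  let c0 : P.functionField := ((f0⁻¹ : P.functionFieldˣ) : P.functionField)
  have hc0 : c0 ≠ 0 := Units.ne_zero _
  let b : P → (P.functionField)⟦X⟧ := fun x => fexp K P D x * C c0
  have hb0 : ∀ x, constantCoeff (b x) ≠ 0 ∧ constantCoeff (b x) ∈ stk P x ∧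
      (constantCoeff (b x))⁻¹ ∈ stk P x := by
    intro x
    have e1 : constantCoeff (b x) =
        (((pullC (s0 K P) D).1 x / f0 : P.functionFieldˣ) : P.functionField) := by
      simp only [b]
      rw [map_mul, constantCoeff_fexp, constantCoeff_C, div_eq_mul_inv, Units.val_mul]
    rw [e1]
    refine ⟨Units.ne_zero _, (hf0 x).1, ?_⟩
    rw [← Units.val_inv_eq_inv_val]
    exact (hf0 x).2
  have hCC : C c0 * (C c0)⁻¹ = (1 : (P.functionField)⟦X⟧) :=
    PowerSeries.mul_inv_cancel _ (by simpa using hc0)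
  have hbb : ∀ x, b x * (b x)⁻¹ = 1 := fun x => PowerSeries.mul_inv_cancel _ (hb0 x).1
  have hbdiv : ∀ x x', b x * (b x')⁻¹ = fexp K P D x * (fexp K P D x')⁻¹ := by
    intro x x'
    have e1 : fexp K P D x' * (fexp K P D x')⁻¹ = 1 := fexp_mul_inv K D x'
    have e2 : b x * (b x')⁻¹ = (b x * (b x')⁻¹) * (fexp K P D x' * (fexp K P D x')⁻¹) := by
      rw [e1, mul_one]
    rw [e2]
    have e3 := hbb x'
    simp only [b] at e3 ⊢
    linear_combination (fexp K P D x * (fexp K P D x')⁻¹) * e3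
  have hbloc : ∀ x, ∃ O : P.Opens, x ∈ O ∧ ∀ x' ∈ O, PSU (stk P x') (b x' * (b x)⁻¹) := by
    intro x
    obtain ⟨O, hxO, hO⟩ := fexp_local K D x
    exact ⟨O, hxO, fun x' hx' => by rw [hbdiv]; exact hO x' hx'⟩
  -- trivialisation on boxes
  have hbox : ∀ i j, ∃ s : (P.functionField)⟦X⟧, constantCoeff s ≠ 0 ∧
      ∀ x ∈ boxO K (U i) (V j), PSU (stk P x) (b x * s⁻¹) := fun i j =>
    formal_affine (boxO_affine K (hU i) (hV j)) b (fun x _ => hb0 x) (fun x _ => by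
      obtain ⟨O, hxO, hO⟩ := hbloc x
      exact ⟨O, hxO, fun x' hx' _ => hO x' hx'⟩)
  choose Dij hD0 hDij using hbox
  have hDD : ∀ i j, Dij i j * (Dij i j)⁻¹ = 1 := fun i j =>
    PowerSeries.mul_inv_cancel _ (hD0 i j)
  -- the base points
  obtain ⟨i0, hi0⟩ := hUc (y (genericPoint (Spec (CommRingCat.of K))))
  obtain ⟨j0, hj0⟩ := hVc (z (genericPoint (Spec (CommRingCat.of K))))
  -- axis data
  obtain ⟨c2, w2, hc2, hw2, hcw2⟩ := axis_data K (ax2 K Z y hy) (isKHom_ax2 K Z y hy) D h2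
  obtain ⟨c1, w1, hc1, hw1, hcw1⟩ := axis_data K (ax1 K Y z hz) (isKHom_ax1 K Y z hz) D h1
  have hax2pt : ∀ w : Z, pr1 K Y Z (ax2 K Z y hy w) =
      y (genericPoint (Spec (CommRingCat.of K))) := by
    intro w
    rw [← Scheme.Hom.comp_apply, ax2_fst, Scheme.Hom.comp_apply]
    rw [specK_eq K (pK K Z w) (genericPoint (Spec (CommRingCat.of K)))]
  have hax2pt' : ∀ w : Z, pr2 K Y Z (ax2 K Z y hy w) = w := by
    intro w
    rw [← Scheme.Hom.comp_apply, ax2_snd]; rfl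
  have hax1pt : ∀ w : Y, pr2 K Y Z (ax1 K Y z hz w) =
      z (genericPoint (Spec (CommRingCat.of K))) := by
    intro w
    rw [← Scheme.Hom.comp_apply, ax1_snd, Scheme.Hom.comp_apply]
    rw [specK_eq K (pK K Y w) (genericPoint (Spec (CommRingCat.of K)))]
  have hax1pt' : ∀ w : Y, pr1 K Y Z (ax1 K Y z hz w) = w := by
    intro w
    rw [← Scheme.Hom.comp_apply, ax1_fst]; rfl
  have hv2 : ∀ j, ∃ v : (Z.functionField)⟦X⟧, (∀ w ∈ V j, PSU (stk Z w) v) ∧
      PSRel (stk P (ax2 K Z y hy (genericPoint Z))) (rho (ax2 K Z y hy))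
        (Dij i0 j * (C c0)⁻¹ * (fexp K P D (ax2 K Z y hy (genericPoint Z)))⁻¹) (v * c2) := by
    intro j
    refine axis_data2 K (ax2 K Z y hy) D c2 w2 hc2 hw2 hcw2 (V j)
      (Set.nonempty_coe_sort.1 (hVne j)) c0 hc0 (Dij i0 j) (hD0 i0 j) fun w hw => ?_
    refine hDij i0 j _ ⟨?_, ?_⟩
    · change pr1 K Y Z (ax2 K Z y hy w) ∈ U i0
      rw [hax2pt]; exact hi0
    · change pr2 K Y Z (ax2 K Z y hy w) ∈ V j
      rw [hax2pt']; exact hw
  have hv1 : ∀ i, ∃ v : (Y.functionField)⟦X⟧, (∀ w ∈ U i, PSU (stk Y w) v) ∧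
      PSRel (stk P (ax1 K Y z hz (genericPoint Y))) (rho (ax1 K Y z hz))
        (Dij i j0 * (C c0)⁻¹ * (fexp K P D (ax1 K Y z hz (genericPoint Y)))⁻¹) (v * c1) := by
    intro i
    refine axis_data2 K (ax1 K Y z hz) D c1 w1 hc1 hw1 hcw1 (U i)
      (Set.nonempty_coe_sort.1 (hUne i)) c0 hc0 (Dij i j0) (hD0 i j0) fun w hw => ?_
    refine hDij i j0 _ ⟨?_, ?_⟩
    · change pr1 K Y Z (ax1 K Y z hz w) ∈ U i
      rw [hax1pt']; exact hw
    · change pr2 K Y Z (ax1 K Y z hz w) ∈ V j0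
      rw [hax1pt]; exact hj0
  choose v2 hv2 hv2' using hv2
  choose v1 hv1 hv1' using hv1
  have hne : ∀ i i', Nonempty (U i ⊓ U i' : Y.Opens) := fun i i' =>
    ⟨⟨genericPoint Y, generic_mem (Set.nonempty_coe_sort.1 (hUne i)),
      generic_mem (Set.nonempty_coe_sort.1 (hUne i'))⟩⟩
  have hne' : ∀ j j', Nonempty (V j ⊓ V j' : Z.Opens) := fun j j' =>
    ⟨⟨genericPoint Z, generic_mem (Set.nonempty_coe_sort.1 (hVne j)),
      generic_mem (Set.nonempty_coe_sort.1 (hVne j'))⟩⟩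
  have hquot : ∀ {L : Type u} [Field L] (S : Subring P.functionField) (ρ : S →+* L)
      (D1 D2 κ : (P.functionField)⟦X⟧) (v v' c : L⟦X⟧),
      constantCoeff D1 ≠ 0 → constantCoeff D2 ≠ 0 →
      constantCoeff κ ≠ 0 → constantCoeff v' ≠ 0 → constantCoeff c ≠ 0 →
      PSRel S ρ (D1 * (C c0)⁻¹ * κ⁻¹) (v * c) → PSRel S ρ (D2 * (C c0)⁻¹ * κ⁻¹) (v' * c) →
      PSRel S ρ (D1 * D2⁻¹) (v * v'⁻¹) := by
    intro L _ S ρ D1 D2 κ v v' c g1 g2 g3 g4 g5 r1 r2
    have r3 := r1.mul r2.inv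
    have k1 : D2 * D2⁻¹ = 1 := PowerSeries.mul_inv_cancel _ g2
    have k2 : κ * κ⁻¹ = 1 := PowerSeries.mul_inv_cancel _ g3
    have k3 : v' * v'⁻¹ = 1 := PowerSeries.mul_inv_cancel _ g4
    have k4 : c * c⁻¹ = 1 := PowerSeries.mul_inv_cancel _ g5
    have k5 : (D2 * (C c0)⁻¹ * κ⁻¹) * (D2 * (C c0)⁻¹ * κ⁻¹)⁻¹ = 1 :=
      PowerSeries.mul_inv_cancel _ r2.psu.constantCoeff_ne_zero
    have k6 : (v' * c) * (v' * c)⁻¹ = 1 := by
      apply PowerSeries.mul_inv_cancel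
      rw [map_mul]
      exact mul_ne_zero g4 g5
    have e1 : D1 * (C c0)⁻¹ * κ⁻¹ * (D2 * (C c0)⁻¹ * κ⁻¹)⁻¹ = D1 * D2⁻¹ := by
      set Q := (D2 * (C c0)⁻¹ * κ⁻¹)⁻¹
      linear_combination (-(D1 * (C c0)⁻¹ * κ⁻¹ * Q)) * k1 + (D1 * D2⁻¹) * k5
    have e2 : v * c * (v' * c)⁻¹ = v * v'⁻¹ := by
      set Q := (v' * c)⁻¹
      linear_combination (-(v * c * Q)) * k3 + (v * v'⁻¹) * k6
    rw [e1, e2] at r3
    exact r3
  obtain ⟨s, hs0, hs⟩ := formal_kunneth (iX K Y Z) (iS K Y Z) (productMap_injective K)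
    (fun i => sec K (U i)) (fun i i' => sec K (U i ⊓ U i')) (fun i => by rw [inf_idem])
    (fun j => sec K (V j)) (fun j j' => sec K (V j ⊓ V j')) (fun j => by rw [inf_idem])
    (fun i i' => sec_mono K inf_le_left) (fun i i' => sec_mono K inf_le_right)
    (fun j j' => sec_mono K inf_le_left) (fun j j' => sec_mono K inf_le_right)
    (iInf_sec_eq_bot K Y U hUc) (iInf_sec_eq_bot K Z V hVc)
    Dij
    (fun i j => by
      have key : ∀ x ∈ boxO K (U i) (V j), constantCoeff (Dij i j) ∈ stk P x ∧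
          (constantCoeff (Dij i j))⁻¹ ∈ stk P x := by
        intro x hx
        have e1 := hDij i j x hx
        have e2 := e1.coeff_mem 0
        have e3 := e1.constantCoeff_inv_mem
        rw [coeff_zero_eq_constantCoeff_apply, map_mul, PowerSeries.constantCoeff_inv] at e2
        rw [map_mul, PowerSeries.constantCoeff_inv, mul_inv, inv_inv] at e3
        obtain ⟨g1, g2, g3⟩ := hb0 x
        constructor
        · have := mul_mem g2 e3
          rwa [← mul_assoc, mul_inv_cancel₀ g1, one_mul] at this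
        · have := mul_mem g3 e2
          rwa [← mul_assoc, inv_mul_cancel₀ g1, one_mul] at this
      refine ⟨hD0 i j, ?_, ?_⟩
      · rw [← mem_sec_boxO_iff K (hU i) (hV j)]
        exact fun x hx => (key x hx).1
      · rw [← mem_sec_boxO_iff K (hU i) (hV j)]
        exact fun x hx => (key x hx).2)
    (fun i j i' j' => by
      refine psu_boxR K Y Z (isAffineOpen_inf K Y (hU i) (hU i'))
        (isAffineOpen_inf K Z (hV j) (hV j')) _ fun x hx => ?_
      have e1 := hDij i j x ⟨hx.1.1, hx.2.1⟩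
      have e2 := hDij i' j' x ⟨hx.1.2, hx.2.2⟩
      have e3 := e1.inv.mul e2
      convert e3 using 1
      have k1 := hbb x
      have k2 := hDD i j
      have k3 : (b x * (Dij i j)⁻¹) * (b x * (Dij i j)⁻¹)⁻¹ = 1 :=
        PowerSeries.mul_inv_cancel _ e1.constantCoeff_ne_zero
      set Q := (b x * (Dij i j)⁻¹)⁻¹
      linear_combination (-(Dij i j * (Dij i' j')⁻¹)) * k3 +
        (b x * Q * (Dij i' j')⁻¹) * k2)
    i0 (evalPt y hy (U i0) hi0) (stk P (ax2 K Z y hy (genericPoint Z))) (rho (ax2 K Z y hy))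
    (fun a ha => pull_mem_stk (isDom_pr1 K Y Z) (by
      rw [hax2pt]; exact ha _ hi0))
    (fun a => pull_mem_stk (isDom_pr2 K Y Z) (by
      rw [hax2pt']; exact stk_genericPoint a))
    (fun a ha => rho_pull_const K (ax2 K Z y hy) (pr1 K Y Z) (isDom_pr1 K Y Z) y
      (ax2_fst K Z y hy) a _ (ha _ hi0))
    (fun a => rho_pull_id (ax2 K Z y hy) (pr2 K Y Z) (isDom_pr2 K Y Z) (ax2_snd K Z y hy) a _)
    v2 (fun j => PSU.of_coeff_mem (fun n w hw => (hv2 j w hw).coeff_mem n)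
      (by
        obtain ⟨w, hw⟩ := hVne j
        exact (hv2 j w hw).constantCoeff_ne_zero)
      (fun w hw => (hv2 j w hw).constantCoeff_inv_mem))
    (fun j j' => hquot _ _ _ _ _ _ _ _ (hD0 i0 j) (hD0 i0 j')
      (fexp_ne_zero K D _) (by
        obtain ⟨w, hw⟩ := hVne j'
        exact (hv2 j' w hw).constantCoeff_ne_zero) hc2 (hv2' j) (hv2' j'))
    j0 (evalPt z hz (V j0) hj0) (stk P (ax1 K Y z hz (genericPoint Y))) (rho (ax1 K Y z hz))
    (fun a => pull_mem_stk (isDom_pr1 K Y Z) (by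
      rw [hax1pt']; exact stk_genericPoint a))
    (fun a ha => pull_mem_stk (isDom_pr2 K Y Z) (by
      rw [hax1pt]; exact ha _ hj0))
    (fun a => rho_pull_id (ax1 K Y z hz) (pr1 K Y Z) (isDom_pr1 K Y Z) (ax1_fst K Y z hz) a _)
    (fun a ha => rho_pull_const K (ax1 K Y z hz) (pr2 K Y Z) (isDom_pr2 K Y Z) z
      (ax1_snd K Y z hz) a _ (ha _ hj0))
    v1 (fun i => PSU.of_coeff_mem (fun n w hw => (hv1 i w hw).coeff_mem n)
      (by
        obtain ⟨w, hw⟩ := hUne i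
        exact (hv1 i w hw).constantCoeff_ne_zero)
      (fun w hw => (hv1 i w hw).constantCoeff_inv_mem))
    (fun i i' => hquot _ _ _ _ _ _ _ _ (hD0 i j0) (hD0 i' j0)
      (fexp_ne_zero K D _) (by
        obtain ⟨w, hw⟩ := hUne i'
        exact (hv1 i' w hw).constantCoeff_ne_zero) hc1 (hv1' i) (hv1' i'))
  -- conclusion
  refine algebraize K P hfin D (s * C c0⁻¹) ?_ fun x => ?_
  · rw [map_mul, constantCoeff_C]
    exact mul_ne_zero hs0 (inv_ne_zero hc0)
  · obtain ⟨i, hi⟩ := hUc (pr1 K Y Z x)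
    obtain ⟨j, hj⟩ := hVc (pr2 K Y Z x)
    have hx : x ∈ boxO K (U i) (V j) := ⟨hi, hj⟩
    have e1 := hDij i j x hx
    have e2 : PSU (stk P x) (Dij i j * s⁻¹) := by
      refine (hs i j).mono ?_
      intro a ha
      exact ((mem_sec_boxO_iff K (hU i) (hV j) a).2 ha) x hx
    have e3 := e1.mul e2
    convert e3 using 1
    have k1 : s * s⁻¹ = 1 := PowerSeries.mul_inv_cancel _ hs0
    have k2 := hDD i j
    have k3 : (s * C c0⁻¹) * (s * C c0⁻¹)⁻¹ = 1 := by
      apply PowerSeries.mul_inv_cancel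
      rw [map_mul, constantCoeff_C]
      exact mul_ne_zero hs0 (inv_ne_zero hc0)
    have k4 : C c0 * C c0⁻¹ = (1 : (P.functionField)⟦X⟧) := by
      rw [← map_mul, mul_inv_cancel₀ hc0, map_one]
    simp only [b]
    set Q := (s * C c0⁻¹)⁻¹
    set f := fexp K P D x
    linear_combination (-(f * Q)) * k1 + (f * s⁻¹ * C c0) * k3 - (f * s⁻¹ * s * Q) * k4 -
      (f * C c0 * s⁻¹) * k2

end main

end

end Fermat.Agent.H20
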