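import Mathlib
import Fermat.Agent.H20.Cousin
import Fermat.Agent.H20.CubeR

/-!
# Invertibility of Cartier divisors on affine opens, functions on fibres
-/

set_option autoImplicit false

universe u

open AlgebraicGeometry CategoryTheory CategoryTheory.Limits TopologicalSpace TensorProduct

namespace Fermat.Agent.H20

noncomputable section

section

variable {X : Scheme.{u}} [IsIntegral X]

lemma pow_mul_mem_basic {U : X.Opens} (hU : IsAffineOpen U) [Nonempty U] (s t : Γ(X, U))
    (z : X.functionField) (hz : ∀ y ∈ U, y ∈ X.basicOpen (s * t) → z ∈ stk X y) :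
    ∃ N : ℕ, ∀ M, N ≤ M → ∀ y ∈ X.basicOpen t,
      X.germToFunctionField U s ^ M * z ∈ stk X y := by
  by_cases ht : t = 0
  · refine ⟨0, fun M _ y hy => ?_⟩
    rw [ht] at hy
    simp at hy
  obtain ⟨N, hN⟩ := exists_pow_mul_mem hU (s * t) _ hz
  refine ⟨N, fun M hM y hy => ?_⟩
  have hyU := X.basicOpen_le _ hy
  have h1 := hN y hyU
  have h2 : (X.germToFunctionField U t)⁻¹ ∈ stk X y :=
    (mem_basicOpen_iff_stk t hyU ht).1 hy
  have hl0 : X.germToFunctionField U t ≠ 0 := by
    intro h
    exact ht (X.germToFunctionField_injective U (by rw [h, map_zero]))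
  have h3 : X.germToFunctionField U s ^ N * z =
      (X.germToFunctionField U t)⁻¹ ^ N * (X.germToFunctionField U (s * t) ^ N * z) := by
    rw [map_mul, mul_pow, inv_pow]
    field_simp
  obtain ⟨M', rfl⟩ := Nat.exists_eq_add_of_le hM
  rw [add_comm, pow_add, mul_assoc, h3]
  exact mul_mem (pow_mem (germ_mem_stk hyU _) _) (mul_mem (pow_mem h2 _) h1)

/-- On an affine open subset, a Cartier divisor is an invertible fractional ideal. -/
theorem exists_partition {U : X.Opens} (hU : IsAffineOpen U) [Nonempty U] (D : CDiv X) :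
    ∃ (n : ℕ) (m m' : Fin n → X.functionField),
      (∀ k, ∀ y ∈ U, m k * ((D.1 y : X.functionField))⁻¹ ∈ stk X y) ∧
      (∀ k, ∀ y ∈ U, m' k * (D.1 y : X.functionField) ∈ stk X y) ∧ ∑ k, m k * m' k = 1 := by
  obtain ⟨n, q, s, hq, hs, hP⟩ := exists_finite_basic_cover hU
    (fun x y => D.1 y / D.1 x ∈ UG X y) (fun x _ => by
      obtain ⟨V, hxV, hV⟩ := D.2 x
      exact ⟨V, hxV, fun y hy _ => hV y hy⟩)
  have hquot : ∀ k l : Fin n, ∀ y ∈ U, y ∈ X.basicOpen (s k * s l) →
      D.1 (q k) / D.1 (q l) ∈ UG X y := by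
    intro k l y hyU hy
    rw [Scheme.basicOpen_mul] at hy
    have h1 := inv_mem (hP k y hy.1)
    have h2 := hP l y hy.2
    have := mul_mem h1 h2
    rwa [inv_div, div_mul_div_cancel] at this
  have hN : ∀ k l : Fin n, ∃ N : ℕ, ∀ M, N ≤ M → ∀ y ∈ X.basicOpen (s l),
      X.germToFunctionField U (s k) ^ M *
        ((D.1 (q k) / D.1 (q l) : X.functionFieldˣ) : X.functionField) ∈ stk X y ∧
      X.germToFunctionField U (s k) ^ M *
        ((D.1 (q l) / D.1 (q k) : X.functionFieldˣ) : X.functionField) ∈ stk X y := by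
    intro k l
    obtain ⟨N1, hN1⟩ := pow_mul_mem_basic hU (s k) (s l) _
      (fun y hyU hy => (hquot k l y hyU hy).1)
    obtain ⟨N2, hN2⟩ := pow_mul_mem_basic hU (s k) (s l)
      ((D.1 (q l) / D.1 (q k) : X.functionFieldˣ) : X.functionField)
      (fun y hyU hy => by
        have := (hquot k l y hyU hy).2
        rwa [inv_div] at this)
    exact ⟨max N1 N2, fun M hM y hy => ⟨hN1 M ((le_max_left _ _).trans hM) y hy,
      hN2 M ((le_max_right _ _).trans hM) y hy⟩⟩
  choose Nf hNf using hN
  obtain ⟨M, hM⟩ : ∃ M : ℕ, ∀ k l, Nf k l ≤ M :=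
    ⟨∑ k, ∑ l, Nf k l, fun k l => (Finset.single_le_sum (f := fun l => Nf k l)
      (fun _ _ => Nat.zero_le _) (Finset.mem_univ l)).trans
      (Finset.single_le_sum (f := fun k => ∑ l, Nf k l) (fun _ _ => Nat.zero_le _)
        (Finset.mem_univ k))⟩
  have hspan : Ideal.span (Set.range fun k => s k ^ (2 * M)) = ⊤ := by
    have := Ideal.span_pow_eq_top _ hs (2 * M)
    rw [← this]
    congr 1
    ext g
    simp
  have h1 : (1 : Γ(X, U)) ∈ Ideal.span (Set.range fun k => s k ^ (2 * M)) := by
    rw [hspan]; trivial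
  obtain ⟨g, hg⟩ := (Ideal.mem_span_range_iff_exists_fun).1 h1
  let G := X.germToFunctionField U
  have hg' : ∑ k, G (g k) * G (s k) ^ (2 * M) = 1 := by
    have := congrArg G hg
    rw [map_sum, map_one] at this
    simpa using this
  have hcov : ∀ x ∈ U, ∃ l, x ∈ X.basicOpen (s l) := by
    intro x hx
    have := (hU.self_le_iSup_basicOpen_iff (s := Set.range s)).2 hs hx
    rw [iSup_range', Opens.mem_iSup] at this
    exact this
  refine ⟨n, fun k => G (s k) ^ M * (D.1 (q k) : X.functionField),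
    fun k => G (g k) * (G (s k) ^ M * (D.1 (q k) : X.functionField)⁻¹), fun k y hy => ?_,
    fun k y hy => ?_, ?_⟩
  · obtain ⟨l, hl⟩ := hcov y hy
    have h2 := (hNf k l M (hM k l) y hl).1
    have h3 := (inv_mem (hP l y hl)).1
    rw [inv_div] at h3
    have h4 := mul_mem h2 h3
    convert h4 using 1
    simp only [Units.val_div_eq_div_val, G]
    have e1 : (D.1 (q l) : X.functionField) ≠ 0 := Units.ne_zero _
    have e2 : (D.1 y : X.functionField) ≠ 0 := Units.ne_zero _
    field_simp
  · obtain ⟨l, hl⟩ := hcov y hy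
    have h2 := (hNf k l M (hM k l) y hl).2
    have h3 := (hP l y hl).1
    have h4 := mul_mem (germ_mem_stk hy (g k)) (mul_mem h2 h3)
    convert h4 using 1
    simp only [Units.val_div_eq_div_val, G]
    have e1 : (D.1 (q l) : X.functionField) ≠ 0 := Units.ne_zero _
    have e2 : (D.1 (q k) : X.functionField) ≠ 0 := Units.ne_zero _
    field_simp
  · rw [← hg']
    refine Finset.sum_congr rfl fun k _ => ?_
    have e2 : (D.1 (q k) : X.functionField) ≠ 0 := Units.ne_zero _
    rw [two_mul, pow_add]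
    field_simp

end

section mirror

universe u1 u2 u3

variable {K : Type u3} {FY : Type u1} {FZ : Type u2} [Field K] [Field FY] [Field FZ]
  [Algebra K FY] [Algebra K FZ]

lemma comm_mem_box {P : Submodule K FY} {Q : Submodule K FZ} {x : FY ⊗[K] FZ}
    (hx : x ∈ box P Q) : TensorProduct.comm K FY FZ x ∈ box Q P := by
  refine box_induction (p := fun x => TensorProduct.comm K FY FZ x ∈ box Q P) hx (by simp)
    (fun y hy z hz => by simpa using tmul_mem_box hz hy)
    (fun x x' h h' => by simpa using Submodule.add_mem _ h h')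

lemma exists_tmul_of_forall_mem_box' {J : Type*} (Q : Submodule K FZ) (C : J → Submodule K FY)
    [Nonempty J] (oneY : FY) (hC : ⨅ j, C j = Submodule.span K {oneY}) (x : FY ⊗[K] FZ)
    (hx : ∀ j, x ∈ box (C j) Q) : ∃ z ∈ Q, x = oneY ⊗ₜ[K] z := by
  obtain ⟨z, hz, h⟩ := exists_tmul_of_forall_mem_box Q C oneY hC (TensorProduct.comm K FY FZ x)
    (fun j => comm_mem_box (hx j))
  refine ⟨z, hz, ?_⟩
  apply (TensorProduct.comm K FY FZ).injective
  rw [h]
  simp

end mirror

section H0

variable (K : Type u) [Field K] [IsAlgClosed K] (X S : Scheme.{u}) [KSch K X] [KSch K S]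
  [IsIntegral X] [IsIntegral S]

/-- Functions on `X × V` come from `V` if `X` is proper. -/
theorem exists_iS_eq [IsProper (pK K X)] {V : S.Opens} (hV : IsAffineOpen V) [Nonempty V]
    (z : (kprod K X S).functionField)
    (hz : ∀ x, pr2 K X S x ∈ V → z ∈ stk (kprod K X S) x) :
    ∃ c ∈ sec K V, z = iS K X S c := by
  have hcX : CompactSpace X := QuasiCompact.compactSpace_of_compactSpace (pK K X)
  obtain ⟨n, U, hU, hUne, hUc⟩ := exists_finite_affine_cover X
  have h1 : ∀ i, ∃ w ∈ box (Subalgebra.toSubmodule (sec K (U i)))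
      (Subalgebra.toSubmodule (sec K V)),
      Algebra.TensorProduct.productMap (iX K X S) (iS K X S) w = z := by
    intro i
    have := (mem_sec_boxO_iff K (hU i) hV z).1 (fun x hx => hz x hx.2)
    exact (mem_boxR_iff _ _ _ _ z).1 this
  choose w hw hwz using h1
  obtain ⟨i0, hi0⟩ := hUc (genericPoint X)
  have h2 : ∀ i, w i0 ∈ box (Subalgebra.toSubmodule (sec K (U i)))
      (Subalgebra.toSubmodule (sec K V)) := by
    intro i
    have : w i0 = w i := productMap_injective K ((hwz i0).trans (hwz i).symm)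
    rw [this]
    exact hw i
  have hne : Nonempty (Fin n) := ⟨i0⟩
  have hC : ⨅ i, Subalgebra.toSubmodule (sec K (U i)) =
      Submodule.span K {(1 : X.functionField)} := by
    rw [← Algebra.iInf_toSubmodule, iInf_sec_eq_bot K X U hUc, Algebra.toSubmodule_bot,
      Submodule.one_eq_span]
  obtain ⟨c, hc, hc'⟩ := exists_tmul_of_forall_mem_box' (Subalgebra.toSubmodule (sec K V))
    (fun i => Subalgebra.toSubmodule (sec K (U i))) 1 hC (w i0) h2
  refine ⟨c, hc, ?_⟩
  rw [← hwz i0, hc']
  simp

/-- A rational function on `X × S` which is regular over the generic point of `S` comes from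
`S`. -/
theorem exists_iS_eq_generic [IsProper (pK K X)] (z : (kprod K X S).functionField)
    (hz : ∀ x, pr2 K X S x = genericPoint S → z ∈ stk (kprod K X S) x) :
    ∃ c, z = iS K X S c := by
  let B : Set (kprod K X S) := {x | z ∉ stk (kprod K X S) x}
  have hB : IsClosed B := by
    rw [← isOpen_compl_iff]
    convert isOpen_mem_stk z using 1
    ext x
    simp [B]
  have hcl : IsClosed (pr2 K X S '' B) := (pr2 K X S).isClosedMap _ hB
  have hmem : genericPoint S ∈ (⟨_, hcl.isOpen_compl⟩ : S.Opens) := by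
    rintro ⟨x, hx, hx'⟩
    exact hx (hz x hx')
  obtain ⟨V, hV, hmV, hle⟩ := exists_isAffineOpen_mem_and_subset hmem
  have : Nonempty V := ⟨⟨_, hmV⟩⟩
  obtain ⟨c, -, h⟩ := exists_iS_eq K X S hV z (fun x hx => by
    by_contra hcon
    exact hle hx ⟨x, hcon, rfl⟩)
  exact ⟨c, h⟩

end H0

end

end Fermat.Agent.H20
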