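import Mathlib
import Fermat.Agent.H20.Inv

/-!
# Descent of trivialisations from `K((t))` to the function field of the base
-/

set_option autoImplicit false

universe u

open AlgebraicGeometry CategoryTheory CategoryTheory.Limits TopologicalSpace TensorProduct
  PowerSeries

namespace Fermat.Agent.H20

noncomputable section

section generic

variable {X Y : Scheme.{u}} [IsIntegral X] [IsIntegral Y]

/-- A point whose local ring is the whole function field is generic. -/
lemma eq_generic_of_stk_top {z : X} (h : ∀ f, f ∈ stk X z) : z = genericPoint X := by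
  have h1 : IsGenericPoint z (Set.univ : Set X) := by
    rw [isGenericPoint_iff_forall_closed isClosed_univ trivial]
    intro C hC hmem
    by_contra hne
    have hU : (Cᶜ).Nonempty := by
      rw [Set.nonempty_compl]
      intro h0
      exact hne (by rw [h0])
    -- an affine neighbourhood
    obtain ⟨W, hW, hzW, -⟩ := exists_isAffineOpen_mem_and_subset (Opens.mem_top z)
    have hWne : Nonempty W := ⟨⟨z, hzW⟩⟩
    let O : X.Opens := ⟨Cᶜ, hC.isOpen_compl⟩
    have hηW : genericPoint X ∈ W := generic_mem ⟨z, hzW⟩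
    have hηO : genericPoint X ∈ O := generic_mem hU
    obtain ⟨s, hs, hs'⟩ := hW.exists_basicOpen_le (V := O) ⟨genericPoint X, hηO⟩ hηW
    have hs0 : s ≠ 0 := by
      rintro rfl
      simp at hs'
    have h2 : z ∈ X.basicOpen s := (mem_basicOpen_iff_stk s hzW hs0).2 (h _)
    exact (hs h2) hmem
  exact h1.eq (genericPoint_spec X)

lemma isDom_of_rho_ne_zero {φ : Y ⟶ X}
    (h : ∀ f (hf : f ∈ stk X (φ (genericPoint Y))), f ≠ 0 → rho φ ⟨f, hf⟩ ≠ 0) : IsDom φ := by
  apply eq_generic_of_stk_top
  intro f
  -- write f = a / b with a b regular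
  obtain ⟨a, b, hb, hab⟩ := IsFractionRing.div_surjective
    (A := X.presheaf.stalk (φ (genericPoint Y))) f
  have ha' : algebraMap _ X.functionField a ∈ stk X (φ (genericPoint Y)) := ⟨a, rfl⟩
  have hb' : algebraMap _ X.functionField b ∈ stk X (φ (genericPoint Y)) := ⟨b, rfl⟩
  have hb0 : algebraMap _ X.functionField b ≠ 0 := by
    simpa using hb
  have h1 := (mem_stk_of_rho_generic hb' (h _ hb' hb0)).1
  rw [← hab, div_eq_mul_inv]
  exact mul_mem ha' h1

end generic

section

variable (K : Type u) [Field K] (X : Scheme.{u}) {A B : Scheme.{u}} [KSch K X] [KSch K A]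
  [KSch K B]

/-- `id × φ` -/
def idTimes (φ : B ⟶ A) (h : IsKHom K φ) : kprod K X B ⟶ kprod K X A :=
  pullback.lift (pr1 K X B) (pr2 K X B ≫ φ) (by
    rw [Category.assoc, h, ← pK_prod', pK_prod])

@[reassoc (attr := simp)]
lemma idTimes_fst (φ : B ⟶ A) (h : IsKHom K φ) :
    idTimes K X φ h ≫ pr1 K X A = pr1 K X B := pullback.lift_fst _ _ _

@[reassoc (attr := simp)]
lemma idTimes_snd (φ : B ⟶ A) (h : IsKHom K φ) :
    idTimes K X φ h ≫ pr2 K X A = pr2 K X B ≫ φ := pullback.lift_snd _ _ _

lemma isKHom_idTimes (φ : B ⟶ A) (h : IsKHom K φ) : IsKHom K (idTimes K X φ h) := by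
  unfold IsKHom
  rw [pK_prod, idTimes_fst_assoc, ← pK_prod]

variable [IsAlgClosed K] [IsIntegral X] [IsIntegral A] [IsIntegral B]

lemma isDom_idTimes (φ : B ⟶ A) (h : IsKHom K φ) (hφ : IsDom φ) : IsDom (idTimes K X φ h) := by
  apply isDom_of_rho_ne_zero
  intro f hf hf0
  -- an affine box around the image of the generic point
  set z := idTimes K X φ h (genericPoint (kprod K X B)) with hz
  obtain ⟨U, hU, V, hV, hzUV⟩ := exists_chart K z
  have hUne : Nonempty U := ⟨⟨_, hzUV.1⟩⟩
  have hVne : Nonempty V := ⟨⟨_, hzUV.2⟩⟩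
  obtain ⟨a, b, ha, hb, hb0, hb1, hab⟩ := exists_div_of_mem_stk (boxO_affine K hU hV) hzUV hf
  -- compute rho on boxes
  have key : ∀ w : X.functionField ⊗[K] A.functionField,
      ∀ hw : Algebra.TensorProduct.productMap (iX K X A) (iS K X A) w ∈ stk (kprod K X A) z,
      w ∈ box (Subalgebra.toSubmodule (sec K U)) (Subalgebra.toSubmodule (sec K V)) →
      rho (idTimes K X φ h) ⟨_, hw⟩ =
        Algebra.TensorProduct.productMap (iX K X B) (iS K X B)
          (Algebra.TensorProduct.map (AlgHom.id K _) (pullK K φ h hφ) w) := by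
    intro w hw hwb
    have hall : ∀ x, x ∈ box (Subalgebra.toSubmodule (sec K U))
        (Subalgebra.toSubmodule (sec K V)) →
        ∃ hx : Algebra.TensorProduct.productMap (iX K X A) (iS K X A) x ∈ stk (kprod K X A) z,
        rho (idTimes K X φ h) ⟨_, hx⟩ = Algebra.TensorProduct.productMap (iX K X B) (iS K X B)
          (Algebra.TensorProduct.map (AlgHom.id K _) (pullK K φ h hφ) x) := by
      intro x hx
      refine box_induction (p := fun x => ∃ hx : Algebra.TensorProduct.productMap (iX K X A)
        (iS K X A) x ∈ stk (kprod K X A) z,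
        rho (idTimes K X φ h) ⟨_, hx⟩ = Algebra.TensorProduct.productMap (iX K X B) (iS K X B)
          (Algebra.TensorProduct.map (AlgHom.id K _) (pullK K φ h hφ) x)) hx ?_ ?_ ?_
      · have h0 : Algebra.TensorProduct.productMap (iX K X A) (iS K X A) 0 ∈
            stk (kprod K X A) z := by rw [map_zero]; exact zero_mem _
        refine ⟨h0, ?_⟩
        have : (⟨_, h0⟩ : stk (kprod K X A) z) = 0 := Subtype.ext (map_zero _)
        refine ((congrArg (rho (idTimes K X φ h)) this).trans (map_zero _)).trans ?_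
        rw [map_zero, map_zero]
      · intro p hp q hq
        have hm1 : iX K X A p ∈ stk (kprod K X A) z :=
          pull_mem_stk (isDom_pr1 K X A) (hp _ hzUV.1)
        have hm2 : iS K X A q ∈ stk (kprod K X A) z :=
          pull_mem_stk (isDom_pr2 K X A) (hq _ hzUV.2)
        have he : Algebra.TensorProduct.productMap (iX K X A) (iS K X A) (p ⊗ₜ q) =
            iX K X A p * iS K X A q := by simp
        have hm : Algebra.TensorProduct.productMap (iX K X A) (iS K X A) (p ⊗ₜ q) ∈
            stk (kprod K X A) z := by rw [he]; exact mul_mem hm1 hm2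
        refine ⟨hm, ?_⟩
        have e1 : (⟨_, hm⟩ : stk (kprod K X A) z) = ⟨_, hm1⟩ * ⟨_, hm2⟩ := Subtype.ext he
        refine (congrArg (rho (idTimes K X φ h)) e1).trans ?_
        rw [map_mul, Algebra.TensorProduct.map_tmul, Algebra.TensorProduct.productMap_apply_tmul]
        congr 1
        · have h3 : p ∈ stk X ((idTimes K X φ h ≫ pr1 K X A) (genericPoint (kprod K X B))) :=
            hp _ hzUV.1
          refine (rho_pull_comp (idTimes K X φ h) (pr1 K X A) (isDom_pr1 K X A) p hm1 h3).trans ?_
          exact rho_congr (idTimes_fst K X φ h) p h3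
        · have h3 : q ∈ stk A ((idTimes K X φ h ≫ pr2 K X A) (genericPoint (kprod K X B))) :=
            hq _ hzUV.2
          refine (rho_pull_comp (idTimes K X φ h) (pr2 K X A) (isDom_pr2 K X A) q hm2 h3).trans ?_
          refine (rho_congr (idTimes_snd K X φ h) q h3).trans ?_
          exact pull_comp hφ (isDom_pr2 K X B) q
      · rintro x x' ⟨hx1, hx2⟩ ⟨hx1', hx2'⟩
        have hm : Algebra.TensorProduct.productMap (iX K X A) (iS K X A) (x + x') ∈
            stk (kprod K X A) z := by rw [map_add]; exact add_mem hx1 hx1'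
        refine ⟨hm, ?_⟩
        have e1 : (⟨_, hm⟩ : stk (kprod K X A) z) = ⟨_, hx1⟩ + ⟨_, hx1'⟩ :=
          Subtype.ext (map_add _ _ _)
        refine (congrArg (rho (idTimes K X φ h)) e1).trans ?_
        rw [map_add, hx2, hx2', map_add, map_add]
    exact (hall w hwb).2
  -- nonvanishing on boxes
  have hne : ∀ a, (∀ y ∈ boxO K U V, a ∈ stk (kprod K X A) y) → ∀ ha : a ∈ stk (kprod K X A) z,
      a ≠ 0 → rho (idTimes K X φ h) ⟨a, ha⟩ ≠ 0 := by
    intro a ha ha' ha0
    obtain ⟨w, hw, rfl⟩ := (mem_boxR_iff _ _ _ _ a).1 ((mem_sec_boxO_iff K hU hV a).1 ha)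
    rw [key w ha' hw]
    intro h0
    apply ha0
    have h1 : Algebra.TensorProduct.map (AlgHom.id K X.functionField) (pullK K φ h hφ) w = 0 :=
      productMap_injective K (h0.trans (map_zero _).symm)
    have h2 : Function.Injective (Algebra.TensorProduct.map (AlgHom.id K X.functionField)
        (pullK K φ h hφ)) := by
      have := Module.Flat.lTensor_preserves_injective_linearMap (R := K) (M := X.functionField)
        (pullK K φ h hφ).toLinearMap (pullK K φ h hφ).toRingHom.injective
      exact this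
    rw [h2 (h1.trans (map_zero _).symm), map_zero]
  have ha0 : a ≠ 0 := by
    rintro rfl
    exact hf0 (by rw [hab, zero_div])
  have e2 : (⟨f, hf⟩ : stk (kprod K X A) z) * ⟨b, hb _ hzUV⟩ = ⟨a, ha _ hzUV⟩ := by
    apply Subtype.ext
    change f * b = a
    rw [hab, div_mul_cancel₀ _ hb0]
  intro h0
  apply hne a ha (ha _ hzUV) ha0
  rw [← e2, map_mul]
  have h0' : rho (idTimes K X φ h) ⟨f, hf⟩ = 0 := h0
  rw [h0', zero_mul]

end

end

end Fermat.Agent.H20
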