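import Mathlib
import Fermat.Agent.H20.Descent

/-!
# Descent of trivialisations from `K((t))` to the function field of the base, II
-/

set_option autoImplicit false

universe u

open AlgebraicGeometry CategoryTheory CategoryTheory.Limits TopologicalSpace TensorProduct

namespace Fermat.Agent.H20

noncomputable section

section lin

/-- the "linear combination" map -/
def Lam {ι : Type*} {F G : Type*} [Field F] [Field G] (σ : F →+* G) (e : ι → G) :
    (ι →₀ F) →+ G :=
  Finsupp.liftAddHom fun k => (AddMonoidHom.mulRight (e k)).comp σ.toAddMonoidHom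

variable {ι : Type*} {F G : Type*} [Field F] [Field G] (σ : F →+* G) (e : ι → G)

@[simp] lemma Lam_single (k : ι) (a : F) : Lam σ e (Finsupp.single k a) = σ a * e k := by
  simp [Lam]

lemma Lam_smul (m : F) (c : ι →₀ F) : Lam σ e (m • c) = σ m * Lam σ e c := by
  induction c using Finsupp.induction_linear with
  | zero => simp
  | add f g hf hg => rw [smul_add, map_add, map_add, hf, hg, mul_add]
  | single a b => rw [Finsupp.smul_single, Lam_single, Lam_single, smul_eq_mul, map_mul, mul_assoc]

lemma Lam_apply (c : ι →₀ F) : Lam σ e c = ∑ k ∈ c.support, σ (c k) * e k := by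
  simp [Lam, Finsupp.sum]

lemma exists_basis_hom {F G : Type u} [Field F] [Field G] (σ : F →+* G) :
    ∃ (ι : Type u) (e : ι → G), (∀ q, ∃ c : ι →₀ F, Lam σ e c = q) ∧
      ∀ c : ι →₀ F, Lam σ e c = 0 → c = 0 := by
  letI := σ.toAlgebra
  let b := Module.Basis.ofVectorSpace F G
  have h1 : ∀ c : _ →₀ F, Lam σ b c = Finsupp.linearCombination F b c := by
    intro c
    rw [Lam_apply, Finsupp.linearCombination_apply, Finsupp.sum]
    rfl
  refine ⟨_, b, fun q => ⟨b.repr q, ?_⟩, fun c hc => ?_⟩
  · rw [h1]
    exact b.linearCombination_repr q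
  · rw [h1] at hc
    exact (linearIndependent_iff.1 b.linearIndependent) c hc

end lin

section sep

universe u1 u2 u3

variable {K : Type u3} {FY : Type u1} {FZ : Type u2} [Field K] [Field FY] [Field FZ]
  [Algebra K FY] [Algebra K FZ]

lemma eq_zero_of_lY {w : FY ⊗[K] FZ} (h : ∀ lam : Module.Dual K FY, lY lam w = 0) : w = 0 := by
  obtain ⟨ρ, e, ψ, -, hexp⟩ := box_expand (K := K) (FY := FY) (FZ := FZ) ⊤
  have hw : w ∈ box (⊤ : Submodule K FY) (⊤ : Submodule K FZ) := by
    induction w using TensorProduct.induction_on with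
    | zero => exact Submodule.zero_mem _
    | tmul a b => exact tmul_mem_box trivial trivial
    | add a b ha hb =>
      have hall : ∀ w : FY ⊗[K] FZ, w ∈ box (⊤ : Submodule K FY) (⊤ : Submodule K FZ) := by
        intro w
        induction w using TensorProduct.induction_on with
        | zero => exact Submodule.zero_mem _
        | tmul a b => exact tmul_mem_box trivial trivial
        | add a b ha hb => exact Submodule.add_mem _ ha hb
      exact hall _
  obtain ⟨s, hs⟩ := hexp ⊤ w hw
  rw [hs s (Finset.Subset.refl s)]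
  exact Finset.sum_eq_zero fun r _ => by rw [h, TensorProduct.tmul_zero]

end sep

section

variable (K : Type u) [Field K] [IsAlgClosed K] (X : Scheme.{u}) {A B : Scheme.{u}} [KSch K X]
  [KSch K A] [KSch K B] [IsIntegral X] [IsIntegral A] [IsIntegral B]

lemma pull_idTimes_iX (φ : B ⟶ A) (h : IsKHom K φ) (hφ : IsDom φ) (f : X.functionField) :
    pull (idTimes K X φ h) (isDom_idTimes K X φ h hφ) (iX K X A f) = iX K X B f := by
  have h1 := pull_comp (isDom_pr1 K X A) (isDom_idTimes K X φ h hφ) f
  refine h1.symm.trans ?_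
  exact pull_congr (idTimes_fst K X φ h) _ f

lemma pull_idTimes_iS (φ : B ⟶ A) (h : IsKHom K φ) (hφ : IsDom φ) (f : A.functionField) :
    pull (idTimes K X φ h) (isDom_idTimes K X φ h hφ) (iS K X A f) =
      iS K X B (pull φ hφ f) := by
  have h1 := pull_comp (isDom_pr2 K X A) (isDom_idTimes K X φ h hφ) f
  have h2 := pull_comp hφ (isDom_pr2 K X B) f
  refine h1.symm.trans (Eq.trans ?_ h2)
  exact pull_congr (idTimes_snd K X φ h) _ f

/-- the subring generated by the function fields of the factors -/
abbrev RZ (X S : Scheme.{u}) [KSch K X] [KSch K S] [IsIntegral X] [IsIntegral S] :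
    Subalgebra K (kprod K X S).functionField :=
  (Algebra.TensorProduct.productMap (iX K X S) (iS K X S)).range

lemma boxR_le_RZ (X S : Scheme.{u}) [KSch K X] [KSch K S] [IsIntegral X] [IsIntegral S]
    (P : Subalgebra K X.functionField) (Q : Subalgebra K S.functionField)
    {z : (kprod K X S).functionField}
    (hz : z ∈ boxR (iX K X S) (iS K X S) P Q) : z ∈ RZ K X S := by
  obtain ⟨w, -, hw⟩ := (mem_boxR_iff _ _ _ _ z).1 hz
  exact ⟨w, hw⟩

lemma exists_denom (X S : Scheme.{u}) [KSch K X] [KSch K S] [IsIntegral X] [IsIntegral S]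
    (z : (kprod K X S).functionField) : ∃ d ∈ RZ K X S, d ≠ 0 ∧ d * z ∈ RZ K X S := by
  obtain ⟨U, hU, hne, -⟩ := exists_affine_nonempty X ⊤ ⟨genericPoint X, trivial⟩
  obtain ⟨V, hV, hne', -⟩ := exists_affine_nonempty S ⊤ ⟨genericPoint S, trivial⟩
  have hg : genericPoint (kprod K X S) ∈ boxO K U V := by
    obtain ⟨x, hx⟩ := boxO_nonempty' K U V
    exact generic_mem ⟨x, hx⟩
  obtain ⟨a, b, ha, hb, hb0, -, h⟩ := exists_div_of_mem_stk (boxO_affine K hU hV) hg
    (stk_genericPoint z)
  refine ⟨b, boxR_le_RZ K X S _ _ ((mem_sec_boxO_iff K hU hV b).1 hb), hb0, ?_⟩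
  rw [h, mul_div_cancel₀ _ hb0]
  exact boxR_le_RZ K X S _ _ ((mem_sec_boxO_iff K hU hV a).1 ha)

lemma exists_common_denom (X S : Scheme.{u}) [KSch K X] [KSch K S] [IsIntegral X] [IsIntegral S]
    {ι : Type*} (s : Finset ι) (z : ι → (kprod K X S).functionField) :
    ∃ d ∈ RZ K X S, d ≠ 0 ∧ ∀ k ∈ s, d * z k ∈ RZ K X S := by
  classical
  choose d hd hd0 hdz using fun k => exists_denom K X S (z k)
  refine ⟨∏ k ∈ s, d k, prod_mem fun k _ => hd k, Finset.prod_ne_zero_iff.2 fun k _ => hd0 k,
    fun k hk => ?_⟩
  rw [← Finset.prod_erase_mul s d hk, mul_assoc]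
  exact mul_mem (prod_mem fun k _ => hd k) (hdz k)

/-- Elements of `K(B)` which are linearly independent over `K(A)` remain linearly independent
over `K(X × A)`. -/
lemma lam_injective (φ : B ⟶ A) (h : IsKHom K φ) (hφ : IsDom φ) {ι : Type u}
    (e : ι → B.functionField) (he : ∀ c : ι →₀ A.functionField, Lam (pull φ hφ) e c = 0 → c = 0)
    (c : ι →₀ (kprod K X A).functionField)
    (hc : Lam (pull (idTimes K X φ h) (isDom_idTimes K X φ h hφ))
      (fun k => iS K X B (e k)) c = 0) : c = 0 := by
  classical
  set ψ := idTimes K X φ h with hψ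
  set hψd : IsDom ψ := isDom_idTimes K X φ h hφ
  obtain ⟨d, -, hd0, hdz⟩ := exists_common_denom K X A c.support c
  have hw : ∀ k, ∃ w : X.functionField ⊗[K] A.functionField, d * c k =
      Algebra.TensorProduct.productMap (iX K X A) (iS K X A) w := by
    intro k
    by_cases hk : k ∈ c.support
    · obtain ⟨w, hw⟩ := hdz k hk
      exact ⟨w, hw.symm⟩
    · exact ⟨0, by rw [map_zero, Finsupp.notMem_support_iff.1 hk, mul_zero]⟩
  choose w hw using hw
  have hw0 : ∀ k, k ∉ c.support → w k = 0 := by
    intro k hk
    apply productMap_injective K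
    rw [map_zero, ← hw k, Finsupp.notMem_support_iff.1 hk, mul_zero]
  let σ2 : X.functionField ⊗[K] A.functionField →ₐ[K] X.functionField ⊗[K] B.functionField :=
    Algebra.TensorProduct.map (AlgHom.id K _) (pullK K φ h hφ)
  have hσ2 : ∀ x, pull ψ hψd (Algebra.TensorProduct.productMap (iX K X A) (iS K X A) x) =
      Algebra.TensorProduct.productMap (iX K X B) (iS K X B) (σ2 x) := by
    intro x
    induction x using TensorProduct.induction_on with
    | zero => simp
    | tmul a b =>
      rw [Algebra.TensorProduct.productMap_apply_tmul, map_mul, pull_idTimes_iX K X φ h hφ,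
        pull_idTimes_iS K X φ h hφ]
      simp only [σ2]
      rw [Algebra.TensorProduct.map_tmul, Algebra.TensorProduct.productMap_apply_tmul]
      rfl
    | add a b ha hb => simp only [map_add, ha, hb]
  have h1 : ∑ k ∈ c.support, σ2 (w k) * (1 ⊗ₜ e k) = 0 := by
    apply productMap_injective K
    rw [map_zero, map_sum]
    have h2 := Lam_smul (pull ψ hψd) (fun k => iS K X B (e k)) d c
    rw [hc, mul_zero, Lam_apply] at h2
    rw [← h2]
    have hsupp : (d • c).support = c.support := by
      ext k
      simp [hd0]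
    rw [hsupp]
    refine Finset.sum_congr rfl fun k _ => ?_
    rw [map_mul, ← hσ2, ← hw k, Finsupp.smul_apply, smul_eq_mul]
    congr 1
    simp
  have hlY : ∀ (lam : Module.Dual K X.functionField) (x : X.functionField ⊗[K] A.functionField)
      (q : B.functionField), lY lam (σ2 x * (1 ⊗ₜ q)) = pull φ hφ (lY lam x) * q := by
    intro lam x q
    induction x using TensorProduct.induction_on with
    | zero => simp
    | tmul a b =>
      simp only [σ2]
      rw [Algebra.TensorProduct.map_tmul, Algebra.TensorProduct.tmul_mul_tmul, lY_tmul, lY_tmul,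
        mul_one]
      have e1 : pull φ hφ (lam a • b) = lam a • pull φ hφ b :=
        map_smul (pullK K φ h hφ) (lam a) b
      rw [e1, smul_mul_assoc]
      rfl
    | add a b ha hb =>
      rw [map_add, add_mul, map_add, ha, hb, map_add, map_add, add_mul]
  have h3 : ∀ k, w k = 0 := by
    intro k
    by_cases hk : k ∈ c.support
    swap
    · exact hw0 k hk
    apply eq_zero_of_lY
    intro lam
    have h4 := congrArg (lY lam) h1
    rw [map_sum, map_zero] at h4
    simp only [hlY] at h4
    let c' : ι →₀ A.functionField := Finsupp.onFinset c.support (fun k => lY lam (w k))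
      (fun k hk => by
        by_contra hk'
        exact hk (by rw [hw0 k hk', map_zero]))
    have h5 : Lam (pull φ hφ) e c' = 0 := by
      rw [Lam_apply, ← h4]
      refine Finset.sum_subset (Finsupp.support_onFinset_subset) fun k _ hk => ?_
      rw [Finsupp.notMem_support_iff.1 hk, map_zero, zero_mul]
    have h6 := he c' h5
    have := DFunLike.congr_fun h6 k
    simpa [c'] using this
  ext k
  have h7 := hw k
  rw [h3 k, map_zero] at h7
  simpa [hd0] using h7

end

end

end Fermat.Agent.H20
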