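import Mathlib
import Fermat.Agent.H20.Descent2

/-!
# Descent of trivialisations from `K((t))` to the function field of the base, III
-/

set_option autoImplicit false

universe u

open AlgebraicGeometry CategoryTheory CategoryTheory.Limits TopologicalSpace TensorProduct

namespace Fermat.Agent.H20

noncomputable section

section

variable (K : Type u) [Field K] [IsAlgClosed K] (X : Scheme.{u}) {A B : Scheme.{u}} [KSch K X]
  [KSch K A] [KSch K B] [IsIntegral X] [IsIntegral A] [IsIntegral B]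

/-- Expansion of a regular function on a box. -/
lemma exists_lam_box (φ : B ⟶ A) (h : IsKHom K φ) (hφ : IsDom φ) {ι : Type u}
    (e : ι → B.functionField) (he : ∀ q, ∃ c : ι →₀ A.functionField, Lam (pull φ hφ) e c = q)
    {U : X.Opens} (hU : IsAffineOpen U) [Nonempty U] {V : B.Opens} (hV : IsAffineOpen V)
    [Nonempty V] (z : (kprod K X B).functionField) (hz : z ∈ sec K (boxO K U V)) :
    ∃ c : ι →₀ (kprod K X A).functionField,
      Lam (pull (idTimes K X φ h) (isDom_idTimes K X φ h hφ)) (fun k => iS K X B (e k)) c = z ∧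
      ∀ k, ∀ y, pr1 K X A y ∈ U → pr2 K X A y = genericPoint A → c k ∈ stk (kprod K X A) y := by
  obtain ⟨w, hw, rfl⟩ := (mem_boxR_iff _ _ _ _ z).1 ((mem_sec_boxO_iff K hU hV z).1 hz)
  refine box_induction (p := fun w => ∃ c : ι →₀ (kprod K X A).functionField,
      Lam (pull (idTimes K X φ h) (isDom_idTimes K X φ h hφ)) (fun k => iS K X B (e k)) c =
        Algebra.TensorProduct.productMap (iX K X B) (iS K X B) w ∧
      ∀ k, ∀ y, pr1 K X A y ∈ U → pr2 K X A y = genericPoint A → c k ∈ stk (kprod K X A) y)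
    hw ?_ ?_ ?_
  · exact ⟨0, by rw [map_zero, map_zero], fun k y _ _ => zero_mem _⟩
  · intro a ha b hb
    clear hb
    obtain ⟨c, hc⟩ := he b
    refine ⟨c.mapRange (fun q => iX K X A a * iS K X A q) (by rw [map_zero, mul_zero]), ?_, ?_⟩
    · rw [Algebra.TensorProduct.productMap_apply_tmul, ← hc]
      induction c using Finsupp.induction_linear generalizing b with
      | zero => simp
      | add f g hf hg =>
        rw [Finsupp.mapRange_add (by intro x y; rw [map_add, mul_add]), map_add, hf _ rfl, hg _ rfl,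
          map_add, map_add, mul_add]
      | single k q =>
        rw [Finsupp.mapRange_single, Lam_single, Lam_single, map_mul,
          pull_idTimes_iX K X φ h hφ, pull_idTimes_iS K X φ h hφ, map_mul, mul_assoc]
    · intro k y hy1 hy2
      rw [Finsupp.mapRange_apply]
      refine mul_mem ?_ ?_
      · exact pull_mem_stk (isDom_pr1 K X A) (ha _ hy1)
      · refine pull_mem_stk (isDom_pr2 K X A) ?_
        rw [hy2]
        exact stk_genericPoint _
  · rintro x x' ⟨c, hc, hc'⟩ ⟨d, hd, hd'⟩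
    refine ⟨c + d, by rw [map_add, map_add, hc, hd], fun k y h1 h2 => ?_⟩
    rw [Finsupp.add_apply]
    exact add_mem (hc' k y h1 h2) (hd' k y h1 h2)

/-- The decomposition lemma. -/
lemma exists_decomp (φ : B ⟶ A) (h : IsKHom K φ) (hφ : IsDom φ) {ι : Type u}
    (e : ι → B.functionField) (he : ∀ q, ∃ c : ι →₀ A.functionField, Lam (pull φ hφ) e c = q)
    (T : CDiv (kprod K X A)) (F : (kprod K X B).functionField)
    (hF : ∀ y, F * (pull (idTimes K X φ h) (isDom_idTimes K X φ h hφ)
      (T.1 (idTimes K X φ h y) : (kprod K X A).functionField))⁻¹ ∈ stk (kprod K X B) y)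
    {U : X.Opens} (hU : IsAffineOpen U) [Nonempty U] :
    ∃ c : ι →₀ (kprod K X A).functionField,
      Lam (pull (idTimes K X φ h) (isDom_idTimes K X φ h hφ)) (fun k => iS K X B (e k)) c = F ∧
      ∀ k, ∀ y, pr1 K X A y ∈ U → pr2 K X A y = genericPoint A →
        c k * (T.1 y : (kprod K X A).functionField)⁻¹ ∈ stk (kprod K X A) y := by
  classical
  set ψ := idTimes K X φ h with hψ
  set hψd : IsDom ψ := isDom_idTimes K X φ h hφ
  obtain ⟨V, hV, hne, -⟩ := exists_affine_nonempty A ⊤ ⟨genericPoint A, trivial⟩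
  have hηV : genericPoint A ∈ V := generic_mem (Set.nonempty_coe_sort.1 hne)
  obtain ⟨V', hV', hne', hle⟩ := exists_affine_nonempty B (φ ⁻¹ᵁ V) ⟨genericPoint B, by
    change φ (genericPoint B) ∈ V
    rw [hφ]
    exact hηV⟩
  obtain ⟨n, m, m', hm, hm', hmm⟩ := exists_partition (boxO_affine K hU hV) T
  have h1 : ∀ k, ∃ c : ι →₀ (kprod K X A).functionField,
      Lam (pull ψ hψd) (fun k => iS K X B (e k)) c = F * pull ψ hψd (m' k) ∧
      ∀ j, ∀ y, pr1 K X A y ∈ U → pr2 K X A y = genericPoint A →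
        c j ∈ stk (kprod K X A) y := by
    intro k
    refine exists_lam_box K X φ h hφ e he hU hV' _ ?_
    intro y hy
    have h2 : ψ y ∈ boxO K U V := by
      refine ⟨?_, ?_⟩
      · change (pr1 K X A) (ψ y) ∈ U
        rw [← Scheme.Hom.comp_apply, hψ, idTimes_fst]
        exact hy.1
      · change (pr2 K X A) (ψ y) ∈ V
        rw [← Scheme.Hom.comp_apply, hψ, idTimes_snd]
        exact hle hy.2
    have h3 := pull_mem_stk hψd (hm' k _ h2)
    have h4 := mul_mem (hF y) h3
    have h5 : (pull ψ hψd (T.1 (ψ y) : (kprod K X A).functionField)) ≠ 0 := by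
      rw [map_ne_zero]
      exact Units.ne_zero _
    convert h4 using 1
    rw [map_mul]
    field_simp
    rfl
  choose d hd hd' using h1
  refine ⟨∑ k, m k • d k, ?_, fun j y hy1 hy2 => ?_⟩
  · rw [map_sum]
    have h6 : ∀ k ∈ Finset.univ, Lam (pull ψ hψd) (fun k => iS K X B (e k)) (m k • d k) =
        F * pull ψ hψd (m k * m' k) := by
      intro k _
      rw [Lam_smul, hd, map_mul]
      ring
    rw [Finset.sum_congr rfl h6, ← Finset.mul_sum, ← map_sum, hmm, map_one, mul_one]
  · have h7 : (∑ k, m k • d k) j * (T.1 y : (kprod K X A).functionField)⁻¹ =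
        ∑ k, (m k * (T.1 y : (kprod K X A).functionField)⁻¹) * d k j := by
      rw [Finsupp.finsetSum_apply, Finset.sum_mul]
      refine Finset.sum_congr rfl fun k _ => ?_
      rw [Finsupp.smul_apply, smul_eq_mul]
      ring
    rw [h7]
    refine sum_mem fun k _ => mul_mem (hm k y ⟨hy1, ?_⟩) (hd' k j y hy1 hy2)
    change pr2 K X A y ∈ V
    rw [hy2]
    exact hηV

lemma exists_decomp' (φ : B ⟶ A) (h : IsKHom K φ) (hφ : IsDom φ) {ι : Type u}
    (e : ι → B.functionField) (he : ∀ q, ∃ c : ι →₀ A.functionField, Lam (pull φ hφ) e c = q)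
    (he' : ∀ c : ι →₀ A.functionField, Lam (pull φ hφ) e c = 0 → c = 0)
    (T : CDiv (kprod K X A)) (F : (kprod K X B).functionField)
    (hF : ∀ y, F * (pull (idTimes K X φ h) (isDom_idTimes K X φ h hφ)
      (T.1 (idTimes K X φ h y) : (kprod K X A).functionField))⁻¹ ∈ stk (kprod K X B) y) :
    ∃ c : ι →₀ (kprod K X A).functionField,
      Lam (pull (idTimes K X φ h) (isDom_idTimes K X φ h hφ)) (fun k => iS K X B (e k)) c = F ∧
      ∀ k, ∀ y, pr2 K X A y = genericPoint A →
        c k * (T.1 y : (kprod K X A).functionField)⁻¹ ∈ stk (kprod K X A) y := by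
  obtain ⟨U, hU, hne, -⟩ := exists_affine_nonempty X ⊤ ⟨genericPoint X, trivial⟩
  obtain ⟨c, hc, -⟩ := exists_decomp K X φ h hφ e he T F hF hU
  refine ⟨c, hc, fun k y hy => ?_⟩
  obtain ⟨U', hU', hyU', -⟩ := exists_isAffineOpen_mem_and_subset (U := ⊤) (x := pr1 K X A y)
    trivial
  have : Nonempty U' := ⟨⟨_, hyU'⟩⟩
  obtain ⟨c', hc', hc''⟩ := exists_decomp K X φ h hφ e he T F hF hU'
  have h1 : c = c' := by
    rw [← sub_eq_zero]
    apply lam_injective K X φ h hφ e he'
    rw [map_sub, hc, hc', sub_self]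
  rw [h1]
  exact hc'' k y hyU' hy

/-- **Descent of trivialisations**: if the pull back of a Cartier divisor `T` on `X × A` to
`X × B` is trivial, where `B → A` is dominant and `X` is proper, then `T` is trivial over
a nonempty open subset of `A`. -/
theorem descent [IsProper (pK K X)] (φ : B ⟶ A) (h : IsKHom K φ) (hφ : IsDom φ)
    (T : CDiv (kprod K X A)) (hT : (pullC (idTimes K X φ h) T).1 ∈ Triv (kprod K X B)) :
    ∃ (V : A.Opens) (g : (kprod K X A).functionFieldˣ), genericPoint A ∈ V ∧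
      ∀ y, pr2 K X A y ∈ V → T.1 y / g ∈ UG (kprod K X A) y := by
  classical
  set ψ := idTimes K X φ h with hψ
  set hψd : IsDom ψ := isDom_idTimes K X φ h hφ
  obtain ⟨F0, hF0⟩ := hT
  -- normalise
  have h1 : ∃ F : (kprod K X B).functionFieldˣ, ∀ y,
      Units.map (pull ψ hψd).toMonoidHom (T.1 (ψ y)) / F ∈ UG (kprod K X B) y := by
    refine ⟨F0 * Units.map (pull ψ hψd).toMonoidHom (T.1 (ψ (genericPoint _))), fun y => ?_⟩
    convert hF0 y using 1
    rw [pullC_apply, pullD_apply, ← div_div, div_right_comm]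
    congr 1
    have h2 : Units.map (pull ψ hψd).toMonoidHom (T.1 (ψ y)) /
        Units.map (pull ψ hψd).toMonoidHom (T.1 (ψ (genericPoint _))) =
        Units.map (pull ψ hψd).toMonoidHom (T.1 (ψ y) / T.1 (ψ (genericPoint _))) := by
      rw [map_div]
    rw [h2]
    ext
    rfl
  obtain ⟨F, hF⟩ := h1
  obtain ⟨ι, e, he, he'⟩ := exists_basis_hom (pull φ hφ)
  obtain ⟨c, hc, hc'⟩ := exists_decomp' K X φ h hφ e he he' T (F : (kprod K X B).functionField)
    (fun y => by
      have := (hF y).2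
      rw [inv_div] at this
      simpa [div_eq_mul_inv] using this)
  obtain ⟨d, hd, hd'⟩ := exists_decomp' K X φ h hφ e he he' T⁻¹
    ((F⁻¹ : (kprod K X B).functionFieldˣ) : (kprod K X B).functionField)
    (fun y => by
      have := (hF y).1
      have e1 : (T⁻¹).1 (ψ y) = (T.1 (ψ y))⁻¹ := rfl
      rw [e1]
      convert this using 1
      simp [div_eq_mul_inv]
      ring)
  have hc0 : c ≠ 0 := by
    rintro rfl
    rw [map_zero] at hc
    exact F.ne_zero hc.symm
  have hd0 : d ≠ 0 := by
    rintro rfl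
    rw [map_zero] at hd
    exact F⁻¹.ne_zero hd.symm
  obtain ⟨j, hj⟩ := Finsupp.ne_iff.1 hc0
  obtain ⟨l, hl⟩ := Finsupp.ne_iff.1 hd0
  rw [Finsupp.zero_apply] at hj hl
  obtain ⟨a, ha⟩ := exists_iS_eq_generic K X A (c j * d l) (fun x hx => by
    have h1 := mul_mem (hc' j x hx) (hd' l x hx)
    convert h1 using 1
    have e1 : (T⁻¹).1 x = (T.1 x)⁻¹ := rfl
    rw [e1]
    have e2 : (T.1 x : (kprod K X A).functionField) ≠ 0 := Units.ne_zero _
    simp
    field_simp)
  have ha0 : a ≠ 0 := by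
    rintro rfl
    rw [map_zero] at ha
    exact (mul_ne_zero hj hl) ha
  let g : (kprod K X A).functionFieldˣ := Units.mk0 (c j) hj
  have hgen : ∀ y, pr2 K X A y = genericPoint A → T.1 y / g ∈ UG (kprod K X A) y := by
    intro y hy
    refine ⟨?_, ?_⟩
    · have h1 : iS K X A a⁻¹ ∈ stk (kprod K X A) y := by
        refine pull_mem_stk (isDom_pr2 K X A) ?_
        rw [hy]
        exact stk_genericPoint _
      have h2 := mul_mem (hd' l y hy) h1
      convert h2 using 1
      have e1 : (T⁻¹).1 y = (T.1 y)⁻¹ := rfl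
      rw [e1, map_inv₀, ← ha]
      have e2 : (T.1 y : (kprod K X A).functionField) ≠ 0 := Units.ne_zero _
      simp [g]
      field_simp
    · have := hc' j y hy
      rw [inv_div]
      simpa [g, div_eq_mul_inv] using this
  have hopen : IsOpen {y | T.1 y / g ∈ UG (kprod K X A) y} := by
    rw [isOpen_iff_forall_mem_open]
    intro x hx
    obtain ⟨W, hxW, hW⟩ := T.2 x
    refine ⟨W ∩ {y | T.1 x / g ∈ UG (kprod K X A) y}, fun y hy => ?_,
      W.isOpen.inter (isOpen_mem_UG _), hxW, hx⟩
    have := mul_mem (hW y hy.1) hy.2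
    rwa [div_mul_div_cancel] at this
  have hcl : IsClosed (pr2 K X A '' {y | T.1 y / g ∈ UG (kprod K X A) y}ᶜ) :=
    (pr2 K X A).isClosedMap _ hopen.isClosed_compl
  refine ⟨⟨_, hcl.isOpen_compl⟩, g, ?_, fun y hy => ?_⟩
  · rintro ⟨x, hx, hx'⟩
    exact hx (hgen x hx')
  · by_contra hcon
    exact hy ⟨y, hcon, rfl⟩

end

end

end Fermat.Agent.H20
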