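import Mathlib
import Fermat.Agent.H20.Descent3
import Fermat.Prelude.Def_JacJ1Iface
import Fermat.Prelude.Def_GoodReductionJacobian_RelativeGroupLawKernel

/-!
# Groups of points and pull backs of divisor classes along points
-/

set_option autoImplicit false

universe u

open AlgebraicGeometry CategoryTheory CategoryTheory.Limits TopologicalSpace TensorProduct
  GoodReductionJacobian NeronModelInfra

namespace Fermat.Agent.H20

noncomputable section

section

variable (K : Type u) [Field K] {A : Scheme.{u}} [KSch K A]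
  {L : RelativeGroupLaw K (pK K A)} (hc : L.IsCommutative)

/-- `T`-valued points -/
def PtG (_hc : L.IsCommutative) (T : Scheme.{u}) [KSch K T] : Type u :=
  SchemeHomOver (pK K T) (pK K A)

/-- the underlying morphism of a point -/
def PtG.mor {K : Type u} [Field K] {A : Scheme.{u}} [KSch K A]
    {L : RelativeGroupLaw K (pK K A)} {hc : L.IsCommutative} {T : Scheme.{u}} [KSch K T]
    (a : PtG K hc T) : T ⟶ A := Subtype.val a

lemma PtG.isKHom {K : Type u} [Field K] {A : Scheme.{u}} [KSch K A]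
    {L : RelativeGroupLaw K (pK K A)} {hc : L.IsCommutative} {T : Scheme.{u}} [KSch K T]
    (a : PtG K hc T) : IsKHom K a.mor := Subtype.property a

lemma PtG.ext {K : Type u} [Field K] {A : Scheme.{u}} [KSch K A]
    {L : RelativeGroupLaw K (pK K A)} {hc : L.IsCommutative} {T : Scheme.{u}} [KSch K T]
    {a b : PtG K hc T} (h : a.mor = b.mor) : a = b := Subtype.ext h

/-- make a point -/
def PtG.mk' {T : Scheme.{u}} [KSch K T] (φ : T ⟶ A) (h : IsKHom K φ) : PtG K hc T := ⟨φ, h⟩

@[simp] lemma PtG.mor_mk' {T : Scheme.{u}} [KSch K T] (φ : T ⟶ A) (h : IsKHom K φ) :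
    (PtG.mk' K hc φ h).mor = φ := rfl

instance (T : Scheme.{u}) [KSch K T] : Add (PtG K hc T) := ⟨L.mul (pK K T)⟩
instance (T : Scheme.{u}) [KSch K T] : Zero (PtG K hc T) := ⟨L.one (pK K T)⟩
instance (T : Scheme.{u}) [KSch K T] : Neg (PtG K hc T) := ⟨L.inv (pK K T)⟩

lemma PtG.add_def {T : Scheme.{u}} [KSch K T] (a b : PtG K hc T) :
    a + b = L.mul (pK K T) a b := rfl

lemma PtG.zero_def {T : Scheme.{u}} [KSch K T] :
    (0 : PtG K hc T) = L.one (pK K T) := rfl

instance (T : Scheme.{u}) [KSch K T] : AddCommGroup (PtG K hc T) where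
  add_assoc := L.mul_assoc (pK K T)
  zero_add := L.one_mul (pK K T)
  add_zero := L.mul_one (pK K T)
  neg_add_cancel := L.inv_mul_cancel (pK K T)
  add_comm := hc (pK K T)
  nsmul := nsmulRec
  zsmul := zsmulRec

/-- functoriality of points -/
def PtG.comap {T T' : Scheme.{u}} [KSch K T] [KSch K T'] (ψ : T' ⟶ T) (h : IsKHom K ψ) :
    PtG K hc T →+ PtG K hc T' where
  toFun a := schemeHomOverComp ψ h a
  map_zero' := L.one_natural _ _ ψ h
  map_add' a b := L.mul_natural _ _ ψ h a b

@[simp] lemma PtG.comap_mor {T T' : Scheme.{u}} [KSch K T] [KSch K T'] (ψ : T' ⟶ T)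
    (h : IsKHom K ψ) (a : PtG K hc T) : (PtG.comap K hc ψ h a).mor = ψ ≫ a.mor := rfl

/-- the universal point -/
def PtG.one' : PtG K hc A := PtG.mk' K hc (𝟙 A) (IsKHom.id K)

lemma PtG.nsmul_mor (n : ℕ) {T : Scheme.{u}} [KSch K T] (a : PtG K hc T) :
    n • a = L.nsmul (pK K T) n a := by
  induction n with
  | zero => rw [zero_smul]; rfl
  | succ n ih =>
    rw [succ_nsmul, ih]
    rfl

lemma schemeNsmul_eq (n : ℕ) : L.schemeNsmul n = (n • PtG.one' K hc : PtG K hc A).mor := by
  rw [PtG.nsmul_mor]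
  rfl

/-- constant points -/
def PtG.const {T : Scheme.{u}} [KSch K T] : PtG K hc (Spec (CommRingCat.of K)) →+ PtG K hc T :=
  PtG.comap K hc (pK K T) (isKHom_pK' K T)

@[simp] lemma PtG.const_mor {T : Scheme.{u}} [KSch K T]
    (a : PtG K hc (Spec (CommRingCat.of K))) :
    (PtG.const K hc a : PtG K hc T).mor = pK K T ≫ a.mor := rfl

lemma PtG.comap_const {T T' : Scheme.{u}} [KSch K T] [KSch K T'] (ψ : T' ⟶ T) (h : IsKHom K ψ)
    (a : PtG K hc (Spec (CommRingCat.of K))) :
    PtG.comap K hc ψ h (PtG.const K hc a) = PtG.const K hc a := by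
  apply PtG.ext
  rw [PtG.comap_mor, PtG.const_mor, PtG.const_mor, ← Category.assoc, h]

lemma PtG.comap_comap {T T' T'' : Scheme.{u}} [KSch K T] [KSch K T'] [KSch K T'']
    (ψ : T' ⟶ T) (h : IsKHom K ψ) (ψ' : T'' ⟶ T') (h' : IsKHom K ψ') (a : PtG K hc T) :
    PtG.comap K hc ψ' h' (PtG.comap K hc ψ h a) = PtG.comap K hc (ψ' ≫ ψ) (h.comp h') a := by
  apply PtG.ext
  simp only [PtG.comap_mor, Category.assoc]

end

section

variable (K : Type u) [Field K] {A : Scheme.{u}} [KSch K A] [IsIntegral A]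
  {L : RelativeGroupLaw K (pK K A)} (hc : L.IsCommutative) (c : PicI A)

/-- pull back of a divisor class along a point -/
def Dv {T : Scheme.{u}} [KSch K T] [IsIntegral T] (a : PtG K hc T) : PicI T := pullP a.mor c

lemma Dv_comap {T T' : Scheme.{u}} [KSch K T] [IsIntegral T] [KSch K T'] [IsIntegral T']
    (ψ : T' ⟶ T) (h : IsKHom K ψ) (a : PtG K hc T) :
    pullP ψ (Dv K hc c a) = Dv K hc c (PtG.comap K hc ψ h a) :=
  (pullP_comp ψ a.mor c).symm

lemma picI_specK (x : PicI (Spec (CommRingCat.of K))) : x = 0 := by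
  obtain ⟨D, rfl⟩ := cls_surjective x
  rw [cls_eq_zero_iff]
  refine ⟨D.1 (genericPoint _), fun y => ?_⟩
  rw [specK_eq K y (genericPoint _), div_self']
  exact one_mem _

lemma Dv_const {T : Scheme.{u}} [KSch K T] [IsIntegral T]
    (a : PtG K hc (Spec (CommRingCat.of K))) : Dv K hc c (PtG.const K hc a : PtG K hc T) = 0 := by
  have := Dv_comap K hc c (pK K T) (isKHom_pK' K T) a
  refine this.symm.trans ?_
  rw [picI_specK K (Dv K hc c a), map_zero]

lemma Dv_zero {T : Scheme.{u}} [KSch K T] [IsIntegral T] :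
    Dv K hc c (0 : PtG K hc T) = 0 := by
  rw [← map_zero (PtG.const K hc)]
  exact Dv_const K hc c 0

/-- the third difference -/
def TT {T : Scheme.{u}} [KSch K T] [IsIntegral T] (a x y : PtG K hc T) : PicI T :=
  Dv K hc c (a + x + y) - Dv K hc c (a + x) - Dv K hc c (a + y) - Dv K hc c (x + y) +
    Dv K hc c a + Dv K hc c x + Dv K hc c y

lemma TT_comap {T T' : Scheme.{u}} [KSch K T] [IsIntegral T] [KSch K T'] [IsIntegral T']
    (ψ : T' ⟶ T) (h : IsKHom K ψ) (a x y : PtG K hc T) :
    pullP ψ (TT K hc c a x y) = TT K hc c (PtG.comap K hc ψ h a) (PtG.comap K hc ψ h x)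
      (PtG.comap K hc ψ h y) := by
  unfold TT
  simp only [map_add, map_sub, Dv_comap K hc c ψ h]

lemma TT_zero_left {T : Scheme.{u}} [KSch K T] [IsIntegral T] (x y : PtG K hc T) :
    TT K hc c 0 x y = 0 := by
  unfold TT
  rw [zero_add, zero_add, Dv_zero]
  abel

lemma TT_zero_mid {T : Scheme.{u}} [KSch K T] [IsIntegral T] (a y : PtG K hc T) :
    TT K hc c a 0 y = 0 := by
  unfold TT
  rw [zero_add, add_zero, Dv_zero]
  abel

lemma TT_zero_right {T : Scheme.{u}} [KSch K T] [IsIntegral T] (a x : PtG K hc T) :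
    TT K hc c a x 0 = 0 := by
  unfold TT
  rw [add_zero, add_zero, add_zero, Dv_zero]
  abel

lemma TT_add {T : Scheme.{u}} [KSch K T] [IsIntegral T] (a x y w : PtG K hc T) :
    TT K hc c a x (y + w) = TT K hc c a x y + TT K hc c (a + y) x w - TT K hc c x y w := by
  unfold TT
  have e1 : a + x + (y + w) = a + x + y + w := (add_assoc _ _ _).symm
  have e2 : a + y + x + w = a + x + y + w := by rw [add_right_comm a y x]
  have e3 : a + y + x = a + x + y := add_right_comm _ _ _
  have e4 : a + (y + w) = a + y + w := (add_assoc _ _ _).symm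
  have e5 : x + (y + w) = x + y + w := (add_assoc _ _ _).symm
  rw [e1, e2, e3, e4, e5]
  abel

end

end

end Fermat.Agent.H20
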