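import Mathlib
import Fermat.Agent.H20.GLaw

/-!
# The theorem of the cube for abelian schemes
-/

set_option autoImplicit false

universe u

open AlgebraicGeometry CategoryTheory CategoryTheory.Limits TopologicalSpace TensorProduct
  GoodReductionJacobian NeronModelInfra

namespace Fermat.Agent.H20

noncomputable section

section

variable (K : Type u) [Field K] [IsAlgClosed K] {A : Scheme.{u}} [KSch K A] [IsIntegral A]
  {L : RelativeGroupLaw K (pK K A)} (hc : L.IsCommutative) (c : PicI A)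

/-- first coordinate on `A × A` -/
def co1 : PtG K hc (kprod K A A) := PtG.mk' K hc (pr1 K A A) (isKHom_pr1 K A A)

/-- second coordinate on `A × A` -/
def co2 : PtG K hc (kprod K A A) := PtG.mk' K hc (pr2 K A A) (isKHom_pr2 K A A)

/-- The third difference over `A × A × Spec K⟦t⟧` vanishes. -/
theorem TT_SR [IsProper (pK K A)] (hfin : FinSec K (kprod K A A))
    (φ : SR K ⟶ A) (hφ : IsKHom K φ)
    (hφ0 : z0 K ≫ φ = (0 : PtG K hc (Spec (CommRingCat.of K))).mor) :
    TT K hc c (PtG.comap K hc (pr1 K (kprod K A A) (SR K)) (isKHom_pr1 K _ _) (co1 K hc))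
      (PtG.comap K hc (pr1 K (kprod K A A) (SR K)) (isKHom_pr1 K _ _) (co2 K hc))
      (PtG.comap K hc (pr2 K (kprod K A A) (SR K)) (isKHom_pr2 K _ _) (PtG.mk' K hc φ hφ)) =
        0 := by
  set q1 := PtG.comap K hc (pr1 K (kprod K A A) (SR K)) (isKHom_pr1 K _ _) (co1 K hc) with hq1
  set q2 := PtG.comap K hc (pr1 K (kprod K A A) (SR K)) (isKHom_pr1 K _ _) (co2 K hc) with hq2
  set q3 := PtG.comap K hc (pr2 K (kprod K A A) (SR K)) (isKHom_pr2 K _ _)
    (PtG.mk' K hc φ hφ) with hq3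
  obtain ⟨D, hD⟩ := cls_surjective (TT K hc c q1 q2 q3)
  rw [← hD, cls_eq_zero_iff]
  let o : PtG K hc (Spec (CommRingCat.of K)) := 0
  refine cubeR K A A o.mor o.isKHom o.mor o.isKHom hfin D ?_ ?_ ?_
  · rw [← cls_eq_zero_iff, ← pullP_cls, hD, TT_comap K hc c _ (isKHom_s0 K _)]
    have : PtG.comap K hc (s0 K (kprod K A A)) (isKHom_s0 K _) q3 = 0 := by
      rw [← map_zero (PtG.const K hc)]
      apply PtG.ext
      rw [PtG.const_mor, ← hφ0, PtG.comap_mor, hq3, PtG.comap_mor, PtG.mor_mk', s0_snd_assoc]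
    rw [this, TT_zero_right]
  · rw [← cls_eq_zero_iff, ← pullP_cls, hD, TT_comap K hc c _ (isKHom_phiR K _ _)]
    have : PtG.comap K hc (phiR K (ax1 K A o.mor o.isKHom) (isKHom_ax1 K A o.mor o.isKHom))
        (isKHom_phiR K _ _) q2 = 0 := by
      rw [← map_zero (PtG.const K hc)]
      apply PtG.ext
      rw [PtG.const_mor, PtG.comap_mor, hq2, PtG.comap_mor, co2, PtG.mor_mk', phiR_fst_assoc,
        ax1_snd, ← Category.assoc]
      rfl
    rw [this, TT_zero_mid]
  · rw [← cls_eq_zero_iff, ← pullP_cls, hD, TT_comap K hc c _ (isKHom_phiR K _ _)]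
    have : PtG.comap K hc (phiR K (ax2 K A o.mor o.isKHom) (isKHom_ax2 K A o.mor o.isKHom))
        (isKHom_phiR K _ _) q1 = 0 := by
      rw [← map_zero (PtG.const K hc)]
      apply PtG.ext
      rw [PtG.const_mor, PtG.comap_mor, hq1, PtG.comap_mor, co1, PtG.mor_mk', phiR_fst_assoc,
        ax2_fst, ← Category.assoc]
      rfl
    rw [this, TT_zero_left]

end

end

end Fermat.Agent.H20
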