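import Mathlib
import Fermat.Agent.H20.GLaw

/-!
# A seesaw principle
-/

set_option autoImplicit false

universe u

open AlgebraicGeometry CategoryTheory CategoryTheory.Limits TopologicalSpace TensorProduct

namespace Fermat.Agent.H20

noncomputable section

section

variable {X Y Z : Scheme.{u}} [IsIntegral X] [IsIntegral Y] [IsIntegral Z]

/-- pull back of nonzero rational functions -/
def pullU (φ : Y ⟶ X) (h : IsDom φ) : X.functionFieldˣ →* Y.functionFieldˣ :=
  Units.map (pull φ h).toMonoidHom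

lemma coe_pullU (φ : Y ⟶ X) (h : IsDom φ) (a : X.functionFieldˣ) :
    (pullU φ h a : Y.functionField) = pull φ h a := rfl

lemma pullU_mem_UG (φ : Y ⟶ X) (h : IsDom φ) {y : Y} {a : X.functionFieldˣ}
    (ha : a ∈ UG X (φ y)) : pullU φ h a ∈ UG Y y := by
  refine ⟨pull_mem_stk h ha.1, ?_⟩
  rw [← map_inv]
  exact pull_mem_stk h ha.2

lemma rhoU_pullU (ψ : Y ⟶ Z) (φ : Z ⟶ Y) (hφ : IsDom φ) (e : ψ ≫ φ = 𝟙 Y)
    (a : Y.functionFieldˣ) (h : pullU φ hφ a ∈ UG Z (ψ (genericPoint Y))) :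
    rhoU ψ ⟨pullU φ hφ a, h⟩ = a := by
  ext
  exact rho_pull_id ψ φ hφ e _ _

lemma pullD_eq_pullU (φ : Y ⟶ X) (h : IsDom φ) (D : CDiv X) (y : Y) :
    (pullC φ D).1 y = pullU φ h (D.1 (φ y)) / pullU φ h (D.1 (φ (genericPoint Y))) := by
  rw [← map_div]
  rfl

lemma pullC_mem_Triv' (φ : Y ⟶ X) {D : CDiv X} (f : X.functionFieldˣ)
    (hf : ∀ y, D.1 (φ y) / f ∈ UG X (φ y)) : (pullC φ D).1 ∈ Triv Y := by
  refine ⟨(rhoU φ ⟨_, hf (genericPoint Y)⟩)⁻¹, fun y => ?_⟩
  rw [div_inv_eq_mul, pullC_apply, pullD_apply, ← map_mul]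
  have h1 := rhoU_mem_UG φ (hf y)
  convert h1 using 2
  ext
  simp

end

section

variable (K : Type u) [Field K] [IsAlgClosed K] (X S : Scheme.{u}) [KSch K X] [KSch K S]
  [IsIntegral X] [IsIntegral S]

omit [IsAlgClosed K] in
lemma units_aux {F : Type*} [Field F] (a b c d t : Fˣ) :
    b / (t * c * d) = a * (b / c) / d / t / a := by
  ext
  simp
  field_simp

/-- **Seesaw**: a Cartier divisor on `X × S` (`X` proper) which is trivial locally over `S`
and trivial along a section `{x₀} × S` is trivial. -/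
theorem seesaw [IsProper (pK K X)] (T : CDiv (kprod K X S))
    (x0 : Spec (CommRingCat.of K) ⟶ X) (hx0 : IsKHom K x0)
    (hloc : ∀ s : S, ∃ (W : S.Opens) (h : (kprod K X S).functionFieldˣ), s ∈ W ∧
      ∀ y, pr2 K X S y ∈ W → T.1 y / h ∈ UG (kprod K X S) y)
    (hsec : (pullC (ax2 K S x0 hx0) T).1 ∈ Triv S) : T.1 ∈ Triv (kprod K X S) := by
  choose W h hW hh using hloc
  set η := genericPoint S with hη
  have hc : ∀ s, ∃ c : S.functionFieldˣ, h s = h η * pullU (pr2 K X S) (isDom_pr2 K X S) c := by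
    intro s
    have hg : η ∈ W s ⊓ W η := ⟨generic_mem ⟨s, hW s⟩, hW η⟩
    obtain ⟨V, hV, hVη, hle⟩ := exists_isAffineOpen_mem_and_subset hg
    have : Nonempty V := ⟨⟨_, hVη⟩⟩
    obtain ⟨c, -, hc⟩ := exists_iS_eq K X S hV
      ((h s / h η : (kprod K X S).functionFieldˣ) : (kprod K X S).functionField)
      (fun x hx => by
        have h1 := hh s x (hle hx).1
        have h2 := hh η x (hle hx).2
        have h3 := div_mem h2 h1
        rw [div_div_div_cancel_left] at h3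
        exact h3.1)
    have hc0 : c ≠ 0 := by
      rintro rfl
      rw [map_zero] at hc
      exact (Units.ne_zero _) hc
    refine ⟨Units.mk0 c hc0, ?_⟩
    have h4 : pullU (pr2 K X S) (isDom_pr2 K X S) (Units.mk0 c hc0) = h s / h η := by
      ext
      exact hc.symm
    rw [h4, mul_div_cancel]
  choose c hc using hc
  set σ := ax2 K S x0 hx0 with hσ
  have hσpt : ∀ s, pr2 K X S (σ s) = s := by
    intro s
    rw [← Scheme.Hom.comp_apply, hσ, ax2_snd]
    rfl
  obtain ⟨t, ht⟩ := hsec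
  have hu : ∀ s, T.1 (σ s) / h s ∈ UG (kprod K X S) (σ s) := fun s =>
    hh s _ (by rw [hσpt]; exact hW s)
  have hu' : ∀ s, T.1 (σ s) / h s ∈ UG (kprod K X S) (σ η) := fun s =>
    mem_UG_generic_of_mem (hu s)
  have hiS : ∀ a : S.functionFieldˣ, pullU (pr2 K X S) (isDom_pr2 K X S) a ∈
      UG (kprod K X S) (σ η) := fun a => pullU_mem_UG _ _ (by
    rw [hσpt]
    exact mem_UG_generic _)
  have key : ∀ s, (pullC σ T).1 s = rhoU σ ⟨_, hu' s⟩ * (c s / c η) / rhoU σ ⟨_, hu' η⟩ := by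
    intro s
    rw [pullC_apply, pullD_apply]
    have e1 : c s / c η = rhoU σ ⟨_, hiS (c s)⟩ / rhoU σ ⟨_, hiS (c η)⟩ := by
      rw [rhoU_pullU σ (pr2 K X S) (isDom_pr2 K X S) (ax2_snd K S x0 hx0),
        rhoU_pullU σ (pr2 K X S) (isDom_pr2 K X S) (ax2_snd K S x0 hx0)]
    rw [e1, ← map_div, ← map_mul, ← map_div]
    congr 1
    apply Subtype.ext
    change T.1 (σ s) / T.1 (σ η) = T.1 (σ s) / h s * (pullU (pr2 K X S) (isDom_pr2 K X S) (c s) /
      pullU (pr2 K X S) (isDom_pr2 K X S) (c η)) / (T.1 (σ η) / h η)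
    have e2 := hc s
    have e3 := hc η
    have e4 : pullU (pr2 K X S) (isDom_pr2 K X S) (c η) = 1 := by
      have := e3
      rwa [eq_comm, mul_eq_left] at this
    rw [e4, e2, div_one, div_mul_eq_mul_div, mul_div_mul_right_eq_div]
    rw [div_div_div_cancel_right]
  refine ⟨h η * pullU (pr2 K X S) (isDom_pr2 K X S) (t * c η * rhoU σ ⟨_, hu' η⟩), fun y => ?_⟩
  set s := pr2 K X S y with hs
  have h1 := ht s
  rw [key s] at h1
  have h2 : rhoU σ ⟨_, hu' s⟩ ∈ UG S s := rhoU_mem_UG σ (hu s)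
  have h3 : c s / (t * c η * rhoU σ ⟨_, hu' η⟩) ∈ UG S s := by
    have h4 := div_mem h1 h2
    rwa [← units_aux] at h4
  have h5 := pullU_mem_UG (pr2 K X S) (isDom_pr2 K X S) (y := y) h3
  have h6 := mul_mem (hh s y (by rw [← hs]; exact hW s)) h5
  convert h6 using 1
  rw [map_div, hc s]
  ext
  simp
  field_simp

end

end

end Fermat.Agent.H20
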