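import Mathlib
import Fermat.Agent.H20.CubeA
import Fermat.Agent.H20.Seesaw

/-!
# The theorem of the cube for abelian schemes, II
-/

set_option autoImplicit false

universe u

open AlgebraicGeometry CategoryTheory CategoryTheory.Limits TopologicalSpace TensorProduct
  GoodReductionJacobian NeronModelInfra

namespace Fermat.Agent.H20

noncomputable section

section

variable (K : Type u) [Field K] [IsAlgClosed K] {A : Scheme.{u}} [KSch K A]
  {L : RelativeGroupLaw K (pK K A)} (hc : L.IsCommutative)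

omit [IsAlgClosed K] in
/-- the point of `Spec K` -/
abbrev ptK : Spec (CommRingCat.of K) := genericPoint (Spec (CommRingCat.of K))

lemma exists_closed_pt [LocallyOfFiniteType (pK K A)] (x : A) (hx : IsClosed {x}) :
    ∃ w : PtG K hc (Spec (CommRingCat.of K)), w.mor (ptK K) = x := by
  refine ⟨PtG.mk' K hc (pointOfClosedPoint (pK K A) x hx) ?_, ?_⟩
  · unfold IsKHom
    rw [pointOfClosedPoint_comp, pK_spec]
    exact (Spec.map_id _).symm
  · rw [PtG.mor_mk', pointOfClosedPoint_apply]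

lemma exists_pt [LocallyOfFiniteType (pK K A)] (U : Set A) (hU : IsLocallyClosed U)
    (hne : U.Nonempty) :
    ∃ w : PtG K hc (Spec (CommRingCat.of K)), w.mor (ptK K) ∈ U := by
  have : JacobsonSpace A := LocallyOfFiniteType.jacobsonSpace (pK K A)
  obtain ⟨x, hx, hx'⟩ := (nonempty_inter_closedPoints hne hU)
  obtain ⟨w, hw⟩ := exists_closed_pt K hc x hx'
  exact ⟨w, hw ▸ hx⟩

omit [IsAlgClosed K] in
lemma pK_specK : pK K (Spec (CommRingCat.of K)) = 𝟙 _ := Spec.map_id _

omit [IsAlgClosed K] in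
lemma PtG.const_specK (w : PtG K hc (Spec (CommRingCat.of K))) :
    (PtG.const K hc w : PtG K hc (Spec (CommRingCat.of K))) = w := by
  apply PtG.ext
  rw [PtG.const_mor, pK_specK, Category.id_comp]

omit [IsAlgClosed K] in
lemma PtG.comap_one' {T : Scheme.{u}} [KSch K T] (p : PtG K hc T) :
    PtG.comap K hc p.mor p.isKHom (PtG.one' K hc) = p := by
  apply PtG.ext
  rw [PtG.comap_mor]
  exact Category.comp_id _

omit [IsAlgClosed K] in
lemma PtG.comap_one'' {T : Scheme.{u}} [KSch K T] (φ : T ⟶ A) (h : IsKHom K φ) :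
    PtG.comap K hc φ h (PtG.one' K hc) = PtG.mk' K hc φ h := by
  apply PtG.ext
  rw [PtG.comap_mor]
  exact Category.comp_id _

omit [IsAlgClosed K] in
lemma PtG.apply_pt {T : Scheme.{u}} [KSch K T] (p : PtG K hc T)
    (v : Spec (CommRingCat.of K) ⟶ T) (hv : IsKHom K v) (x : Spec (CommRingCat.of K)) :
    p.mor (v x) = (PtG.comap K hc v hv p).mor x := by
  rw [PtG.comap_mor, Scheme.Hom.comp_apply]

omit [IsAlgClosed K] in
/-- translation as a point -/
def PtG.trans (w : PtG K hc (Spec (CommRingCat.of K))) : PtG K hc A :=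
  PtG.one' K hc + PtG.const K hc w

omit [IsAlgClosed K] in
lemma PtG.trans_apply (w v : PtG K hc (Spec (CommRingCat.of K)))
    (x : Spec (CommRingCat.of K)) :
    (PtG.trans K hc w).mor (v.mor x) = (v + w).mor x := by
  rw [PtG.apply_pt K hc _ v.mor v.isKHom, PtG.trans, map_add, PtG.comap_one', PtG.comap_const,
    PtG.const_specK]

omit [IsAlgClosed K] in
lemma PtG.comap_trans (p : PtG K hc A) (w : PtG K hc (Spec (CommRingCat.of K))) :
    PtG.comap K hc p.mor p.isKHom (PtG.trans K hc w) = p + PtG.const K hc w := by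
  rw [PtG.trans, map_add, PtG.comap_one', PtG.comap_const]

omit [IsAlgClosed K] in
lemma PtG.trans_comp (v w : PtG K hc (Spec (CommRingCat.of K))) :
    (PtG.trans K hc v).mor ≫ (PtG.trans K hc w).mor = (PtG.trans K hc (v + w)).mor := by
  have := PtG.comap_trans K hc (PtG.trans K hc v) w
  have h2 := congrArg PtG.mor this
  rw [PtG.comap_mor] at h2
  rw [h2, PtG.trans, PtG.trans, map_add, add_assoc]

omit [IsAlgClosed K] in
lemma PtG.trans_zero : (PtG.trans K hc 0).mor = 𝟙 A := by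
  rw [PtG.trans, map_zero, add_zero]
  rfl

instance (w : PtG K hc (Spec (CommRingCat.of K))) : IsIso (PtG.trans K hc w).mor :=
  ⟨(PtG.trans K hc (-w)).mor, by rw [PtG.trans_comp, add_neg_cancel, PtG.trans_zero],
    by rw [PtG.trans_comp, neg_add_cancel, PtG.trans_zero]⟩

end

section

variable (K : Type u) [Field K] [IsAlgClosed K] {A : Scheme.{u}} [KSch K A] [IsIntegral A]
  {L : RelativeGroupLaw K (pK K A)} (hc : L.IsCommutative) (c : PicI A)

/-- the third coordinate -/
def t3 : PtG K hc (kprod K (kprod K A A) A) :=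
  PtG.comap K hc (pr2 K (kprod K A A) A) (isKHom_pr2 K _ _) (PtG.one' K hc)

/-- the first coordinate -/
def t1 : PtG K hc (kprod K (kprod K A A) A) :=
  PtG.comap K hc (pr1 K (kprod K A A) A) (isKHom_pr1 K _ _) (co1 K hc)

/-- the second coordinate -/
def t2 : PtG K hc (kprod K (kprod K A A) A) :=
  PtG.comap K hc (pr1 K (kprod K A A) A) (isKHom_pr1 K _ _) (co2 K hc)

omit [IsAlgClosed K] [IsIntegral A] in
lemma comap_pair {T : Scheme.{u}} [KSch K T] (a x : PtG K hc T) :
    ∃ (ψ : T ⟶ kprod K A A) (h : IsKHom K ψ), PtG.comap K hc ψ h (co1 K hc) = a ∧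
      PtG.comap K hc ψ h (co2 K hc) = x := by
  have e : a.mor ≫ pK K A = x.mor ≫ pK K A := a.isKHom.trans x.isKHom.symm
  refine ⟨pullback.lift a.mor x.mor e, ?_, ?_, ?_⟩
  · unfold IsKHom
    rw [pK_prod, pullback.lift_fst_assoc]
    exact a.isKHom
  · apply PtG.ext
    rw [PtG.comap_mor, co1, PtG.mor_mk', pullback.lift_fst]
  · apply PtG.ext
    rw [PtG.comap_mor, co2, PtG.mor_mk', pullback.lift_snd]

omit [IsAlgClosed K] [IsIntegral A] in
lemma comap_triple {T : Scheme.{u}} [KSch K T] (a x y : PtG K hc T) :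
    ∃ (ψ : T ⟶ kprod K (kprod K A A) A) (h : IsKHom K ψ), PtG.comap K hc ψ h (t1 K hc) = a ∧
      PtG.comap K hc ψ h (t2 K hc) = x ∧ PtG.comap K hc ψ h (t3 K hc) = y := by
  obtain ⟨ψ, h, h1, h2⟩ := comap_pair K hc a x
  have e : ψ ≫ pK K (kprod K A A) = y.mor ≫ pK K A := h.trans y.isKHom.symm
  have hk : IsKHom K (pullback.lift ψ y.mor e : T ⟶ kprod K (kprod K A A) A) := by
    unfold IsKHom
    exact (pullback.lift_fst_assoc ψ y.mor e (pK K (kprod K A A))).trans h
  refine ⟨pullback.lift ψ y.mor e, hk, ?_, ?_, ?_⟩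
  · rw [← h1, t1, PtG.comap_comap]
    apply PtG.ext
    rw [PtG.comap_mor, PtG.comap_mor, pullback.lift_fst]
  · rw [← h2, t2, PtG.comap_comap]
    apply PtG.ext
    rw [PtG.comap_mor, PtG.comap_mor, pullback.lift_fst]
  · rw [t3, PtG.comap_comap]
    apply PtG.ext
    rw [PtG.comap_mor, pullback.lift_snd]
    exact Category.comp_id _

/-- The subgroup of all points `w` for which `TT(a,x,w)` vanishes identically. -/
def Sig : AddSubgroup (PtG K hc (Spec (CommRingCat.of K))) where
  carrier := {w | ∀ (T : Scheme.{u}) [KSch K T] [IsIntegral T] (a x : PtG K hc T),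
    TT K hc c a x (PtG.const K hc w) = 0}
  zero_mem' := fun T _ _ a x => by rw [map_zero, TT_zero_right]
  add_mem' := fun {v w} hv hw T _ _ a x => by
    rw [map_add, TT_add, hv, hw, hw, zero_add, sub_zero]
  neg_mem' := fun {w} hw T _ _ a x => by
    have h1 := TT_add K hc c a x (PtG.const K hc (-w)) (PtG.const K hc w)
    rw [← map_add, neg_add_cancel, map_zero, TT_zero_right, hw, hw, sub_zero, add_zero] at h1
    exact h1.symm

lemma mem_Sig_of (w : PtG K hc (Spec (CommRingCat.of K)))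
    (hw : TT K hc c (co1 K hc) (co2 K hc) (PtG.const K hc w) = 0) : w ∈ Sig K hc c := by
  intro T _ _ a x
  obtain ⟨ψ, h, h1, h2⟩ := comap_pair K hc a x
  have := TT_comap K hc c ψ h (co1 K hc) (co2 K hc) (PtG.const K hc w)
  rw [h1, h2, PtG.comap_const, hw, map_zero] at this
  exact this.symm

lemma Sig_eq_top [LocallyOfFiniteType (pK K A)] (W : A.Opens) (hW : (W : Set A).Nonempty)
    (h : ∀ w : PtG K hc (Spec (CommRingCat.of K)), w.mor (ptK K) ∈ W → w ∈ Sig K hc c) :
    Sig K hc c = ⊤ := by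
  rw [eq_top_iff]
  intro z _
  let ν : PtG K hc A := PtG.const K hc z - PtG.one' K hc
  have hν : ν.mor ≫ ν.mor = 𝟙 A := by
    have h1 : PtG.comap K hc ν.mor ν.isKHom ν = PtG.one' K hc := by
      have h2 : PtG.comap K hc ν.mor ν.isKHom ν = PtG.const K hc z - ν := by
        conv_lhs => rw [show ν = PtG.const K hc z - PtG.one' K hc from rfl]
        rw [map_sub, PtG.comap_const, PtG.comap_one']
      rw [h2]
      exact sub_sub_cancel _ _
    exact congrArg PtG.mor h1
  have hne : ((ν.mor ⁻¹ᵁ W : A.Opens) : Set A).Nonempty := by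
    obtain ⟨x, hx⟩ := hW
    refine ⟨ν.mor x, ?_⟩
    change ν.mor (ν.mor x) ∈ W
    rw [← Scheme.Hom.comp_apply, hν]
    exact hx
  obtain ⟨w, hw⟩ := exists_pt K hc ((W ⊓ ν.mor ⁻¹ᵁ W : A.Opens) : Set A)
    (IsOpen.isLocallyClosed (W ⊓ ν.mor ⁻¹ᵁ W : A.Opens).2)
    ⟨genericPoint A, generic_mem hW, generic_mem hne⟩
  have h1 := h w hw.1
  have h2 : z - w ∈ Sig K hc c := by
    apply h
    have h3 : ν.mor (w.mor (ptK K)) ∈ W := hw.2
    rw [PtG.apply_pt K hc ν w.mor w.isKHom, map_sub, PtG.comap_const, PtG.comap_one',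
      PtG.const_specK] at h3
    exact h3
  have := add_mem h2 h1
  rwa [sub_add_cancel] at this

/-- **Theorem of the cube** -/
theorem TT_three [IsProper (pK K A)] (hfin : FinSec K (kprod K A A))
    (φ : SR K ⟶ A) (hφ : IsKHom K φ) (hφd : IsDom φ)
    (hφ0 : z0 K ≫ φ = (0 : PtG K hc (Spec (CommRingCat.of K))).mor) :
    TT K hc c (t1 K hc) (t2 K hc) (t3 K hc) = 0 := by
  obtain ⟨D, hD⟩ := cls_surjective (TT K hc c (t1 K hc) (t2 K hc) (t3 K hc))
  -- descent
  have h1 : (pullC (idTimes K (kprod K A A) φ hφ) D).1 ∈ Triv (XR K (kprod K A A)) := by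
    rw [← cls_eq_zero_iff, ← pullP_cls, hD, TT_comap K hc c _ (isKHom_idTimes K _ _ _)]
    have := TT_SR K hc c hfin φ hφ hφ0
    convert this using 2
    · rw [t1, PtG.comap_comap]
      apply PtG.ext
      rw [PtG.comap_mor, PtG.comap_mor, idTimes_fst]
    · rw [t2, PtG.comap_comap]
      apply PtG.ext
      rw [PtG.comap_mor, PtG.comap_mor, idTimes_fst]
    · rw [t3, PtG.comap_comap]
      apply PtG.ext
      rw [PtG.comap_mor, PtG.comap_mor, idTimes_snd, Category.assoc]
      rfl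
  obtain ⟨W, g, hηW, hW⟩ := descent K (kprod K A A) φ hφ hφd D h1
  have hWne : (W : Set A).Nonempty := ⟨_, hηW⟩
  -- all points are in `Sig`
  have hS : Sig K hc c = ⊤ := by
    refine Sig_eq_top K hc c W hWne fun w hw => mem_Sig_of K hc c w ?_
    have h2 := TT_comap K hc c (ax1 K (kprod K A A) w.mor w.isKHom)
      (isKHom_ax1 K (kprod K A A) w.mor w.isKHom) (t1 K hc) (t2 K hc) (t3 K hc)
    have e1 : PtG.comap K hc (ax1 K (kprod K A A) w.mor w.isKHom)
        (isKHom_ax1 K (kprod K A A) w.mor w.isKHom) (t1 K hc) = co1 K hc := by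
      rw [t1, PtG.comap_comap]
      apply PtG.ext
      rw [PtG.comap_mor, ax1_fst, Category.id_comp]
    have e2 : PtG.comap K hc (ax1 K (kprod K A A) w.mor w.isKHom)
        (isKHom_ax1 K (kprod K A A) w.mor w.isKHom) (t2 K hc) = co2 K hc := by
      rw [t2, PtG.comap_comap]
      apply PtG.ext
      rw [PtG.comap_mor, ax1_fst, Category.id_comp]
    have e3 : PtG.comap K hc (ax1 K (kprod K A A) w.mor w.isKHom)
        (isKHom_ax1 K (kprod K A A) w.mor w.isKHom) (t3 K hc) = PtG.const K hc w := by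
      rw [t3, PtG.comap_comap]
      apply PtG.ext
      rw [PtG.comap_mor, ax1_snd, PtG.const_mor]
      exact Category.comp_id _
    rw [e1, e2, e3] at h2
    rw [← h2, ← hD, pullP_cls, cls_eq_zero_iff]
    refine pullC_mem_Triv' _ g fun y => hW _ ?_
    rw [← Scheme.Hom.comp_apply, ax1_snd, Scheme.Hom.comp_apply,
      specK_eq K (pK K (kprod K A A) y) (ptK K)]
    exact hw
  -- seesaw
  rw [← hD, cls_eq_zero_iff]
  let o : PtG K hc (kprod K A A) := 0
  obtain ⟨x0, hx0, hx1, hx2⟩ := comap_pair K hc (0 : PtG K hc (Spec (CommRingCat.of K))) 0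
  refine seesaw K (kprod K A A) A D x0 hx0 (fun s => ?_) ?_
  · -- find a translation
    obtain ⟨s0, hs0⟩ := exists_pt K hc (closure {s}) isClosed_closure.isLocallyClosed
      ⟨s, subset_closure rfl⟩
    have hss : s ⤳ s0.mor (ptK K) := by
      rw [specializes_iff_mem_closure]
      exact hs0
    have hne : (((PtG.trans K hc s0).mor ⁻¹ᵁ W : A.Opens) : Set A).Nonempty := by
      obtain ⟨x, hx⟩ := hWne
      refine ⟨(inv (PtG.trans K hc s0).mor) x, ?_⟩
      change (PtG.trans K hc s0).mor ((inv (PtG.trans K hc s0).mor) x) ∈ W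
      rw [← Scheme.Hom.comp_apply, IsIso.inv_hom_id]
      exact hx
    obtain ⟨w, hw⟩ := exists_pt K hc (((PtG.trans K hc s0).mor ⁻¹ᵁ W : A.Opens) : Set A)
      (IsOpen.isLocallyClosed ((PtG.trans K hc s0).mor ⁻¹ᵁ W : A.Opens).2) hne
    have hw' : (PtG.trans K hc w).mor (s0.mor (ptK K)) ∈ W := by
      have h3 : (PtG.trans K hc s0).mor (w.mor (ptK K)) ∈ W := hw
      rw [PtG.trans_apply] at h3 ⊢
      rwa [add_comm]
    set τ := PtG.trans K hc w with hτ
    have hsW : s ∈ τ.mor ⁻¹ᵁ W := hss.mem_open (τ.mor ⁻¹ᵁ W).isOpen hw'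
    let ψ := idTimes K (kprod K A A) τ.mor τ.isKHom
    have hψd : IsDom ψ := isDom_idTimes K _ _ _ (isDom_of_isIso τ.mor)
    have h4 : pullP ψ (cls D) = cls D := by
      rw [hD, TT_comap K hc c ψ (isKHom_idTimes K _ _ _)]
      have e1 : PtG.comap K hc ψ (isKHom_idTimes K _ _ _) (t1 K hc) = t1 K hc := by
        rw [t1, PtG.comap_comap]
        apply PtG.ext
        rw [PtG.comap_mor, PtG.comap_mor, idTimes_fst]
      have e2 : PtG.comap K hc ψ (isKHom_idTimes K _ _ _) (t2 K hc) = t2 K hc := by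
        rw [t2, PtG.comap_comap]
        apply PtG.ext
        rw [PtG.comap_mor, PtG.comap_mor, idTimes_fst]
      have e3 : PtG.comap K hc ψ (isKHom_idTimes K _ _ _) (t3 K hc) =
          t3 K hc + PtG.const K hc w := by
        have e4 : PtG.comap K hc ψ (isKHom_idTimes K _ _ _) (t3 K hc) =
            PtG.comap K hc (pr2 K (kprod K A A) A) (isKHom_pr2 K _ _) τ := by
          rw [t3, PtG.comap_comap]
          apply PtG.ext
          rw [PtG.comap_mor, PtG.comap_mor, idTimes_snd, Category.assoc]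
          rfl
        rw [e4, hτ, PtG.trans, map_add, PtG.comap_const]
        rfl
      rw [e1, e2, e3, TT_add]
      have hwS : w ∈ Sig K hc c := by rw [hS]; trivial
      rw [hwS _ _ _, hwS _ _ _, add_zero, sub_zero]
    rw [pullP_cls, ← sub_eq_zero, sub_eq_add_neg, ← cls_inv, ← cls_mul, cls_eq_zero_iff] at h4
    obtain ⟨f, hf⟩ := h4
    refine ⟨τ.mor ⁻¹ᵁ W, pullU ψ hψd g / pullU ψ hψd (D.1 (ψ (genericPoint _))) / f, hsW,
      fun y hy => ?_⟩
    have h5 : ψ y ∈ {z | pr2 K (kprod K A A) A z ∈ W} := by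
      change pr2 K (kprod K A A) A (ψ y) ∈ W
      rw [← Scheme.Hom.comp_apply, idTimes_snd]
      exact hy
    have h6 := pullU_mem_UG ψ hψd (hW (ψ y) h5)
    have h7 := div_mem h6 (hf y)
    convert h7 using 1
    rw [map_div]
    have e5 : (pullC ψ D * D⁻¹).1 y = (pullC ψ D).1 y * (D.1 y)⁻¹ := rfl
    rw [e5, pullD_eq_pullU ψ hψd]
    ext
    simp
    field_simp
  · rw [← cls_eq_zero_iff, ← pullP_cls, hD, TT_comap K hc c _ (isKHom_ax2 K A x0 hx0)]
    have e1 : PtG.comap K hc (ax2 K A x0 hx0) (isKHom_ax2 K A x0 hx0) (t1 K hc) = 0 := by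
      rw [← map_zero (PtG.const K hc), ← hx1, t1, PtG.comap_comap]
      apply PtG.ext
      rw [PtG.comap_mor, PtG.const_mor, ax2_fst, PtG.comap_mor, Category.assoc]
    rw [e1, TT_zero_left]

/-- **Theorem of the cube**, for points -/
theorem cube [IsProper (pK K A)] (hfin : FinSec K (kprod K A A))
    (φ : SR K ⟶ A) (hφ : IsKHom K φ) (hφd : IsDom φ)
    (hφ0 : z0 K ≫ φ = (0 : PtG K hc (Spec (CommRingCat.of K))).mor)
    {T : Scheme.{u}} [KSch K T] [IsIntegral T] (a x y : PtG K hc T) :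
    TT K hc c a x y = 0 := by
  obtain ⟨ψ, h, h1, h2, h3⟩ := comap_triple K hc a x y
  rw [← h1, ← h2, ← h3, ← TT_comap K hc c ψ h, TT_three K hc c hfin φ hφ hφd hφ0, map_zero]

/-- Behaviour of a symmetric divisor class under multiplication by `n`. -/
theorem Dv_nsmul [IsProper (pK K A)] (hfin : FinSec K (kprod K A A))
    (φ : SR K ⟶ A) (hφ : IsKHom K φ) (hφd : IsDom φ)
    (hφ0 : z0 K ≫ φ = (0 : PtG K hc (Spec (CommRingCat.of K))).mor)
    (hsym : Dv K hc c (-PtG.one' K hc) = Dv K hc c (PtG.one' K hc)) (n : ℕ) :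
    Dv K hc c (n • PtG.one' K hc) = (n ^ 2) • Dv K hc c (PtG.one' K hc) := by
  set e := PtG.one' K hc
  have key : ∀ n : ℕ, Dv K hc c ((n + 2) • e) = 2 • Dv K hc c ((n + 1) • e) -
      Dv K hc c (n • e) + 2 • Dv K hc c e := by
    intro n
    have := cube K hc c hfin φ hφ hφd hφ0 ((n + 1) • e) e (-e)
    unfold TT at this
    have e1 : (n + 1) • e + e + -e = (n + 1) • e := add_neg_cancel_right _ _
    have e2 : (n + 1) • e + -e = n • e := by rw [succ_nsmul, add_neg_cancel_right]
    have e3 : (n + 1) • e + e = (n + 2) • e := (succ_nsmul _ _).symm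
    rw [e1, e2, e3, add_neg_cancel, Dv_zero, hsym, sub_zero] at this
    rw [two_smul, two_smul]
    generalize Dv K hc c ((n + 2) • e) = a at *
    generalize Dv K hc c ((n + 1) • e) = b at *
    generalize Dv K hc c (n • e) = d at *
    generalize Dv K hc c e = q at *
    have h3 : a = (b - a - d + b + q + q) + (a - (b - a - d + b + q + q)) := by abel
    rw [← sub_eq_zero]
    rw [← neg_eq_zero, ← this]
    abel
  induction n using Nat.strong_induction_on with
  | _ n ih =>
    match n, ih with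
    | 0, _ => simp [Dv_zero]
    | 1, _ => simp
    | n + 2, ih =>
      rw [key n, ih (n + 1) (by omega), ih n (by omega)]
      generalize Dv K hc c e = q
      rw [← mul_smul, ← Nat.cast_smul_eq_nsmul ℤ, ← Nat.cast_smul_eq_nsmul ℤ (n ^ 2),
        ← Nat.cast_smul_eq_nsmul ℤ 2, ← Nat.cast_smul_eq_nsmul ℤ ((n + 2) ^ 2), ← sub_smul,
        ← add_smul]
      congr 1
      push_cast
      ring

end

end

end Fermat.Agent.H20
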