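import Mathlib
import Fermat.Agent.H20.Algebraize

/-!
# Valuation rings of the function field of a proper scheme dominate local rings
-/

set_option autoImplicit false

universe u

open AlgebraicGeometry CategoryTheory CategoryTheory.Limits TopologicalSpace TensorProduct

namespace Fermat.Agent.H20

noncomputable section

section

variable (K : Type u) [Field K] (X : Scheme.{u}) [KSch K X] [IsIntegral X]

lemma fromSpecStalk_pK : X.fromSpecStalk (genericPoint X) ≫ pK K X =
    Spec.map (CommRingCat.ofHom (algebraMap K X.functionField)) := by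
  apply ext_of_isAffine
  rw [Scheme.Hom.comp_appTop, Scheme.fromSpecStalk_appTop]
  have h1 : CommRingCat.ofHom (algebraMap K X.functionField) =
      (Scheme.ΓSpecIso (.of K)).inv ≫ (pK K X).appTop ≫
        X.presheaf.germ ⊤ (genericPoint X) trivial := by
    have : (pK K X).appLE ⊤ ⊤ le_top = (pK K X).appTop := by
      simp [Scheme.Hom.appLE]
    rw [← this]
    rfl
  rw [h1]
  have h2 : (homOfLE (le_top : (⊤ : (Spec X.functionField).Opens) ≤ ⊤)).op = 𝟙 _ := rfl
  have h3 := Scheme.ΓSpecIso_inv_naturality ((Scheme.ΓSpecIso (.of K)).inv ≫ (pK K X).appTop ≫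
        X.presheaf.germ ⊤ (genericPoint X) trivial)
  rw [← cancel_epi (Scheme.ΓSpecIso (.of K)).inv, ← h3]
  simp only [Category.assoc]
  rfl

theorem exists_stk_le [IsProper (pK K X)] (V : ValuationSubring X.functionField)
    (hV : ∀ c : K, algebraMap K X.functionField c ∈ V) : ∃ x : X, ∀ f ∈ stk X x, f ∈ V := by
  have hval : ValuativeCriterion.Existence (pK K X) := by
    have h : IsProper (pK K X) := inferInstance
    rw [IsProper.eq_valuativeCriterion] at h
    exact h.1.1.1.existence
  let iK : K →+* V := (algebraMap K X.functionField).codRestrict V.toSubring hV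
  let S : ValuativeCommSq (pK K X) :=
    { R := V
      K := X.functionField
      i₁ := X.fromSpecStalk (genericPoint X)
      i₂ := Spec.map (CommRingCat.ofHom iK)
      commSq := ⟨by
        rw [fromSpecStalk_pK, ← Spec.map_comp, ← CommRingCat.ofHom_comp]
        rfl⟩ }
  obtain ⟨⟨l, hl1, hl2⟩⟩ := (hval S).exists_lift
  change Spec (CommRingCat.of V) ⟶ X at l
  change Spec.map (CommRingCat.ofHom (algebraMap V X.functionField)) ≫ l =
    X.fromSpecStalk (genericPoint X) at hl1
  refine ⟨l (IsLocalRing.closedPoint V), ?_⟩
  rintro f ⟨a, rfl⟩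
  have hsp : genericPoint X ⤳ l (IsLocalRing.closedPoint V) :=
    (genericPoint_spec X).specializes trivial
  have h1 := Scheme.Spec_stalkClosedPointTo_fromSpecStalk l
  have h2 : Spec.map (CommRingCat.ofHom (algebraMap V X.functionField)) ≫
      Spec.map (Scheme.stalkClosedPointTo l) = Spec.map (X.presheaf.stalkSpecializes hsp) := by
    rw [← cancel_mono (X.fromSpecStalk (l (IsLocalRing.closedPoint V))), Category.assoc]
    erw [h1]
    rw [hl1, Scheme.SpecMap_stalkSpecializes_fromSpecStalk]
  rw [← Spec.map_comp] at h2
  have h3 := Spec.map_injective h2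
  have h4 := congrArg (fun g => g.hom a) h3
  have h5 : algebraMap (X.presheaf.stalk (l (IsLocalRing.closedPoint V))) X.functionField a =
    algebraMap V X.functionField ((Scheme.stalkClosedPointTo l).hom a) := h4.symm
  rw [h5]
  exact ((Scheme.stalkClosedPointTo l).hom a).2

end

end

end Fermat.Agent.H20
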