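import Mathlib
import Fermat.Agent.H20.Valuative

/-!
# Finiteness of spaces of sections, from the growth bound
-/

set_option autoImplicit false

universe u

open AlgebraicGeometry CategoryTheory CategoryTheory.Limits TopologicalSpace TensorProduct

namespace Fermat.Agent.H20

noncomputable section

/-- The growth bound for a function field `F` over `K`. -/
def GrowthB (K F : Type u) [Field K] [Field F] [Algebra K F] (g : ℕ) : Prop :=
  ∀ W : Finset F, (1 : F) ∈ W → ∃ C : ℕ, ∀ m : ℕ, 1 ≤ m → ∀ U : Submodule K F,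
      (∀ f ∈ U, ∀ V : ValuationSubring F, (∀ c : K, algebraMap K F c ∈ V) →
        ∃ w ∈ W, w ≠ 0 ∧ f * (w⁻¹) ^ m ∈ V) →
      Module.Finite K U ∧ Module.finrank K U ≤ C * m ^ g

/-- The growth bound in general. -/
def GrowthAll (K : Type u) [Field K] : Prop := ∀ (F : Type u) [Field F] [Algebra K F] (g : ℕ),
  (⊤ : IntermediateField K F).FG → Algebra.trdeg K F = g → GrowthB K F g

section

variable (K : Type u) [Field K] (X : Scheme.{u}) [KSch K X] [IsIntegral X]

omit [IsIntegral X] in
lemma finiteType_sec [LocallyOfFiniteType (pK K X)] {U : X.Opens} (hU : IsAffineOpen U) :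
    Algebra.FiniteType K Γ(X, U) := by
  have h1 : ((pK K X).appLE ⊤ U le_top).hom.FiniteType :=
    HasRingHomProperty.appLE (P := @LocallyOfFiniteType) (pK K X) inferInstance
      ⟨⊤, isAffineOpen_top _⟩ ⟨U, hU⟩ le_top
  have h2 : (kSec K U).hom.FiniteType := by
    unfold kSec
    rw [CommRingCat.hom_comp]
    exact h1.comp (RingHom.FiniteType.of_surjective _
      (ConcreteCategory.bijective_of_isIso (Scheme.ΓSpecIso (.of K)).inv).2)
  exact h2

lemma isScalarTower_fun (U : X.Opens) [Nonempty U] :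
    IsScalarTower K Γ(X, U) X.functionField :=
  IsScalarTower.of_algebraMap_eq fun c => algebraMap_fun' K U c

lemma essFiniteType_fun [LocallyOfFiniteType (pK K X)] :
    Algebra.EssFiniteType K X.functionField := by
  obtain ⟨U, hU, hmU, -⟩ := exists_isAffineOpen_mem_and_subset (U := (⊤ : X.Opens))
    (x := genericPoint X) trivial
  have : Nonempty U := ⟨⟨_, hmU⟩⟩
  have h1 := finiteType_sec K X hU
  have h2 := isScalarTower_fun K X U
  have h3 := functionField_isFractionRing_of_isAffineOpen X U hU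
  have h4 : Algebra.EssFiniteType Γ(X, U) X.functionField :=
    Algebra.EssFiniteType.of_isLocalization _ (nonZeroDivisors Γ(X, U))
  exact Algebra.EssFiniteType.comp K Γ(X, U) X.functionField

lemma fg_fun [LocallyOfFiniteType (pK K X)] :
    (⊤ : IntermediateField K X.functionField).FG := by
  have := essFiniteType_fun K X
  exact IntermediateField.fg_top K X.functionField

lemma exists_trdeg_eq [LocallyOfFiniteType (pK K X)] :
    ∃ g : ℕ, Algebra.trdeg K X.functionField = g := by
  have := essFiniteType_fun K X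
  exact Cardinal.lt_aleph0.1 (trdeg_lt_aleph0 K X.functionField)

theorem finSec_of_growth [IsProper (pK K X)] (hM : GrowthAll K) : FinSec K X := by
  classical
  intro n W h hW hh
  obtain ⟨g, hg⟩ := exists_trdeg_eq K X
  obtain ⟨C, hC⟩ := hM X.functionField g (fg_fun K X) hg
    (insert 1 (Finset.univ.image fun i => (h i)⁻¹)) (Finset.mem_insert_self _ _)
  refine (hC 1 le_rfl (secH K X W h) ?_).1
  intro f hf V hV
  obtain ⟨x, hx⟩ := exists_stk_le K X V hV
  obtain ⟨i, hi⟩ := hW x
  refine ⟨(h i)⁻¹, Finset.mem_insert_of_mem (Finset.mem_image_of_mem _ (Finset.mem_univ i)),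
    inv_ne_zero (hh i), ?_⟩
  rw [inv_inv, pow_one, mul_comm]
  exact hx _ (hf i x hi)

end

section spaces

variable (K : Type u) [Field K] {X : Scheme.{u}} [KSch K X] [IsIntegral X]

/-- the space of rational functions with poles bounded by `m D` -/
def Ssp (D : CDiv X) (m : ℕ) : Submodule K X.functionField where
  carrier := {f | ∀ x, f * (D.1 x : X.functionField) ^ m ∈ stk X x}
  add_mem' := by
    intro a b ha hb x
    rw [add_mul]
    exact add_mem (ha x) (hb x)
  zero_mem' := by
    intro x
    rw [zero_mul]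
    exact zero_mem _
  smul_mem' := by
    intro c a ha x
    rw [Algebra.smul_def, mul_assoc]
    exact mul_mem (algebraMap_mem_stk K x c) (ha x)

lemma mem_Ssp {D : CDiv X} {m : ℕ} {f : X.functionField} :
    f ∈ Ssp K D m ↔ ∀ x, f * (D.1 x : X.functionField) ^ m ∈ stk X x := Iff.rfl

lemma mul_mem_Ssp {D : CDiv X} {m m' : ℕ} {f f' : X.functionField} (hf : f ∈ Ssp K D m)
    (hf' : f' ∈ Ssp K D m') : f * f' ∈ Ssp K D (m + m') := by
  intro x
  have := mul_mem (hf x) (hf' x)
  convert this using 1
  ring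

lemma one_mem_Ssp_zero {D : CDiv X} : (1 : X.functionField) ∈ Ssp K D 0 := by
  intro x
  simpa using one_mem (stk X x)

lemma pow_mem_Ssp {D : CDiv X} {f : X.functionField} (hf : f ∈ Ssp K D 1) (m : ℕ) :
    f ^ m ∈ Ssp K D m := by
  induction m with
  | zero => rw [pow_zero]; exact one_mem_Ssp_zero K
  | succ m ih => rw [pow_succ]; exact mul_mem_Ssp K ih hf

lemma Ssp_mono {D : CDiv X} (h1 : (1 : X.functionField) ∈ Ssp K D 1) :
    Monotone (Ssp K D) := by
  apply monotone_nat_of_le_succ
  intro m f hf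
  have := mul_mem_Ssp K hf h1
  rwa [mul_one] at this

/-- Cartier divisors have finitely many local equations on a quasi-compact scheme -/
lemma exists_finite_eqs [CompactSpace X] (D : CDiv X) :
    ∃ s : Finset X, ∀ x : X, ∃ q ∈ s, D.1 x / D.1 q ∈ UG X x := by
  classical
  choose U hU hU' using D.2
  obtain ⟨s, hs⟩ := isCompact_univ.elim_finite_subcover (fun x => (U x : Set X))
    (fun x => (U x).2) (fun x _ => Set.mem_iUnion.2 ⟨x, hU x⟩)
  refine ⟨s, fun x => ?_⟩
  have := hs (Set.mem_univ x)
  rw [Set.mem_iUnion₂] at this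
  obtain ⟨q, hq, hxq⟩ := this
  exact ⟨q, hq, hU' q x hxq⟩

theorem growth_Ssp [IsProper (pK K X)] (g : ℕ) (hM : GrowthB K X.functionField g)
    (D : CDiv X) : ∃ C : ℕ, ∀ m, 1 ≤ m → Module.Finite K (Ssp K D m) ∧
      Module.finrank K (Ssp K D m) ≤ C * m ^ g := by
  classical
  have hcX : CompactSpace X := QuasiCompact.compactSpace_of_compactSpace (pK K X)
  obtain ⟨s, hs⟩ := exists_finite_eqs D
  obtain ⟨C, hC⟩ := hM (insert 1 (s.image fun q => ((D.1 q)⁻¹ : X.functionFieldˣ)))
    (Finset.mem_insert_self _ _)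
  refine ⟨C, fun m hm => hC m hm _ ?_⟩
  intro f hf V hV
  obtain ⟨x, hx⟩ := exists_stk_le K X V hV
  obtain ⟨q, hq, hxq⟩ := hs x
  refine ⟨((D.1 q)⁻¹ : X.functionFieldˣ), Finset.mem_insert_of_mem
    (Finset.mem_image_of_mem _ hq), Units.ne_zero _, ?_⟩
  apply hx
  have h1 := hf x
  have h2 := pow_mem hxq.2 m
  have h3 := mul_mem h1 h2
  convert h3 using 1
  rw [inv_div, Units.val_div_eq_div_val, Units.val_inv_eq_inv_val, inv_inv, div_pow]
  have e1 : (D.1 x : X.functionField) ≠ 0 := Units.ne_zero _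
  field_simp

end spaces

end

end Fermat.Agent.H20
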