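import Mathlib
import Fermat.Agent.H20.FinS

/-!
# Existence of Cartier divisors bounding the poles of given functions
-/

set_option autoImplicit false

universe u

open AlgebraicGeometry CategoryTheory CategoryTheory.Limits TopologicalSpace TensorProduct

namespace Fermat.Agent.H20

noncomputable section

section

variable (K : Type u) [Field K] {X : Scheme.{u}} [KSch K X] [IsIntegral X]

omit [KSch K X] in
lemma isFractionRing_stk (x : X) : IsFractionRing (stk X x) X.functionField := by
  apply IsFractionRing.of_field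
  intro z
  obtain ⟨a, b, hb⟩ := IsFractionRing.div_surjective (A := X.presheaf.stalk x) z
  exact ⟨stkEquiv x a, stkEquiv x b, hb.2.symm⟩

omit [KSch K X] in
lemma ufm_stk (h : ∀ x : X, UniqueFactorizationMonoid (X.presheaf.stalk x)) (x : X) :
    UniqueFactorizationMonoid (stk X x) :=
  MulEquiv.uniqueFactorizationMonoid (stkEquiv x).toMulEquiv (h x)

omit [KSch K X] in
lemma mem_stk_of_isIntegral (h : ∀ x : X, UniqueFactorizationMonoid (X.presheaf.stalk x))
    (x : X) (f : X.functionField) (hf : IsIntegral (stk X x) f) : f ∈ stk X x := by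
  have := ufm_stk h x
  have := isFractionRing_stk x
  obtain ⟨y, hy⟩ := (IsIntegrallyClosed.isIntegral_iff (R := stk X x) (K := X.functionField)).1 hf
  rw [← hy]
  exact y.2

omit [KSch K X] in
/-- denominators of a single function -/
lemma exists_den (h : ∀ x : X, UniqueFactorizationMonoid (X.presheaf.stalk x)) (x : X)
    (f : X.functionField) : ∃ q : X.functionField, q ≠ 0 ∧ q ∈ stk X x ∧ q * f ∈ stk X x ∧
      ∀ c ∈ stk X x, c * f ∈ stk X x → c / q ∈ stk X x := by
  have := ufm_stk h x
  have := isFractionRing_stk x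
  obtain ⟨a, b, hab, hf⟩ := IsFractionRing.exists_reduced_fraction (A := stk X x) f
  have hb0 : ((b : stk X x) : X.functionField) ≠ 0 := by
    have := nonZeroDivisors.ne_zero b.2
    intro h0
    exact this (Subtype.ext h0)
  have hf' : f = (a : X.functionField) / ((b : stk X x) : X.functionField) := by
    rw [← hf, IsFractionRing.mk'_eq_div]
    rfl
  refine ⟨((b : stk X x) : X.functionField), hb0, b.1.2, ?_, ?_⟩
  · rw [hf', mul_div_cancel₀ _ hb0]
    exact a.2
  · intro c hc hcf
    have hdvd : (b : stk X x) ∣ ⟨c, hc⟩ * a := by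
      refine ⟨⟨c * f, hcf⟩, Subtype.ext ?_⟩
      change c * a = b * (c * f)
      rw [hf']
      field_simp
    have h2 : (b : stk X x) ∣ ⟨c, hc⟩ := hab.symm.dvd_of_dvd_mul_right hdvd
    obtain ⟨e, he⟩ := h2
    have h3 : c = b * e := congrArg Subtype.val he
    rw [h3, mul_div_cancel_left₀ _ hb0]
    exact e.2

omit [KSch K X] in
lemma exists_common_den (h : ∀ x : X, UniqueFactorizationMonoid (X.presheaf.stalk x)) (x : X)
    (E : Finset X.functionField) : ∃ q : X.functionField, q ≠ 0 ∧ q ∈ stk X x ∧
      (∀ e ∈ E, q * e ∈ stk X x) ∧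
      ∀ c ∈ stk X x, (∀ e ∈ E, c * e ∈ stk X x) → c / q ∈ stk X x := by
  classical
  induction E using Finset.induction_on with
  | empty => exact ⟨1, one_ne_zero, one_mem _, by simp, fun c hc _ => by simpa using hc⟩
  | insert f E hf ih =>
    obtain ⟨q, hq0, hq, hqE, hqd⟩ := ih
    obtain ⟨r, hr0, hr, hrf, hrd⟩ := exists_den h x (q * f)
    refine ⟨q * r, mul_ne_zero hq0 hr0, mul_mem hq hr, ?_, ?_⟩
    · intro e he
      rw [Finset.mem_insert] at he
      rcases he with rfl | he
      · convert hrf using 1
        ring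
      · have := mul_mem (hqE e he) hr
        convert this using 1
        ring
    · intro c hc hcE
      have h1 := hqd c hc fun e he => hcE e (Finset.mem_insert_of_mem he)
      have h2 := hrd (c / q) h1 (by
        have := hcE f (Finset.mem_insert_self _ _)
        convert this using 1
        field_simp)
      rwa [div_div] at h2

omit [KSch K X] in
lemma exists_clear_stk {U : X.Opens} (hU : IsAffineOpen U) {y : X} (hy : y ∈ U)
    (E : Finset X.functionField) (hE : ∀ e ∈ E, e ∈ stk X y) :
    ∃ b : X.functionField, b ≠ 0 ∧ (∀ z ∈ U, b ∈ stk X z) ∧ b⁻¹ ∈ stk X y ∧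
      ∀ e ∈ E, ∀ z ∈ U, b * e ∈ stk X z := by
  classical
  induction E using Finset.induction_on with
  | empty => exact ⟨1, one_ne_zero, fun z _ => one_mem _, by simp [one_mem], by simp⟩
  | insert f E hf ih =>
    obtain ⟨b, hb0, hb, hb', hbE⟩ := ih fun e he => hE e (Finset.mem_insert_of_mem he)
    obtain ⟨p, q, hp, hq, hq0, hq', hfe⟩ := exists_div_of_mem_stk hU hy
      (hE f (Finset.mem_insert_self _ _))
    refine ⟨b * q, mul_ne_zero hb0 hq0, fun z hz => mul_mem (hb z hz) (hq z hz), ?_, ?_⟩
    · rw [mul_inv]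
      exact mul_mem hb' hq'
    · intro e he z hz
      rw [Finset.mem_insert] at he
      rcases he with rfl | he
      · have := mul_mem (hb z hz) (hp z hz)
        convert this using 1
        rw [hfe]
        field_simp
      · have := mul_mem (hbE e he z hz) (hq z hz)
        convert this using 1
        ring

/-- **Existence of Cartier divisors bounding poles.** -/
theorem exists_div_bounding [LocallyOfFiniteType (pK K X)]
    (h : ∀ x : X, UniqueFactorizationMonoid (X.presheaf.stalk x))
    (E : Finset X.functionField) :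
    ∃ D : CDiv X, ∀ x, (D.1 x : X.functionField) ∈ stk X x ∧
      ∀ e ∈ E, e * (D.1 x : X.functionField) ∈ stk X x := by
  classical
  choose q hq0 hq hqE hqd using fun x => exists_common_den h x E
  refine ⟨⟨fun x => Units.mk0 (q x) (hq0 x), ?_⟩, fun x => ⟨hq x, fun e he => by
    rw [mul_comm]; exact hqE x e he⟩⟩
  intro x
  obtain ⟨U, hU, hxU, -⟩ := exists_isAffineOpen_mem_and_subset (U := (⊤ : X.Opens))
    (x := x) trivial
  have hne : Nonempty U := ⟨⟨x, hxU⟩⟩
  have hft := finiteType_sec K X hU
  have hnoeth : IsNoetherianRing Γ(X, U) := Algebra.FiniteType.isNoetherianRing K _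
  let G := X.germToFunctionField U
  let J : Ideal Γ(X, U) :=
    { carrier := {b | ∀ e ∈ E, ∀ z ∈ U, G b * e ∈ stk X z}
      add_mem' := by
        intro a b ha hb e he z hz
        rw [map_add, add_mul]
        exact add_mem (ha e he z hz) (hb e he z hz)
      zero_mem' := by
        intro e he z hz
        rw [map_zero, zero_mul]
        exact zero_mem _
      smul_mem' := by
        intro c a ha e he z hz
        rw [smul_eq_mul, map_mul, mul_assoc]
        exact mul_mem (germ_mem_stk hz c) (ha e he z hz) }
  obtain ⟨S, hS⟩ := (isNoetherianRing_iff_ideal_fg _).1 hnoeth J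
  -- the neighbourhood
  let O1 : Set X := ⋂ s ∈ S, {y | G s / q x ∈ stk X y}
  let O2 : Set X := ⋂ e ∈ E, {y | q x * e ∈ stk X y}
  have hO1 : IsOpen O1 := isOpen_biInter_finset fun s _ => isOpen_mem_stk _
  have hO2 : IsOpen O2 := isOpen_biInter_finset fun s _ => isOpen_mem_stk _
  refine ⟨U ⊓ ⟨_, hO1⟩ ⊓ ⟨_, hO2⟩ ⊓ ⟨_, isOpen_mem_stk (q x)⟩, ⟨⟨⟨hxU, ?_⟩, ?_⟩, hq x⟩, ?_⟩
  · refine Set.mem_iInter₂.2 fun s hs => hqd x _ (germ_mem_stk hxU s) fun e he => ?_
    have : s ∈ J := by
      rw [← hS]
      exact Ideal.subset_span hs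
    exact this e he x hxU
  · exact Set.mem_iInter₂.2 fun e he => hqE x e he
  · rintro y ⟨⟨⟨hyU, hy1⟩, hy2⟩, hy3⟩
    have hy1' : ∀ s ∈ S, G s / q x ∈ stk X y := fun s hs => Set.mem_iInter₂.1 hy1 s hs
    have hy2' : ∀ e ∈ E, q x * e ∈ stk X y := fun e he => Set.mem_iInter₂.1 hy2 e he
    have hJ : ∀ b ∈ J, G b / q x ∈ stk X y := by
      intro b hb
      rw [← hS] at hb
      refine Submodule.span_induction (p := fun b _ => G b / q x ∈ stk X y) hy1' ?_ ?_ ?_ hb
      · simp [zero_mem]
      · intro a b _ _ ha hb
        rw [map_add, add_div]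
        exact add_mem ha hb
      · intro c a _ ha
        rw [smul_eq_mul, map_mul, mul_div_assoc]
        exact mul_mem (germ_mem_stk hyU c) ha
    have key : ∀ a ∈ stk X y, (∀ e ∈ E, a * e ∈ stk X y) → a / q x ∈ stk X y := by
      intro a ha haE
      obtain ⟨b, hb0, hb, hb', hbE⟩ := exists_clear_stk hU hyU
        (insert a (E.image fun e => a * e)) (by
          intro e he
          rw [Finset.mem_insert, Finset.mem_image] at he
          rcases he with rfl | ⟨e', he', rfl⟩
          · exact ha
          · exact haE e' he')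
      obtain ⟨c, hc⟩ := exists_section_of_forall_mem_stk
        (fun z hz => hbE a (Finset.mem_insert_self _ _) z hz)
      have hcJ : c ∈ J := by
        intro e he z hz
        have := hbE (a * e) (Finset.mem_insert_of_mem (Finset.mem_image_of_mem _ he)) z hz
        rw [show G c = b * a from hc, mul_assoc]
        exact this
      have h5 := hJ c hcJ
      rw [show G c = b * a from hc] at h5
      have h6 := mul_mem hb' h5
      convert h6 using 1
      field_simp
    refine ⟨?_, ?_⟩
    · rw [Units.val_div_eq_div_val]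
      exact key (q y) (hq y) (hqE y)
    · rw [inv_div, Units.val_div_eq_div_val]
      exact hqd y (q x) hy3 hy2'

end

end

end Fermat.Agent.H20
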