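import Mathlib

/-!
# Numerical part of the counting argument
-/

set_option autoImplicit false

namespace Fermat.Agent.H20

lemma le_of_pow_bound (a b C : ℕ) (h : ∀ k : ℕ, a ^ k ≤ C * b ^ k) : a ≤ b := by
  by_contra hab
  push Not at hab
  rcases Nat.eq_zero_or_pos b with hb | hb
  · subst hb
    have := h 1
    simp at this
    omega
  have h1 : (1 : ℝ) < (a : ℝ) / b := by
    rw [one_lt_div (by exact_mod_cast hb)]
    exact_mod_cast hab
  obtain ⟨k, hk⟩ := pow_unbounded_of_one_lt (C : ℝ) h1
  have h2 := h k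
  have h3 : ((a : ℝ) / b) ^ k ≤ C := by
    rw [div_pow, div_le_iff₀ (by positivity)]
    exact_mod_cast h2
  linarith

lemma count_numeric (s : ℕ → ℕ) (hs : Monotone s) (n d g C : ℕ) (hn : 2 ≤ n)
    (h1 : ∀ m, d * s m ≤ s (n ^ 2 * (m + 1))) (h2 : ∀ m, s (n ^ 2 * m) ≤ d * s (m + 1))
    (h3 : ∀ m, 1 ≤ m → s m ≤ C * m ^ g) (h4 : ∀ m, (m + 1) ^ g ≤ s (g * m)) :
    d = n ^ (2 * g) := by
  have hn4 : 4 ≤ n ^ 2 := by nlinarith
  apply le_antisymm
  · -- upper bound
    let a : ℕ → ℕ := fun k => Nat.rec 1 (fun _ r => n ^ 2 * (r + 1)) k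
    have ha : ∀ k, a (k + 1) = n ^ 2 * (a k + 1) := fun k => rfl
    have ha1 : ∀ k, a k + 2 ≤ (n ^ 2) ^ k * 3 := by
      intro k
      induction k with
      | zero => simp [a]
      | succ k ih =>
        rw [ha, pow_succ (n ^ 2) k]
        generalize n ^ 2 = q at *
        nlinarith
    have hpos : ∀ k, 1 ≤ a k := by
      intro k
      cases k with
      | zero => simp [a]
      | succ k => rw [ha]; nlinarith
    have hs1 : ∀ k, d ^ k * s 1 ≤ s (a k) := by
      intro k
      induction k with
      | zero => simp [a]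
      | succ k ih =>
        rw [ha]
        refine le_trans ?_ (h1 (a k))
        rw [pow_succ, mul_comm (d ^ k) d, mul_assoc]
        exact Nat.mul_le_mul_left _ ih
    have hs0 : 1 ≤ s 1 := by
      have := h4 0
      simp at this
      exact this.trans (hs (by omega))
    apply le_of_pow_bound _ _ (C * 3 ^ g)
    intro k
    calc d ^ k ≤ d ^ k * s 1 := Nat.le_mul_of_pos_right _ hs0
      _ ≤ s (a k) := hs1 k
      _ ≤ C * (a k) ^ g := h3 _ (hpos k)
      _ ≤ C * ((n ^ 2) ^ k * 3) ^ g := Nat.mul_le_mul_left _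
          (Nat.pow_le_pow_left ((Nat.le_add_right _ _).trans (ha1 k)) _)
      _ = C * 3 ^ g * (n ^ (2 * g)) ^ k := by
        rw [mul_pow, ← pow_mul, ← pow_mul, ← pow_mul]
        ring
  · let b : ℕ → ℕ := fun k => Nat.rec 3 (fun _ r => n ^ 2 * (r - 1)) k
    have hb : ∀ k, b (k + 1) = n ^ 2 * (b k - 1) := fun k => rfl
    have hb1 : ∀ k, (n ^ 2) ^ k + 2 ≤ b k := by
      intro k
      induction k with
      | zero => simp [b]
      | succ k ih =>
        rw [hb]
        have : (n ^ 2) ^ k + 1 ≤ b k - 1 := by omega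
        calc (n ^ 2) ^ (k + 1) + 2 ≤ n ^ 2 * ((n ^ 2) ^ k + 1) := by
              rw [pow_succ (n ^ 2) k]
              generalize n ^ 2 = q at *
              nlinarith
          _ ≤ _ := Nat.mul_le_mul_left _ this
    have hs1 : ∀ k, s (b k) ≤ d ^ k * s 3 := by
      intro k
      induction k with
      | zero => simp [b]
      | succ k ih =>
        rw [hb]
        refine (h2 _).trans ?_
        have : b k - 1 + 1 = b k := by have := hb1 k; omega
        rw [this, pow_succ, mul_comm (d ^ k) d, mul_assoc]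
        exact Nat.mul_le_mul_left _ ih
    apply le_of_pow_bound _ _ (g ^ g * s 3)
    intro k
    have hdiv : b k ≤ g * (b k / g + 1) ∨ g = 0 := by
      rcases Nat.eq_zero_or_pos g with hg | hg
      · exact Or.inr hg
      · left
        have := Nat.lt_mul_div_succ (b k) hg
        exact this.le
    have hle : g * (b k / g) ≤ b k := Nat.mul_div_le _ _
    have h5 : (b k) ^ g ≤ g ^ g * (b k / g + 1) ^ g := by
      rcases hdiv with h | h
      · rw [← mul_pow]
        exact Nat.pow_le_pow_left h _
      · subst h; simp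
    calc (n ^ (2 * g)) ^ k = ((n ^ 2) ^ k) ^ g := by
          rw [← pow_mul, ← pow_mul, ← pow_mul]; congr 1; ring
      _ ≤ (b k) ^ g := Nat.pow_le_pow_left ((Nat.le_add_right _ _).trans (hb1 k)) _
      _ ≤ g ^ g * (b k / g + 1) ^ g := h5
      _ ≤ g ^ g * s (g * (b k / g)) := Nat.mul_le_mul_left _ (h4 _)
      _ ≤ g ^ g * s (b k) := Nat.mul_le_mul_left _ (hs hle)
      _ ≤ g ^ g * (d ^ k * s 3) := Nat.mul_le_mul_left _ (hs1 k)
      _ = g ^ g * s 3 * d ^ k := by ring

open Module

lemma fixed_mem {F : Type*} [Field F] (E0 : Subfield F) [FiniteDimensional E0 F] {G : Type*}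
    [Finite G] (T : G → F →+* F) (hT : Function.Injective T) (hTE : ∀ y, ∀ e ∈ E0, T y e = e)
    (hcard : Module.finrank E0 F = Nat.card G) (x : F) (hx : ∀ y, T y x = x) : x ∈ E0 := by
  let T' : G → (F →ₐ[E0] F) := fun y => { T y with commutes' := fun r => hTE y _ r.2 }
  have hT' : Function.Injective T' := fun y z h => hT (by
    ext a
    exact DFunLike.congr_fun h a)
  let T'' : G → (F ≃ₐ[E0] F) := fun y => (algEquivEquivAlgHom E0 F).symm (T' y)
  have hT'' : Function.Injective T'' :=
    fun y z h => hT' ((algEquivEquivAlgHom E0 F).symm.injective h)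
  have h1 : Nat.card Gal(F/E0) ≤ Nat.card G := by
    rw [← hcard, Nat.card_eq_fintype_card]
    exact AlgEquiv.card_le
  have h2 : Nat.card G ≤ Nat.card Gal(F/E0) := Nat.card_le_card_of_injective T'' hT''
  have h3 : Nat.card G = Nat.card Gal(F/E0) := le_antisymm h2 h1
  have hbij : Function.Bijective T'' := by
    cases nonempty_fintype G
    rw [Fintype.bijective_iff_injective_and_card]
    exact ⟨hT'', by rw [← Nat.card_eq_fintype_card, ← Nat.card_eq_fintype_card, h3]⟩
  have hG : IsGalois E0 F := IsGalois.of_card_aut_eq_finrank E0 F (by rw [hcard, h3])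
  have h4 : x ∈ (⊥ : IntermediateField E0 F) := by
    rw [IsGalois.mem_bot_iff_fixed]
    intro σ
    obtain ⟨y, rfl⟩ := hbij.2 σ
    exact hx y
  rw [IntermediateField.mem_bot] at h4
  obtain ⟨e, rfl⟩ := h4
  exact e.2

section abstract

variable {K F : Type*} [Field K] [Field F] [Algebra K F] (N : F →ₐ[K] F) (d : ℕ)
  (b : Basis (Fin d) N.toRingHom.fieldRange F)
  (S V : ℕ → Submodule K F) (hVV : ∀ m m', ∀ x ∈ V m, ∀ y ∈ V m', x * y ∈ V (m + m'))
  (hNS : ∀ m h, N h ∈ V m ↔ h ∈ S m) (hb : ∀ i, b i ∈ V 1)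

include hVV hNS hb in
lemma count_lower (m : ℕ) [Module.Finite K (V (m + 1))] :
    d * finrank K (S m) ≤ finrank K (V (m + 1)) := by
  let f0 : (Fin d → S m) →ₗ[K] F :=
    { toFun := fun s => ∑ i, N (s i) * b i
      map_add' := fun s t => by
        rw [← Finset.sum_add_distrib]
        refine Finset.sum_congr rfl fun i _ => ?_
        rw [Pi.add_apply, Submodule.coe_add, map_add, add_mul]
      map_smul' := fun c s => by
        rw [RingHom.id_apply, Finset.smul_sum]
        refine Finset.sum_congr rfl fun i _ => ?_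
        rw [Pi.smul_apply, Submodule.coe_smul, map_smul, smul_mul_assoc] }
  have hf0 : ∀ s, f0 s ∈ V (m + 1) := by
    intro s
    change ∑ i, N (s i) * b i ∈ V (m + 1)
    exact Submodule.sum_mem _ fun i _ => hVV _ _ _ ((hNS _ _).2 (s i).2) _ (hb i)
  let f : (Fin d → S m) →ₗ[K] V (m + 1) := LinearMap.codRestrict _ f0 hf0
  have hf : Function.Injective f := by
    rw [← LinearMap.ker_eq_bot, LinearMap.ker_eq_bot']
    intro s hs
    have h1 : ∑ i, N (s i) * b i = 0 := congrArg Subtype.val hs
    have h2 : ∑ i, (⟨N (s i), ⟨_, rfl⟩⟩ : N.toRingHom.fieldRange) • b i = 0 := h1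
    have h3 := (Fintype.linearIndependent_iff.1 b.linearIndependent) _ h2
    funext i
    apply Subtype.ext
    have h4 := congrArg Subtype.val (h3 i)
    exact (map_eq_zero N).1 h4
  by_cases hfin : Module.Finite K (S m)
  · have := LinearMap.finrank_le_finrank_of_injective hf
    rwa [Module.finrank_pi_fintype, Finset.sum_const, Finset.card_univ, Fintype.card_fin,
      smul_eq_mul] at this
  · rw [Module.finrank_of_not_finite hfin, mul_zero]
    exact Nat.zero_le _

variable {G : Type*} [AddCommGroup G] [Finite G] (T : G → F →ₐ[K] F)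
  (hT : Function.Injective T) (hTa : ∀ y z x, T (y + z) x = T z (T y x))
  (hTN : ∀ y x, T y (N x) = N x)
  (hTV : ∀ y m, ∀ x ∈ V m, T y x ∈ V m)
  (hcard : finrank N.toRingHom.fieldRange F = Nat.card G)

include hVV hNS hb hT hTa hTN hTV hcard in
lemma count_upper (m : ℕ) [Module.Finite K (S (m + 1))] :
    finrank K (V m) ≤ d * finrank K (S (m + 1)) := by
  classical
  cases nonempty_fintype G
  have hfd : FiniteDimensional N.toRingHom.fieldRange F := Module.Finite.of_basis b
  have hfix : ∀ x, (∀ y, T y x = x) → ∃ z, N z = x := by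
    intro x hx
    have := fixed_mem N.toRingHom.fieldRange (fun y => (T y).toRingHom)
      (fun y z h => hT (by ext a; exact DFunLike.congr_fun h a))
      (by rintro y _ ⟨e, rfl⟩; exact hTN y e) hcard x hx
    obtain ⟨z, hz⟩ := this
    exact ⟨z, hz⟩
  let Tr : F →ₗ[K] F := ∑ y, (T y).toLinearMap
  have hTr : ∀ x, Tr x = ∑ y, T y x := fun x => by simp [Tr]
  have hTrfix : ∀ x z, T z (Tr x) = Tr x := by
    intro x z
    rw [hTr, map_sum]
    refine Fintype.sum_equiv (Equiv.addRight z) _ _ fun y => ?_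
    rw [Equiv.coe_addRight, hTa]
  have hTrV : ∀ m, ∀ x ∈ V m, Tr x ∈ V m := by
    intro m x hx
    rw [hTr]
    exact Submodule.sum_mem _ fun y _ => hTV y m x hx
  have hmem : ∀ i, ∀ h ∈ V m, Tr (b i * h) ∈ (S (m + 1)).map N.toLinearMap := by
    intro i h hh
    obtain ⟨z, hz⟩ := hfix _ (hTrfix (b i * h))
    refine ⟨z, ?_, hz⟩
    have h1 : Tr (b i * h) ∈ V (m + 1) := hTrV _ _ (by
      rw [mul_comm]
      exact hVV m 1 _ hh _ (hb i))
    rw [← hz] at h1
    exact (hNS _ _).1 h1
  let g : Fin d → V m →ₗ[K] (S (m + 1)).map N.toLinearMap := fun i =>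
    LinearMap.codRestrict _ (Tr ∘ₗ (LinearMap.mulLeft K (b i)) ∘ₗ (V m).subtype)
      (fun h => hmem i h.1 h.2)
  let f : V m →ₗ[K] (Fin d → (S (m + 1)).map N.toLinearMap) := LinearMap.pi g
  have hf : Function.Injective f := by
    rw [← LinearMap.ker_eq_bot, LinearMap.ker_eq_bot']
    intro h hh
    have h1 : ∀ i, ∑ y, T y (b i * h) = 0 := by
      intro i
      have := congrArg Subtype.val (congrFun hh i)
      rw [← hTr]
      exact this
    have h2 : ∀ x, ∑ y, T y (h : F) * T y x = 0 := by
      intro x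
      have h3 := b.sum_repr x
      rw [← h3]
      simp only [map_sum, Finset.mul_sum]
      rw [Finset.sum_comm]
      refine Finset.sum_eq_zero fun i _ => ?_
      obtain ⟨e, he⟩ := (b.repr x i).2
      have h4 : ∀ y, T y (h : F) * T y ((b.repr x) i • b i) = N e * T y (b i * h) := by
        intro y
        have h5 : (b.repr x) i • b i = N e * b i := by
          rw [show (b.repr x) i • b i = ((b.repr x i : N.toRingHom.fieldRange) : F) * b i from rfl,
            ← he]
          rfl
        rw [h5, map_mul, map_mul, hTN]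
        ring
      rw [Finset.sum_congr rfl (fun y _ => h4 y), ← Finset.mul_sum, h1, mul_zero]
    have hli := (linearIndependent_monoidHom F F).comp (fun y : G => ((T y : F →* F)))
      (fun y z hyz => hT (by ext a; exact DFunLike.congr_fun hyz a))
    rw [Fintype.linearIndependent_iff] at hli
    have h6 := hli (fun y => T y (h : F)) (by
      funext x
      simp only [Finset.sum_apply, Pi.smul_apply, Function.comp, smul_eq_mul, Pi.zero_apply]
      exact h2 x)
    have h7 := h6 0
    apply Subtype.ext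
    exact (map_eq_zero (T 0)).1 h7
  have hmapfr : finrank K ((S (m + 1)).map N.toLinearMap) = finrank K (S (m + 1)) :=
    (LinearEquiv.finrank_eq (Submodule.equivMapOfInjective N.toLinearMap N.toRingHom.injective
      (S (m + 1)))).symm
  have := LinearMap.finrank_le_finrank_of_injective hf
  rwa [Module.finrank_pi_fintype, Finset.sum_const, Finset.card_univ, Fintype.card_fin,
    smul_eq_mul, hmapfr] at this

end abstract

end Fermat.Agent.H20
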