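import Mathlib
import Fermat.Agent.H20.FinS
import Fermat.Agent.H20.Seesaw
import Fermat.Agent.H20.Count

/-!
# Spaces of sections and endomorphisms
-/

set_option autoImplicit false

universe u

open AlgebraicGeometry CategoryTheory CategoryTheory.Limits TopologicalSpace TensorProduct

namespace Fermat.Agent.H20

noncomputable section

section

variable (K : Type u) [Field K] {X : Scheme.{u}} [KSch K X] [IsIntegral X]
  (ψ : X ⟶ X) (hψK : IsKHom K ψ) (hψ : IsDom ψ)

/-- sections of `m ψ^* D` -/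
def Vsp (D : CDiv X) (m : ℕ) : Submodule K X.functionField where
  carrier := {f | ∀ x, f * (pull ψ hψ (D.1 (ψ x) : X.functionField)) ^ m ∈ stk X x}
  add_mem' := by
    intro a b ha hb x
    rw [add_mul]
    exact add_mem (ha x) (hb x)
  zero_mem' := by
    intro x
    rw [zero_mul]
    exact zero_mem _
  smul_mem' := by
    intro c a ha x
    rw [Algebra.smul_def, mul_assoc]
    exact mul_mem (algebraMap_mem_stk K x c) (ha x)

lemma mem_Vsp {D : CDiv X} {m : ℕ} {f : X.functionField} :
    f ∈ Vsp K ψ hψ D m ↔ ∀ x, f * (pull ψ hψ (D.1 (ψ x) : X.functionField)) ^ m ∈ stk X x :=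
  Iff.rfl

lemma mul_mem_Vsp {D : CDiv X} {m m' : ℕ} {f f' : X.functionField}
    (hf : f ∈ Vsp K ψ hψ D m) (hf' : f' ∈ Vsp K ψ hψ D m') : f * f' ∈ Vsp K ψ hψ D (m + m') := by
  intro x
  have := mul_mem (hf x) (hf' x)
  convert this using 1
  ring

/-- regularity can be tested after pull back -/
def PullDetects : Prop := Function.Surjective ψ ∧
  ∀ (x : X) (h : X.functionField), pull ψ hψ h ∈ stk X x → h ∈ stk X (ψ x)

lemma pull_mem_Vsp_iff (hdet : PullDetects ψ hψ) {D : CDiv X} {m : ℕ} {f : X.functionField} :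
    pull ψ hψ f ∈ Vsp K ψ hψ D m ↔ f ∈ Ssp K D m := by
  constructor
  · intro h x
    obtain ⟨y, rfl⟩ := hdet.1 x
    apply hdet.2
    rw [map_mul, map_pow]
    exact h y
  · intro h x
    rw [← map_pow, ← map_mul]
    exact pull_mem_stk hψ (h (ψ x))

/-- `ψ^* D ∼ k D` -/
lemma exists_factor {D : CDiv X} {k : ℕ} (h : pullP ψ (cls D) = k • cls D) :
    ∃ u : X.functionFieldˣ, ∀ x, pullU ψ hψ (D.1 (ψ x)) / ((D.1 x) ^ k * u) ∈ UG X x := by
  have h1 : cls (pullC ψ D * (D ^ k)⁻¹) = 0 := by
    rw [cls_mul, cls_inv]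
    have : cls (D ^ k) = k • cls D := by
      induction k with
      | zero => rw [pow_zero, zero_smul]; rfl
      | succ k ih =>
        clear h
        have ih' : ∀ j, cls (D ^ j) = j • cls D := by
          intro j
          induction j with
          | zero => rw [pow_zero, zero_smul]; rfl
          | succ j ih => rw [pow_succ, cls_mul, ih, succ_nsmul]
        exact ih' _
    rw [this, ← h, pullP_cls, add_neg_cancel]
  rw [cls_eq_zero_iff] at h1
  obtain ⟨f, hf⟩ := h1
  refine ⟨pullU ψ hψ (D.1 (ψ (genericPoint X))) * f, fun x => ?_⟩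
  have h2 := hf x
  have e5 : (pullC ψ D * (D ^ k)⁻¹).1 x = (pullC ψ D).1 x * ((D.1 x) ^ k)⁻¹ := rfl
  rw [e5, pullD_eq_pullU ψ hψ] at h2
  convert h2 using 1
  ext
  simp
  field_simp

lemma mem_Vsp_iff_of_factor {D : CDiv X} {k : ℕ} {u : X.functionFieldˣ}
    (hu : ∀ x, pullU ψ hψ (D.1 (ψ x)) / ((D.1 x) ^ k * u) ∈ UG X x) (m : ℕ)
    (f : X.functionField) :
    f ∈ Vsp K ψ hψ D m ↔ (u : X.functionField) ^ m * f ∈ Ssp K D (k * m) := by
  constructor
  · intro h x
    have h1 := mul_mem (h x) (pow_mem (hu x).2 m)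
    convert h1 using 1
    rw [inv_div, Units.val_div_eq_div_val, Units.val_mul, Units.val_pow_eq_pow_val, coe_pullU]
    have e1 : pull ψ hψ (D.1 (ψ x) : X.functionField) ≠ 0 := by
      rw [map_ne_zero]; exact Units.ne_zero _
    have e2 : (u : X.functionField) ≠ 0 := Units.ne_zero _
    rw [div_pow, mul_pow, ← pow_mul]
    field_simp
  · intro h x
    have h1 := mul_mem (h x) (pow_mem (hu x).1 m)
    convert h1 using 1
    rw [Units.val_div_eq_div_val, Units.val_mul, Units.val_pow_eq_pow_val, coe_pullU]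
    have e1 : (D.1 x : X.functionField) ≠ 0 := Units.ne_zero _
    have e2 : (u : X.functionField) ≠ 0 := Units.ne_zero _
    rw [div_pow, mul_pow, ← pow_mul]
    field_simp

/-- multiplication by `u ^ m` -/
def VspEquiv {D : CDiv X} {k : ℕ} {u : X.functionFieldˣ}
    (hu : ∀ x, pullU ψ hψ (D.1 (ψ x)) / ((D.1 x) ^ k * u) ∈ UG X x) (m : ℕ) :
    Vsp K ψ hψ D m ≃ₗ[K] Ssp K D (k * m) where
  toFun f := ⟨(u : X.functionField) ^ m * f, (mem_Vsp_iff_of_factor K ψ hψ hu m f).1 f.2⟩
  map_add' a b := by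
    apply Subtype.ext
    exact mul_add _ _ _
  map_smul' c a := by
    apply Subtype.ext
    exact mul_smul_comm _ _ _
  invFun f := ⟨((u : X.functionField) ^ m)⁻¹ * f, (mem_Vsp_iff_of_factor K ψ hψ hu m _).2 (by
    rw [← mul_assoc, mul_inv_cancel₀ (pow_ne_zero _ (Units.ne_zero u)), one_mul]
    exact f.2)⟩
  left_inv f := by
    apply Subtype.ext
    change ((u : X.functionField) ^ m)⁻¹ * ((u : X.functionField) ^ m * f) = f
    rw [← mul_assoc, inv_mul_cancel₀ (pow_ne_zero _ (Units.ne_zero u)), one_mul]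
  right_inv f := by
    apply Subtype.ext
    change ((u : X.functionField) ^ m) * (((u : X.functionField) ^ m)⁻¹ * f) = f
    rw [← mul_assoc, mul_inv_cancel₀ (pow_ne_zero _ (Units.ne_zero u)), one_mul]

/-- Monomials in an algebraically independent family. -/
lemma pow_le_finrank_Ssp {D : CDiv X} (h1 : (1 : X.functionField) ∈ Ssp K D 1) (g : ℕ)
    (t : Fin g → X.functionField) (ht : AlgebraicIndependent K t) (ht' : ∀ i, t i ∈ Ssp K D 1)
    (m : ℕ) [Module.Finite K (Ssp K D (g * m))] :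
    (m + 1) ^ g ≤ Module.finrank K (Ssp K D (g * m)) := by
  classical
  let ε : (Fin g → Fin (m + 1)) → (Fin g →₀ ℕ) := fun e =>
    Finsupp.equivFunOnFinite.symm fun i => (e i : ℕ)
  have hε : Function.Injective ε := by
    intro e e' h
    funext i
    have := DFunLike.congr_fun h i
    exact Fin.ext this
  let mon : (Fin g → Fin (m + 1)) → X.functionField := fun e => ∏ i, t i ^ (e i : ℕ)
  have hmon : ∀ e, mon e ∈ Ssp K D (g * m) := by
    intro e
    have key : ∀ s : Finset (Fin g), ∏ i ∈ s, t i ^ (e i : ℕ) ∈ Ssp K D (∑ i ∈ s, (e i : ℕ)) := by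
      intro s
      induction s using Finset.induction_on with
      | empty => simpa using one_mem_Ssp_zero K
      | insert a s ha ih =>
        rw [Finset.prod_insert ha, Finset.sum_insert ha]
        exact mul_mem_Ssp K (pow_mem_Ssp K (ht' a) _) ih
    refine Ssp_mono K h1 ?_ (key Finset.univ)
    calc ∑ i, (e i : ℕ) ≤ ∑ _i : Fin g, m := Finset.sum_le_sum fun i _ => by
          have := (e i).2; omega
      _ = g * m := by simp
  have hli : LinearIndependent K mon := by
    have h2 := (MvPolynomial.basisMonomials (Fin g) K).linearIndependent.map'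
      (MvPolynomial.aeval t).toLinearMap (LinearMap.ker_eq_bot.2 ht)
    have h3 := h2.comp ε hε
    have h4 : ((MvPolynomial.aeval t).toLinearMap ∘ (MvPolynomial.basisMonomials (Fin g) K)) ∘ ε =
        mon := by
      funext e
      simp [mon, ε, MvPolynomial.aeval_monomial, Finsupp.prod_fintype]
    rw [← h4]
    exact h3
  let mon' : (Fin g → Fin (m + 1)) → Ssp K D (g * m) := fun e => ⟨mon e, hmon e⟩
  have hli' : LinearIndependent K mon' := by
    apply LinearIndependent.of_comp (Ssp K D (g * m)).subtype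
    exact hli
  have := hli'.fintype_card_le_finrank
  simpa using this

lemma Vsp_finite {D : CDiv X} {k : ℕ} {u : X.functionFieldˣ}
    (hu : ∀ x, pullU ψ hψ (D.1 (ψ x)) / ((D.1 x) ^ k * u) ∈ UG X x) (m : ℕ)
    [Module.Finite K (Ssp K D (k * m))] : Module.Finite K (Vsp K ψ hψ D m) :=
  Module.Finite.equiv (VspEquiv K ψ hψ hu m).symm

/-- The counting theorem for an endomorphism. -/
theorem endo_count [IsProper (pK K X)] (hdet : PullDetects ψ hψ) (g : ℕ)
    (hM : GrowthB K X.functionField g) (D : CDiv X) (n : ℕ) (hn : 2 ≤ n)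
    (hD : pullP ψ (cls D) = (n ^ 2) • cls D) (h1 : (1 : X.functionField) ∈ Ssp K D 1)
    (t : Fin g → X.functionField) (ht : AlgebraicIndependent K t) (ht' : ∀ i, t i ∈ Ssp K D 1)
    (d : ℕ) (b : Module.Basis (Fin d) (pullK K ψ hψK hψ).toRingHom.fieldRange X.functionField)
    (hb : ∀ i, b i ∈ Vsp K ψ hψ D 1)
    {G : Type*} [AddCommGroup G] [Finite G] (T : G → X.functionField →ₐ[K] X.functionField)
    (hT : Function.Injective T) (hTa : ∀ y z x, T (y + z) x = T z (T y x))
    (hTN : ∀ y x, T y (pull ψ hψ x) = pull ψ hψ x)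
    (hTV : ∀ y m, ∀ x ∈ Vsp K ψ hψ D m, T y x ∈ Vsp K ψ hψ D m)
    (hcard : Module.finrank (pullK K ψ hψK hψ).toRingHom.fieldRange X.functionField =
      Nat.card G) : d = n ^ (2 * g) := by
  obtain ⟨u, hu⟩ := exists_factor ψ hψ hD
  obtain ⟨C, hC⟩ := growth_Ssp K g hM D
  have hfin : ∀ m, Module.Finite K (Ssp K D m) := by
    intro m
    have h2 := (hC (m + 1) (by omega)).1
    exact Submodule.finiteDimensional_of_le (Ssp_mono K h1 (Nat.le_succ m))
  have hVfin : ∀ m, Module.Finite K (Vsp K ψ hψ D m) := fun m => by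
    have := hfin (n ^ 2 * m)
    exact Vsp_finite K ψ hψ hu m
  have hVS : ∀ m, Module.finrank K (Vsp K ψ hψ D m) = Module.finrank K (Ssp K D (n ^ 2 * m)) :=
    fun m => LinearEquiv.finrank_eq (VspEquiv K ψ hψ hu m)
  have hNS : ∀ m h, pullK K ψ hψK hψ h ∈ Vsp K ψ hψ D m ↔ h ∈ Ssp K D m := fun m h =>
    pull_mem_Vsp_iff K ψ hψ hdet
  have hVV : ∀ m m', ∀ x ∈ Vsp K ψ hψ D m, ∀ y ∈ Vsp K ψ hψ D m', x * y ∈
      Vsp K ψ hψ D (m + m') := fun m m' x hx y hy => mul_mem_Vsp K ψ hψ hx hy
  refine count_numeric (fun m => Module.finrank K (Ssp K D m)) ?_ n d g C hn ?_ ?_ ?_ ?_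
  · intro m m' hmm
    exact Submodule.finrank_mono (Ssp_mono K h1 hmm)
  · intro m
    have := count_lower (pullK K ψ hψK hψ) d b (Ssp K D) (Vsp K ψ hψ D) hVV hNS hb m
    rw [hVS] at this
    exact this
  · intro m
    have := count_upper (pullK K ψ hψK hψ) d b (Ssp K D) (Vsp K ψ hψ D) hVV hNS hb T hT hTa hTN
      hTV hcard m
    rw [hVS] at this
    exact this
  · intro m hm
    exact (hC m hm).2
  · intro m
    exact pow_le_finrank_Ssp K h1 g t ht ht' m

/-- Elements which are integral over the image of the pull back, with coefficients in `S_1(D)`. -/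
lemma mem_Vsp_of_integral (hIC : ∀ (x : X) (f : X.functionField), IsIntegral (stk X x) f →
      f ∈ stk X x) (D : CDiv X) (h1 : (1 : X.functionField) ∈ Ssp K D 1)
    (p : Polynomial X.functionField) (hp : p.Monic) (hpD : ∀ i, p.coeff i ∈ Ssp K D 1)
    (b : X.functionField) (hb : Polynomial.eval₂ (pull ψ hψ) b p = 0) :
    b ∈ Vsp K ψ hψ D 1 := by
  intro x
  apply hIC
  rw [pow_one]
  set δ : X.functionField := ((D.1 (ψ x) : X.functionFieldˣ) : X.functionField) with hδ
  have hδm : δ ∈ stk X (ψ x) := by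
    have := h1 (ψ x)
    rwa [one_mul, pow_one] at this
  have h2 : Polynomial.eval₂ (pull ψ hψ) (pull ψ hψ δ * b) (p.scaleRoots δ) = 0 :=
    Polynomial.scaleRoots_eval₂_eq_zero (pull ψ hψ) hb
  have hmonic : (p.scaleRoots δ).Monic := (Polynomial.monic_scaleRoots_iff δ).2 hp
  have hcoeff : ∀ i, (p.scaleRoots δ).coeff i ∈ stk X (ψ x) := by
    intro i
    rw [Polynomial.coeff_scaleRoots]
    rcases lt_trichotomy i p.natDegree with hi | hi | hi
    · obtain ⟨j, hj⟩ : ∃ j, p.natDegree - i = j + 1 := ⟨p.natDegree - i - 1, by omega⟩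
      rw [hj, pow_succ', ← mul_assoc]
      have h3 := hpD i (ψ x)
      rw [pow_one] at h3
      exact mul_mem h3 (pow_mem hδm _)
    · rw [hi, Nat.sub_self, pow_zero, mul_one, hp.coeff_natDegree]
      exact one_mem _
    · rw [Polynomial.coeff_eq_zero_of_natDegree_lt hi, zero_mul]
      exact zero_mem _
  -- lift to `stk X x`
  have hmap : ∀ i, ((p.scaleRoots δ).map (pull ψ hψ)).coeff i ∈ stk X x := by
    intro i
    rw [Polynomial.coeff_map]
    exact pull_mem_stk hψ (hcoeff i)
  obtain ⟨q, hq⟩ : ∃ q : Polynomial (stk X x), q.map (stk X x).subtype =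
      (p.scaleRoots δ).map (pull ψ hψ) := by
    have : (p.scaleRoots δ).map (pull ψ hψ) ∈ Polynomial.lifts (stk X x).subtype := by
      rw [Polynomial.lifts_iff_coeff_lifts]
      intro i
      exact ⟨⟨_, hmap i⟩, rfl⟩
    exact this
  have hqm : q.Monic := by
    apply Polynomial.monic_of_injective (Subring.subtype_injective (stk X x))
    rw [hq]
    exact hmonic.map _
  refine ⟨q, hqm, ?_⟩
  have h4 : Polynomial.eval₂ (algebraMap (stk X x) X.functionField) (b * pull ψ hψ δ) q =
      Polynomial.eval (b * pull ψ hψ δ) (q.map (stk X x).subtype) := by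
    rw [Polynomial.eval_map]
    rfl
  rw [h4, hq, Polynomial.eval_map, mul_comm]
  exact h2

end

end

end Fermat.Agent.H20
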