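import Mathlib
import Fermat.Agent.H20.Endo
import Fermat.Agent.H20.DivExist
import Fermat.Agent.H20.CubeA2

/-!
# Counting torsion points: the main argument
-/

set_option autoImplicit false

universe u

open AlgebraicGeometry CategoryTheory CategoryTheory.Limits TopologicalSpace TensorProduct
  GoodReductionJacobian NeronModelInfra

namespace Fermat.Agent.H20

noncomputable section

section sep

variable {X Y : Scheme.{u}} [IsIntegral X] [IsIntegral Y]

lemma fromSpecStalk_comp (f : Y ⟶ X) (hf : IsDom f) :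
    Y.fromSpecStalk (genericPoint Y) ≫ f =
      Spec.map (CommRingCat.ofHom (pull f hf)) ≫ X.fromSpecStalk (genericPoint X) := by
  have hsp : genericPoint X ⤳ f (genericPoint Y) := (genericPoint_spec X).specializes trivial
  rw [← Scheme.SpecMap_stalkMap_fromSpecStalk, ← Scheme.SpecMap_stalkSpecializes_fromSpecStalk hsp,
    ← Spec.map_comp_assoc]
  congr 2
  ext a
  have h1 : algebraMap (X.presheaf.stalk (f (genericPoint Y))) X.functionField a ∈
      stk X (f (genericPoint Y)) := ⟨a, rfl⟩
  exact (rho_apply f a h1).symm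

lemma eq_of_pull_eq {S : Scheme.{u}} (s : X ⟶ S) [IsSeparated s] (f g : Y ⟶ X) (hf : IsDom f)
    (hg : IsDom g) (hs : f ≫ s = g ≫ s) (h : ∀ a, pull f hf a = pull g hg a) : f = g := by
  have h1 : pull f hf = pull g hg := RingHom.ext h
  have h2 : Y.fromSpecStalk (genericPoint Y) ≫ f = Y.fromSpecStalk (genericPoint Y) ≫ g := by
    rw [fromSpecStalk_comp f hf, fromSpecStalk_comp g hg, h1]
  have hdom : IsDominant (Y.fromSpecStalk (genericPoint Y)) := by
    constructor
    rw [DenseRange, dense_iff_closure_eq, ← Set.univ_subset_iff]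
    have h3 : genericPoint Y ∈ Set.range (Y.fromSpecStalk (genericPoint Y)) := by
      rw [Scheme.range_fromSpecStalk]
      exact specializes_rfl
    have h4 := closure_mono (Set.singleton_subset_iff.2 h3)
    rw [(genericPoint_spec Y : IsGenericPoint _ _)] at h4
    exact h4
  exact ext_of_isDominant_of_isSeparated s hs (Y.fromSpecStalk (genericPoint Y)) h2

end sep

section main

variable (K : Type u) [Field K] [IsAlgClosed K] {A : Scheme.{u}} [KSch K A] [IsIntegral A]
  {L : RelativeGroupLaw K (pK K A)} (hc : L.IsCommutative)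

/-- multiplication by `n` -/
def nmul (n : ℕ) : PtG K hc A := n • PtG.one' K hc

/-- the group of `n`-torsion points -/
def TorG (n : ℕ) : AddSubgroup (PtG K hc (Spec (CommRingCat.of K))) :=
  (nsmulAddMonoidHom (α := PtG K hc (Spec (CommRingCat.of K))) n).ker

omit [IsAlgClosed K] [IsIntegral A] in
lemma mem_TorG {n : ℕ} {y : PtG K hc (Spec (CommRingCat.of K))} : y ∈ TorG K hc n ↔ n • y = 0 :=
  Iff.rfl

omit [IsAlgClosed K] [IsIntegral A] in
lemma trans_nmul {n : ℕ} {y : PtG K hc (Spec (CommRingCat.of K))} (hy : n • y = 0) :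
    (PtG.trans K hc y).mor ≫ (nmul K hc n).mor = (nmul K hc n).mor := by
  have h1 : PtG.comap K hc (PtG.trans K hc y).mor (PtG.trans K hc y).isKHom (nmul K hc n) =
      nmul K hc n := by
    rw [nmul, map_nsmul, PtG.comap_one', PtG.trans, smul_add, ← map_nsmul, hy, map_zero, add_zero]
  exact congrArg PtG.mor h1

/-- translation automorphism of the function field -/
def Tt (y : PtG K hc (Spec (CommRingCat.of K))) : A.functionField →ₐ[K] A.functionField :=
  pullK K (PtG.trans K hc y).mor (PtG.trans K hc y).isKHom (isDom_of_isIso _)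

lemma Tt_add (y z : PtG K hc (Spec (CommRingCat.of K))) (x : A.functionField) :
    Tt K hc (y + z) x = Tt K hc z (Tt K hc y x) := by
  have h1 : (PtG.trans K hc (y + z)).mor = (PtG.trans K hc z).mor ≫ (PtG.trans K hc y).mor := by
    rw [PtG.trans_comp, add_comm]
  have h2 := pull_congr h1 (isDom_of_isIso (PtG.trans K hc (y + z)).mor) x
  have h3 := pull_comp (isDom_of_isIso (PtG.trans K hc y).mor)
    (isDom_of_isIso (PtG.trans K hc z).mor) x
  exact h2.trans h3

lemma Tt_nmul {n : ℕ} {y : PtG K hc (Spec (CommRingCat.of K))} (hy : n • y = 0)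
    (hψ : IsDom (nmul K hc n).mor) (x : A.functionField) :
    Tt K hc y (pull (nmul K hc n).mor hψ x) = pull (nmul K hc n).mor hψ x := by
  have h1 := pull_comp hψ (isDom_of_isIso (PtG.trans K hc y).mor) x
  refine h1.symm.trans ?_
  exact pull_congr (trans_nmul K hc hy) _ x

lemma Tt_Vsp {n : ℕ} {y : PtG K hc (Spec (CommRingCat.of K))} (hy : n • y = 0)
    (hψ : IsDom (nmul K hc n).mor) (D : CDiv A) (m : ℕ) (x : A.functionField)
    (hx : x ∈ Vsp K (nmul K hc n).mor hψ D m) :
    Tt K hc y x ∈ Vsp K (nmul K hc n).mor hψ D m := by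
  intro P
  have h1 := hx ((PtG.trans K hc y).mor P)
  have h2 : (nmul K hc n).mor ((PtG.trans K hc y).mor P) = (nmul K hc n).mor P := by
    rw [← Scheme.Hom.comp_apply, trans_nmul K hc hy]
  rw [h2] at h1
  have h3 := pull_mem_stk (isDom_of_isIso (PtG.trans K hc y).mor) h1
  rw [map_mul, map_pow] at h3
  have h4 := Tt_nmul K hc hy hψ (D.1 ((nmul K hc n).mor P) : A.functionField)
  have h5 : pull (PtG.trans K hc y).mor (isDom_of_isIso _)
    (pull (nmul K hc n).mor hψ (D.1 ((nmul K hc n).mor P) : A.functionField)) =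
    pull (nmul K hc n).mor hψ (D.1 ((nmul K hc n).mor P) : A.functionField) := h4
  rw [h5] at h3
  exact h3

lemma Tt_injective [IsSeparated (pK K A)] : Function.Injective (Tt K hc) := by
  intro y z h
  have h1 : (PtG.trans K hc y).mor = (PtG.trans K hc z).mor :=
    eq_of_pull_eq (pK K A) _ _ (isDom_of_isIso _) (isDom_of_isIso _)
      ((PtG.trans K hc y).isKHom.trans (PtG.trans K hc z).isKHom.symm)
      (fun a => DFunLike.congr_fun h a)
  have h2 : PtG.trans K hc y = PtG.trans K hc z := PtG.ext h1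
  have h3 : (PtG.const K hc y : PtG K hc A) = PtG.const K hc z := by
    unfold PtG.trans at h2
    exact add_left_cancel h2
  let o : PtG K hc (Spec (CommRingCat.of K)) := 0
  have h4 := congrArg (PtG.comap K hc o.mor o.isKHom) h3
  rwa [PtG.comap_const, PtG.comap_const, PtG.const_specK, PtG.const_specK] at h4

omit [IsAlgClosed K] in
/-- constant Cartier divisors -/
def constC (a : A.functionFieldˣ) : CDiv A := ⟨fun _ => a, fun _ => ⟨⊤, trivial, fun _ _ => by
  rw [div_self']
  exact one_mem _⟩⟩

omit [KSch K A] in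
lemma cls_constC (a : A.functionFieldˣ) : cls (constC a) = 0 := by
  rw [cls_eq_zero_iff]
  refine ⟨a, fun x => ?_⟩
  have : (constC a).1 x = a := rfl
  rw [this, div_self']
  exact one_mem _

/-- The key theorem, with all inputs explicit. -/
theorem main_count [IsProper (pK K A)]
    (hUFD : ∀ x : A, UniqueFactorizationMonoid (A.presheaf.stalk x))
    (hM : GrowthAll K) (φ : SR K ⟶ A) (hφ : IsKHom K φ) (hφd : IsDom φ)
    (hφ0 : z0 K ≫ φ = (0 : PtG K hc (Spec (CommRingCat.of K))).mor)
    (g : ℕ) (htr : Algebra.trdeg K A.functionField = g) (n : ℕ) (hn : 2 ≤ n)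
    (hψ : IsDom (nmul K hc n).mor) (hdet : PullDetects (nmul K hc n).mor hψ)
    (hfin : Finite (TorG K hc n))
    (hdeg : Module.finrank (pullK K (nmul K hc n).mor (nmul K hc n).isKHom hψ).toRingHom.fieldRange
      A.functionField = Nat.card (TorG K hc n)) :
    Nat.card (TorG K hc n) = n ^ (2 * g) := by
  classical
  set ψ := (nmul K hc n).mor with hψdef
  set N := pullK K ψ (nmul K hc n).isKHom hψ with hN
  -- basis
  have hpos : 0 < Nat.card (TorG K hc n) := Nat.card_pos
  have hfd : FiniteDimensional N.toRingHom.fieldRange A.functionField :=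
    Module.finite_of_finrank_pos (by rw [hdeg]; exact hpos)
  let b : Module.Basis (Fin (Nat.card (TorG K hc n))) N.toRingHom.fieldRange A.functionField :=
    Module.finBasisOfFinrankEq _ _ hdeg
  -- integral equations
  have hint : ∀ i, ∃ p : Polynomial A.functionField, p.Monic ∧
      Polynomial.eval₂ (pull ψ hψ) (b i) p = 0 := by
    intro i
    have h1 : IsIntegral N.toRingHom.fieldRange (b i) := Algebra.IsIntegral.isIntegral _
    obtain ⟨q, hq, hq'⟩ := h1
    have h2 : q.map N.toRingHom.fieldRange.subtype ∈ Polynomial.lifts (pull ψ hψ) := by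
      rw [Polynomial.lifts_iff_coeff_lifts]
      intro j
      rw [Polynomial.coeff_map]
      obtain ⟨z, hz⟩ := (q.coeff j).2
      exact ⟨z, hz⟩
    obtain ⟨p, hp, -, hpm⟩ := Polynomial.lifts_and_natDegree_eq_and_monic h2 (hq.map _)
    refine ⟨p, hpm, ?_⟩
    rw [← Polynomial.eval_map, hp, Polynomial.eval_map]
    exact hq'
  choose p hpm hpe using hint
  -- transcendence basis
  obtain ⟨s, hs⟩ := exists_isTranscendenceBasis K A.functionField
  have hsc : Cardinal.mk s = g := by rw [hs.cardinalMk_eq_trdeg, htr]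
  have hsfin : Finite s := Cardinal.lt_aleph0_iff_finite.1 (by rw [hsc]; exact Cardinal.natCast_lt_aleph0)
  have hse : Nonempty (Fin g ≃ s) := by
    have : Nat.card s = g := by
      rw [Nat.card, hsc, Cardinal.toNat_natCast]
    exact ⟨(Finite.equivFinOfCardEq this).symm⟩
  obtain ⟨e⟩ := hse
  let t : Fin g → A.functionField := fun i => (e i : A.functionField)
  have ht : AlgebraicIndependent K t := hs.1.comp e e.injective
  -- the divisor
  let E : Finset A.functionField := Finset.univ.image t ∪
    Finset.univ.biUnion fun i => (p i).support.image fun j => (p i).coeff j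
  obtain ⟨D0, hD0⟩ := exists_div_bounding K hUFD E
  let ν := (-PtG.one' K hc : PtG K hc A)
  have hνν : ν.mor ≫ ν.mor = 𝟙 A := by
    have h1 : PtG.comap K hc ν.mor ν.isKHom ν = PtG.one' K hc := by
      have h2 : PtG.comap K hc ν.mor ν.isKHom ν = -ν := by
        conv_lhs => rw [show ν = -PtG.one' K hc from rfl]
        rw [map_neg, PtG.comap_one']
      rw [h2, neg_neg]
    exact congrArg PtG.mor h1
  have hνiso : IsIso ν.mor := ⟨ν.mor, hνν, hνν⟩
  have hνd : IsDom ν.mor := isDom_of_isIso _
  let D : CDiv A := D0 * pullC ν.mor D0 *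
    constC (pullU ν.mor hνd (D0.1 (ν.mor (genericPoint A))))
  have hDx : ∀ x, D.1 x = D0.1 x * pullU ν.mor hνd (D0.1 (ν.mor x)) := by
    intro x
    have h1 : D.1 x = D0.1 x * (pullC ν.mor D0).1 x *
      pullU ν.mor hνd (D0.1 (ν.mor (genericPoint A))) := rfl
    rw [h1, pullD_eq_pullU ν.mor hνd, mul_assoc, div_mul_cancel]
  have hcls : cls D = cls D0 + pullP ν.mor (cls D0) := by
    change cls (D0 * pullC ν.mor D0 * constC _) = _
    rw [cls_mul, cls_mul, cls_constC, add_zero, pullP_cls]
  have hsym : pullP ν.mor (cls D) = cls D := by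
    rw [hcls, map_add, ← pullP_comp, hνν, pullP_id, add_comm]
  have hDE : ∀ f : A.functionField, (∀ x, f * (D0.1 x : A.functionField) ∈ stk A x) →
      f ∈ Ssp K D 1 := by
    intro f hf x
    rw [pow_one, hDx, Units.val_mul, ← mul_assoc]
    exact mul_mem (hf x) (pull_mem_stk hνd (hD0 _).1)
  have h1D : (1 : A.functionField) ∈ Ssp K D 1 := hDE 1 fun x => by
    rw [one_mul]
    exact (hD0 x).1
  have htD : ∀ i, t i ∈ Ssp K D 1 := fun i => hDE _ fun x => (hD0 x).2 _
    (Finset.mem_union_left _ (Finset.mem_image_of_mem _ (Finset.mem_univ i)))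
  have hpD : ∀ i j, (p i).coeff j ∈ Ssp K D 1 := by
    intro i j
    by_cases hj : j ∈ (p i).support
    · exact hDE _ fun x => (hD0 x).2 _ (Finset.mem_union_right _
        (Finset.mem_biUnion.2 ⟨i, Finset.mem_univ i, Finset.mem_image_of_mem _ hj⟩))
    · rw [Polynomial.notMem_support_iff.1 hj]
      exact Submodule.zero_mem _
  have hbD : ∀ i, b i ∈ Vsp K ψ hψ D 1 := fun i =>
    mem_Vsp_of_integral K ψ hψ (mem_stk_of_isIntegral hUFD) D h1D (p i) (hpm i) (hpD i) (b i)
      (hpe i)
  -- theorem of the cube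
  have hcube : pullP ψ (cls D) = (n ^ 2) • cls D := by
    have hsym' : Dv K hc (cls D) (-PtG.one' K hc) = Dv K hc (cls D) (PtG.one' K hc) := by
      refine hsym.trans ?_
      exact (pullP_id (cls D)).symm
    have h2 := Dv_nsmul K hc (cls D) (finSec_of_growth K (kprod K A A) hM) φ hφ hφd hφ0 hsym' n
    have h3 : Dv K hc (cls D) (PtG.one' K hc) = cls D := pullP_id (cls D)
    rw [h3] at h2
    exact h2
  exact endo_count K ψ (nmul K hc n).isKHom hψ hdet g (hM _ g (fg_fun K A) htr) D n hn hcube h1D
    t ht htD _ b hbD (G := TorG K hc n) (fun y => Tt K hc y.1)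
    (fun y z h => Subtype.ext (Tt_injective K hc h))
    (fun y z x => Tt_add K hc y.1 z.1 x)
    (fun y x => Tt_nmul K hc y.2 hψ x)
    (fun y m x hx => Tt_Vsp K hc y.2 hψ D m x hx) hdeg

end main

end

end Fermat.Agent.H20
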