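import Mathlib
import Fermat.Agent.H20.EtaleUfd
import Fermat.Agent.H20.Main

/-!
# Étale coordinates on smooth schemes; local rings are UFDs
-/

set_option autoImplicit false

universe u

open AlgebraicGeometry CategoryTheory CategoryTheory.Limits TopologicalSpace TensorProduct

namespace Fermat.Agent.H20

noncomputable section

section

variable (K : Type u) [Field K] (X : Scheme.{u}) [KSch K X] (g : ℕ)

lemma exists_coords [hs : SmoothOfRelativeDimension g (pK K X)] (x : X) :
    ∃ (U : X.Opens) (_ : IsAffineOpen U) (_ : x ∈ U)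
      (γ : MvPolynomial (Fin g) K →+* Γ(X, U)), γ.comp MvPolynomial.C = (kSec K U).hom ∧
        γ.Etale := by
  obtain ⟨V, hV, U, hU, hxU, e, hst⟩ := hs.exists_isStandardSmoothOfRelativeDimension x
  have hVtop : V = ⊤ := by
    apply le_antisymm le_top
    intro y _
    have : y = pK K X x := specK_eq K _ _
    rw [this]
    exact e hxU
  subst hVtop
  have h1 : (kSec K U).hom.IsStandardSmoothOfRelativeDimension g := by
    unfold kSec
    rw [CommRingCat.hom_comp]
    have h2 : ((Scheme.ΓSpecIso (.of K)).inv.hom).IsStandardSmoothOfRelativeDimension 0 :=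
      RingHom.IsStandardSmoothOfRelativeDimension.equiv
        (Scheme.ΓSpecIso (.of K)).symm.commRingCatIsoToRingEquiv
    have h3 := hst.comp h2
    rwa [add_zero] at h3
  obtain ⟨γ, hγ, hγ'⟩ := h1.exists_etale_mvPolynomial
  exact ⟨U, hU, hxU, γ, hγ, hγ'⟩

variable {X}

/-- evaluation of sections at a `K`-point -/
def evS (p : Spec (CommRingCat.of K) ⟶ X) (U : X.Opens) (h : p (ptK K) ∈ U) : Γ(X, U) →+* K :=
  (p.appLE U ⊤ (fun y _ => by rw [specK_eq K y (ptK K)]; exact h) ≫
    (Scheme.ΓSpecIso (.of K)).hom).hom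

lemma evS_kSec (p : Spec (CommRingCat.of K) ⟶ X) (hp : IsKHom K p) (U : X.Opens)
    (h : p (ptK K) ∈ U) (c : K) : evS K p U h ((kSec K U).hom c) = c := by
  have h1 : kSec K U ≫ p.appLE U ⊤ (fun y _ => by rw [specK_eq K y (ptK K)]; exact h) ≫
      (Scheme.ΓSpecIso (.of K)).hom = 𝟙 _ := by
    rw [← Category.assoc, hp.appLE_kSec, kSec_spec, Category.assoc, Iso.inv_hom_id,
      Category.comp_id]
    rfl
  exact congrArg (fun f => f.hom c) h1

lemma evS_ne_zero_iff (p : Spec (CommRingCat.of K) ⟶ X) (U : X.Opens)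
    (h : p (ptK K) ∈ U) (b : Γ(X, U)) : evS K p U h b ≠ 0 ↔ p (ptK K) ∈ X.basicOpen b := by
  have hle : ⊤ ≤ p ⁻¹ᵁ U := fun y _ => by
    rw [specK_eq K y (ptK K)]; exact h
  have h1 : p (ptK K) ∈ X.basicOpen b ↔ ptK K ∈ (Spec (CommRingCat.of K)).basicOpen
      (p.appLE U ⊤ hle b) := by
    rw [Scheme.basicOpen_appLE]
    constructor
    · intro h2
      exact ⟨trivial, h2⟩
    · intro h2
      exact h2.2
  rw [h1]
  have h2 : evS K p U h b = (Scheme.ΓSpecIso (.of K)).hom (p.appLE U ⊤ hle b) := rfl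
  rw [h2]
  generalize p.appLE U ⊤ hle b = s
  constructor
  · intro h3
    have h4 : IsUnit ((Scheme.ΓSpecIso (.of K)).hom s) := isUnit_iff_ne_zero.2 h3
    have h5 : IsUnit s := by
      have h6 := h4.map (Scheme.ΓSpecIso (.of K)).inv.hom
      have h7 : (Scheme.ΓSpecIso (.of K)).inv.hom ((Scheme.ΓSpecIso (.of K)).hom s) = s := by
        have := congrArg (fun f => f.hom s) (Scheme.ΓSpecIso (.of K)).hom_inv_id
        exact this
      rwa [h7] at h6
    rw [Scheme.basicOpen_of_isUnit _ h5]
    trivial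
  · intro h3 h4
    have h5 : s = 0 := by
      apply (ConcreteCategory.bijective_of_isIso (Scheme.ΓSpecIso (.of K)).hom).1
      rw [h4]
      exact (map_zero (Scheme.ΓSpecIso (.of K)).hom.hom).symm
    rw [h5, Scheme.basicOpen_zero] at h3
    exact h3

/-- centered étale coordinates at a `K`-point -/
lemma exists_centered [SmoothOfRelativeDimension g (pK K X)]
    (p : Spec (CommRingCat.of K) ⟶ X) (hp : IsKHom K p) :
    ∃ (U : X.Opens) (_ : IsAffineOpen U) (hU : p (ptK K) ∈ U)
      (γ : MvPolynomial (Fin g) K →+* Γ(X, U)), γ.comp MvPolynomial.C = (kSec K U).hom ∧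
        γ.Etale ∧ ∀ q, evS K p U hU (γ q) = MvPolynomial.constantCoeff q := by
  obtain ⟨U, hU, hpU, γ, hγ, hγe⟩ := exists_coords K X g (p (ptK K))
  let a : Fin g → K := fun i => evS K p U hpU (γ (MvPolynomial.X i))
  let σ : MvPolynomial (Fin g) K →ₐ[K] MvPolynomial (Fin g) K :=
    MvPolynomial.aeval fun i => MvPolynomial.X i - MvPolynomial.C (a i)
  let τ : MvPolynomial (Fin g) K →ₐ[K] MvPolynomial (Fin g) K :=
    MvPolynomial.aeval fun i => MvPolynomial.X i + MvPolynomial.C (a i)
  have hστ : ∀ q, σ (τ q) = q := by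
    intro q
    have : σ.comp τ = AlgHom.id K _ := by
      ext i
      simp [σ, τ]
    exact DFunLike.congr_fun this q
  have hτσ : ∀ q, τ (σ q) = q := by
    intro q
    have : τ.comp σ = AlgHom.id K _ := by
      ext i
      simp [σ, τ]
    exact DFunLike.congr_fun this q
  have hσb : Function.Bijective σ := ⟨fun a b h => by rw [← hτσ a, h, hτσ],
    fun b => ⟨τ b, hστ b⟩⟩
  refine ⟨U, hU, hpU, γ.comp σ.toRingHom, ?_, ?_, ?_⟩
  · rw [← hγ]
    ext c
    simp [σ]
  · exact RingHom.Etale.stableUnderComposition _ _ (RingHom.Etale.of_bijective hσb) hγe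
  · intro q
    have h1 : ((evS K p U hpU).comp (γ.comp σ.toRingHom)) =
        (MvPolynomial.constantCoeff (σ := Fin g) (R := K)) := by
      apply MvPolynomial.ringHom_ext
      · intro c
        have h2 : γ (MvPolynomial.C c) = (kSec K U).hom c := congrArg (fun f => f c) hγ
        simp only [RingHom.comp_apply, AlgHom.toRingHom_eq_coe, RingHom.coe_coe, σ,
          MvPolynomial.aeval_C, MvPolynomial.algebraMap_eq, MvPolynomial.constantCoeff_C]
        rw [h2, evS_kSec K p hp]
      · intro i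
        have h2 : γ (MvPolynomial.C (a i)) = (kSec K U).hom (a i) := congrArg (fun f => f (a i)) hγ
        simp only [RingHom.comp_apply, AlgHom.toRingHom_eq_coe, RingHom.coe_coe, σ,
          MvPolynomial.aeval_X, MvPolynomial.constantCoeff_X, map_sub]
        rw [h2, evS_kSec K p hp, sub_self]
    exact congrArg (fun f => f q) h1

lemma ker_evS (p : Spec (CommRingCat.of K) ⟶ X) {U : X.Opens} (hU : IsAffineOpen U)
    (h : p (ptK K) ∈ U) :
    RingHom.ker (evS K p U h) = (hU.primeIdealOf ⟨p (ptK K), h⟩).asIdeal := by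
  ext b
  let _ := TopCat.Presheaf.algebra_section_stalk X.presheaf (⟨p (ptK K), h⟩ : U)
  have := hU.isLocalization_stalk ⟨p (ptK K), h⟩
  rw [RingHom.mem_ker, ← not_iff_not, ← Ne, evS_ne_zero_iff K, Scheme.mem_basicOpen _ _ _ h]
  exact IsLocalization.AtPrime.isUnit_to_map_iff (X.presheaf.stalk (p (ptK K)))
    (hU.primeIdealOf ⟨p (ptK K), h⟩).asIdeal b

lemma exists_closed_specialization [IsAlgClosed K] [LocallyOfFiniteType (pK K X)] (y : X) :
    ∃ (p : Spec (CommRingCat.of K) ⟶ X) (_ : IsKHom K p), y ⤳ p (ptK K) := by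
  have : JacobsonSpace X := LocallyOfFiniteType.jacobsonSpace (pK K X)
  obtain ⟨x, hx, hx'⟩ := nonempty_inter_closedPoints (Z := closure {y})
    ⟨y, subset_closure rfl⟩ isClosed_closure.isLocallyClosed
  refine ⟨pointOfClosedPoint (pK K X) x hx', ?_, ?_⟩
  · unfold IsKHom
    rw [pointOfClosedPoint_comp, pK_spec]
    exact (Spec.map_id _).symm
  · rw [pointOfClosedPoint_apply, specializes_iff_mem_closure]
    exact hx

/-- **Local rings of smooth schemes over an algebraically closed field are UFDs.** -/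
theorem stalk_ufm [IsAlgClosed K] [hs : SmoothOfRelativeDimension g (pK K X)] (y : X) :
    ∃ _ : IsDomain (X.presheaf.stalk y), UniqueFactorizationMonoid (X.presheaf.stalk y) := by
  have hsm : Smooth (pK K X) := hs.smooth
  have hft : LocallyOfFiniteType (pK K X) := inferInstance
  obtain ⟨p, hp, hsp⟩ := exists_closed_specialization K y
  obtain ⟨U, hU, hpU, γ, hγ, hγe, hev⟩ := exists_centered K g p hp
  have hyU : y ∈ U := hsp.mem_open U.2 hpU
  have hinf : Infinite K := IsAlgClosed.instInfinite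
  -- the closed point
  have h1 : ∃ _ : IsDomain (X.presheaf.stalk (p (ptK K))),
      UniqueFactorizationMonoid (X.presheaf.stalk (p (ptK K))) := by
    algebraize [γ]
    let _ := TopCat.Presheaf.algebra_section_stalk X.presheaf (⟨p (ptK K), hpU⟩ : U)
    have hloc := hU.isLocalization_stalk ⟨p (ptK K), hpU⟩
    have hker := ker_evS K p hU hpU
    have hprime : (RingHom.ker (evS K p U hpU)).IsPrime := by
      rw [hker]
      exact (hU.primeIdealOf ⟨p (ptK K), hpU⟩).isPrime
    have hloc' : IsLocalization.AtPrime (X.presheaf.stalk (p (ptK K)))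
        (RingHom.ker (evS K p U hpU)) := by
      convert hloc
    exact ufm_localization (evS K p U hpU) hev (X.presheaf.stalk (p (ptK K)))
  obtain ⟨hdom, hufm⟩ := h1
  -- localization
  let _ := TopCat.Presheaf.algebra_section_stalk X.presheaf (⟨p (ptK K), hpU⟩ : U)
  let _ := TopCat.Presheaf.algebra_section_stalk X.presheaf (⟨y, hyU⟩ : U)
  let _ : Algebra (X.presheaf.stalk (p (ptK K))) (X.presheaf.stalk y) :=
    (X.presheaf.stalkSpecializes hsp).hom.toAlgebra
  have htower : IsScalarTower Γ(X, U) (X.presheaf.stalk (p (ptK K))) (X.presheaf.stalk y) := by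
    apply IsScalarTower.of_algebraMap_eq'
    have := TopCat.Presheaf.germ_stalkSpecializes X.presheaf hpU hsp
    exact congrArg (fun f => f.hom) this.symm
  have hloc1 := hU.isLocalization_stalk ⟨p (ptK K), hpU⟩
  have hloc2 := hU.isLocalization_stalk ⟨y, hyU⟩
  have hle : (hU.primeIdealOf ⟨p (ptK K), hpU⟩).asIdeal.primeCompl ≤
      (hU.primeIdealOf ⟨y, hyU⟩).asIdeal.primeCompl := by
    intro b hb
    rw [← IsLocalization.AtPrime.isUnit_to_map_iff (X.presheaf.stalk y)
      (hU.primeIdealOf ⟨y, hyU⟩).asIdeal b]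
    rw [← IsLocalization.AtPrime.isUnit_to_map_iff (X.presheaf.stalk (p (ptK K)))
      (hU.primeIdealOf ⟨p (ptK K), hpU⟩).asIdeal b] at hb
    rw [IsScalarTower.algebraMap_apply Γ(X, U) (X.presheaf.stalk (p (ptK K)))
      (X.presheaf.stalk y)]
    exact hb.map _
  have hloc3 := IsLocalization.isLocalization_of_submonoid_le
    (X.presheaf.stalk (p (ptK K))) (X.presheaf.stalk y)
    (hU.primeIdealOf ⟨p (ptK K), hpU⟩).asIdeal.primeCompl
    (hU.primeIdealOf ⟨y, hyU⟩).asIdeal.primeCompl hle
  have hle' : ((hU.primeIdealOf ⟨y, hyU⟩).asIdeal.primeCompl.map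
      (algebraMap Γ(X, U) (X.presheaf.stalk (p (ptK K))))) ≤
        nonZeroDivisors (X.presheaf.stalk (p (ptK K))) := by
    apply le_nonZeroDivisors_of_noZeroDivisors
    rintro ⟨b, hb, hb0⟩
    have h5 : algebraMap Γ(X, U) (X.presheaf.stalk y) b = 0 := by
      rw [IsScalarTower.algebraMap_apply Γ(X, U) (X.presheaf.stalk (p (ptK K)))
        (X.presheaf.stalk y), hb0, map_zero]
    have h6 : IsUnit (algebraMap Γ(X, U) (X.presheaf.stalk y) b) :=
      (IsLocalization.AtPrime.isUnit_to_map_iff (X.presheaf.stalk y)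
        (hU.primeIdealOf ⟨y, hyU⟩).asIdeal b).2 hb
    rw [h5] at h6
    exact not_isUnit_zero h6
  have hdom' : IsDomain (X.presheaf.stalk y) := IsLocalization.isDomain_of_le_nonZeroDivisors (X.presheaf.stalk y)
    hle'
  exact ⟨hdom', UniqueFactorizationMonoid.of_isLocalization
    ((hU.primeIdealOf ⟨y, hyU⟩).asIdeal.primeCompl.map
      (algebraMap Γ(X, U) (X.presheaf.stalk (p (ptK K))))) (X.presheaf.stalk y)⟩

end

end

end Fermat.Agent.H20
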