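import Mathlib
import Fermat.Agent.H20.Coord

/-!
# Connected Noetherian schemes with integral local rings are integral
-/

set_option autoImplicit false

universe u

open AlgebraicGeometry CategoryTheory CategoryTheory.Limits TopologicalSpace TensorProduct

namespace Fermat.Agent.H20

noncomputable section

/-- If the stalk at `x` is a domain, then `x` lies on a unique irreducible component. -/
lemma irreducibleComponents_unique {X : Scheme.{u}} (x : X) [IsDomain (X.presheaf.stalk x)]
    {Z : Set X} (hZ : Z ∈ irreducibleComponents X) (hx : x ∈ Z) :
    Z = closure {X.fromSpecStalk x (genericPoint _)} := by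
  have hZc : IsClosed Z := isClosed_of_mem_irreducibleComponents Z hZ
  obtain ⟨η, hη⟩ := QuasiSober.sober hZ.1 hZc
  have h1 : η ⤳ x := by
    rw [specializes_iff_mem_closure, hη.def]
    exact hx
  have h2 : η ∈ Set.range (X.fromSpecStalk x) := by
    rw [Scheme.range_fromSpecStalk]
    exact h1
  obtain ⟨y, hy⟩ := h2
  have h3 : X.fromSpecStalk x (genericPoint _) ⤳ η := by
    rw [← hy]
    exact (genericPoint_specializes y).map (X.fromSpecStalk x).continuous
  have h4 : Z ⊆ closure {X.fromSpecStalk x (genericPoint _)} := by
    rw [← hη.def]
    exact (specializes_iff_closure_subset.1 h3)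
  exact subset_antisymm h4 (hZ.2 isIrreducible_singleton.closure h4)

theorem isIntegral_of_stalk_isDomain (X : Scheme.{u}) [IsNoetherian X] [ConnectedSpace X]
    (h : ∀ x : X, IsDomain (X.presheaf.stalk x)) : IsIntegral X := by
  have hred : ∀ x : X, _root_.IsReduced (X.presheaf.stalk x) := fun x => inferInstance
  have : IsReduced X := isReduced_of_isReduced_stalk X
  have hfin : (irreducibleComponents X).Finite := NoetherianSpace.finite_irreducibleComponents
  obtain ⟨x0⟩ := ConnectedSpace.toNonempty (α := X)
  set Z := irreducibleComponent x0 with hZ
  have hZm : Z ∈ irreducibleComponents X := irreducibleComponent_mem_irreducibleComponents x0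
  have hZc : IsClosed Z := isClosed_of_mem_irreducibleComponents Z hZm
  have hZo : IsOpen Z := by
    have h1 : Z = (⋃₀ (irreducibleComponents X \ {Z}))ᶜ := by
      ext y
      simp only [Set.mem_compl_iff, Set.mem_sUnion, Set.mem_sdiff, Set.mem_singleton_iff, not_exists,
        not_and]
      constructor
      · intro hy W hW hyW
        apply hW.2
        rw [irreducibleComponents_unique y hW.1 hyW, ← irreducibleComponents_unique y hZm hy]
      · intro hy
        by_contra hc
        refine hy (irreducibleComponent y) ⟨irreducibleComponent_mem_irreducibleComponents y, ?_⟩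
          mem_irreducibleComponent
        intro he
        exact hc (he ▸ mem_irreducibleComponent)
    rw [h1, Set.sUnion_eq_biUnion, isOpen_compl_iff]
    exact hfin.sdiff.isClosed_biUnion fun W hW ↦ isClosed_of_mem_irreducibleComponents W hW.1
  have hZu : Z = Set.univ := IsClopen.eq_univ ⟨hZc, hZo⟩ ⟨x0, mem_irreducibleComponent⟩
  have : IrreducibleSpace X := by
    rw [irreducibleSpace_def]
    change IsIrreducible (Set.univ : Set X)
    rw [← hZu]
    exact isIrreducible_irreducibleComponent
  exact isIntegral_of_irreducibleSpace_of_isReduced _

end

end Fermat.Agent.H20
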