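import Mathlib
import Fermat.Agent.H20.Integral

/-!
# The transcendence degree of the function field of a smooth scheme
-/

set_option autoImplicit false

universe u

open AlgebraicGeometry CategoryTheory CategoryTheory.Limits TopologicalSpace TensorProduct

namespace Fermat.Agent.H20

noncomputable section

section alg

variable {P S : Type*} [CommRing P] [IsDomain P] [CommRing S] [IsDomain S] [Algebra P S]
  [Algebra.Etale P S]

lemma injective_of_etale : Function.Injective (algebraMap P S) := by
  have : Module.Flat P S := Algebra.Smooth.flat P S
  have : Module.IsTorsionFree P S := inferInstance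
  exact FaithfulSMul.algebraMap_injective P S

lemma isAlgebraic_of_etale (F : Type*) [Field F] [Algebra S F] [IsFractionRing S F] [Algebra P F]
    [IsScalarTower P S F] : Algebra.IsAlgebraic P F := by
  have hinj : Function.Injective (algebraMap P F) := by
    rw [IsScalarTower.algebraMap_eq P S F]
    exact (IsFractionRing.injective S F).comp injective_of_etale
  have : FaithfulSMul P F := (faithfulSMul_iff_algebraMap_injective P F).2 hinj
  let _ : Algebra (FractionRing P) F := FractionRing.liftAlgebra P F
  have : IsScalarTower P (FractionRing P) F := FractionRing.isScalarTower_liftAlgebra P F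
  have : Algebra.FormallyUnramified S F :=
    Algebra.FormallyUnramified.of_isLocalization (nonZeroDivisors S)
  have : Algebra.FormallyUnramified P F := Algebra.FormallyUnramified.comp P S F
  have : Algebra.FormallyUnramified (FractionRing P) F :=
    Algebra.FormallyUnramified.of_restrictScalars P (FractionRing P) F
  have : Algebra.EssFiniteType S F := Algebra.EssFiniteType.of_isLocalization F (nonZeroDivisors S)
  have : Algebra.EssFiniteType P F := Algebra.EssFiniteType.comp P S F
  have : Algebra.EssFiniteType (FractionRing P) F :=
    Algebra.EssFiniteType.of_comp P (FractionRing P) F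
  have : Module.Finite (FractionRing P) F :=
    Algebra.FormallyUnramified.finite_of_free (FractionRing P) F
  exact (IsFractionRing.comap_isAlgebraic_iff (K := FractionRing P)).2 inferInstance

end alg

section

variable (K : Type u) [Field K] (X : Scheme.{u}) [KSch K X] (g : ℕ)

theorem trdeg_functionField [IsIntegral X] [hs : SmoothOfRelativeDimension g (pK K X)] :
    Algebra.trdeg K X.functionField = g := by
  obtain ⟨U, hU, hxU, γ, hγ, hγe⟩ := exists_coords K X g (genericPoint X)
  have : Nonempty U := ⟨⟨_, hxU⟩⟩
  have : IsDomain Γ(X, U) := inferInstance
  algebraize [γ]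
  let _ : Algebra (MvPolynomial (Fin g) K) X.functionField :=
    ((X.germToFunctionField U).hom.comp γ).toAlgebra
  have htow : IsScalarTower (MvPolynomial (Fin g) K) Γ(X, U) X.functionField :=
    IsScalarTower.of_algebraMap_eq' rfl
  have hfr : IsFractionRing Γ(X, U) X.functionField :=
    functionField_isFractionRing_of_isAffineOpen X U hU
  have halg : Algebra.IsAlgebraic (MvPolynomial (Fin g) K) X.functionField :=
    isAlgebraic_of_etale (S := Γ(X, U)) X.functionField
  have hinj : Function.Injective (algebraMap (MvPolynomial (Fin g) K) X.functionField) := by
    rw [IsScalarTower.algebraMap_eq (MvPolynomial (Fin g) K) Γ(X, U) X.functionField]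
    exact (IsFractionRing.injective Γ(X, U) X.functionField).comp injective_of_etale
  have htow2 : IsScalarTower K (MvPolynomial (Fin g) K) X.functionField := by
    apply IsScalarTower.of_algebraMap_eq'
    rw [MvPolynomial.algebraMap_eq]
    ext c
    rw [algebraMap_fun' K U]
    change _ = X.germToFunctionField U (γ (MvPolynomial.C c))
    congr 1
    exact (congrArg (fun f => f c) hγ).symm
  have : FaithfulSMul (MvPolynomial (Fin g) K) X.functionField :=
    (faithfulSMul_iff_algebraMap_injective _ _).2 hinj
  have hb := (IsTranscendenceBasis.mvPolynomial (Fin g) K).algebraMap_comp (A := X.functionField)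
  have h1 := hb.lift_cardinalMk_eq_trdeg
  simpa using h1.symm

end

end

end Fermat.Agent.H20
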