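import Mathlib
import Fermat.Agent.H20.Dim

/-!
# Dense arcs
-/

set_option autoImplicit false

universe u

open AlgebraicGeometry CategoryTheory CategoryTheory.Limits TopologicalSpace TensorProduct

namespace Fermat.Agent.H20

noncomputable section

section series

open PowerSeries

lemma not_countable_powerSeries (k : Type*) [Field k] : ¬ Countable (PowerSeries k) := by
  classical
  intro h
  let f : Set ℕ → PowerSeries k := fun S => PowerSeries.mk fun n => if n ∈ S then 1 else 0
  have hf : Function.Injective f := by
    intro S T hST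
    ext n
    have h1 := congrArg (coeff n) hST
    simp only [f, coeff_mk] at h1
    by_cases h2 : n ∈ S <;> by_cases h3 : n ∈ T <;> simp_all
  obtain ⟨e, he⟩ := h.exists_injective_nat
  exact Function.cantor_injective (e ∘ f) (he.comp hf)

lemma exists_algInd_countable (k : Type*) [Field k] [Countable k] (g : ℕ) :
    ∃ s : Fin g → PowerSeries k, AlgebraicIndependent k s := by
  obtain ⟨S, hS⟩ := exists_isTranscendenceBasis k (PowerSeries k)
  have hinf : Infinite S := by
    by_contra hfin
    rw [not_infinite_iff_finite] at hfin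
    apply not_countable_powerSeries k
    have h1 : Algebra.IsAlgebraic (Algebra.adjoin k (Set.range ((↑) : S → PowerSeries k)))
        (PowerSeries k) := hS.isAlgebraic
    have h2 : Countable (MvPolynomial S k) := by
      rw [← Cardinal.mk_le_aleph0_iff]
      refine MvPolynomial.cardinalMk_le_max_lift.trans ?_
      simp
    have h3 : Countable (Algebra.adjoin k (Set.range ((↑) : S → PowerSeries k))) :=
      hS.1.aevalEquiv.symm.injective.countable
    rw [← Cardinal.mk_le_aleph0_iff]
    refine (Algebra.IsAlgebraic.cardinalMk_le_max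
      (Algebra.adjoin k (Set.range ((↑) : S → PowerSeries k))) (PowerSeries k)).trans ?_
    exact max_le (Cardinal.mk_le_aleph0_iff.2 h3) le_rfl
  exact ⟨fun i => (Infinite.natEmbedding S i : S),
    hS.1.comp (fun i : Fin g => Infinite.natEmbedding S i)
      ((Infinite.natEmbedding S).injective.comp Fin.val_injective)⟩

lemma algInd_map {k K ι : Type*} [Field k] [Field K] [Algebra k K] (s : ι → PowerSeries k)
    (hs : AlgebraicIndependent k s) :
    AlgebraicIndependent K fun i => PowerSeries.map (algebraMap k K) (s i) := by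
  classical
  rw [algebraicIndependent_iff]
  intro F hF
  by_contra hF0
  obtain ⟨m, hm⟩ := MvPolynomial.ne_zero_iff.1 hF0
  obtain ⟨l, hl⟩ : ∃ l : Module.Dual k K, l (F.coeff m) ≠ 0 := by
    by_contra hcon
    push Not at hcon
    exact hm ((Module.forall_dual_apply_eq_zero_iff k _).1 hcon)
  let G : MvPolynomial ι k := ∑ d ∈ F.support, MvPolynomial.monomial d (l (F.coeff d))
  have hG : G.coeff m = l (F.coeff m) := by
    simp only [G, MvPolynomial.coeff_sum, MvPolynomial.coeff_monomial]
    rw [Finset.sum_ite_eq', if_pos (MvPolynomial.mem_support_iff.2 hm)]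
  have hG0 : MvPolynomial.aeval s G = 0 := by
    ext n
    have h1 : l (coeff n (MvPolynomial.aeval
        (fun i => PowerSeries.map (algebraMap k K) (s i)) F)) = 0 := by
      rw [hF, map_zero, map_zero]
    rw [map_zero, ← h1]
    simp only [G, map_sum]
    rw [MvPolynomial.aeval_def, MvPolynomial.eval₂_eq]
    simp only [map_sum]
    refine Finset.sum_congr rfl fun d _ => ?_
    rw [MvPolynomial.aeval_monomial, Finsupp.prod]
    have h2 : ∏ i ∈ d.support, (PowerSeries.map (algebraMap k K) (s i)) ^ d i =
        PowerSeries.map (algebraMap k K) (∏ i ∈ d.support, s i ^ d i) := by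
      rw [map_prod]
      refine Finset.prod_congr rfl fun i _ => ?_
      rw [map_pow]
    rw [h2]
    change coeff n (C _ * _) = l (coeff n (C _ * _))
    rw [coeff_C_mul, coeff_C_mul, coeff_map, mul_comm (F.coeff d), ← Algebra.smul_def, map_smul,
      smul_eq_mul, mul_comm]
  have := (algebraicIndependent_iff.1 hs) G hG0
  rw [this, MvPolynomial.coeff_zero] at hG
  exact hl hG.symm

lemma algInd_center {K : Type*} [Field K] {ι : Type*} (s : ι → PowerSeries K)
    (hs : AlgebraicIndependent K s) :
    AlgebraicIndependent K fun i => s i - C (constantCoeff (s i)) := by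
  rw [algebraicIndependent_iff_injective_aeval] at hs ⊢
  let σ : MvPolynomial ι K →ₐ[K] MvPolynomial ι K :=
    MvPolynomial.aeval fun i => MvPolynomial.X i - MvPolynomial.C (constantCoeff (s i))
  let τ : MvPolynomial ι K →ₐ[K] MvPolynomial ι K :=
    MvPolynomial.aeval fun i => MvPolynomial.X i + MvPolynomial.C (constantCoeff (s i))
  have hτσ : ∀ q, τ (σ q) = q := by
    intro q
    have : τ.comp σ = AlgHom.id K _ := by
      ext i
      simp [σ, τ]
    exact DFunLike.congr_fun this q
  have h1 : (MvPolynomial.aeval fun i => s i - C (constantCoeff (s i))) =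
      (MvPolynomial.aeval s).comp σ := by
    apply MvPolynomial.algHom_ext
    intro i
    simp only [MvPolynomial.aeval_X, AlgHom.comp_apply, σ, map_sub, MvPolynomial.aeval_C]
    rfl
  rw [h1]
  exact hs.comp fun a b hab => (hτσ a).symm.trans ((congrArg τ hab).trans (hτσ b))

theorem exists_algInd (K : Type*) [Field K] (g : ℕ) :
    ∃ s : Fin g → PowerSeries K, AlgebraicIndependent K s ∧ ∀ i, constantCoeff (s i) = 0 := by
  let k : Subfield K := Subfield.closure ∅
  have hk : Countable k := by
    rw [← Cardinal.mk_le_aleph0_iff]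
    refine (Subfield.cardinalMk_closure_le_max _).trans ?_
    simp
  obtain ⟨s, hs⟩ := exists_algInd_countable k g
  refine ⟨_, algInd_center _ (algInd_map (K := K) s hs), fun i => ?_⟩
  simp

instance isAdicComplete_span_X (K : Type*) [Field K] :
    IsAdicComplete (Ideal.span {(X : PowerSeries K)}) (PowerSeries K) := by
  have h : (Ideal.span {(X : PowerSeries K)}) =
      Ideal.span (Set.range (MvPowerSeries.X (σ := Unit) (R := K))) := by
    congr 1
    ext f
    constructor
    · rintro rfl
      exact ⟨(), rfl⟩
    · rintro ⟨_, rfl⟩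
      rfl
  rw [h]
  infer_instance

lemma exists_lift {K S : Type*} [Field K] [CommRing S] [IsDomain S] (g : ℕ)
    (γ : MvPolynomial (Fin g) K →+* S) (hγ : γ.Etale) (ev : S →+* K)
    (hev : ∀ q, ev (γ q) = MvPolynomial.constantCoeff q) :
    ∃ β : S →+* PowerSeries K, Function.Injective β ∧
      (∀ c, β (γ (MvPolynomial.C c)) = PowerSeries.C c) ∧ ∀ b, constantCoeff (β b) = ev b := by
  obtain ⟨s, hs, hs0⟩ := exists_algInd K g
  rw [algebraicIndependent_iff_injective_aeval] at hs
  algebraize [γ]
  let _ : Algebra (MvPolynomial (Fin g) K) (PowerSeries K) :=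
    (MvPolynomial.aeval s).toRingHom.toAlgebra
  have h0 : ∀ q : MvPolynomial (Fin g) K,
      constantCoeff (MvPolynomial.aeval s q) = MvPolynomial.constantCoeff q := by
    intro q
    have h1 : (constantCoeff (R := K)).comp (MvPolynomial.aeval s).toRingHom =
        (MvPolynomial.constantCoeff (σ := Fin g) (R := K)) := by
      apply MvPolynomial.ringHom_ext
      · intro c
        simp
      · intro i
        simp [hs0]
    exact congrArg (fun f => f q) h1
  let I : Ideal (PowerSeries K) := Ideal.span {(X : PowerSeries K)}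
  let f : S →ₐ[MvPolynomial (Fin g) K] PowerSeries K ⧸ I :=
    { (Ideal.Quotient.mk I).comp ((C (R := K)).comp ev) with
      commutes' := by
        intro q
        change Ideal.Quotient.mk I (C (ev (γ q))) = Ideal.Quotient.mk I (MvPolynomial.aeval s q)
        rw [hev, Ideal.Quotient.eq, Ideal.mem_span_singleton, X_dvd_iff, map_sub, h0]
        simp }
  obtain ⟨β, hβ⟩ := Algebra.FormallySmooth.exists_mkₐ_comp_eq_of_isAdicComplete (I := I) f
  have hβγ : ∀ q, β (γ q) = MvPolynomial.aeval s q := fun q => β.commutes q
  refine ⟨β.toRingHom, ?_, ?_, ?_⟩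
  · rw [injective_iff_map_eq_zero]
    intro b hb
    by_contra hb0
    have halg : Algebra.IsAlgebraic (MvPolynomial (Fin g) K) S := by
      have := isAlgebraic_of_etale (P := MvPolynomial (Fin g) K) (S := S) (FractionRing S)
      exact Algebra.IsAlgebraic.of_injective
        (IsScalarTower.toAlgHom (MvPolynomial (Fin g) K) S (FractionRing S))
        (IsFractionRing.injective S (FractionRing S))
    have h1 := Ideal.comap_ne_bot_of_algebraic_mem (R := MvPolynomial (Fin g) K)
      (I := RingHom.ker β.toRingHom) hb0 hb (halg.isAlgebraic b)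
    apply h1
    rw [eq_bot_iff]
    intro q hq
    have h2 : β (γ q) = 0 := hq
    rw [hβγ] at h2
    exact hs (h2.trans (map_zero _).symm)
  · intro c
    change β (γ _) = _
    rw [hβγ, MvPolynomial.aeval_C]
    rfl
  · intro b
    have h1 := congrArg (fun F => F b) hβ
    change Ideal.Quotient.mk I (β b) = Ideal.Quotient.mk I (C (ev b)) at h1
    rw [Ideal.Quotient.eq, Ideal.mem_span_singleton, X_dvd_iff, map_sub, constantCoeff_C,
      sub_eq_zero] at h1
    exact h1

end series

section arc

variable (K : Type u) [Field K] [IsAlgClosed K] {X : Scheme.{u}} [KSch K X] (g : ℕ)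

open PowerSeries

/-- **Existence of dense arcs.** -/
theorem exists_arc [IsIntegral X] [SmoothOfRelativeDimension g (pK K X)]
    (p : Spec (CommRingCat.of K) ⟶ X) (hp : IsKHom K p) :
    ∃ φ : SR K ⟶ X, IsKHom K φ ∧ IsDom φ ∧ z0 K ≫ φ = p := by
  obtain ⟨U, hU, hpU, γ, hγ, hγe, hev⟩ := exists_centered K g p hp
  have : Nonempty U := ⟨⟨_, hpU⟩⟩
  obtain ⟨β, hβi, hβC, hβev⟩ := exists_lift g γ hγe (evS K p U hpU) hev
  refine ⟨Spec.map (CommRingCat.ofHom β) ≫ hU.fromSpec, ?_, ?_, ?_⟩
  · unfold IsKHom
    rw [Category.assoc, fromSpec_str, ← Spec.map_comp, pK_spec]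
    rw [← CommRingCat.ofHom_comp]
    congr 2
    apply RingHom.ext
    intro c
    change β (kSec K U c) = algebraMap K (PowerSeries K) c
    refine (congrArg (fun f => β (f c)) hγ.symm).trans ?_
    exact hβC c
  · have h1 : IsDom (Y := Spec Γ(X, U)) hU.fromSpec :=
      genericPoint_eq_of_isOpenImmersion hU.fromSpec
    have h2 : IsDom (X := Spec Γ(X, U)) (Spec.map (CommRingCat.ofHom β)) := by
      unfold IsDom
      rw [genericPoint_eq_bot_of_affine, genericPoint_eq_bot_of_affine]
      apply PrimeSpectrum.ext
      have h4 : Ideal.comap β (⊥ : Ideal (PowerSeries K)) = ⊥ := by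
        rw [eq_bot_iff]
        intro b hb
        have h3 : β b = 0 := hb
        exact (map_eq_zero_iff β hβi).1 h3
      exact h4
    exact h1.comp h2
  · rw [z0, ← Category.assoc, ← Spec.map_comp, ← CommRingCat.ofHom_comp]
    have h1 : (constantCoeff (R := K)).comp β = evS K p U hpU := by
      ext b
      exact hβev b
    rw [h1]
    have h2 := IsAffineOpen.SpecMap_appLE_fromSpec p hU (isAffineOpen_top _)
      (fun y _ => by rw [specK_eq K y (ptK K)]; exact hpU)
    have h3 : CommRingCat.ofHom (evS K p U hpU) =
      p.appLE U ⊤ (fun y _ => by rw [specK_eq K y (ptK K)]; exact hpU) ≫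
      (Scheme.ΓSpecIso (.of K)).hom := rfl
    rw [h3, Spec.map_comp, Category.assoc, h2, IsAffineOpen.fromSpec_top]
    have : (Spec (CommRingCat.of K)).isoSpec.inv = Spec.map (Scheme.ΓSpecIso (.of K)).inv := by
      rw [← cancel_epi (Spec (CommRingCat.of K)).isoSpec.hom, Iso.hom_inv_id,
        Scheme.isoSpec_Spec_hom, ← Spec.map_comp, Iso.inv_hom_id, Spec.map_id]
    rw [this, ← Category.assoc, ← Spec.map_comp, Iso.inv_hom_id, Spec.map_id, Category.id_comp]

end arc

end

end Fermat.Agent.H20
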