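import Mathlib
import Fermat.Agent.H20.Arc
import Fermat.Agent.H07.NDeg
import Fermat.Agent.H07.Growth

/-!
# The number of torsion points of an abelian variety
-/

set_option autoImplicit false

universe u

open AlgebraicGeometry CategoryTheory CategoryTheory.Limits TopologicalSpace TensorProduct
  GoodReductionJacobian NeronModelInfra

namespace Fermat.Agent.H20

noncomputable section

theorem pullDetects_of_flat {X : Scheme.{u}} [IsIntegral X] (ψ : X ⟶ X) (hψ : IsDom ψ)
    [Flat ψ] [Surjective ψ] : PullDetects ψ hψ := by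
  refine ⟨ψ.surjective, fun x h hx => ?_⟩
  obtain ⟨a, b, hb, hab⟩ := IsFractionRing.div_surjective (A := X.presheaf.stalk (ψ x)) h
  obtain ⟨c, hc⟩ := hx
  have hfl : (ψ.stalkMap x).hom.Flat := Flat.stalkMap ψ x
  have hb0 : algebraMap (X.presheaf.stalk (ψ x)) X.functionField b ≠ 0 := by
    rw [Ne, IsFractionRing.to_map_eq_zero_iff]
    exact nonZeroDivisors.ne_zero hb
  have ha1 : pull ψ hψ (algebraMap (X.presheaf.stalk (ψ x)) X.functionField a) =
      algebraMap (X.presheaf.stalk x) X.functionField ((ψ.stalkMap x).hom a) :=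
    rho_eq_stalkMap ψ x a _
  have hb1 : pull ψ hψ (algebraMap (X.presheaf.stalk (ψ x)) X.functionField b) =
      algebraMap (X.presheaf.stalk x) X.functionField ((ψ.stalkMap x).hom b) :=
    rho_eq_stalkMap ψ x b _
  have h1 : (ψ.stalkMap x).hom a = c * (ψ.stalkMap x).hom b := by
    apply IsFractionRing.injective (X.presheaf.stalk x) X.functionField
    rw [map_mul, ← ha1, ← hb1, hc, ← map_mul, ← hab, div_mul_cancel₀ _ hb0]
  have hloc : IsLocalHom (ψ.stalkMap x).hom := inferInstance
  have h2 : a ∈ Ideal.span {b} := by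
    algebraize [(ψ.stalkMap x).hom]
    have : IsLocalHom (algebraMap (X.presheaf.stalk (ψ x)) (X.presheaf.stalk x)) := hloc
    have : Module.FaithfullyFlat (X.presheaf.stalk (ψ x)) (X.presheaf.stalk x) :=
      Module.FaithfullyFlat.of_flat_of_isLocalHom
    rw [← Ideal.comap_map_eq_self_of_faithfullyFlat (B := X.presheaf.stalk x) (Ideal.span {b}),
      Ideal.mem_comap, Ideal.map_span, Set.image_singleton, Ideal.mem_span_singleton]
    exact ⟨c, by rw [mul_comm]; exact h1⟩
  obtain ⟨d, rfl⟩ := Ideal.mem_span_singleton.1 h2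
  refine ⟨d, ?_⟩
  rw [← hab, map_mul, mul_div_cancel_left₀ _ hb0]

lemma isDom_of_surjective {X Y : Scheme.{u}} [IsIntegral X] [IsIntegral Y] (ψ : Y ⟶ X)
    [Surjective ψ] : IsDom ψ := by
  apply isDom_of_forall
  rintro U ⟨x, hx⟩
  obtain ⟨y, rfl⟩ := ψ.surjective x
  exact ⟨y, hx⟩

theorem growthAll (K : Type u) [Field K] [IsAlgClosed K] : GrowthAll K :=
  fun F _ _ g hfg htr W hW => Fermat.Agent.H07.Growth.M2 K F g hfg htr W hW

section

variable (K : Type u) [Field K] [IsAlgClosed K] {A : Scheme.{u}} [KSch K A]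
  {L : RelativeGroupLaw K (pK K A)} (hc : L.IsCommutative)

omit [IsAlgClosed K] in
lemma card_TorG (n : ℕ) :
    Nat.card {x : SchemeHomOver (𝟙 (Spec (CommRingCat.of K))) (pK K A) //
        L.IsTorsionPoint (𝟙 (Spec (CommRingCat.of K))) n x} = Nat.card (TorG K hc n) := by
  have key : ∀ t : Spec (CommRingCat.of K) ⟶ Spec (CommRingCat.of K),
      t = pK K (Spec (CommRingCat.of K)) → 
      Nat.card {x : SchemeHomOver t (pK K A) // L.IsTorsionPoint t n x} =
        Nat.card (TorG K hc n) := by
    rintro _ rfl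
    refine Nat.card_congr (Equiv.subtypeEquiv (Equiv.refl _) fun x => ?_)
    have h1 := PtG.nsmul_mor K hc n (T := Spec (CommRingCat.of K)) x
    change L.nsmul _ n x = L.one _ ↔
      @HSMul.hSMul ℕ (PtG K hc (Spec (CommRingCat.of K))) (PtG K hc (Spec (CommRingCat.of K))) _
        n x = 0
    rw [h1]
    rfl
  exact key _ (pK_specK K).symm

include hc in
/-- **The number of torsion points.** -/
theorem card_torsion (hA : AbelianSchemePropertyBundle K (pK K A)) (g : ℕ)
    [SmoothOfRelativeDimension g (pK K A)] (n : ℕ) (hn : (n : K) ≠ 0) :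
    Nat.card {x : SchemeHomOver (𝟙 (Spec (CommRingCat.of K))) (pK K A) //
        L.IsTorsionPoint (𝟙 (Spec (CommRingCat.of K))) n x} = n ^ (2 * g) := by
  have hP := hA.proper
  have hconn : ConnectedSpace A := by
    have h1 := hA.connectedFibres (ptK K)
    have h2 : ((pK K A).base ⁻¹' {ptK K} : Set A) = Set.univ := by
      ext x
      simp only [Set.mem_preimage, Set.mem_singleton_iff, Set.mem_univ, iff_true]
      exact specK_eq K _ _
    rw [h2] at h1
    exact connectedSpace_iff_univ.2 h1
  have hnoeth : IsNoetherian A :=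
    { toIsLocallyNoetherian := LocallyOfFiniteType.isLocallyNoetherian (pK K A)
      toCompactSpace := QuasiCompact.compactSpace_of_compactSpace (pK K A) }
  have hint : IsIntegral A := isIntegral_of_stalk_isDomain A fun x =>
    (stalk_ufm K g x).choose
  have hUFD : ∀ x : A, UniqueFactorizationMonoid (A.presheaf.stalk x) := fun x =>
    (stalk_ufm K g x).choose_spec
  obtain ⟨hfin, hsurj⟩ := Fermat.Agent.H07.NMul.M1c (pK K A) L hc hA n hn
  have hE := Fermat.Agent.H07.NMul.M1a (pK K A) L hc hA n hn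
  have hgen : L.schemeNsmul n (genericPoint A) = genericPoint A :=
    isDom_of_surjective (L.schemeNsmul n)
  obtain ⟨hpos, hdeg⟩ := Fermat.Agent.H07.NMul.M1d (pK K A) L hc hA n hn hgen
  rcases Nat.lt_or_ge n 2 with h2 | h2
  · have hn0 : n ≠ 0 := by
      rintro rfl
      exact hn Nat.cast_zero
    obtain rfl : n = 1 := by omega
    have hbot : TorG K hc 1 = ⊥ := by
      ext y
      rw [mem_TorG, one_smul, AddSubgroup.mem_bot]
    rw [one_pow, card_TorG K hc, hbot]
    exact AddSubgroup.card_bot
  · rw [card_TorG K hc]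
    have hs : L.schemeNsmul n = (nmul K hc n).mor := schemeNsmul_eq K hc n
    rw [card_TorG K hc] at hpos hdeg
    obtain ⟨φ, hφ, hφd, hφ0⟩ := exists_arc K g (0 : PtG K hc (Spec (CommRingCat.of K))).mor
      (0 : PtG K hc (Spec (CommRingCat.of K))).isKHom
    have hψ : IsDom (nmul K hc n).mor := hs ▸ hgen
    refine main_count K hc hUFD (growthAll K) φ hφ hφd hφ0 g (trdeg_functionField K A g) n h2 hψ
      ?_ ?_ ?_
    · rw [hs] at hsurj hE
      exact pullDetects_of_flat _ hψ
    · exact Nat.finite_of_card_ne_zero hpos.ne'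
    · exact hdeg _ fun h => rho_congr hs.symm h _

end

end

end Fermat.Agent.H20
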