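import Mathlib

/-!
# Additive Künneth lemma (Cousin problem on a product)

Pure linear algebra over a field `K`: the injectivity of
`H¹(Y × Z, 𝒪) → H¹(Y, 𝒪) ⊕ H¹(Z, 𝒪)` expressed with subspaces of `FY ⊗ FZ`.
-/

set_option autoImplicit false

open TensorProduct

namespace Fermat.Agent.H20

section Lin

universe u1 u2 u3

variable {K : Type u3} {FY : Type u1} {FZ : Type u2} [Field K] [AddCommGroup FY] [Module K FY]
  [AddCommGroup FZ] [Module K FZ]

/-- apply a functional on the left factor -/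
noncomputable def lY (ψ : Module.Dual K FY) : FY ⊗[K] FZ →ₗ[K] FZ :=
  (TensorProduct.lid K FZ).toLinearMap ∘ₗ (LinearMap.rTensor FZ ψ)

/-- apply a functional on the right factor -/
noncomputable def lZ (φ : Module.Dual K FZ) : FY ⊗[K] FZ →ₗ[K] FY :=
  (TensorProduct.rid K FY).toLinearMap ∘ₗ (LinearMap.lTensor FY φ)

@[simp] lemma lY_tmul (ψ : Module.Dual K FY) (y : FY) (z : FZ) :
    lY ψ (y ⊗ₜ[K] z) = ψ y • z := by simp [lY]

@[simp] lemma lZ_tmul (φ : Module.Dual K FZ) (y : FY) (z : FZ) :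
    lZ φ (y ⊗ₜ[K] z) = φ z • y := by simp [lZ]

lemma lY_add (ψ ψ' : Module.Dual K FY) (x : FY ⊗[K] FZ) :
    lY (ψ + ψ') x = lY ψ x + lY ψ' x := by
  simp [lY, LinearMap.rTensor_add]

lemma lY_smul (c : K) (ψ : Module.Dual K FY) (x : FY ⊗[K] FZ) :
    lY (c • ψ) x = c • lY ψ x := by
  simp [lY, LinearMap.rTensor_smul]

lemma lY_zero (x : FY ⊗[K] FZ) :
    lY (0 : Module.Dual K FY) x = 0 := by
  simp [lY]

/-- The subspace `P ⊗ Q` of `FY ⊗ FZ`. -/
noncomputable def box (P : Submodule K FY) (Q : Submodule K FZ) : Submodule K (FY ⊗[K] FZ) :=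
  Submodule.map₂ (TensorProduct.mk K FY FZ) P Q

lemma tmul_mem_box {P : Submodule K FY} {Q : Submodule K FZ} {y : FY} {z : FZ}
    (hy : y ∈ P) (hz : z ∈ Q) : y ⊗ₜ[K] z ∈ box P Q :=
  Submodule.apply_mem_map₂ _ hy hz

lemma box_mono {P P' : Submodule K FY} {Q Q' : Submodule K FZ} (h : P ≤ P') (h' : Q ≤ Q') :
    box P Q ≤ box P' Q' := Submodule.map₂_le_map₂ h h'

lemma box_induction {P : Submodule K FY} {Q : Submodule K FZ} {p : FY ⊗[K] FZ → Prop}
    {x : FY ⊗[K] FZ} (hx : x ∈ box P Q) (h0 : p 0)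
    (ht : ∀ y ∈ P, ∀ z ∈ Q, p (y ⊗ₜ[K] z)) (ha : ∀ x x', p x → p x' → p (x + x')) : p x := by
  have hx' : x ∈ Submodule.span K (Set.image2 (fun y z => TensorProduct.mk K FY FZ y z) P Q) := by
    rw [box, Submodule.map₂_eq_span_image2] at hx
    exact hx
  have key : ∀ w ∈ Submodule.span K (Set.image2 (fun y z => TensorProduct.mk K FY FZ y z) P Q),
      ∀ c : K, p (c • w) := by
    intro w hw
    induction hw using Submodule.span_induction with
    | zero => intro c; simpa using h0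
    | add a b _ _ hpa hpb => intro c; rw [smul_add]; exact ha _ _ (hpa c) (hpb c)
    | smul d a _ hpa => intro c; rw [smul_smul]; exact hpa _
    | mem a hmem =>
      intro c
      obtain ⟨y, hy, z, hz, rfl⟩ := hmem
      have : c • (TensorProduct.mk K FY FZ y z) = (c • y) ⊗ₜ[K] z := by
        simp [TensorProduct.smul_tmul']
      rw [this]
      exact ht _ (P.smul_mem c hy) _ hz
  simpa using key x hx' 1

lemma lY_mem {P : Submodule K FY} {Q : Submodule K FZ} {x : FY ⊗[K] FZ} (hx : x ∈ box P Q)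
    (ψ : Module.Dual K FY) : lY ψ x ∈ Q := by
  refine box_induction (p := fun x => lY ψ x ∈ Q) hx (by simp)
    (fun y hy z hz => by simpa using Q.smul_mem _ hz)
    (fun x x' h h' => by simpa using Q.add_mem h h')

lemma lY_eq_zero {P : Submodule K FY} {Q : Submodule K FZ} {x : FY ⊗[K] FZ} (hx : x ∈ box P Q)
    (ψ : Module.Dual K FY) (hψ : ∀ y ∈ P, ψ y = 0) : lY ψ x = 0 := by
  refine box_induction (p := fun x => lY ψ x = 0) hx (by simp)
    (fun y hy z hz => by simp [hψ y hy])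
    (fun x x' h h' => by simp [h, h'])

lemma lZ_mem {P : Submodule K FY} {Q : Submodule K FZ} {x : FY ⊗[K] FZ} (hx : x ∈ box P Q)
    (φ : Module.Dual K FZ) : lZ φ x ∈ P := by
  refine box_induction (p := fun x => lZ φ x ∈ P) hx (by simp)
    (fun y hy z hz => by simpa using P.smul_mem _ hy)
    (fun x x' h h' => by simpa using P.add_mem h h')

/-- Basis expansion: for a subspace `P`, a basis `e` of `P` and functionals `ψ r` extending the
coordinate functionals, every element of `P ⊗ FZ` has the expected expansion. -/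
lemma box_expand (P : Submodule K FY) :
    ∃ (ρ : Type u1) (e : ρ → FY) (ψ : ρ → Module.Dual K FY), (∀ r, e r ∈ P) ∧
      ∀ (Q : Submodule K FZ), ∀ x ∈ box P Q, ∃ s : Finset ρ, ∀ s', s ⊆ s' →
        x = ∑ r ∈ s', e r ⊗ₜ[K] lY (ψ r) x := by
  classical
  let b := Module.Basis.ofVectorSpace K P
  have hex : ∀ r, ∃ g : Module.Dual K FY, g ∘ₗ P.subtype = b.coord r := fun r =>
    LinearMap.exists_extend (b.coord r)
  choose ψ hψ using hex
  refine ⟨_, fun r => (b r : FY), ψ, fun r => (b r).2, ?_⟩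
  have key : ∀ y : P, ∀ r, ψ r (y : FY) = b.repr y r := by
    intro y r
    have := LinearMap.congr_fun (hψ r) y
    simpa using this
  intro Q x hx
  refine box_induction (p := fun x => ∃ s : Finset _, ∀ s', s ⊆ s' →
    x = ∑ r ∈ s', (b r : FY) ⊗ₜ[K] lY (ψ r) x) hx ⟨∅, fun s' _ => by simp⟩ ?_ ?_
  · intro y hy z hz
    refine ⟨(b.repr ⟨y, hy⟩).support, fun s' hs' => ?_⟩
    have h1 : (y : FY) = ∑ r ∈ s', (b.repr ⟨y, hy⟩ r) • (b r : FY) := by
      have h2 := b.linearCombination_repr ⟨y, hy⟩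
      rw [Finsupp.linearCombination_apply, Finsupp.sum_of_support_subset _ hs' _ (by simp)] at h2
      have h3 := congrArg (Subtype.val) h2
      simp only [Submodule.coe_sum, Submodule.coe_smul] at h3
      exact h3.symm
    conv_lhs => rw [h1]
    rw [TensorProduct.sum_tmul]
    refine Finset.sum_congr rfl fun r _ => ?_
    rw [lY_tmul, key ⟨y, hy⟩ r, TensorProduct.smul_tmul]
  · intro x x' h h'
    obtain ⟨s, hs⟩ := h
    obtain ⟨s', hs'⟩ := h'
    refine ⟨s ∪ s', fun t ht => ?_⟩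
    have e1 := hs t (Finset.subset_union_left.trans ht)
    have e2 := hs' t (Finset.subset_union_right.trans ht)
    conv_lhs => rw [e1, e2]
    rw [← Finset.sum_add_distrib]
    exact Finset.sum_congr rfl fun r _ => by rw [map_add, TensorProduct.tmul_add]

/-- An element of `FY ⊗ FZ` lying in all `P ⊗ C j`, where `⋂ C j = K · 1`, lies in `P ⊗ 1`. -/
lemma exists_tmul_of_forall_mem_box {J : Type*} (P : Submodule K FY) (C : J → Submodule K FZ)
    [Nonempty J] (oneZ : FZ) (hC : ⨅ j, C j = Submodule.span K {oneZ}) (x : FY ⊗[K] FZ)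
    (hx : ∀ j, x ∈ box P (C j)) : ∃ y ∈ P, x = y ⊗ₜ[K] oneZ := by
  obtain ⟨ρ, e, ψ, he, hexp⟩ := box_expand (FZ := FZ) P
  obtain ⟨j0⟩ := ‹Nonempty J›
  obtain ⟨s, hs⟩ := hexp (C j0) x (hx j0)
  have h1 : ∀ r, ∃ c : K, lY (ψ r) x = c • oneZ := by
    intro r
    have : lY (ψ r) x ∈ ⨅ j, C j := by
      rw [Submodule.mem_iInf]
      exact fun j => lY_mem (hx j) _
    rw [hC, Submodule.mem_span_singleton] at this
    obtain ⟨c, hc⟩ := this
    exact ⟨c, hc.symm⟩
  choose c hc using h1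
  refine ⟨∑ r ∈ s, c r • e r, Submodule.sum_mem _ fun r _ => P.smul_mem _ (he r), ?_⟩
  conv_lhs => rw [hs s subset_rfl]
  rw [TensorProduct.sum_tmul]
  refine Finset.sum_congr rfl fun r _ => ?_
  rw [hc r, TensorProduct.smul_tmul]

/-- **Additive Künneth lemma.** -/
theorem kunneth_cousin {I J : Type*} [Finite I] [Finite J]
    (B : I → Submodule K FY) (B2 : I → I → Submodule K FY)
    (hB2 : ∀ i, B2 i i ≤ B i)
    (C : J → Submodule K FZ) (C2 : J → J → Submodule K FZ)
    (hC2 : ∀ j, C2 j j ≤ C j)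
    (hBl : ∀ i i', B i ≤ B2 i i') (hBr : ∀ i i', B i' ≤ B2 i i')
    (oneY : FY) (hB1 : ⨅ i, B i = Submodule.span K {oneY})
    (oneZ : FZ) (hC1 : ⨅ j, C j = Submodule.span K {oneZ})
    (ξ : I → J → FY ⊗[K] FZ)
    (hξ : ∀ i j i' j', ξ i j - ξ i' j' ∈ box (B2 i i') (C2 j j'))
    (i0 : I) (evY : Module.Dual K FY) (hevY : evY oneY = 1)
    (lam : J → FZ) (hlam : ∀ j, lam j ∈ C j)
    (hY : ∀ j j', lY evY (ξ i0 j - ξ i0 j') = lam j - lam j')
    (j0 : J) (evZ : Module.Dual K FZ) (hevZ : evZ oneZ = 1)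
    (mu : I → FY) (hmu : ∀ i, mu i ∈ B i)
    (hZ : ∀ i i', lZ evZ (ξ i j0 - ξ i' j0) = mu i - mu i') :
    ∃ η : FY ⊗[K] FZ, ∀ i j, ξ i j - η ∈ box (B i) (C j) := by
  classical
  -- the submodule of "good" functionals
  have hone : ∀ j, oneZ ∈ C j := by
    intro j
    have : oneZ ∈ ⨅ j, C j := by rw [hC1]; exact Submodule.mem_span_singleton_self _
    exact (Submodule.mem_iInf _).1 this j
  let N : Submodule K (Module.Dual K FY) :=
    { carrier := {ψ | ∀ i, ∃ ν : FZ, ∀ j, lY ψ (ξ i j) - ν ∈ C j}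
      zero_mem' := fun i => ⟨0, fun j => by simp [lY_zero]⟩
      add_mem' := by
        intro ψ ψ' h h' i
        obtain ⟨ν, hν⟩ := h i
        obtain ⟨ν', hν'⟩ := h' i
        refine ⟨ν + ν', fun j => ?_⟩
        have := (C j).add_mem (hν j) (hν' j)
        rw [lY_add]
        convert this using 1
        abel
      smul_mem' := by
        intro c ψ h i
        obtain ⟨ν, hν⟩ := h i
        refine ⟨c • ν, fun j => ?_⟩
        have := (C j).smul_mem c (hν j)
        rw [lY_smul]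
        rwa [smul_sub] at this }
  -- it suffices to check one index
  have hN : ∀ ψ i1, (∃ ν : FZ, ∀ j, lY ψ (ξ i1 j) - ν ∈ C j) → ψ ∈ N := by
    intro ψ i1 ⟨ν, hν⟩ i
    refine ⟨ν, fun j => ?_⟩
    have h1 : lY ψ (ξ i j - ξ i1 j) ∈ C j := hC2 j (lY_mem (hξ i j i1 j) ψ)
    have := (C j).add_mem h1 (hν j)
    rw [map_sub] at this
    convert this using 1
    abel
  have hJ : Nonempty J := ⟨j0⟩
  have hann : ∀ i, (B i).dualAnnihilator ≤ N := by
    intro i ψ hψ
    rw [Submodule.mem_dualAnnihilator] at hψ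
    refine hN ψ i ⟨lY ψ (ξ i j0), fun j => ?_⟩
    have : lY ψ (ξ i j - ξ i j0) = 0 :=
      lY_eq_zero (box_mono (hB2 i) le_rfl (hξ i j i j0)) ψ hψ
    rw [map_sub] at this
    rw [this]
    exact (C j).zero_mem
  have hev : evY ∈ N := by
    refine hN evY i0 ⟨lY evY (ξ i0 j0) - lam j0, fun j => ?_⟩
    have := hY j j0
    rw [map_sub] at this
    have h2 : lY evY (ξ i0 j) - (lY evY (ξ i0 j0) - lam j0) = lam j := by
      rw [← sub_add, this]; abel
    rw [h2]
    exact hlam j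
  have hall : ∀ ψ, ψ ∈ N := by
    intro ψ
    have h1 : ψ - ψ oneY • evY ∈ (⨅ i, B i).dualAnnihilator := by
      rw [hB1, Submodule.mem_dualAnnihilator]
      intro w hw
      rw [Submodule.mem_span_singleton] at hw
      obtain ⟨c, rfl⟩ := hw
      simp [hevY]
    rw [Subspace.dualAnnihilator_iInf_eq] at h1
    have h2 : ψ - ψ oneY • evY ∈ N := (iSup_le hann) h1
    have := N.add_mem h2 (N.smul_mem (ψ oneY) hev)
    simpa using this
  -- construct η i
  have hη : ∀ i, ∃ η : FY ⊗[K] FZ, ∀ j, ξ i j - η ∈ box (B i) (C j) := by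
    intro i
    obtain ⟨ρ, e, ψ, he, hexp⟩ := box_expand (FZ := FZ) (B i)
    have hdiff : ∀ j, ξ i j - ξ i j0 ∈ box (B i) (C2 j j0) := fun j =>
      box_mono (hB2 i) le_rfl (hξ i j i j0)
    choose s hs using fun j => hexp _ _ (hdiff j)
    have := Fintype.ofFinite J
    let S : Finset ρ := Finset.univ.biUnion s
    have hS : ∀ j, s j ⊆ S := fun j => Finset.subset_biUnion_of_mem s (Finset.mem_univ j)
    choose ν hν using fun r => hall (ψ r) i
    refine ⟨ξ i j0 + ∑ r ∈ S, e r ⊗ₜ[K] (ν r - lY (ψ r) (ξ i j0)), fun j => ?_⟩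
    have e1 : ξ i j - (ξ i j0 + ∑ r ∈ S, e r ⊗ₜ[K] (ν r - lY (ψ r) (ξ i j0)))
        = ∑ r ∈ S, e r ⊗ₜ[K] (lY (ψ r) (ξ i j) - ν r) := by
      rw [← sub_sub, hs j S (hS j), ← Finset.sum_sub_distrib]
      refine Finset.sum_congr rfl fun r _ => ?_
      rw [← TensorProduct.tmul_sub, map_sub]
      congr 1
      abel
    rw [e1]
    exact Submodule.sum_mem _ fun r _ => tmul_mem_box (he r) (hν r j)
  choose η hη using hη
  -- compare the η's
  have hcmp : ∀ i, ∃ θ : FY, η i - η i0 = θ ⊗ₜ[K] oneZ := by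
    intro i
    have : ∀ j, η i - η i0 ∈ box (B2 i0 i) (C j) := by
      intro j
      have h1 := box_mono (hBl i0 i) le_rfl (hη i0 j)
      have h2 := box_mono (hBr i0 i) le_rfl (hη i j)
      have h3 : ξ i0 j - ξ i j ∈ box (B2 i0 i) (C j) :=
        box_mono le_rfl (hC2 j) (hξ i0 j i j)
      have h4 := Submodule.sub_mem _ (Submodule.sub_mem _ h1 h2) h3
      convert h4 using 1
      abel
    obtain ⟨θ, -, hθ⟩ := exists_tmul_of_forall_mem_box (B2 i0 i) C oneZ hC1 _ this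
    exact ⟨θ, hθ⟩
  choose θ hθ using hcmp
  -- the right axis
  let ε : I → FY := fun i => lZ evZ (ξ i j0 - η i)
  have hε : ∀ i, ε i ∈ B i := fun i => lZ_mem (hη i j0) evZ
  have hθ0 : ∀ i, θ i - mu i + ε i = θ i0 - mu i0 + ε i0 := by
    intro i
    have h1 := hZ i i0
    have h2 : lZ evZ (η i - η i0) = θ i := by rw [hθ i]; simp [hevZ]
    have h3 : lZ evZ (η i0 - η i0) = θ i0 := by rw [hθ i0]; simp [hevZ]
    rw [sub_self, map_zero] at h3
    have h4 : lZ evZ (ξ i j0 - ξ i0 j0) = ε i - ε i0 + θ i := by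
      simp only [ε]
      rw [← h2, ← map_sub, ← map_add]
      congr 1
      abel
    rw [h1] at h4
    rw [← h3]
    have : mu i = ε i - ε i0 + θ i + mu i0 := by rw [← h4]; abel
    rw [this]
    abel
  refine ⟨η i0 + (θ i0 - mu i0 + ε i0) ⊗ₜ[K] oneZ, fun i j => ?_⟩
  have h5 : ξ i j - (η i0 + (θ i0 - mu i0 + ε i0) ⊗ₜ[K] oneZ)
      = (ξ i j - η i) + (mu i - ε i) ⊗ₜ[K] oneZ := by
    have h6 : η i = η i0 + θ i ⊗ₜ[K] oneZ := by rw [← hθ i]; abel
    rw [← hθ0 i, h6, TensorProduct.add_tmul, TensorProduct.sub_tmul, TensorProduct.sub_tmul]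
    abel
  rw [h5]
  exact Submodule.add_mem _ (hη i j)
    (tmul_mem_box (Submodule.sub_mem _ (hmu i) (hε i)) (hone j))

end Lin

end Fermat.Agent.H20
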